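/-
PROJECT C, Layer D (helper8), slice D2c: THEOREM II of the D-plan in abstract form.

`SA : R → F → A` is a short exact sequence of smooth representations of `G` with
`H¹(G, F) = 0` (and `H¹(Gv, F) = 0` for the local groups).  Abstract groups `HR`, `HF`, `HJ`,
`HD v` (in the application: `Hom_G(R, C)`, `Hom_G(F, C)`, `Hom_G(R, J)`, `Hom_{Gv}(R, D_v)`)
are paired with `H²(G, R)`, `H²(G, F)`, `H²(Gv, R)` with values in an abelian group `T`.
Under the compatibilities (a), (b), the non-degeneracy hypotheses (c), (d), (f), the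
Frobenius-reciprocity hypothesis (e) and the realizability hypothesis (g), the group
`sha1 = ker (H¹(G, A) → ∏ H¹(Gv, A))` is isomorphic to the group of characters of `HR`
vanishing on `W = im HF + im HJ`.
-/
import Fermat.Agent.CFT.LC.Elementwise

set_option autoImplicit false

universe u

namespace Fermat.Agent.CFT.D

open CategoryTheory Fermat.Agent.CFT.LC Fermat.Agent.CFT.LC.El

variable {k G : Type u} [CommRing k] [Group G] {𝒰 : Levels G} [𝒰.IsFin]
variable {SA : ShortComplex (Rep.{u} k G)} (hSA : SA.ShortExact) (smA : IsSmooth 𝒰 SA.X₂)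
variable {ι : Type*} [Fintype ι] {Gv : ι → Type u} [∀ v, Group (Gv v)] (r : ∀ v, Gv v →* G)
  {𝒰v : ∀ v, Levels (Gv v)} [∀ v, (𝒰v v).IsFin]
  (hr : ∀ v, Levels.Continuous (r v) (𝒰v v) 𝒰)

/-- Restriction to the local group `Gv v` in degree `n`. -/
noncomputable abbrev resv (v : ι) (A : Rep.{u} k G) (n : ℕ) :
    H 𝒰 A n ⟶ H (𝒰v v) (Rep.res (r v) A) n :=
  map (A := A) (B := Rep.res (r v) A) (hr v) (𝟙 _) n

/-- The classes of `H¹(G, A)` which are locally trivial. -/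
noncomputable def sha1 (A : Rep.{u} k G) : AddSubgroup (H 𝒰 A 1) where
  carrier := {y | ∀ v, resv r hr v A 1 y = 0}
  zero_mem' := fun v => map_zero _
  add_mem' := fun {a b} ha hb v => by
    change resv r hr v A 1 (a + b) = 0
    rw [map_add, ha v, hb v, add_zero]
  neg_mem' := fun {a} ha v => by
    change resv r hr v A 1 (-a) = 0
    rw [map_neg, ha v, neg_zero]

omit [𝒰.IsFin] [Fintype ι] [∀ v, (𝒰v v).IsFin] in
lemma mem_sha1_iff (A : Rep.{u} k G) (y : H 𝒰 A 1) :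
    y ∈ sha1 r hr A ↔ ∀ v, resv r hr v A 1 y = 0 := Iff.rfl

variable {HR HF HJ T : Type*} [AddCommGroup HR] [AddCommGroup HF] [AddCommGroup HJ]
  [AddCommGroup T] {HD : ι → Type*} [∀ v, AddCommGroup (HD v)]
  (resF : HF →+ HR) (proj : HJ →+ HR) (loc : ∀ v, HJ →+ HD v)

/-- The characters of `HR` vanishing on `W = im HF + im HJ`. -/
def annihW : AddSubgroup (HR →+ T) where
  carrier := {χ | (∀ ψ, χ (resF ψ) = 0) ∧ ∀ φ, χ (proj φ) = 0}
  zero_mem' := ⟨fun _ => rfl, fun _ => rfl⟩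
  add_mem' := fun {a b} ha hb =>
    ⟨fun ψ => by rw [AddMonoidHom.add_apply, ha.1, hb.1, add_zero],
     fun φ => by rw [AddMonoidHom.add_apply, ha.2, hb.2, add_zero]⟩
  neg_mem' := fun {a} ha =>
    ⟨fun ψ => by rw [AddMonoidHom.neg_apply, ha.1, neg_zero],
     fun φ => by rw [AddMonoidHom.neg_apply, ha.2, neg_zero]⟩

variable (PR : HR →+ H 𝒰 SA.X₁ 2 →+ T) (PF : HF →+ H 𝒰 SA.X₂ 2 →+ T)
  (Pv : ∀ v, HD v →+ H (𝒰v v) (Rep.res (r v) SA.X₁) 2 →+ T)

section

variable (hF1 : ∀ x : H 𝒰 SA.X₂ 1, x = 0)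
  (hF1v : ∀ v, ∀ x : H (𝒰v v) (Rep.res (r v) SA.X₂) 1, x = 0)
  (ha : ∀ ψ x, PR (resF ψ) x = PF ψ (mapId SA.f 2 x))
  (hb : ∀ φ x, PR (proj φ) x = ∑ v, Pv v (loc v φ) (resv r hr v SA.X₁ 2 x))

include hSA in
omit [𝒰.IsFin] [Fintype ι] [∀ v, (𝒰v v).IsFin] in
/-- The local short exact sequence. -/
lemma shortExact_resv (v : ι) : (SA.map (Rep.resFunctor (r v))).ShortExact :=
  (Rep.shortExact_res (r v)).mpr hSA

include hr smA in
omit [𝒰.IsFin] [Fintype ι] [∀ v, (𝒰v v).IsFin] in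
lemma smooth_resv (v : ι) : IsSmooth (𝒰v v) (SA.map (Rep.resFunctor (r v))).X₂ :=
  IsSmooth.res_of_continuous (hr v) smA

omit [Fintype ι] in
/-- Restriction commutes with the connecting homomorphism of `SA`. -/
lemma resv_lcδ (v : ι) (y : H 𝒰 SA.X₃ 1) :
    resv r hr v SA.X₁ 2 (lcδ hSA smA 1 2 rfl y) =
      lcδ (𝒰 := 𝒰v v) (X := SA.map (Rep.resFunctor (r v))) (shortExact_resv hSA r v)
        (smooth_resv smA r hr v) 1 2 rfl (resv r hr v SA.X₃ 1 y) :=
  lcδ_map_apply (hr v) hSA smA (shortExact_resv hSA r v) (smooth_resv smA r hr v)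
    (𝟙 (SA.map (Rep.resFunctor (r v)))) 1 2 rfl y

include hF1 in
/-- The connecting map `H¹(A) → H²(R)` is injective. -/
lemma lcδ_injective (y : H 𝒰 SA.X₃ 1) (hy : lcδ hSA smA 1 2 rfl y = 0) : y = 0 := by
  obtain ⟨z, hz⟩ := exists_mapId_g_eq hSA smA 1 2 rfl y hy
  rw [← hz, hF1 z, map_zero]

include hF1v in
omit [𝒰.IsFin] [Fintype ι] in
/-- The local connecting maps are injective. -/
lemma lcδ_resv_injective (v : ι) (y : H (𝒰v v) (Rep.res (r v) SA.X₃) 1)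
    (hy : lcδ (𝒰 := 𝒰v v) (X := SA.map (Rep.resFunctor (r v))) (shortExact_resv hSA r v)
        (smooth_resv smA r hr v) 1 2 rfl y = 0) : y = 0 := by
  obtain ⟨z, hz⟩ := exists_mapId_g_eq (𝒰 := 𝒰v v) (X := SA.map (Rep.resFunctor (r v)))
    (shortExact_resv hSA r v) (smooth_resv smA r hr v) 1 2 rfl y hy
  have hz0 : z = 0 := hF1v v z
  rw [hz0] at hz
  exact hz.symm.trans (map_zero _)

/-- The map `sha1 → Hom(HR, T)`, `y ↦ PR(·, δ y)`. -/
noncomputable def theta : H 𝒰 SA.X₃ 1 →+ (HR →+ T) :=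
  (PR.flip).comp (lcδ hSA smA 1 2 rfl).hom.toAddMonoidHom

lemma theta_apply (y : H 𝒰 SA.X₃ 1) (φ : HR) :
    theta hSA smA PR y φ = PR φ (lcδ hSA smA 1 2 rfl y) := rfl

include ha hb in
/-- `theta` maps `sha1` into the annihilator of `W`. -/
lemma theta_mem_annihW (y : H 𝒰 SA.X₃ 1) (hy : y ∈ sha1 r hr SA.X₃) :
    theta hSA smA PR y ∈ annihW (T := T) resF proj := by
  refine ⟨fun ψ => ?_, fun φ => ?_⟩
  · rw [theta_apply, ha, mapId_f_lcδ_apply hSA smA 1 2 rfl y, map_zero]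
  · rw [theta_apply, hb]
    refine Finset.sum_eq_zero fun v _ => ?_
    have h1 : lcδ (𝒰 := 𝒰v v) (X := SA.map (Rep.resFunctor (r v))) (shortExact_resv hSA r v)
        (smooth_resv smA r hr v) 1 2 rfl (resv r hr v SA.X₃ 1 y) = 0 :=
      (congrArg _ (hy v)).trans (map_zero _)
    rw [resv_lcδ hSA smA r hr v y, h1]
    exact map_zero _

end

variable (hF1 : ∀ x : H 𝒰 SA.X₂ 1, x = 0)
  (hF1v : ∀ v, ∀ x : H (𝒰v v) (Rep.res (r v) SA.X₂) 1, x = 0)
  (ha : ∀ ψ x, PR (resF ψ) x = PF ψ (mapId SA.f 2 x))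
  (hb : ∀ φ x, PR (proj φ) x = ∑ v, Pv v (loc v φ) (resv r hr v SA.X₁ 2 x))
  (hc : ∀ y, (∀ ψ, PF ψ y = 0) → y = 0)
  (hd : ∀ v y, (∀ d, Pv v d y = 0) → y = 0)
  (he : ∀ v (d : HD v), ∃ φ : HJ, loc v φ = d ∧ ∀ v', v' ≠ v → loc v' φ = 0)
  (hf : ∀ x, (∀ φ, PR φ x = 0) → x = 0)
  (hg : ∀ χ : HR →+ T, χ ∈ annihW (T := T) resF proj → ∃ x, ∀ φ, PR φ x = χ φ)

include hF1 hf in
/-- `theta` is injective. -/
lemma theta_injective (y : H 𝒰 SA.X₃ 1) (hy : theta hSA smA PR y = 0) : y = 0 := by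
  apply lcδ_injective hSA smA hF1
  apply hf
  intro φ
  rw [← theta_apply, hy]
  rfl

include hF1v ha hb hc hd he hg in
/-- Every character vanishing on `W` comes from a locally trivial class. -/
lemma exists_theta_eq (χ : HR →+ T) (hχ : χ ∈ annihW (T := T) resF proj) :
    ∃ y ∈ sha1 r hr SA.X₃, theta hSA smA PR y = χ := by
  classical
  obtain ⟨x, hx⟩ := hg χ hχ
  -- `x` dies in `H²(F)`
  have hx0 : mapId SA.f 2 x = 0 := by
    apply hc
    intro ψ
    rw [← ha, hx, hχ.1]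
  obtain ⟨y, hy⟩ := exists_lcδ_eq hSA smA 1 2 rfl x hx0
  refine ⟨y, fun v => ?_, ?_⟩
  · apply lcδ_resv_injective hSA smA r hr hF1v v
    rw [← resv_lcδ hSA smA r hr v y, hy]
    apply hd v
    intro d
    obtain ⟨φ, hφ, hφ'⟩ := he v d
    have h1 := hb φ x
    rw [hx, hχ.2, Finset.sum_eq_single v, hφ] at h1
    · exact h1.symm
    · intro v' _ hv'
      rw [hφ' v' hv', map_zero]
      rfl
    · intro hv
      exact absurd (Finset.mem_univ v) hv
  · ext φ
    rw [theta_apply, hy, hx]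

/-- **THEOREM II (abstract form)**: the locally trivial classes of `H¹(G, A)` are the
characters of `HR` vanishing on `W`. -/
noncomputable def shaOneEquiv : sha1 r hr SA.X₃ ≃+ annihW (T := T) resF proj :=
  AddEquiv.ofBijective
    (((theta hSA smA PR).comp (sha1 r hr SA.X₃).subtype).codRestrict _ fun y =>
      theta_mem_annihW hSA smA r hr resF proj loc PR PF Pv ha hb y.1 y.2)
    ⟨by
      rw [injective_iff_map_eq_zero]
      intro y hy
      apply Subtype.ext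
      exact theta_injective hSA smA PR hF1 hf y.1 (congrArg Subtype.val hy),
     by
      rintro ⟨χ, hχ⟩
      obtain ⟨y, hy, hyχ⟩ := exists_theta_eq hSA smA r hr resF proj loc PR PF Pv hF1v ha hb hc hd
        he hg χ hχ
      exact ⟨⟨y, hy⟩, Subtype.ext hyχ⟩⟩

end Fermat.Agent.CFT.D
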