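/-
PROJECT C, Layer D (helper8), slice D2c': variant of THEOREM II (`D/ShaOne.lean`) in which the
three hypotheses (b), (d), (e) on the local pairings are replaced by the single hypothesis

  (bde)  `∀ x, (∀ φ, PR (proj φ) x = 0) ↔ ∀ v, resv v x = 0`

("a class of `H²(G, R)` is orthogonal to the image of `Hom_G(R, J)` iff it is locally
trivial").  This is the form in which the target group `T` can be taken to be `H²(G, C)`
itself, with `PR φ x = φ_* x` the push-forward pairing, so that no invariant maps are needed.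
-/
import Fermat.Agent.CFT.D.ShaOne

set_option autoImplicit false

universe u

namespace Fermat.Agent.CFT.D

open CategoryTheory Fermat.Agent.CFT.LC Fermat.Agent.CFT.LC.El

variable {k G : Type u} [CommRing k] [Group G] {𝒰 : Levels G} [𝒰.IsFin]
variable {SA : ShortComplex (Rep.{u} k G)} (hSA : SA.ShortExact) (smA : IsSmooth 𝒰 SA.X₂)
variable {ι : Type*} {Gv : ι → Type u} [∀ v, Group (Gv v)] (r : ∀ v, Gv v →* G)
  {𝒰v : ∀ v, Levels (Gv v)} [∀ v, (𝒰v v).IsFin]
  (hr : ∀ v, Levels.Continuous (r v) (𝒰v v) 𝒰)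
variable {HR HF HJ T : Type*} [AddCommGroup HR] [AddCommGroup HF] [AddCommGroup HJ]
  [AddCommGroup T] (resF : HF →+ HR) (proj : HJ →+ HR)
variable (PR : HR →+ H 𝒰 SA.X₁ 2 →+ T) (PF : HF →+ H 𝒰 SA.X₂ 2 →+ T)

variable (hF1 : ∀ x : H 𝒰 SA.X₂ 1, x = 0)
  (hF1v : ∀ v, ∀ x : H (𝒰v v) (Rep.res (r v) SA.X₂) 1, x = 0)
  (ha : ∀ ψ x, PR (resF ψ) x = PF ψ (mapId SA.f 2 x))
  (hbde : ∀ x : H 𝒰 SA.X₁ 2, (∀ φ, PR (proj φ) x = 0) ↔ ∀ v, resv r hr v SA.X₁ 2 x = 0)
  (hc : ∀ y, (∀ ψ, PF ψ y = 0) → y = 0)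
  (hf : ∀ x, (∀ φ, PR φ x = 0) → x = 0)
  (hg : ∀ χ : HR →+ T, χ ∈ annihW (T := T) resF proj → ∃ x, ∀ φ, PR φ x = χ φ)

include ha hbde in
/-- `theta` maps `sha1` into the annihilator of `W` (variant). -/
lemma theta_mem_annihW' (y : H 𝒰 SA.X₃ 1) (hy : y ∈ sha1 r hr SA.X₃) :
    theta hSA smA PR y ∈ annihW (T := T) resF proj := by
  refine ⟨fun ψ => ?_, ?_⟩
  · rw [theta_apply, ha, mapId_f_lcδ_apply hSA smA 1 2 rfl y, map_zero]
  · refine (hbde (lcδ hSA smA 1 2 rfl y)).2 fun v => ?_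
    have h1 : lcδ (𝒰 := 𝒰v v) (X := SA.map (Rep.resFunctor (r v))) (shortExact_resv hSA r v)
        (smooth_resv smA r hr v) 1 2 rfl (resv r hr v SA.X₃ 1 y) = 0 :=
      (congrArg _ (hy v)).trans (map_zero _)
    exact (resv_lcδ hSA smA r hr v y).trans h1

include hF1v ha hbde hc hg in
/-- Every character vanishing on `W` comes from a locally trivial class (variant). -/
lemma exists_theta_eq' (χ : HR →+ T) (hχ : χ ∈ annihW (T := T) resF proj) :
    ∃ y ∈ sha1 r hr SA.X₃, theta hSA smA PR y = χ := by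
  obtain ⟨x, hx⟩ := hg χ hχ
  have hx0 : mapId SA.f 2 x = 0 := by
    apply hc
    intro ψ
    rw [← ha, hx, hχ.1]
  obtain ⟨y, hy⟩ := exists_lcδ_eq hSA smA 1 2 rfl x hx0
  refine ⟨y, fun v => ?_, ?_⟩
  · apply lcδ_resv_injective hSA smA r hr hF1v v
    rw [← resv_lcδ hSA smA r hr v y, hy]
    exact (hbde x).1 (fun φ => by rw [hx, hχ.2]) v
  · ext φ
    rw [theta_apply, hy, hx]

/-- **THEOREM II, variant (bde)**: the locally trivial classes of `H¹(G, A)` are the characters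
of `HR` vanishing on `W`. -/
noncomputable def shaOneEquiv' : sha1 r hr SA.X₃ ≃+ annihW (T := T) resF proj :=
  AddEquiv.ofBijective
    (((theta hSA smA PR).comp (sha1 r hr SA.X₃).subtype).codRestrict _ fun y =>
      theta_mem_annihW' hSA smA r hr resF proj PR PF ha hbde y.1 y.2)
    ⟨by
      rw [injective_iff_map_eq_zero]
      intro y hy
      apply Subtype.ext
      exact theta_injective hSA smA PR hF1 hf y.1 (congrArg Subtype.val hy),
     by
      rintro ⟨χ, hχ⟩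
      obtain ⟨y, hy, hyχ⟩ := exists_theta_eq' hSA smA r hr resF proj PR PF hF1v ha hbde hc hg χ hχ
      exact ⟨⟨y, hy⟩, Subtype.ext hyχ⟩⟩

lemma shaOneEquiv'_apply (y : sha1 r hr SA.X₃) (φ : HR) :
    (shaOneEquiv' hSA smA r hr resF proj PR PF hF1 hF1v ha hbde hc hf hg y).1 φ =
      PR φ (lcδ hSA smA 1 2 rfl y.1) := rfl

end Fermat.Agent.CFT.D
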