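/-
PROJECT C, Layer D, slice D2d (helper28): the PUSH-FORWARD INSTANCE of THEOREM II (`D/ShaOne`).

For a short exact sequence `SA : R → F → A` and `g : J ⟶ C` the pairing is
`PR φ x := φ_* x ∈ H²_LC(G, C)` for `φ ∈ Hom_G(R, C)`, `x ∈ H²_LC(G, R)` (no invariant maps, no cup
products).  With `HR := (R ⟶ C)`, `HF := (F ⟶ C)`, `HJ := (R ⟶ J)`, `resF ψ := SA.f ≫ ψ`,
`proj φ := φ ≫ g` we prove

  `sha1 r hr A ≃+ annihW resF proj`      (locally trivial classes of `H¹(G, A)` = characters of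
                                           `Hom_G(R, C)` killing `im Hom_G(F, C) + im Hom_G(R, J)`)

from: `H¹(F) = 0` globally and locally; right non-degeneracy of the push-forward pairing for `F`
and `R` (helper24's (LIM-b)); the four local-global hypotheses (i)-(iv) on `J`, `π_v : Res J ⟶ D_v`;
and realizability (g).
-/
import Fermat.Agent.CFT.D.ShaOneB
import Fermat.Agent.CFT.LC.PermHom
import Fermat.Agent.CFT.A7.Limit

set_option autoImplicit false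

universe u

namespace Fermat.Agent.CFT.D

open CategoryTheory Fermat.Agent.CFT.LC Fermat.Agent.CFT.LC.El

section Push

variable {k G G' : Type u} [CommRing k] [Group G] [Group G'] {𝒰 : Levels G} {𝒰' : Levels G'}

lemma mapId_add {A B : Rep.{u} k G} (φ φ' : A ⟶ B) (n : ℕ) :
    mapId (𝒰 := 𝒰) (φ + φ') n = mapId φ n + mapId φ' n := by
  rw [mapId_eq_functor_map, Functor.map_add]
  rfl

/-- `map` along a zero coefficient morphism is zero. -/
lemma map_zero_hom {φ : G' →* G} (hφ : Levels.Continuous φ 𝒰' 𝒰) (A : Rep.{u} k G)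
    (B : Rep.{u} k G') (n : ℕ) :
    map (A := A) (B := B) hφ (0 : Rep.res φ A ⟶ B) n = 0 := by
  have h : mapComplex (A := A) (B := B) hφ (0 : Rep.res φ A ⟶ B) = 0 := by
    ext m f : 3
    apply Subtype.ext
    rfl
  exact (congrArg (fun f => HomologicalComplex.homologyMap f n) h).trans
    (HomologicalComplex.homologyMap_zero _ _ n)

/-- `map` along `ψ` is restriction followed by the coefficient map `ψ`. -/
lemma map_eq_mapId_res {φ : G' →* G} (hφ : Levels.Continuous φ 𝒰' 𝒰) {A : Rep.{u} k G}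
    {B : Rep.{u} k G'} (ψ : Rep.res φ A ⟶ B) (n : ℕ) (x : H 𝒰 A n) :
    map (A := A) (B := B) hφ ψ n x =
      mapId ψ n (map (A := A) (B := Rep.res φ A) hφ (𝟙 _) n x) := by
  rw [map_mapId_apply, Category.id_comp]

variable (𝒰) in
/-- The push-forward pairing `Hom_G(B, C) × Hⁿ_LC(G, B) → Hⁿ_LC(G, C)`. -/
noncomputable def push (B C : Rep.{u} k G) (n : ℕ) : (B ⟶ C) →+ H 𝒰 B n →+ H 𝒰 C n where
  toFun φ := (mapId φ n).hom.toAddMonoidHom
  map_zero' := by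
    ext x
    change mapId (𝒰 := 𝒰) (0 : B ⟶ C) n x = 0
    rw [mapId_zero_hom]
    rfl
  map_add' φ φ' := by
    ext x
    change mapId (𝒰 := 𝒰) (φ + φ') n x = mapId φ n x + mapId φ' n x
    rw [mapId_add]
    rfl

@[simp] lemma push_apply (B C : Rep.{u} k G) (n : ℕ) (φ : B ⟶ C) (x : H 𝒰 B n) :
    push 𝒰 B C n φ x = mapId φ n x := rfl

end Push

section Main

variable {k G : Type u} [CommRing k] [Group G] {𝒰 : Levels G} [𝒰.IsFin]
variable {SA : ShortComplex (Rep.{u} k G)} (hSA : SA.ShortExact) (smA : IsSmooth 𝒰 SA.X₂)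
variable {ι : Type*} {Gv : ι → Type u} [∀ v, Group (Gv v)] (r : ∀ v, Gv v →* G)
  {𝒰v : ∀ v, Levels (Gv v)} [∀ v, (𝒰v v).IsFin]
  (hr : ∀ v, Levels.Continuous (r v) (𝒰v v) 𝒰)
variable {J C : Rep.{u} k G} (g : J ⟶ C) {D : ∀ v, Rep.{u} k (Gv v)}
  (π : ∀ v, Rep.res (r v) J ⟶ D v)

/-- The four local-global hypotheses on `J` and the projections `π_v : Res_v J ⟶ D_v`. -/
structure LocalGlobal : Prop where
  /-- (i) a class of `H²(G, J)` supported at one place and dying in `H²(G, C)` vanishes -/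
  supp : ∀ v, ∀ y : H 𝒰 J 2,
    (∀ v', v' ≠ v → map (A := J) (B := D v') (hr v') (π v') 2 y = 0) → mapId g 2 y = 0 → y = 0
  /-- (ii) `H²(G, J) → ∏ H²(G_v, D_v)` is injective -/
  inj : ∀ y : H 𝒰 J 2, (∀ v, map (A := J) (B := D v) (hr v) (π v) 2 y = 0) → y = 0
  /-- (iii) Frobenius reciprocity: every local morphism `Res_v R ⟶ D_v` is the `v`-component of a
  global morphism `R ⟶ J` with vanishing components at the other places -/
  frob : ∀ v (χ : Rep.res (r v) SA.X₁ ⟶ D v), ∃ φ : SA.X₁ ⟶ J,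
    (Rep.resFunctor (r v)).map φ ≫ π v = χ ∧
      ∀ v', v' ≠ v → (Rep.resFunctor (r v')).map φ ≫ π v' = 0
  /-- (iv) local right non-degeneracy of the push-forward pairing -/
  locNondeg : ∀ v, ∀ z : H (𝒰v v) (Rep.res (r v) SA.X₁) 2,
    (∀ χ : Rep.res (r v) SA.X₁ ⟶ D v, mapId χ 2 z = 0) → z = 0

variable {g π}

omit [𝒰.IsFin] [∀ v, (𝒰v v).IsFin] in
/-- **(bde)**: a class `x ∈ H²(G, R)` is killed by all of `im (Hom_G(R, J) → Hom_G(R, C))` iff it
is locally trivial. -/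
lemma forall_push_proj_eq_zero_iff (hLG : LocalGlobal (SA := SA) r hr g π) (x : H 𝒰 SA.X₁ 2) :
    (∀ φ : SA.X₁ ⟶ J, mapId (φ ≫ g) 2 x = 0) ↔ ∀ v, resv r hr v SA.X₁ 2 x = 0 := by
  constructor
  · intro h v
    apply hLG.locNondeg v
    intro χ
    obtain ⟨φ, hφ, hφ'⟩ := hLG.frob v χ
    have hy : mapId φ 2 x = 0 := by
      apply hLG.supp v
      · intro v' hv'
        rw [mapId_map_apply, hφ' v' hv', map_zero_hom]
        rfl
      · rw [mapId_mapId_apply]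
        exact h φ
    have h1 : mapId χ 2 (resv r hr v SA.X₁ 2 x) =
        map (A := SA.X₁) (B := D v) (hr v) χ 2 x := (map_eq_mapId_res (hr v) χ 2 x).symm
    rw [h1, ← hφ, ← mapId_map_apply, hy, map_zero]
  · intro h φ
    have hy : mapId φ 2 x = 0 := by
      apply hLG.inj
      intro v
      rw [mapId_map_apply, map_eq_mapId_res, h v, map_zero]
    rw [← mapId_mapId_apply, hy, map_zero]

variable (g) in
/-- The push-forward pairing `PR : Hom_G(R, C) →+ H²(G, R) →+ H²(G, C)` of the D-plan. -/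
noncomputable abbrev PRpush : (SA.X₁ ⟶ C) →+ H 𝒰 SA.X₁ 2 →+ H 𝒰 C 2 := push 𝒰 SA.X₁ C 2

variable (hF1 : ∀ x : H 𝒰 SA.X₂ 1, x = 0)
  (hF1v : ∀ v, ∀ x : H (𝒰v v) (Rep.res (r v) SA.X₂) 1, x = 0)
  (hc : ∀ y : H 𝒰 SA.X₂ 2, (∀ ψ : SA.X₂ ⟶ C, mapId ψ 2 y = 0) → y = 0)
  (hf : ∀ x : H 𝒰 SA.X₁ 2, (∀ φ : SA.X₁ ⟶ C, mapId φ 2 x = 0) → x = 0)
  (hLG : LocalGlobal (SA := SA) r hr g π)
  (hg : ∀ χ : (SA.X₁ ⟶ C) →+ H 𝒰 C 2,
    χ ∈ annihW (T := H 𝒰 C 2) (Preadditive.leftComp C SA.f) (Preadditive.rightComp SA.X₁ g) →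
      ∃ x : H 𝒰 SA.X₁ 2, ∀ φ : SA.X₁ ⟶ C, mapId φ 2 x = χ φ)

omit [𝒰.IsFin] in
/-- (a): compatibility of the push-forward pairings of `R` and `F`. -/
lemma push_leftComp (ψ : SA.X₂ ⟶ C) (x : H 𝒰 SA.X₁ 2) :
    push 𝒰 SA.X₁ C 2 (Preadditive.leftComp C SA.f ψ) x =
      push 𝒰 SA.X₂ C 2 ψ (mapId SA.f 2 x) := by
  change mapId (SA.f ≫ ψ) 2 x = mapId ψ 2 (mapId SA.f 2 x)
  rw [mapId_mapId_apply]

/-- **THEOREM II, push-forward form**: the locally trivial classes of `H¹_LC(G, A)` are the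
characters `Hom_G(R, C) → H²_LC(G, C)` vanishing on `W = im Hom_G(F, C) + im Hom_G(R, J)`.
(Instance of helper8's `shaOneEquiv'`.) -/
noncomputable def shaOnePushEquiv :
    sha1 r hr SA.X₃ ≃+
      annihW (T := H 𝒰 C 2) (Preadditive.leftComp C SA.f) (Preadditive.rightComp SA.X₁ g) :=
  shaOneEquiv' hSA smA r hr (Preadditive.leftComp C SA.f) (Preadditive.rightComp SA.X₁ g)
    (push 𝒰 SA.X₁ C 2) (push 𝒰 SA.X₂ C 2) hF1 hF1v (fun ψ x => push_leftComp ψ x)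
    (fun x => forall_push_proj_eq_zero_iff r hr hLG x) hc hf hg

lemma shaOnePushEquiv_apply (y : sha1 r hr SA.X₃) (φ : SA.X₁ ⟶ C) :
    (shaOnePushEquiv hSA smA r hr hF1 hF1v hc hf hLG hg y).1 φ =
      mapId φ 2 (lcδ hSA smA 1 2 rfl y.1) := rfl

end Main

section ClassFormation

open Fermat.Agent.CFT.A7 groupCohomology

variable {k G : Type} [CommRing k] [IsDomain k] [CharZero k] [Group G] {𝒰 : Levels G} [𝒰.IsFin]
variable {SA : ShortComplex (Rep.{0} k G)} (hSA : SA.ShortExact) (smA : IsSmooth 𝒰 SA.X₂)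
variable {ι : Type*} {Gv : ι → Type} [∀ v, Group (Gv v)] (r : ∀ v, Gv v →* G)
  {𝒰v : ∀ v, Levels (Gv v)} [∀ v, (𝒰v v).IsFin]
  (hr : ∀ v, Levels.Continuous (r v) (𝒰v v) 𝒰)
variable {J C : Rep.{0} k G} {g : J ⟶ C} {D : ∀ v, Rep.{0} k (Gv v)}
  {π : ∀ v, Rep.res (r v) J ⟶ D v}

/-- The finite-level statement (NT-b) for the layers of `B` below a level `U₀`: a class of
`H²(G ⧸ U, B^U)` killed by all push-forwards to `H²(G ⧸ U, C^U)` vanishes. -/
def NTb (𝒰 : Levels G) (U₀ : Subgroup G) (B C : Rep.{0} k G) : Prop :=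
  ∀ (U : Subgroup G) [U.Normal] (_ : U ∈ 𝒰.sets), U ≤ U₀ →
    ∀ y : groupCohomology (B.quotientToInvariants U) 2,
      (∀ χ : B.quotientToInvariants U ⟶ C.quotientToInvariants U,
        (groupCohomology.map (A := B.quotientToInvariants U) (B := C.quotientToInvariants U)
          (MonoidHom.id (G ⧸ U)) χ 2).hom y = 0) → y = 0

/-- **THEOREM II for a class formation**: (c) and (f) are supplied by helper24's (LIM-b) from the
finite-level statement (NT-b) for `F` and `R`. -/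
noncomputable def shaOnePushEquivOfClassFormation (cf : ClassFormation 𝒰 C)
    (U₀ : Subgroup G) (hU₀ : U₀ ∈ 𝒰.sets)
    (hFtriv : ∀ u ∈ U₀, ∀ b : SA.X₂, SA.X₂.ρ u b = b)
    (hRtriv : ∀ u ∈ U₀, ∀ b : SA.X₁, SA.X₁.ρ u b = b)
    (hNTF : NTb 𝒰 U₀ SA.X₂ C) (hNTR : NTb 𝒰 U₀ SA.X₁ C)
    (hF1 : ∀ x : H 𝒰 SA.X₂ 1, x = 0)
    (hF1v : ∀ v, ∀ x : H (𝒰v v) (Rep.res (r v) SA.X₂) 1, x = 0)
    (hLG : LocalGlobal (SA := SA) r hr g π)
    (hg : ∀ χ : (SA.X₁ ⟶ C) →+ H 𝒰 C 2,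
      χ ∈ annihW (T := H 𝒰 C 2) (Preadditive.leftComp C SA.f) (Preadditive.rightComp SA.X₁ g) →
        ∃ x : H 𝒰 SA.X₁ 2, ∀ φ : SA.X₁ ⟶ C, mapId φ 2 x = χ φ) :
    sha1 r hr SA.X₃ ≃+
      annihW (T := H 𝒰 C 2) (Preadditive.leftComp C SA.f) (Preadditive.rightComp SA.X₁ g) :=
  shaOnePushEquiv hSA smA r hr hF1 hF1v
    (fun y hy => cf.eq_zero_of_forall_mapId_eq_zero U₀ hU₀ hFtriv hNTF y hy)
    (fun x hx => cf.eq_zero_of_forall_mapId_eq_zero U₀ hU₀ hRtriv hNTR x hx) hLG hg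

end ClassFormation

end Fermat.Agent.CFT.D
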