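/-
PROJECT C, Layer D, slice D2e (helper6): REALIZABILITY, hypothesis (g) of THEOREM II
(`D/ShaOne`, `D/ShaOneB`, `D/Pairing`).

For a class formation `(G, 𝒰, C)`, an injective morphism `f : R ⟶ F` with `m F ⊆ f(R)`
(`m` a natural number, `R` projective over `k`), a level `U₀` acting trivially on `R` and a level
`U' ≤ U₀` such that

* (N3)   `Nm_{U₀/U'} C^{U'} ⊆ m • C^{U₀}`,
* (NT-c) holds for the layer `(G ⧸ U', R^{U'}, C^{U'})` (finite-level Nakayama-Tate, `A7/NT`),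
* `m ∣ [G : U']` in `k`,

every additive `χ : Hom_G(R, C) → H²_LC(G, C)` killing the image of `Hom_G(F, C)` is of the form
`φ ↦ φ_* x` for a class `x ∈ H²_LC(G, R)` (inflated from the level `U'`).

Steps: (1) `exists_comp_eq_smul`: `m • φ` extends to `F`, so `χ` kills `m • Hom_G(R, C)` and takes
values in the `m`-torsion of `H²_LC(G, C)`;  (2) `exists_infl_eq_of_smul_eq_zero`: that torsion
is inflated (injectively) from the level `U'`, so `χ` descends to
`f' : Hom(R^{U'}, C^{U'}) → H²(G ⧸ U', C^{U'})`;  (3) `exists_normHom_eq_smul`: by (N3) and the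
projectivity of `R` every norm `Σ_g g θ g⁻¹` is `m` times a morphism, so `f'` kills norms;
(4) (NT-c) and `infl_mapId`.
-/
import Mathlib
import Fermat.Agent.CFT.D.Pairing
import Fermat.Agent.CFT.A7.Limit
import Fermat.Agent.CFT.A7.NT

set_option autoImplicit false

noncomputable section

universe u

namespace Fermat.Agent.CFT.D.Realize

open CategoryTheory groupCohomology Fermat.Agent.CFT.LC Fermat.Agent.CFT.LC.El
  Fermat.Agent.CFT.A7 Fermat.Agent.CFT.A7.NT

/-! ### Finite level: norms are multiples of `n` -/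

section Finite

variable {k Γ : Type u} [CommRing k] [Group Γ] (B C : Rep.{u} k Γ) (H : Subgroup Γ)

/-- The `H`-invariant vectors of `C`, as a `k`-submodule. -/
def invSub : Submodule k C.V where
  carrier := {c | ∀ h ∈ H, C.ρ h c = c}
  zero_mem' := fun h _ => map_zero _
  add_mem' := fun {a b} ha hb h hh => by rw [map_add, ha h hh, hb h hh]
  smul_mem' := fun r a ha h hh => by rw [map_smul, ha h hh]

lemma mem_invSub (c : C.V) : c ∈ invSub C H ↔ ∀ h ∈ H, C.ρ h c = c := Iff.rfl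

/-- The conjugate `a θ' a⁻¹` of a linear map with values in the `H`-invariants. -/
def conjTerm (θ' : B.V →ₗ[k] invSub C H) (a : Γ) : B.V →ₗ[k] C.V :=
  (C.ρ a) ∘ₗ (invSub C H).subtype ∘ₗ θ' ∘ₗ (B.ρ a⁻¹)

lemma conjTerm_apply (θ' : B.V →ₗ[k] invSub C H) (a : Γ) (v : B.V) :
    conjTerm B C H θ' a v = C.ρ a (θ' (B.ρ a⁻¹ v) : C.V) := rfl

variable {B C H}

lemma conjTerm_mul_right (hB : ∀ h ∈ H, ∀ b : B.V, B.ρ h b = b)
    (θ' : B.V →ₗ[k] invSub C H) (a h : Γ) (hh : h ∈ H) :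
    conjTerm B C H θ' (a * h) = conjTerm B C H θ' a := by
  ext v
  rw [conjTerm_apply, conjTerm_apply, mul_inv_rev, map_mul, map_mul, Module.End.mul_apply,
    Module.End.mul_apply, hB h⁻¹ (H.inv_mem hh)]
  exact congrArg _ ((θ' (B.ρ a⁻¹ v)).2 h hh)

lemma conjTerm_conj (θ' : B.V →ₗ[k] invSub C H) (g a : Γ) (v : B.V) :
    C.ρ g (conjTerm B C H θ' a (B.ρ g⁻¹ v)) = conjTerm B C H θ' (g * a) v := by
  rw [conjTerm_apply, conjTerm_apply, mul_inv_rev, map_mul, map_mul, Module.End.mul_apply,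
    Module.End.mul_apply]

variable [Fintype (Γ ⧸ H)]

variable (B C H) in
/-- The transfer `Σ_{q ∈ Γ/H} q θ' q⁻¹` of an `H`-equivariant linear map. -/
def transferLin (θ' : B.V →ₗ[k] invSub C H) : B.V →ₗ[k] C.V :=
  ∑ q : Γ ⧸ H, conjTerm B C H θ' q.out

lemma transferLin_apply (θ' : B.V →ₗ[k] invSub C H) (v : B.V) :
    transferLin B C H θ' v = ∑ q : Γ ⧸ H, conjTerm B C H θ' q.out v := by
  unfold transferLin
  rw [LinearMap.sum_apply]

lemma transferLin_conj (hB : ∀ h ∈ H, ∀ b : B.V, B.ρ h b = b)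
    (θ' : B.V →ₗ[k] invSub C H) (g : Γ) (v : B.V) :
    C.ρ g (transferLin B C H θ' (B.ρ g⁻¹ v)) = transferLin B C H θ' v := by
  rw [transferLin_apply, transferLin_apply, map_sum]
  have h1 : ∀ q : Γ ⧸ H, C.ρ g (conjTerm B C H θ' q.out (B.ρ g⁻¹ v)) =
      conjTerm B C H θ' (g • q).out v := by
    intro q
    rw [conjTerm_conj]
    obtain ⟨h, hh⟩ := QuotientGroup.mk_out_eq_mul H (g * q.out)
    have hq : ((g * q.out : Γ) : Γ ⧸ H) = g • q := by
      conv_rhs => rw [← QuotientGroup.out_eq' q]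
      rfl
    rw [← hq, hh, conjTerm_mul_right hB θ' _ h.1 h.2]
  rw [Finset.sum_congr rfl (fun q _ => h1 q)]
  exact Equiv.sum_comp (MulAction.toPerm g : Γ ⧸ H ≃ Γ ⧸ H)
    (fun q => conjTerm B C H θ' q.out v)

lemma transferLin_comm (hB : ∀ h ∈ H, ∀ b : B.V, B.ρ h b = b)
    (θ' : B.V →ₗ[k] invSub C H) (g : Γ) (v : B.V) :
    transferLin B C H θ' (B.ρ g v) = C.ρ g (transferLin B C H θ' v) := by
  have h := transferLin_conj hB θ' g (B.ρ g v)
  rw [← Module.End.mul_apply, ← map_mul, inv_mul_cancel, map_one, Module.End.one_apply] at h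
  exact h.symm

variable (B C H) in
/-- The transfer as a morphism of representations. -/
def transferHom (hB : ∀ h ∈ H, ∀ b : B.V, B.ρ h b = b) (θ' : B.V →ₗ[k] invSub C H) : B ⟶ C :=
  Rep.ofHom ⟨transferLin B C H θ', fun g => by
    ext v
    exact transferLin_comm hB θ' g v⟩

lemma transferHom_hom_apply (hB : ∀ h ∈ H, ∀ b : B.V, B.ρ h b = b)
    (θ' : B.V →ₗ[k] invSub C H) (v : B.V) :
    (transferHom B C H hB θ').hom v = transferLin B C H θ' v := rfl

variable (H) in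
/-- The bijection `(q, h) ↦ q.out * h` between `(Γ ⧸ H) × H` and `Γ`. -/
def outMulEquiv : (Γ ⧸ H) × H ≃ Γ where
  toFun p := p.1.out * (p.2 : Γ)
  invFun g := ((g : Γ ⧸ H), ⟨((g : Γ ⧸ H)).out⁻¹ * g, by
    rw [← QuotientGroup.eq]
    exact QuotientGroup.out_eq' _⟩)
  left_inv := by
    rintro ⟨q, h⟩
    have hq : ((q.out * (h : Γ) : Γ) : Γ ⧸ H) = q := by
      rw [QuotientGroup.mk_mul_of_mem _ h.2]
      exact QuotientGroup.out_eq' q
    refine Prod.ext hq (Subtype.ext ?_)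
    dsimp only
    rw [hq, inv_mul_cancel_left]
  right_inv := fun g => mul_inv_cancel_left _ _

omit [Fintype (Γ ⧸ H)] in
lemma outMulEquiv_apply (q : Γ ⧸ H) (h : H) : outMulEquiv H (q, h) = q.out * (h : Γ) := rfl

variable [Fintype Γ] [Fintype H]

omit [Fintype (Γ ⧸ H)] in
/-- **Norms are multiples of `n`** (pure algebra): if `H` acts trivially on the `k`-projective
module `B` and `Nm_H C ⊆ n • C^H`, then every norm `Σ_g g θ g⁻¹` of a `k`-linear map
`θ : B → C` is `n` times a morphism `B ⟶ C`. -/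
theorem exists_normHom_eq_smul [Module.Projective k B.V] (n : k)
    (hB : ∀ h ∈ H, ∀ b : B.V, B.ρ h b = b)
    (hN : ∀ c : C.V, ∃ c' : C.V, (∀ h ∈ H, C.ρ h c' = c') ∧ ∑ h : H, C.ρ (h : Γ) c = n • c')
    (θ : B.V →ₗ[k] C.V) : ∃ ψ : B ⟶ C, normHom B C θ = n • ψ := by
  classical
  have : Fintype (Γ ⧸ H) := Fintype.ofFinite _
  let m : invSub C H →ₗ[k] C.V := n • (invSub C H).subtype
  let NmH : C.V →ₗ[k] C.V := ∑ h : H, C.ρ (h : Γ)
  have hNmH : ∀ c, NmH c = ∑ h : H, C.ρ (h : Γ) c := fun c => by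
    simp only [NmH, LinearMap.sum_apply]
  have hrange : ∀ b, (NmH ∘ₗ θ) b ∈ LinearMap.range m := by
    intro b
    obtain ⟨c', hc', hc⟩ := hN (θ b)
    refine ⟨⟨c', hc'⟩, ?_⟩
    rw [LinearMap.comp_apply, hNmH, hc]
    rfl
  obtain ⟨θ', hθ'⟩ := Module.projective_lifting_property m.rangeRestrict
    ((NmH ∘ₗ θ).codRestrict (LinearMap.range m) hrange) (LinearMap.surjective_rangeRestrict m)
  have hθ'' : ∀ b, n • (θ' b : C.V) = ∑ h : H, C.ρ (h : Γ) (θ b) := by
    intro b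
    have h1 := congrArg Subtype.val (LinearMap.congr_fun hθ' b)
    rw [← hNmH]
    exact h1
  refine ⟨transferHom B C H hB θ', ?_⟩
  ext v
  change (normHom B C θ).hom v = n • (transferHom B C H hB θ').hom v
  rw [normHom_hom_apply, transferHom_hom_apply, transferLin_apply, Finset.smul_sum]
  rw [← Equiv.sum_comp (outMulEquiv H) (fun g => C.ρ g (θ (B.ρ g⁻¹ v))), Fintype.sum_prod_type]
  refine Finset.sum_congr rfl fun q _ => ?_
  rw [conjTerm_apply, ← map_smul, hθ'', map_sum]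
  refine Finset.sum_congr rfl fun h _ => ?_
  rw [outMulEquiv_apply, mul_inv_rev, map_mul, map_mul, Module.End.mul_apply, Module.End.mul_apply,
    hB _ (H.inv_mem h.2)]

end Finite

/-! ### `n`-multiples extend -/

section Extend

variable {k G : Type u} [CommRing k] [Group G] {R F C : Rep.{u} k G} (f : R ⟶ F)

/-- **`n`-multiples extend**: if `f : R ⟶ F` is injective with `n F ⊆ f(R)`, then for every
`φ : R ⟶ C` the multiple `n • φ` is the restriction of a morphism `F ⟶ C`. -/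
theorem exists_comp_eq_smul (hf : Function.Injective f.hom) (n : k)
    (hn : ∀ v : F.V, ∃ w : R.V, f.hom w = n • v) (φ : R ⟶ C) : ∃ ψ : F ⟶ C, f ≫ ψ = n • φ := by
  choose w hw using hn
  have hadd : ∀ a b, w (a + b) = w a + w b := fun a b => hf (by
    rw [map_add, hw, hw, hw, smul_add])
  have hsmul : ∀ (c : k) a, w (c • a) = c • w a := fun c a => hf (by
    rw [map_smul, hw, hw, smul_comm])
  have hρ : ∀ g a, w (F.ρ g a) = R.ρ g (w a) := fun g a => hf (by
    rw [Rep.hom_comm_apply, hw, hw, map_smul])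
  have hwf : ∀ r, w (f.hom r) = n • r := fun r => hf (by
    rw [hw, map_smul])
  refine ⟨Rep.ofHom ⟨{ toFun := fun v => φ.hom (w v)
                       map_add' := fun a b => by rw [hadd, map_add]
                       map_smul' := fun c a => by rw [hsmul, map_smul]; rfl }, fun g => ?_⟩, ?_⟩
  · ext v
    change φ.hom (w (F.ρ g v)) = C.ρ g (φ.hom (w v))
    rw [hρ, Rep.hom_comm_apply]
  · ext r
    change φ.hom (w (f.hom r)) = n • φ.hom r
    rw [hwf, map_smul]

end Extend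

/-! ### Torsion classes in the limit -/

section Torsion

variable {k G : Type} [CommRing k] [IsDomain k] [CharZero k] [Group G] {𝒰 : Levels G}
  {C : Rep.{0} k G}

/-- **The `n`-torsion of `H²_LC(G, C)` lives at every level of index divisible by `n`.** -/
theorem exists_infl_eq_of_smul_eq_zero (cf : ClassFormation 𝒰 C) (n : k) (hn0 : n ≠ 0)
    (U' : Subgroup G) [U'.Normal] (hU' : U' ∈ 𝒰.sets)
    (hdvd : n ∣ ((Nat.card (G ⧸ U') : ℕ) : k)) (y : H 𝒰 C 2) (hy : n • y = 0) :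
    ∃ y' : groupCohomology (C.quotientToInvariants U') 2, (infl 𝒰 C U' hU' 2).hom y' = y := by
  obtain ⟨U₁, hU₁n, hU₁, y₁, rfl⟩ := exists_infl_eq 𝒰 C y
  obtain ⟨W, hW, hWle⟩ := 𝒰.directed U₁ hU₁ U' hU'
  have hWn := 𝒰.normal W hW
  have hWU₁ : W ≤ U₁ := hWle.trans inf_le_left
  have hWU' : W ≤ U' := hWle.trans inf_le_right
  rw [← inflFin_infl_apply C 𝒰 U₁ W hWU₁ hU₁ hW 2 y₁] at hy ⊢
  set z := (inflFin C U₁ W hWU₁ 2).hom y₁ with hz
  obtain ⟨r, hr⟩ := cf.hgen W hW z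
  have h1 : (n * r) • layerClass C W (cf.φ W hW) = 0 := by
    apply (injective_iff_map_eq_zero _).1 (cf.infl_two_injective W hW)
    rw [mul_smul, ← hr, map_smul]
    exact hy
  obtain ⟨s, hs⟩ := cf.hord W hW _ h1
  obtain ⟨m, hm⟩ := hdvd
  rw [ClassFormation.card_quot_mul U' W hWU'] at hs
  have hr' : r = ((W.relIndex U' : ℕ) : k) * (m * s) := by
    apply mul_left_cancel₀ hn0
    rw [hs]
    push_cast
    rw [hm]
    ring
  refine ⟨(m * s) • layerClass C U' (cf.φ U' hU'), ?_⟩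
  rw [← inflFin_infl_apply C 𝒰 U' W hWU' hU' hW 2]
  congr 1
  change (inflFin C U' W hWU' 2).hom ((m * s) • layerClass C U' (cf.φ U' hU')) = z
  rw [map_smul, cf.infl_φ U' W hU' hW hWU', smul_smul, hr, hr', mul_comm]

end Torsion

/-! ### Layers of a representation on which a level acts trivially -/

section Layer

variable {k G : Type} [CommRing k] [Group G] {B C : Rep.{0} k G} (U : Subgroup G) [U.Normal]

/-- `liftLayerHom` as a `k`-linear map. -/
def liftLayerLin (hB : ∀ u ∈ U, ∀ b : B, B.ρ u b = b) :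
    (B.quotientToInvariants U ⟶ C.quotientToInvariants U) →ₗ[k] (B ⟶ C) where
  toFun := liftLayerHom U hB
  map_add' := fun a b => by
    ext v
    rfl
  map_smul' := fun c a => by
    ext v
    rfl

lemma liftLayerLin_apply (hB : ∀ u ∈ U, ∀ b : B, B.ρ u b = b)
    (χ : B.quotientToInvariants U ⟶ C.quotientToInvariants U) :
    liftLayerLin U hB χ = liftLayerHom U hB χ := rfl

lemma liftLayerHom_layerMap (hB : ∀ u ∈ U, ∀ b : B, B.ρ u b = b) (φ : B ⟶ C) :
    liftLayerHom U hB (layerMap φ U) = φ := by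
  ext v
  rfl

/-- If `U` acts trivially on `B`, the layer `B^U` is all of `B`. -/
def layerEquiv (hB : ∀ u ∈ U, ∀ b : B, B.ρ u b = b) :
    (B.quotientToInvariants U).V ≃ₗ[k] B.V where
  toFun := fun b => b.1
  map_add' := fun _ _ => rfl
  map_smul' := fun _ _ => rfl
  invFun := fun b => ⟨b, fun u => hB u.1 u.2 b⟩
  left_inv := fun _ => rfl
  right_inv := fun _ => rfl

end Layer

/-! ### The main theorem -/

section Main

variable {k G : Type} [CommRing k] [Group G]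

/-- The image of `U₀` in the layer group `G ⧸ U`. -/
abbrev layerSub (U₀ U : Subgroup G) [U.Normal] : Subgroup (G ⧸ U) :=
  U₀.map (QuotientGroup.mk' U)

/-- **(N3)**, exponent-`n` existence at the level `U ≤ U₀`: `Nm_{U₀/U} C^U ⊆ n • C^{U₀}`, stated
in the layer `C^U = C.quotientToInvariants U` for the subgroup `U₀/U` of `G ⧸ U`. -/
def N3 (C : Rep.{0} k G) (n : k) (U₀ U : Subgroup G) [U.Normal] [Fintype (layerSub U₀ U)] : Prop :=
  ∀ c : C.quotientToInvariants U, ∃ c' : C.quotientToInvariants U,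
    (∀ h ∈ layerSub U₀ U, (C.quotientToInvariants U).ρ h c' = c') ∧
      ∑ h : layerSub U₀ U, (C.quotientToInvariants U).ρ (h : G ⧸ U) c = n • c'

/-- The conclusion of **(NT-c)** (`A7.NT.nt_c`) for a pair of representations of a finite group:
every additive map `(B ⟶ C) → H²(Γ, C)` killing the norms is `ψ ↦ ψ_* x`. -/
def NTc {Γ : Type} [Group Γ] [Fintype Γ] (B C : Rep.{0} k Γ) : Prop :=
  ∀ f : (B ⟶ C) →+ groupCohomology C 2, (∀ θ, f (normHom B C θ) = 0) →
    ∃ x : groupCohomology B 2, ∀ ψ : B ⟶ C,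
      (groupCohomology.map (MonoidHom.id Γ) ψ 2).hom x = f ψ

variable [IsDomain k] [CharZero k] {𝒰 : Levels G} {R F C : Rep.{0} k G}

/-- **REALIZABILITY (g)**, general form. -/
theorem exists_mapId_eq (cf : ClassFormation 𝒰 C) (f : R ⟶ F) (hf : Function.Injective f.hom)
    (m : ℕ) (hm0 : m ≠ 0) (hm : ∀ v : F.V, ∃ w : R.V, f.hom w = (m : k) • v)
    [Module.Projective k R.V]
    (U₀ U' : Subgroup G) [U'.Normal] (hU' : U' ∈ 𝒰.sets) (hle : U' ≤ U₀)
    (hRtriv : ∀ u ∈ U₀, ∀ b : R.V, R.ρ u b = b)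
    (hdvd : (m : k) ∣ ((Nat.card (G ⧸ U') : ℕ) : k))
    [Fintype (G ⧸ U')] [Fintype (layerSub U₀ U')]
    (hN3 : N3 C (m : k) U₀ U')
    (hNTc : NTc (R.quotientToInvariants U') (C.quotientToInvariants U'))
    (χ : (R ⟶ C) →+ H 𝒰 C 2) (hχ : ∀ ψ : F ⟶ C, χ (f ≫ ψ) = 0) :
    ∃ x : H 𝒰 R 2, ∀ φ : R ⟶ C, mapId φ 2 x = χ φ := by
  classical
  have hRU' : ∀ u ∈ U', ∀ b : R.V, R.ρ u b = b := fun u hu b => hRtriv u (hle hu) b
  have hmk : (m : k) ≠ 0 := by exact_mod_cast hm0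
  -- (1) `χ` kills the multiples of `m`
  have hχm : ∀ φ' : R ⟶ C, χ ((m : k) • φ') = 0 := by
    intro φ'
    obtain ⟨ψ, hψ⟩ := exists_comp_eq_smul f hf (m : k) hm φ'
    rw [← hψ]
    exact hχ ψ
  have htors : ∀ φ : R ⟶ C, (m : k) • χ φ = 0 := by
    intro φ
    rw [Nat.cast_smul_eq_nsmul, ← map_nsmul, ← Nat.cast_smul_eq_nsmul k]
    exact hχm φ
  -- (2) descend `χ` to the level `U'`
  have hex : ∀ ψ : R.quotientToInvariants U' ⟶ C.quotientToInvariants U',
      ∃ y' : groupCohomology (C.quotientToInvariants U') 2,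
        (infl 𝒰 C U' hU' 2).hom y' = χ (liftLayerLin U' hRU' ψ) := fun ψ =>
    exists_infl_eq_of_smul_eq_zero cf (m : k) hmk U' hU' hdvd _ (htors _)
  choose f₀ hf₀ using hex
  have hinj := cf.infl_two_injective U' hU'
  let f' : (R.quotientToInvariants U' ⟶ C.quotientToInvariants U') →+
      groupCohomology (C.quotientToInvariants U') 2 :=
    { toFun := f₀
      map_zero' := hinj (by rw [hf₀, map_zero, map_zero, map_zero])
      map_add' := fun a b => hinj (by simp only [hf₀, map_add]) }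
  have hf'₀ : ∀ ψ, f' ψ = f₀ ψ := fun _ => rfl
  -- (3) `f'` kills the norms
  have : Module.Projective k (R.quotientToInvariants U').V :=
    Module.Projective.of_equiv (layerEquiv U' hRU').symm
  have hBtriv : ∀ h ∈ layerSub U₀ U', ∀ b : (R.quotientToInvariants U').V,
      (R.quotientToInvariants U').ρ h b = b := by
    rintro h ⟨u, hu, rfl⟩ b
    apply Subtype.ext
    exact hRtriv u hu b.1
  have hf' : ∀ θ, f' (normHom (R.quotientToInvariants U') (C.quotientToInvariants U') θ) = 0 := by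
    intro θ
    obtain ⟨ψ', hψ'⟩ := exists_normHom_eq_smul (H := layerSub U₀ U') (m : k) hBtriv hN3 θ
    apply hinj
    rw [hf'₀, hf₀, map_zero, hψ', map_smul]
    exact hχm _
  -- (4) (NT-c) and inflation
  obtain ⟨x, hx⟩ := hNTc f' hf'
  refine ⟨(infl 𝒰 R U' hU' 2).hom x, fun φ => ?_⟩
  have h1 := infl_mapId 𝒰 φ U' hU' 2 x
  have h2 := hx (layerMap φ U')
  have h3 := hf₀ (layerMap φ U')
  rw [liftLayerLin_apply, liftLayerHom_layerMap] at h3
  rw [← h3, ← hf'₀, ← h2]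
  exact h1

/-- **REALIZABILITY (g)** in the exact shape of the hypothesis `hg` of `shaOnePushEquiv` and
`shaOnePushEquivOfClassFormation` (`D/Pairing`). -/
theorem hg_of_N3_of_NTc {SA : ShortComplex (Rep.{0} k G)} (hSA : SA.ShortExact) {J : Rep.{0} k G}
    (g : J ⟶ C) (cf : ClassFormation 𝒰 C)
    (m : ℕ) (hm0 : m ≠ 0) (hm : ∀ v : SA.X₂.V, ∃ w : SA.X₁.V, SA.f.hom w = (m : k) • v)
    [Module.Projective k SA.X₁.V]
    (U₀ U' : Subgroup G) [U'.Normal] (hU' : U' ∈ 𝒰.sets) (hle : U' ≤ U₀)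
    (hRtriv : ∀ u ∈ U₀, ∀ b : SA.X₁.V, SA.X₁.ρ u b = b)
    (hdvd : (m : k) ∣ ((Nat.card (G ⧸ U') : ℕ) : k))
    [Fintype (G ⧸ U')] [Fintype (layerSub U₀ U')]
    (hN3 : N3 C (m : k) U₀ U')
    (hNTc : NTc (SA.X₁.quotientToInvariants U') (C.quotientToInvariants U')) :
    ∀ χ : (SA.X₁ ⟶ C) →+ H 𝒰 C 2,
      χ ∈ annihW (T := H 𝒰 C 2) (Preadditive.leftComp C SA.f) (Preadditive.rightComp SA.X₁ g) →
        ∃ x : H 𝒰 SA.X₁ 2, ∀ φ : SA.X₁ ⟶ C, mapId φ 2 x = χ φ := by
  intro χ hχ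
  have hf : Function.Injective SA.f.hom := by
    have := hSA.mono_f
    exact (Rep.mono_iff_injective SA.f).1 this
  exact exists_mapId_eq cf SA.f hf m hm0 hm U₀ U' hU' hle hRtriv hdvd hN3 hNTc χ
    (fun ψ => hχ.1 ψ)

end Main

end Fermat.Agent.CFT.D.Realize
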