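/-
PROJECT C, Layer D (helper8): the counting step of the D-plan.

* `card_addMonoidHom_eq`: if `Q` is a finite abelian group killed by the prime `p` and the
  `p`-torsion of the abelian group `T` has exactly `p` elements, then `Q` has as many characters
  with values in `T` as elements.
* `annihWEquiv`: the characters of `HR` vanishing on `W = im HF + im HJ` are the characters of
  `HR ⧸ W`.
-/
import Fermat.Agent.CFT.D.ShaOneB

set_option autoImplicit false
set_option linter.style.haveILetI false

namespace Fermat.Agent.CFT.D

open Module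

section Count

variable (p : ℕ) [Fact p.Prime] {Q T : Type*} [AddCommGroup Q] [AddCommGroup T]

/-- The `p`-torsion subgroup. -/
def torsionP (T : Type*) [AddCommGroup T] : AddSubgroup T where
  carrier := {t | p • t = 0}
  zero_mem' := smul_zero _
  add_mem' := fun {a b} ha hb => by
    change p • (a + b) = 0
    rw [smul_add, ha, hb, add_zero]
  neg_mem' := fun {a} ha => by
    change p • (-a) = 0
    rw [smul_neg, ha, neg_zero]

omit [Fact p.Prime] in
lemma mem_torsionP (t : T) : t ∈ torsionP p T ↔ p • t = 0 := Iff.rfl

/-- Homomorphisms out of a group killed by `p` land in the `p`-torsion. -/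
def homTorsionEquiv (hQ : ∀ x : Q, p • x = 0) : (Q →+ T) ≃ (Q →+ torsionP p T) where
  toFun f := f.codRestrict (torsionP p T) fun x => by
    change p • f x = 0
    rw [← map_nsmul, hQ, map_zero]
  invFun f := (torsionP p T).subtype.comp f
  left_inv f := by ext x; rfl
  right_inv f := by ext x; rfl

/-- A finite `ZMod p`-vector space has as many additive characters with values in `ZMod p` as
elements. -/
theorem card_addMonoidHom_zmod (V : Type*) [AddCommGroup V] [Module (ZMod p) V] [Finite V] :
    Nat.card (V →+ ZMod p) = Nat.card V := by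
  have : Module.Finite (ZMod p) V := Module.Finite.of_finite
  have e1 : Nat.card (V →+ ZMod p) = Nat.card (Module.Dual (ZMod p) V) :=
    Nat.card_congr (AddMonoidHom.toZModLinearMapEquiv p (M := V) (M₁ := ZMod p)).toEquiv
  have e2 : Nat.card (Module.Dual (ZMod p) V) =
      Nat.card (ZMod p) ^ finrank (ZMod p) (Module.Dual (ZMod p) V) :=
    Module.natCard_eq_pow_finrank
  have e3 : Nat.card V = Nat.card (ZMod p) ^ finrank (ZMod p) V :=
    Module.natCard_eq_pow_finrank
  rw [e1, e2, e3, Subspace.dual_finrank_eq]

theorem card_addMonoidHom_eq [Finite Q] (hQ : ∀ x : Q, p • x = 0)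
    (hT : Nat.card (torsionP p T) = p) : Nat.card (Q →+ T) = Nat.card Q := by
  classical
  have hp : p.Prime := Fact.out
  have : Finite (torsionP p T) := Nat.finite_of_card_ne_zero (by rw [hT]; exact hp.ne_zero)
  have hcyc : IsAddCyclic (torsionP p T) := isAddCyclic_of_prime_card hT
  have e : torsionP p T ≃+ ZMod p :=
    (zmodAddCyclicAddEquiv hcyc).symm.trans (ZMod.ringEquivCongr hT).toAddEquiv
  have e1 : Nat.card (Q →+ T) = Nat.card (Q →+ ZMod p) :=
    (Nat.card_congr (homTorsionEquiv p hQ)).trans
      (Nat.card_congr
        { toFun := fun f => e.toAddMonoidHom.comp f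
          invFun := fun f => e.symm.toAddMonoidHom.comp f
          left_inv := fun f => by ext x; simp
          right_inv := fun f => by ext x; simp })
  letI : Module (ZMod p) Q := AddCommGroup.zmodModule hQ
  rw [e1, card_addMonoidHom_zmod p Q]

end Count

section Annih

variable {HR HF HJ T : Type*} [AddCommGroup HR] [AddCommGroup HF] [AddCommGroup HJ]
  [AddCommGroup T] (resF : HF →+ HR) (proj : HJ →+ HR)

/-- The subgroup `W = im HF + im HJ`. -/
def subW : AddSubgroup HR := resF.range ⊔ proj.range

lemma mem_annihW_iff (χ : HR →+ T) :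
    χ ∈ annihW (T := T) resF proj ↔ subW resF proj ≤ χ.ker := by
  constructor
  · rintro ⟨h1, h2⟩
    refine sup_le ?_ ?_
    · rintro _ ⟨ψ, rfl⟩
      exact h1 ψ
    · rintro _ ⟨φ, rfl⟩
      exact h2 φ
  · intro h
    exact ⟨fun ψ => h (AddSubgroup.mem_sup_left ⟨ψ, rfl⟩),
      fun φ => h (AddSubgroup.mem_sup_right ⟨φ, rfl⟩)⟩

/-- Characters vanishing on `W` are characters of the quotient. -/
noncomputable def annihWEquiv :
    annihW (T := T) resF proj ≃ (HR ⧸ subW resF proj →+ T) where
  toFun χ := QuotientAddGroup.lift (subW resF proj) χ.1 ((mem_annihW_iff resF proj χ.1).1 χ.2)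
  invFun f := ⟨f.comp (QuotientAddGroup.mk' _), (mem_annihW_iff resF proj _).2 fun x hx => by
    change f (QuotientAddGroup.mk x) = 0
    rw [(QuotientAddGroup.eq_zero_iff x).2 hx, map_zero]⟩
  left_inv χ := by
    apply Subtype.ext
    ext x
    rfl
  right_inv f := by
    ext x
    rfl

/-- **Counting**: if `HR ⧸ W` is finite and killed by `p`, and `T` has exactly `p` elements of
order dividing `p`, there are as many characters vanishing on `W` as elements of `HR ⧸ W`. -/
theorem card_annihW (p : ℕ) [Fact p.Prime] [Finite (HR ⧸ subW resF proj)]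
    (hp : ∀ x : HR, p • x ∈ subW resF proj) (hT : Nat.card (torsionP p T) = p) :
    Nat.card (annihW (T := T) resF proj) = Nat.card (HR ⧸ subW resF proj) := by
  rw [Nat.card_congr (annihWEquiv resF proj)]
  refine card_addMonoidHom_eq p (fun x => ?_) hT
  induction x using QuotientAddGroup.induction_on with
  | H x =>
    rw [← QuotientAddGroup.mk_nsmul]
    exact (QuotientAddGroup.eq_zero_iff _).2 (hp x)

end Annih

end Fermat.Agent.CFT.D
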