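/-
PROJECT C, Layer D, slice D2e, part 4 (helper6): ADAPTERS for the contract (N3) of `D/Realize`.

`NormDiv A H n` is the finite-level statement `Nm_H A ⊆ n • A^H` for a representation `A` of a
group `Γ` and a finite subgroup `H`; `N3 C n U₀ U'` is `NormDiv` for the layer
`C^{U'} = C.quotientToInvariants U'` and the subgroup `U₀/U'` of `G ⧸ U'` (`N3_iff_normDiv`).

* `NormDiv.of_equiv`     : transport along an isomorphism of pairs `(e, e')` (the same data as
                           `A7.IsClassModule.of_equiv`);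
* `NormDiv.of_isLocRep`  : passage to a localisation of the coefficients (`A7.BaseChange.IsLocRep`);
* `NormDiv.of_mul`       : the multiplicative form for `Rep.ofMulDistribMulAction Γ M`
                           (`∏_{h ∈ H} h • m = m' ^ p` with `m'` fixed by `H`);
* `N3.of_equiv`          : (N3) from `NormDiv` for a model `(Γ, A)` of the layer;
* `N3.of_transversal`    : (N3) in `G`-level form, with a finite family of coset representatives.
-/
import Mathlib
import Fermat.Agent.CFT.D.Realize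
import Fermat.Agent.CFT.A7.BaseChange

set_option autoImplicit false

noncomputable section

universe u

namespace Fermat.Agent.CFT.D.Realize

open CategoryTheory Fermat.Agent.CFT.A7.BaseChange

section NormDiv

variable {k Γ : Type u} [CommRing k] [Group Γ]

/-- The finite-level form of (N3): `Nm_H A ⊆ n • A^H`. -/
def NormDiv (A : Rep.{u} k Γ) (H : Subgroup Γ) [Fintype H] (n : k) : Prop :=
  ∀ a : A.V, ∃ a' : A.V, (∀ h ∈ H, A.ρ h a' = a') ∧ ∑ h : H, A.ρ (h : Γ) a = n • a'

/-- `NormDiv` does not depend on the `Fintype` instance. -/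
lemma NormDiv.congr_inst {A : Rep.{u} k Γ} {H : Subgroup Γ} (i₁ i₂ : Fintype H) {n : k}
    (h : @NormDiv k Γ _ _ A H i₁ n) : @NormDiv k Γ _ _ A H i₂ n := by
  have : i₁ = i₂ := Subsingleton.elim _ _
  subst this
  exact h

/-- **Transport of `NormDiv`** along an isomorphism of pairs. -/
theorem NormDiv.of_equiv {Γ' : Type u} [Group Γ'] {A : Rep.{u} k Γ} {A' : Rep.{u} k Γ'}
    (e : Γ' ≃* Γ) (e' : A'.V ≃ₗ[k] A.V)
    (he : ∀ g, e'.toLinearMap ∘ₗ A'.ρ g = A.ρ (e g) ∘ₗ e'.toLinearMap)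
    (H' : Subgroup Γ') (H : Subgroup Γ) (hH : H'.map (e : Γ' →* Γ) = H)
    [Fintype H'] [Fintype H] {n : k} (h : NormDiv A H n) : NormDiv A' H' n := by
  subst hH
  have he' : ∀ g (a : A'.V), e' (A'.ρ g a) = A.ρ (e g) (e' a) := fun g a =>
    LinearMap.congr_fun (he g) a
  intro a
  obtain ⟨a'', hinv, hsum⟩ := h (e' a)
  refine ⟨e'.symm a'', fun h' hh' => ?_, ?_⟩
  · apply e'.injective
    rw [he', LinearEquiv.apply_symm_apply]
    exact hinv _ ⟨h', hh', rfl⟩
  · apply e'.injective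
    rw [map_sum, map_smul, LinearEquiv.apply_symm_apply, ← hsum]
    refine Fintype.sum_equiv (e.subgroupMap H').toEquiv _ _ (fun h' => ?_)
    rw [he']
    rfl

/-- **`NormDiv` passes to localisations of the coefficients.** -/
theorem NormDiv.of_isLocRep {R k : Type u} [CommRing R] [CommRing k] [Algebra R k]
    {M : Submonoid R} (hM : ∀ s ∈ M, IsUnit (algebraMap R k s)) {X : Rep.{u} R Γ}
    {Y : Rep.{u} k Γ} {f : X.V →+ Y.V} (hf : IsLocRep M X Y f) (H : Subgroup Γ) [Fintype H]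
    {n : R} (h : NormDiv X H n) : NormDiv Y H (algebraMap R k n) := by
  intro y
  obtain ⟨s, hs, x, hx⟩ := hf.surj y
  obtain ⟨x', hinv, hsum⟩ := h x
  obtain ⟨u, hu⟩ := hM s hs
  refine ⟨(↑u⁻¹ : k) • f x', fun g hg => ?_, ?_⟩
  · rw [map_smul, ← hf.map_ρ, hinv g hg]
  · have h1 : algebraMap R k s • ∑ g : H, Y.ρ (g : Γ) y = algebraMap R k n • f x' := by
      rw [Finset.smul_sum, ← hf.map_smul, ← hsum, map_sum]
      refine Finset.sum_congr rfl fun g _ => ?_
      rw [← map_smul, hx, hf.map_ρ]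
    have h2 : ∑ g : H, Y.ρ (g : Γ) y = (↑u⁻¹ : k) • (algebraMap R k s • ∑ g : H, Y.ρ (g : Γ) y) := by
      rw [smul_smul, ← hu, Units.inv_mul, one_smul]
    rw [h2, h1, smul_comm]

end NormDiv

section Mul

variable {Γ M : Type} [Group Γ] [CommGroup M] [MulDistribMulAction Γ M]

/-- **`NormDiv` in multiplicative form**, for the `ℤ`-representation on `Additive M`. -/
theorem NormDiv.of_mul (H : Subgroup Γ) [Fintype H] (p : ℤ)
    (h : ∀ m : M, ∃ m' : M, (∀ g ∈ H, g • m' = m') ∧ ∏ g : H, (g : Γ) • m = m' ^ p) :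
    NormDiv (Rep.ofMulDistribMulAction Γ M) H p := by
  intro a
  change Additive M at a
  obtain ⟨m', hinv, hprod⟩ := h (Additive.toMul a)
  refine ⟨(Additive.ofMul m' : Additive M), fun g hg => ?_, ?_⟩
  · exact congrArg Additive.ofMul (hinv g hg)
  · have h1 : (∑ g : H, (Rep.ofMulDistribMulAction Γ M).ρ (g : Γ) a : Additive M) =
        Additive.ofMul (∏ g : H, (g : Γ) • Additive.toMul a) := by
      rw [ofMul_prod]
      rfl
    exact h1.trans ((congrArg Additive.ofMul hprod).trans (ofMul_zpow p m'))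

end Mul

section Layer

variable {k G : Type} [CommRing k] [Group G] {C : Rep.{0} k G}

lemma N3_iff_normDiv (n : k) (U₀ U' : Subgroup G) [U'.Normal] [Fintype (layerSub U₀ U')] :
    N3 C n U₀ U' ↔ NormDiv (C.quotientToInvariants U') (layerSub U₀ U') n := Iff.rfl

/-- **(N3) from a model of the layer**: `(Γ, A)` with an isomorphism of pairs
`(G ⧸ U', C^{U'}) ≅ (Γ, A)` (the data of `A7.IsClassModule.of_equiv`) carrying `U₀/U'` to `H`. -/
theorem N3.of_equiv {Γ : Type} [Group Γ] {A : Rep.{0} k Γ} {n : k} {U₀ U' : Subgroup G}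
    [U'.Normal] (e : G ⧸ U' ≃* Γ) (e' : (C.quotientToInvariants U').V ≃ₗ[k] A.V)
    (he : ∀ g, e'.toLinearMap ∘ₗ (C.quotientToInvariants U').ρ g = A.ρ (e g) ∘ₗ e'.toLinearMap)
    (H : Subgroup Γ) (hH : (layerSub U₀ U').map (e : G ⧸ U' →* Γ) = H)
    [Fintype (layerSub U₀ U')] [Fintype H] (h : NormDiv A H n) : N3 C n U₀ U' :=
  NormDiv.of_equiv e e' he (layerSub U₀ U') H hH h

/-- **(N3) in `G`-level form**: `t : ι → U₀` a finite family of representatives of `U₀/U'`. -/
theorem N3.of_transversal {n : k} {U₀ U' : Subgroup G} [U'.Normal] (hle : U' ≤ U₀)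
    {ι : Type} [Fintype ι] (t : ι → G) (ht : ∀ i, t i ∈ U₀)
    (hbij : Function.Bijective
      (fun i => (⟨((t i : G) : G ⧸ U'), t i, ht i, rfl⟩ : layerSub U₀ U')))
    (hN : ∀ c : C.V, (∀ u ∈ U', C.ρ u c = c) →
      ∃ c' : C.V, (∀ u ∈ U₀, C.ρ u c' = c') ∧ ∑ i, C.ρ (t i) c = n • c')
    [Fintype (layerSub U₀ U')] : N3 C n U₀ U' := by
  intro c
  obtain ⟨c', hinv, hsum⟩ := hN c.1 (fun u hu => c.2 ⟨u, hu⟩)
  have hc' : c' ∈ Representation.invariants (C.ρ.comp U'.subtype) := fun u => hinv u.1 (hle u.2)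
  refine ⟨⟨c', hc'⟩, ?_, ?_⟩
  · rintro _ ⟨u, hu, rfl⟩
    apply Subtype.ext
    exact hinv u hu
  · apply Subtype.ext
    have h1 : ((∑ x : layerSub U₀ U', (C.quotientToInvariants U').ρ (x : G ⧸ U') c :
        C.quotientToInvariants U').1 : C.V) =
        ∑ x : layerSub U₀ U', (((C.quotientToInvariants U').ρ (x : G ⧸ U') c).1 : C.V) :=
      Submodule.coe_sum _ _ _
    rw [h1]
    refine ((Fintype.sum_equiv (Equiv.ofBijective _ hbij) (fun i => C.ρ (t i) c.1)
      (fun x : layerSub U₀ U' => (((C.quotientToInvariants U').ρ (x : G ⧸ U') c).1 : C.V))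
      (fun i => rfl)).symm).trans ?_
    rw [hsum]
    rfl

end Layer

end Fermat.Agent.CFT.D.Realize
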