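/-
PROJECT C, Layer D, slice D2e, part 3 (helper6): (N3) is stable under shrinking the level.

If `W ≤ U' ≤ U₀` and `Nm_{U₀/U'} C^{U'} ⊆ n • C^{U₀}` then `Nm_{U₀/W} C^W ⊆ n • C^{U₀}`, because
`Nm_{U₀/W} = Nm_{U₀/U'} ∘ Nm_{U'/W}`.  So the level `U'` in `Realize.hg_of_N3_of_NTc` can always be
shrunk to a level of index divisible by `m` (hypothesis `hdvd`).
-/
import Mathlib
import Fermat.Agent.CFT.D.Realize

set_option autoImplicit false

noncomputable section

namespace Fermat.Agent.CFT.D.Realize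

open CategoryTheory Fermat.Agent.CFT.LC

section Mono

variable {k G : Type} [CommRing k] [Group G] {C : Rep.{0} k G}

/-- The natural map `U₀/W → U₀/U'` for `W ≤ U'`. -/
def layerSubMap (U₀ U' W : Subgroup G) [U'.Normal] [W.Normal] (h : W ≤ U') :
    layerSub U₀ W →* layerSub U₀ U' :=
  ((quotMap U' W h).comp (layerSub U₀ W).subtype).codRestrict (layerSub U₀ U') (by
    rintro ⟨_, u, hu, rfl⟩
    exact ⟨u, hu, rfl⟩)

lemma layerSubMap_coe (U₀ U' W : Subgroup G) [U'.Normal] [W.Normal] (h : W ≤ U')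
    (x : layerSub U₀ W) :
    ((layerSubMap U₀ U' W h x : layerSub U₀ U') : G ⧸ U') = quotMap U' W h (x : G ⧸ W) := rfl

lemma layerSubMap_surjective (U₀ U' W : Subgroup G) [U'.Normal] [W.Normal] (h : W ≤ U') :
    Function.Surjective (layerSubMap U₀ U' W h) := by
  rintro ⟨_, u, hu, rfl⟩
  exact ⟨⟨(u : G ⧸ W), u, hu, rfl⟩, Subtype.ext rfl⟩

/-- **(N3) is stable under shrinking the level.** -/
theorem N3.mono {n : k} {U₀ U' : Subgroup G} [U'.Normal] [Fintype (layerSub U₀ U')]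
    (h : N3 C n U₀ U') (hU'U₀ : U' ≤ U₀) (W : Subgroup G) [W.Normal] (hWU' : W ≤ U')
    [Fintype (layerSub U₀ W)] : N3 C n U₀ W := by
  classical
  intro c
  let π := layerSubMap U₀ U' W hWU'
  have hπs : Function.Surjective π := layerSubMap_surjective U₀ U' W hWU'
  let K : Subgroup (layerSub U₀ W) := π.ker
  have : Fintype K := Fintype.ofFinite _
  have : Fintype (layerSub U₀ W ⧸ K) := Fintype.ofFinite _
  let c₁ : C.quotientToInvariants W :=
    ∑ κ : K, (C.quotientToInvariants W).ρ (((κ : layerSub U₀ W)) : G ⧸ W) c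
  have hc₁K : ∀ κ : K,
      (C.quotientToInvariants W).ρ (((κ : layerSub U₀ W)) : G ⧸ W) c₁ = c₁ := by
    intro κ
    change (C.quotientToInvariants W).ρ (((κ : layerSub U₀ W)) : G ⧸ W)
      (∑ κ' : K, (C.quotientToInvariants W).ρ (((κ' : layerSub U₀ W)) : G ⧸ W) c) = _
    rw [map_sum]
    refine Fintype.sum_equiv (Equiv.mulLeft κ) _ _ (fun κ' => ?_)
    rw [← Module.End.mul_apply, ← map_mul]
    rfl
  have hc₁U' : c₁.1 ∈ Representation.invariants (C.ρ.comp U'.subtype) := by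
    intro u'
    have hmem : ((u' : G) : G ⧸ W) ∈ layerSub U₀ W := ⟨u', hU'U₀ u'.2, rfl⟩
    have hker : (⟨_, hmem⟩ : layerSub U₀ W) ∈ K := by
      rw [MonoidHom.mem_ker]
      apply Subtype.ext
      change ((u' : G) : G ⧸ U') = 1
      exact (QuotientGroup.eq_one_iff _).2 u'.2
    exact congrArg Subtype.val (hc₁K ⟨_, hker⟩)
  let c₁' : C.quotientToInvariants U' := ⟨c₁.1, hc₁U'⟩
  obtain ⟨c'', hc''inv, hc''⟩ := h c₁'
  have hc''W : c''.1 ∈ Representation.invariants (C.ρ.comp W.subtype) :=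
    fun w => c''.2 ⟨w.1, hWU' w.2⟩
  refine ⟨⟨c''.1, hc''W⟩, ?_, ?_⟩
  · rintro _ ⟨u, hu, rfl⟩
    apply Subtype.ext
    change C.ρ u c''.1 = c''.1
    exact congrArg Subtype.val (hc''inv _ ⟨u, hu, rfl⟩)
  · have e1 : ∑ x : layerSub U₀ W, (C.quotientToInvariants W).ρ (x : G ⧸ W) c =
        ∑ q : layerSub U₀ W ⧸ K,
          (C.quotientToInvariants W).ρ (((q.out : layerSub U₀ W)) : G ⧸ W) c₁ := by
      rw [← Equiv.sum_comp (outMulEquiv K)
        (fun x : layerSub U₀ W => (C.quotientToInvariants W).ρ (x : G ⧸ W) c),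
        Fintype.sum_prod_type]
      refine Finset.sum_congr rfl fun q _ => ?_
      change _ = (C.quotientToInvariants W).ρ (((q.out : layerSub U₀ W)) : G ⧸ W)
        (∑ κ : K, (C.quotientToInvariants W).ρ (((κ : layerSub U₀ W)) : G ⧸ W) c)
      rw [map_sum]
      refine Finset.sum_congr rfl fun κ _ => ?_
      rw [outMulEquiv_apply, Subgroup.coe_mul, map_mul]
      rfl
    let e : layerSub U₀ W ⧸ K ≃* layerSub U₀ U' :=
      QuotientGroup.quotientKerEquivOfSurjective π hπs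
    have e2 : ∀ q : layerSub U₀ W ⧸ K,
        (((C.quotientToInvariants W).ρ (((q.out : layerSub U₀ W)) : G ⧸ W) c₁).1 : C.V) =
          (((C.quotientToInvariants U').ρ ((e q : layerSub U₀ U') : G ⧸ U') c₁').1 : C.V) := by
      intro q
      have hq : e q = π q.out := by
        conv_lhs => rw [← QuotientGroup.out_eq' q]
        rfl
      obtain ⟨u, hu, hqu⟩ := (q.out : layerSub U₀ W).2
      have h1 : ((e q : layerSub U₀ U') : G ⧸ U') = ((u : G) : G ⧸ U') := by
        rw [hq, layerSubMap_coe, ← hqu]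
        rfl
      rw [h1, ← hqu]
      rfl
    apply Subtype.ext
    rw [e1]
    have h3 : ((∑ q : layerSub U₀ W ⧸ K,
        (C.quotientToInvariants W).ρ (((q.out : layerSub U₀ W)) : G ⧸ W) c₁ :
          C.quotientToInvariants W).1 : C.V) =
        ∑ q : layerSub U₀ W ⧸ K,
          (((C.quotientToInvariants W).ρ (((q.out : layerSub U₀ W)) : G ⧸ W) c₁).1 : C.V) :=
      Submodule.coe_sum _ _ _
    have h4 : ((∑ x : layerSub U₀ U', (C.quotientToInvariants U').ρ (x : G ⧸ U') c₁' :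
          C.quotientToInvariants U').1 : C.V) =
        ∑ x : layerSub U₀ U', (((C.quotientToInvariants U').ρ (x : G ⧸ U') c₁').1 : C.V) :=
      Submodule.coe_sum _ _ _
    rw [h3]
    refine (Fintype.sum_equiv e.toEquiv _
      (fun x : layerSub U₀ U' => (((C.quotientToInvariants U').ρ (x : G ⧸ U') c₁').1 : C.V))
      (fun q => e2 q)).trans ?_
    rw [← h4, hc'']
    rfl

end Mono

/-! ### Realizability with the divisibility hypothesis discharged -/

section Packaged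

open groupCohomology Fermat.Agent.CFT.LC.El Fermat.Agent.CFT.A7

variable {k G : Type} [CommRing k] [IsDomain k] [CharZero k] [Group G] {𝒰 : Levels G}
  {C : Rep.{0} k G}

/-- **REALIZABILITY (g)**, packaged: (N3) at SOME level `U' ≤ U₀`, SOME level `U₁` of index
divisible by `m`, and (NT-c) at all levels below `U₀`. -/
theorem hg_of_N3_of_forall_NTc {SA : ShortComplex (Rep.{0} k G)} (hSA : SA.ShortExact)
    {J : Rep.{0} k G} (g : J ⟶ C) (cf : ClassFormation 𝒰 C)
    (m : ℕ) (hm0 : m ≠ 0) (hm : ∀ v : SA.X₂.V, ∃ w : SA.X₁.V, SA.f.hom w = (m : k) • v)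
    [Module.Projective k SA.X₁.V]
    (U₀ U' U₁ : Subgroup G) [U'.Normal] [U₁.Normal] (hU' : U' ∈ 𝒰.sets) (hU₁ : U₁ ∈ 𝒰.sets)
    (hle : U' ≤ U₀) (hRtriv : ∀ u ∈ U₀, ∀ b : SA.X₁.V, SA.X₁.ρ u b = b)
    (hdvd : (m : k) ∣ ((Nat.card (G ⧸ U₁) : ℕ) : k))
    [Fintype (layerSub U₀ U')] (hN3 : N3 C (m : k) U₀ U')
    (hNTc : ∀ (W : Subgroup G) [W.Normal] [Fintype (G ⧸ W)], W ∈ 𝒰.sets → W ≤ U₀ →
      NTc (SA.X₁.quotientToInvariants W) (C.quotientToInvariants W)) :
    ∀ χ : (SA.X₁ ⟶ C) →+ H 𝒰 C 2,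
      χ ∈ annihW (T := H 𝒰 C 2) (Preadditive.leftComp C SA.f) (Preadditive.rightComp SA.X₁ g) →
        ∃ x : H 𝒰 SA.X₁ 2, ∀ φ : SA.X₁ ⟶ C, mapId φ 2 x = χ φ := by
  classical
  obtain ⟨W, hW, hWle⟩ := 𝒰.directed U' hU' U₁ hU₁
  have hWn := 𝒰.normal W hW
  have hWU' : W ≤ U' := hWle.trans inf_le_left
  have hWU₁ : W ≤ U₁ := hWle.trans inf_le_right
  have hfin : Finite (G ⧸ W) := by
    have := cf.finiteIndex W hW
    exact Subgroup.finite_quotient_of_finiteIndex
  have : Fintype (G ⧸ W) := Fintype.ofFinite _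
  have : Fintype (layerSub U₀ W) := Fintype.ofFinite _
  have hdvdW : (m : k) ∣ ((Nat.card (G ⧸ W) : ℕ) : k) := by
    rw [ClassFormation.card_quot_mul U₁ W hWU₁]
    push_cast
    exact Dvd.dvd.mul_left hdvd _
  exact hg_of_N3_of_NTc hSA g cf m hm0 hm U₀ W hW (hWU'.trans hle) hRtriv hdvdW
    (hN3.mono hle W hWU') (hNTc W hW (hWU'.trans hle))

end Packaged

end Fermat.Agent.CFT.D.Realize
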