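/-
PROJECT C, Layer D, slice D2e, part 5 (helper6): the FIELD-LEVEL form of the contract (N3).

For `L/K` a finite Galois extension of fields algebraic over `ℚ` (types, `[Algebra K L]`), `S` a set
of rational primes and `p : ℕ`:

  (N3-field)  `∀ x : J L, ∃ c₀ : CS K S, toCS K S (normJ K L x) = c₀ ^ p`
              ("`N_{L/K} C_S(L) ⊆ C_S(K)^p`", in helper11's idele model and helper7's `normJ`)

implies `NormDiv (repCS L S) (galHom K L).range p`, i.e. `Nm_H A ⊆ p • A^H` for the
`Gal(L/ℚ)`-module `A = C_S(L)` and `H = Gal(L/K)`.  Together with `NormDiv.of_isLocRep` (⊗ k) and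
`N3.of_equiv` (the layer dictionary of C7-CF) this gives `Realize.N3`.
-/
import Mathlib
import Fermat.Agent.CFT.D.RealizeAdapters
import Fermat.Agent.CFT.C6.IdeleNorm
import Fermat.Agent.CFT.Idele.SRep

set_option autoImplicit false

noncomputable section

namespace Fermat.Agent.CFT.D.Realize

open Fermat.Agent.CFT.Idele Fermat.Agent.CFT.C6.IdeleNorm

section Field

variable (K L : Type) [Field K] [Field L] [Algebra ℚ K] [Algebra ℚ L] [Algebra K L]
  [IsScalarTower ℚ K L] [Algebra.IsAlgebraic ℚ K] [Algebra.IsAlgebraic ℚ L]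
  [FiniteDimensional K L] [IsGalois K L] (S : Set Nat.Primes)

omit [FiniteDimensional K L] [IsGalois K L] in
/-- Classes coming from `K` are fixed by `Gal(L/K)`. -/
theorem smul_CS_map_inclHom (σ : L ≃ₐ[K] L) (c₀ : CS K S) :
    galHom K L σ • CS.map (inclHom K L) c₀ = CS.map (inclHom K L) c₀ := by
  obtain ⟨y, rfl⟩ := toCS_surjective K S c₀
  rw [CS.map_toCS, smul_toCS, J.smul_map_of_fixes _ _ (galHom_inclHom K L σ) y]

/-- The product of the conjugates of an `S`-idele class is the image of the norm. -/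
theorem prod_smul_toCS (x : J L) :
    ∏ σ : L ≃ₐ[K] L, galHom K L σ • toCS L S x =
      CS.map (inclHom K L) (toCS K S (normJ K L x)) := by
  rw [CS.map_toCS, map_normJ, map_prod]
  rfl

/-- **(N3), field-level form ⟹ `NormDiv`** for the `Gal(L/ℚ)`-module `C_S(L)` and the subgroup
`Gal(L/K)`. -/
theorem normDiv_repCS (p : ℕ) [Fintype (galHom K L).range]
    (h : ∀ x : J L, ∃ c₀ : CS K S, toCS K S (normJ K L x) = c₀ ^ p) :
    NormDiv (repCS L S) (galHom K L).range (p : ℤ) := by
  classical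
  refine NormDiv.of_mul (galHom K L).range (p : ℤ) fun c => ?_
  obtain ⟨x, rfl⟩ := toCS_surjective L S c
  obtain ⟨c₀, hc₀⟩ := h x
  refine ⟨CS.map (inclHom K L) c₀, ?_, ?_⟩
  · rintro _ ⟨σ, rfl⟩
    exact smul_CS_map_inclHom K L S σ c₀
  · rw [zpow_natCast, ← map_pow, ← hc₀, ← prod_smul_toCS]
    exact (Fintype.prod_equiv (MonoidHom.ofInjective (galHom_injective K L)).toEquiv
      (fun σ : L ≃ₐ[K] L => galHom K L σ • toCS L S x)
      (fun g : (galHom K L).range => (g : L ≃ₐ[ℚ] L) • toCS L S x) (fun σ => rfl)).symm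

omit [Algebra.IsAlgebraic ℚ L] in
/-- Idelic reformulation of the hypothesis: the norm of every idele of `L` is a `p`-th power
times a principal idele times an idele which is a unit outside `S` and trivial at `S`. -/
theorem exists_toCS_normJ_eq_pow (p : ℕ)
    (h : ∀ x : J L, ∃ y : J K, ∃ z ∈ (diag K).range ⊔ US K S, normJ K L x = y ^ p * z) (x : J L) :
    ∃ c₀ : CS K S, toCS K S (normJ K L x) = c₀ ^ p := by
  obtain ⟨y, z, hz, hxy⟩ := h x
  refine ⟨toCS K S y, ?_⟩
  have hz1 : toCS K S z = 1 := (QuotientGroup.eq_one_iff z).2 hz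
  rw [hxy, map_mul, map_pow, hz1, mul_one]

end Field

end Fermat.Agent.CFT.D.Realize
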