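/-
PROJECT C, Layer D (helper8): the coefficient ring `k = ℤ_(p)` of the final assembly.

`Zp p := Localization (primeTo p)` (the localisation of `ℤ` at the integers prime to `p`), with
every instance and side fact the consumers need, so that all last-mile instantiations use ONE model:

* instances `IsDomain`, `IsPrincipalIdealRing`, `CharZero` (and `IsLocalization (primeTo p) (Zp p)`,
  `Algebra ℤ (Zp p)` from Mathlib);
* `phi p : Zp p →+* ZMod p` (reduction mod `p`), `phi_surjective`, `ker_phi`;
* `addHomsLinear p : A5.AddHomsLinear (Zp p)`;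
* `cyclicCriterion p : TateArgument.CyclicCriterion (Zp p)`;
* `isUnit_natCast_of_coprime`, `natCast_p_ne_zero`, `not_isUnit_p`;
* `card_quotient_span_p : Nat.card (Zp p ⧸ Ideal.span {(p : Zp p)}) = p`;
* `isUnit_algebraMap_of_mem`, `isCoprime_of_mem_primeTo` : the two standard hypotheses on `M`.
-/
import Mathlib
import Fermat.Agent.CFT.C6.LocalisedTate
import Fermat.Agent.CFT.A5.TateLocal

set_option autoImplicit false

noncomputable section

namespace Fermat.Agent.CFT.D.ZpModel

open Fermat.Agent.CFT.A7.BaseChange Fermat.Agent.CFT.C6.LocalisedTate Fermat.Agent.CFT.A5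

variable (p : ℕ) [hp : Fact p.Prime]

/-- The coefficient ring `ℤ_(p)` (a type synonym of `Localization (primeTo p)`, so that its only
`ℤ`-algebra structure in instance search is the canonical `Ring.toIntAlgebra`). -/
def Zp : Type := Localization (primeTo p)

instance commRing_Zp : CommRing (Zp p) := inferInstanceAs (CommRing (Localization (primeTo p)))

instance isLocalization_Zp : IsLocalization (primeTo p) (Zp p) := by
  have h : Ring.toIntAlgebra (Zp p) =
      (inferInstanceAs (Algebra ℤ (Localization (primeTo p)))) := Subsingleton.elim _ _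
  rw [h]
  exact (inferInstance : IsLocalization (primeTo p) (Localization (primeTo p)))

instance isDomain_Zp : IsDomain (Zp p) :=
  IsLocalization.isDomain_of_le_nonZeroDivisors (Zp p) (primeTo_le_nonZeroDivisors p)

instance charZero_Zp : CharZero (Zp p) :=
  ⟨fun a b h => by
    have h1 : algebraMap ℤ (Zp p) (a : ℤ) = algebraMap ℤ (Zp p) (b : ℤ) := by
      rw [map_natCast, map_natCast]; exact h
    exact Int.natCast_inj.1 (algebraMap_int_injective p (Zp p) h1)⟩

instance isPrincipalIdealRing_Zp : IsPrincipalIdealRing (Zp p) where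
  principal I := by
    have h1 := IsLocalization.map_comap (primeTo p) (Zp p) I
    obtain ⟨n, hn⟩ := (IsPrincipalIdealRing.principal (I.comap (algebraMap ℤ (Zp p)))).principal
    refine ⟨⟨algebraMap ℤ (Zp p) n, ?_⟩⟩
    have hn' : Ideal.under ℤ I = Ideal.span {n} := hn
    rw [← h1, hn', Ideal.map_span, Set.image_singleton]

theorem isUnit_algebraMap_of_mem (s : ℤ) (hs : s ∈ primeTo p) :
    IsUnit (algebraMap ℤ (Zp p) s) :=
  IsLocalization.map_units (Zp p) (⟨s, hs⟩ : primeTo p)

theorem isCoprime_of_mem_primeTo (s : ℤ) (hs : s ∈ primeTo p) : IsCoprime s (p : ℤ) := by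
  have := isCoprime_pow_of_mem_primeTo (p := p) hs 1
  rw [pow_one] at this
  exact this.symm

theorem natCast_p_ne_zero : (p : Zp p) ≠ 0 := natCast_prime_ne_zero p (Zp p)

theorem not_isUnit_p : ¬ IsUnit (p : Zp p) := not_isUnit_natCast_prime p (Zp p)

theorem isUnit_natCast_of_coprime (m : ℕ) (hm : m.Coprime p) : IsUnit (m : Zp p) := by
  have hmem : (m : ℤ) ∈ primeTo p := fun h => by
    have h1 : p ∣ m := Int.natCast_dvd_natCast.1 h
    have h2 : p ∣ 1 := by
      have := Nat.dvd_gcd h1 (dvd_refl p)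
      rwa [hm] at this
    exact hp.out.one_lt.ne' (Nat.dvd_one.1 h2)
  have := isUnit_algebraMap_of_mem p (m : ℤ) hmem
  rwa [map_natCast] at this

/-- `ℤ_(p)` satisfies the cyclic criterion. -/
theorem cyclicCriterion : Fermat.Agent.CFT.C6.TateArgument.CyclicCriterion (Zp p) :=
  cyclicCriterion_of_primeTo p (Zp p)

/-- Additive maps of `ℤ_(p)`-modules are linear. -/
theorem addHomsLinear : AddHomsLinear (Zp p) :=
  TateLocal.addHomsLinear_of_isLocalization (primeTo p) (Zp p)

/-- Reduction mod `p`. -/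
def phi : Zp p →+* ZMod p :=
  IsLocalization.lift (M := primeTo p) (g := Int.castRingHom (ZMod p)) (fun s => by
    have hs : ¬ (p : ℤ) ∣ (s : ℤ) := s.2
    rw [eq_intCast]
    have h0 : ((s : ℤ) : ZMod p) ≠ 0 := fun h =>
      hs ((ZMod.intCast_zmod_eq_zero_iff_dvd (s : ℤ) p).1 h)
    exact IsUnit.mk0 _ h0)

theorem phi_algebraMap (n : ℤ) : phi p (algebraMap ℤ (Zp p) n) = (n : ZMod p) := by
  rw [phi, IsLocalization.lift_eq, eq_intCast]

theorem phi_surjective : Function.Surjective (phi p) := fun c => by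
  obtain ⟨n, rfl⟩ := ZMod.intCast_surjective c
  exact ⟨algebraMap ℤ (Zp p) n, phi_algebraMap p n⟩

theorem phi_natCast_p : phi p (p : Zp p) = 0 := by
  rw [map_natCast]; exact ZMod.natCast_self p

/-- Every element of `ℤ_(p)` is `u⁻¹ n` with `n` an integer and `u` a unit coming from `ℤ`. -/
theorem exists_int_mul_unit (x : Zp p) :
    ∃ (n : ℤ) (s : ℤ), s ∈ primeTo p ∧ x * algebraMap ℤ (Zp p) s = algebraMap ℤ (Zp p) n := by
  obtain ⟨⟨n, s⟩, hs⟩ := IsLocalization.surj (primeTo p) x
  exact ⟨n, s.1, s.2, hs⟩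

theorem ker_phi : RingHom.ker (phi p) = Ideal.span {(p : Zp p)} := by
  apply le_antisymm
  · intro x hx
    rw [RingHom.mem_ker] at hx
    obtain ⟨n, s, hs, hxs⟩ := exists_int_mul_unit p x
    have h1 : (n : ZMod p) = 0 := by
      rw [← phi_algebraMap p n, ← hxs, map_mul, hx, zero_mul]
    obtain ⟨m, rfl⟩ := (ZMod.intCast_zmod_eq_zero_iff_dvd n p).1 h1
    obtain ⟨u, hu⟩ := isUnit_algebraMap_of_mem p s hs
    rw [Ideal.mem_span_singleton]
    refine ⟨algebraMap ℤ (Zp p) m * ↑u⁻¹, ?_⟩
    have h2 : x = algebraMap ℤ (Zp p) ((p : ℤ) * m) * ↑u⁻¹ := by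
      rw [← hxs, ← hu, mul_assoc, Units.mul_inv, mul_one]
    rw [h2, map_mul, map_natCast, mul_assoc]
  · rw [Ideal.span_le, Set.singleton_subset_iff]
    exact phi_natCast_p p

theorem card_quotient_span_p : Nat.card (Zp p ⧸ Ideal.span {(p : Zp p)}) = p := by
  rw [← ker_phi]
  rw [Nat.card_congr (RingHom.quotientKerEquivOfSurjective (phi_surjective p)).toEquiv,
    Nat.card_zmod]

end Fermat.Agent.CFT.D.ZpModel
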