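/-
PROJECT C, Layer D (helper8), slice D2b: THEOREM I of the D-plan in abstract form.

A commutative diagram of smooth representations

      M    --i-->  ΦF E --ρ₁--> ΦR E        (short exact, `E` is `p`-divisible)
                    |            |
                   ΦF J --ρ₂--> ΦR J
                    |            |
                   ΦF C --ρ₃--> ΦR C

with short exact columns `SF`, `SR`, together with local data (for every place `v` a group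
homomorphism `r v : Gv v →* G`, a short exact sequence `Sv v : Mv → FD → RD` of
representations of `Gv v` and compatible maps out of the restrictions of `M`, `ΦF J`,
`ΦR J`).  Then, under the vanishing / injectivity hypotheses `(h1)`-`(h4)` (Hilbert 90,
`H¹(C) = 0`, semilocal Shapiro), the classes of `H²(M)` which die in every `H²(Gv, Mv)` are
exactly the image of the double connecting map

      `bdry : H⁰(ΦR C) ⟶ H¹(ΦR E) ⟶ H²(M)`,

and the kernel of `bdry` is `im H⁰(ΦF C) + im H⁰(ΦR J)`.  Everything is level-constant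
cohomology (`Fermat.Agent.CFT.LC`).
-/
import Fermat.Agent.CFT.LC.Elementwise

set_option autoImplicit false

universe u

namespace Fermat.Agent.CFT.D

open CategoryTheory Fermat.Agent.CFT.LC Fermat.Agent.CFT.LC.El

variable {k G : Type u} [CommRing k] [Group G] {𝒰 : Levels G} [𝒰.IsFin]

section Global

variable {SF SR : ShortComplex (Rep.{u} k G)} (hSF : SF.ShortExact) (hSR : SR.ShortExact)
  (smF : IsSmooth 𝒰 SF.X₂) (smR : IsSmooth 𝒰 SR.X₂) (ρ : SF ⟶ SR)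
  {M : Rep.{u} k G} (i : M ⟶ SF.X₁) (hi : i ≫ ρ.τ₁ = 0)
  (hSE : (ShortComplex.mk i ρ.τ₁ hi).ShortExact) (smE : IsSmooth 𝒰 SF.X₁)

/-- The double connecting homomorphism `H⁰(ΦR C) ⟶ H¹(ΦR E) ⟶ H²(M)`. -/
noncomputable def bdry : H 𝒰 SR.X₃ 0 ⟶ H 𝒰 M 2 :=
  lcδ hSR smR 0 1 rfl ≫ lcδ hSE smE 1 2 rfl

lemma bdry_apply (c : H 𝒰 SR.X₃ 0) :
    bdry hSR smR ρ i hi hSE smE c = lcδ hSE smE 1 2 rfl (lcδ hSR smR 0 1 rfl c) := by
  rw [bdry, ConcreteCategory.comp_apply]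

include hSF smF in
/-- `bdry` kills the image of `H⁰(ΦF C)`. -/
lemma bdry_mapId_τ₃ (ψ : H 𝒰 SF.X₃ 0) :
    bdry hSR smR ρ i hi hSE smE (mapId ρ.τ₃ 0 ψ) = 0 := by
  rw [bdry_apply, ← lcδ_naturality_apply hSF smF hSR smR ρ 0 1 rfl ψ]
  exact lcδ_mapId_g_apply hSE smE 1 2 rfl _

/-- `bdry` kills the image of `H⁰(ΦR J)`. -/
lemma bdry_mapId_g (φ : H 𝒰 SR.X₂ 0) :
    bdry hSR smR ρ i hi hSE smE (mapId SR.g 0 φ) = 0 := by
  rw [bdry_apply, lcδ_mapId_g_apply hSR smR 0 1 rfl φ, map_zero]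

include hSF smF in
/-- **The kernel of `bdry`** is `im H⁰(ΦF C) + im H⁰(ΦR J)`, provided `H¹(ΦF J) = 0`. -/
theorem bdry_eq_zero_iff (h2 : ∀ x : H 𝒰 SF.X₂ 1, x = 0) (c : H 𝒰 SR.X₃ 0) :
    bdry hSR smR ρ i hi hSE smE c = 0 ↔
      ∃ (ψ : H 𝒰 SF.X₃ 0) (φ : H 𝒰 SR.X₂ 0), c = mapId ρ.τ₃ 0 ψ + mapId SR.g 0 φ := by
  constructor
  · intro h
    rw [bdry_apply] at h
    -- `δ_R c` comes from `e ∈ H¹(ΦF E)`
    obtain ⟨e, he⟩ := exists_mapId_g_eq hSE smE 1 2 rfl _ h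
    -- `e = δ_F ψ` because `H¹(ΦF J) = 0`
    obtain ⟨ψ, hψ⟩ := exists_lcδ_eq hSF smF 0 1 rfl e (h2 _)
    have h3 : lcδ hSR smR 0 1 rfl (c - mapId ρ.τ₃ 0 ψ) = 0 := by
      rw [map_sub, ← lcδ_naturality_apply hSF smF hSR smR ρ 0 1 rfl ψ, hψ]
      exact sub_eq_zero.2 he.symm
    obtain ⟨φ, hφ⟩ := exists_mapId_g_eq hSR smR 0 1 rfl _ h3
    exact ⟨ψ, φ, by rw [hφ]; abel⟩
  · rintro ⟨ψ, φ, rfl⟩
    rw [map_add, bdry_mapId_τ₃ hSF hSR smF smR ρ i hi hSE smE, bdry_mapId_g, add_zero]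

end Global

section Local

variable {SF SR : ShortComplex (Rep.{u} k G)} (hSF : SF.ShortExact) (hSR : SR.ShortExact)
  (smF : IsSmooth 𝒰 SF.X₂) (smR : IsSmooth 𝒰 SR.X₂) (ρ : SF ⟶ SR)
  {M : Rep.{u} k G} (i : M ⟶ SF.X₁) (hi : i ≫ ρ.τ₁ = 0)
  (hSE : (ShortComplex.mk i ρ.τ₁ hi).ShortExact) (smE : IsSmooth 𝒰 SF.X₁)

variable {ι : Type*} {Gv : ι → Type u} [∀ v, Group (Gv v)] (r : ∀ v, Gv v →* G)
  {𝒰v : ∀ v, Levels (Gv v)} [∀ v, (𝒰v v).IsFin]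
  (hr : ∀ v, Levels.Continuous (r v) (𝒰v v) 𝒰)
  {Sv : ∀ v, ShortComplex (Rep.{u} k (Gv v))} (hSv : ∀ v, (Sv v).ShortExact)
  (smv : ∀ v, IsSmooth (𝒰v v) (Sv v).X₂)
  (m : ∀ v, Rep.res (r v) M ⟶ (Sv v).X₁) (f : ∀ v, Rep.res (r v) SF.X₂ ⟶ (Sv v).X₂)
  (g : ∀ v, Rep.res (r v) SR.X₂ ⟶ (Sv v).X₃)
  (c1 : ∀ v, (Rep.resFunctor (r v)).map (i ≫ SF.f) ≫ f v = m v ≫ (Sv v).f)
  (c2 : ∀ v, (Rep.resFunctor (r v)).map ρ.τ₂ ≫ g v = f v ≫ (Sv v).g)

/-- The morphism from the restriction of the row `M → ΦF E → ΦR E` to the local row. -/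
noncomputable def locRow (v : ι) :
    (ShortComplex.mk i ρ.τ₁ hi).map (Rep.resFunctor (r v)) ⟶ Sv v where
  τ₁ := m v
  τ₂ := (Rep.resFunctor (r v)).map SF.f ≫ f v
  τ₃ := (Rep.resFunctor (r v)).map SR.f ≫ g v
  comm₁₂ := by
    change m v ≫ (Sv v).f = (Rep.resFunctor (r v)).map i ≫ (Rep.resFunctor (r v)).map SF.f ≫ f v
    rw [← c1 v, Functor.map_comp, Category.assoc]
  comm₂₃ := by
    change ((Rep.resFunctor (r v)).map SF.f ≫ f v) ≫ (Sv v).g =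
      (Rep.resFunctor (r v)).map ρ.τ₁ ≫ (Rep.resFunctor (r v)).map SR.f ≫ g v
    rw [Category.assoc, ← c2 v, ← Category.assoc, ← Category.assoc, ← Functor.map_comp,
      ← Functor.map_comp, ρ.comm₁₂]

include c1 c2 hSv smv in
/-- Classes in the image of `bdry` are locally trivial. -/
theorem loc_bdry (v : ι) (c : H 𝒰 SR.X₃ 0) :
    map (A := M) (B := (Sv v).X₁) (hr v) (m v) 2 (bdry hSR smR ρ i hi hSE smE c) = 0 := by
  rw [bdry_apply]
  have h := lcδ_map_apply (hr v) hSE smE (hSv v) (smv v) (locRow ρ i hi r m f g c1 c2 v) 1 2 rfl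
    (lcδ hSR smR 0 1 rfl c)
  refine h.trans ?_
  have h2 : map (A := SR.X₁) (B := (Sv v).X₃) (hr v)
      ((Rep.resFunctor (r v)).map SR.f ≫ g v) 1 (lcδ hSR smR 0 1 rfl c) = 0 := by
    rw [← mapId_map_apply (hr v) SR.f (g v) 1, mapId_f_lcδ_apply hSR smR 0 1 rfl c,
      map_zero]
  change lcδ (hSv v) (smv v) 1 2 rfl (map (A := SR.X₁) (B := (Sv v).X₃) (hr v)
      ((Rep.resFunctor (r v)).map SR.f ≫ g v) 1 (lcδ hSR smR 0 1 rfl c)) = 0
  rw [h2, map_zero]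

include hSF smF c1 c2 hSv smv in
/-- **Locally trivial classes are in the image of `bdry`**, under the hypotheses
`(h1) H¹(ΦF C) = 0`, `(h3) H¹(Gv, FD) = 0`, `(h4a)` `H²(ΦF J)` injects into the product of the
local `H²(FD)`, `(h4b)` `H¹(ΦR J)` injects into the product of the local `H¹(RD)`. -/
theorem exists_bdry_eq (h1 : ∀ x : H 𝒰 SF.X₃ 1, x = 0)
    (h3 : ∀ v, ∀ x : H (𝒰v v) (Sv v).X₂ 1, x = 0)
    (h4a : ∀ x : H 𝒰 SF.X₂ 2,
      (∀ v, map (A := SF.X₂) (B := (Sv v).X₂) (hr v) (f v) 2 x = 0) → x = 0)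
    (h4b : ∀ x : H 𝒰 SR.X₂ 1,
      (∀ v, map (A := SR.X₂) (B := (Sv v).X₃) (hr v) (g v) 1 x = 0) → x = 0)
    (x : H 𝒰 M 2)
    (hx : ∀ v, map (A := M) (B := (Sv v).X₁) (hr v) (m v) 2 x = 0) :
    ∃ c : H 𝒰 SR.X₃ 0, bdry hSR smR ρ i hi hSE smE c = x := by
  -- Step A: the image of `x` in `H²(ΦF E)` vanishes
  have hA : mapId i 2 x = 0 := by
    have hinj : ∀ y : H 𝒰 SF.X₁ 2, mapId SF.f 2 y = 0 → y = 0 := by
      intro y hy
      obtain ⟨z, hz⟩ := exists_lcδ_eq hSF smF 1 2 rfl y hy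
      rw [← hz, h1 z, map_zero]
    apply hinj
    apply h4a
    intro v
    rw [mapId_mapId_apply, mapId_map_apply (hr v), c1 v,
      ← map_mapId_apply (hr v), hx v, map_zero]
  -- Step B: `x = δ_E e`
  obtain ⟨e, he⟩ := exists_lcδ_eq hSE smE 1 2 rfl x hA
  -- Step C: the image of `e` in `H¹(ΦR J)` vanishes
  have hC : mapId SR.f 1 e = 0 := by
    apply h4b
    intro v
    rw [mapId_map_apply (hr v)]
    have hnat := lcδ_map_apply (hr v) hSE smE (hSv v) (smv v)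
      (locRow ρ i hi r m f g c1 c2 v) 1 2 rfl e
    have hzero : lcδ (hSv v) (smv v) 1 2 rfl (map (A := SR.X₁) (B := (Sv v).X₃) (hr v)
        ((Rep.resFunctor (r v)).map SR.f ≫ g v) 1 e) = 0 := by
      refine hnat.symm.trans ?_
      change map (A := M) (B := (Sv v).X₁) (hr v) (m v) 2 (lcδ hSE smE 1 2 rfl e) = 0
      rw [he, hx v]
    obtain ⟨y, hy⟩ := exists_mapId_g_eq (hSv v) (smv v) 1 2 rfl _ hzero
    rw [← hy, h3 v y, map_zero]
  -- Step D: `e = δ_R c`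
  obtain ⟨c, hc⟩ := exists_lcδ_eq hSR smR 0 1 rfl e hC
  exact ⟨c, by rw [bdry_apply, hc, he]⟩

end Local

end Fermat.Agent.CFT.D
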