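/-
PROJECT C, Layer D (helper10): the LOCAL ROWS of THEOREM I (`D/ShaTwo.lean`), generic in the
resolution `SA : R → F → A`.

For a group homomorphism `r : G' →* G`, a short complex `S : E → J → C` of representations of
`G`, a representation `D` of `G'` (think `Q̄_v^× ⊗ k`) and `π : Res J ⟶ D`:

* `pushLoc r ψ P : Res (Hom(P, X)) ⟶ Hom(Res P, D)`, `φ ↦ ψ ∘ φ`, for `ψ : Res X ⟶ D`;
* `Sv r SA D := Hom(Res SA, D)`, the row `Hom(Res A, D) → Hom(Res F, D) → Hom(Res R, D)`;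
* `mLoc`, `fLoc`, `gLoc` : the three vertical maps of `ShaTwo` and their compatibilities
  `c1`, `c2`.
-/
import Fermat.Agent.CFT.A7.HomRepDiv
import Fermat.Agent.CFT.A5c.HomCoind
import Fermat.Agent.CFT.D.ShaTwo

set_option autoImplicit false

universe u

namespace Fermat.Agent.CFT.D.LocalRow

open CategoryTheory Fermat.Agent.CFT.LC Fermat.Agent.CFT.A7.HomRep

variable {k G G' : Type u} [CommRing k] [Group G] [Group G'] (r : G' →* G)

section push

variable {X Y : Rep.{u} k G} {D D' : Rep.{u} k G'}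

/-- Push-forward along `ψ : Res X ⟶ D` on `Hom(P, -)`, after restriction to `G'`:
`Res (Hom(P, X)) ⟶ Hom(Res P, D)`, `φ ↦ ψ ∘ φ`. -/
noncomputable def pushLoc (ψ : Rep.res r X ⟶ D) (P : Rep.{u} k G) :
    Rep.res r (homRep P X) ⟶ homRep (Rep.res r P) D :=
  (A5c.resIhomIso r P X).hom ≫ homMap (Rep.res r P) ψ

lemma toLin_pushLoc (ψ : Rep.res r X ⟶ D) (P : Rep.{u} k G) (φ : (homRep P X).V) (v : P.V) :
    toLin ((pushLoc r ψ P).hom φ) v = ψ.hom (toLin φ v) := rfl

/-- `pushLoc` is natural in the first variable of `Hom`. -/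
lemma pushLoc_homRes (ψ : Rep.res r X ⟶ D) {P₁ P₀ : Rep.{u} k G} (i : P₁ ⟶ P₀) :
    (Rep.resFunctor r).map (homRes i X) ≫ pushLoc r ψ P₁ =
      pushLoc r ψ P₀ ≫ homRes ((Rep.resFunctor r).map i) D := by
  ext φ
  rfl

/-- `pushLoc` is natural in the coefficients on the big group. -/
lemma pushLoc_homMap (g : X ⟶ Y) (ψ : Rep.res r Y ⟶ D) (P : Rep.{u} k G) :
    (Rep.resFunctor r).map (homMap P g) ≫ pushLoc r ψ P =
      pushLoc r ((Rep.resFunctor r).map g ≫ ψ) P := by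
  ext φ
  rfl

/-- `pushLoc` is natural in the coefficients on the small group. -/
lemma pushLoc_comp (ψ : Rep.res r X ⟶ D) (χ : D ⟶ D') (P : Rep.{u} k G) :
    pushLoc r ψ P ≫ homMap (Rep.res r P) χ = pushLoc r (ψ ≫ χ) P := by
  ext φ
  rfl

/-- If `n` kills `P` and `ψ` is bijective on `n`-torsion, then `pushLoc r ψ P` is injective. -/
lemma pushLoc_injective_of_torsion (ψ : Rep.res r X ⟶ D) (P : Rep.{u} k G) (n : k)
    (hn : ∀ a : P.V, n • a = 0) (hinj : ∀ x : X.V, n • x = 0 → ψ.hom x = 0 → x = 0) :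
    Function.Injective (pushLoc r ψ P).hom := by
  intro φ φ' h
  refine homRep_ext fun v => ?_
  rw [← sub_eq_zero]
  apply hinj
  · rw [smul_sub, ← map_smul, ← map_smul, hn, map_zero, map_zero, sub_zero]
  · have h1 : ψ.hom (toLin φ v) = ψ.hom (toLin φ' v) :=
      congrArg (fun θ : (homRep (Rep.res r P) D).V => toLin θ v) h
    rw [map_sub, h1, sub_self]

/-- If `n` kills `P` and `ψ` is bijective on `n`-torsion, then `pushLoc r ψ P` is surjective. -/
lemma pushLoc_surjective_of_torsion (ψ : Rep.res r X ⟶ D) (P : Rep.{u} k G) (n : k)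
    (hn : ∀ a : P.V, n • a = 0) (hinj : ∀ x : X.V, n • x = 0 → ψ.hom x = 0 → x = 0)
    (hsurj : ∀ d : D.V, n • d = 0 → ∃ x : X.V, n • x = 0 ∧ ψ.hom x = d) :
    Function.Surjective (pushLoc r ψ P).hom := by
  intro θ
  -- the `n`-torsion submodules
  let TX : Submodule k X.V := LinearMap.ker (n • LinearMap.id : X.V →ₗ[k] X.V)
  let TD : Submodule k D.V := LinearMap.ker (n • LinearMap.id : D.V →ₗ[k] D.V)
  have hTX : ∀ x : X.V, x ∈ TX ↔ n • x = 0 := fun x => by
    change (n • LinearMap.id : X.V →ₗ[k] X.V) x = 0 ↔ _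
    rw [LinearMap.smul_apply, LinearMap.id_apply]
  have hTD : ∀ d : D.V, d ∈ TD ↔ n • d = 0 := fun d => by
    change (n • LinearMap.id : D.V →ₗ[k] D.V) d = 0 ↔ _
    rw [LinearMap.smul_apply, LinearMap.id_apply]
  let ψT : TX →ₗ[k] TD := (ψ.hom.toLinearMap.comp TX.subtype).codRestrict TD fun x => by
    rw [hTD]
    change n • ψ.hom (x : X.V) = 0
    rw [← map_smul, (hTX _).1 x.2, map_zero]
  have hψT : Function.Bijective ψT := by
    constructor
    · rw [← LinearMap.ker_eq_bot, LinearMap.ker_eq_bot']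
      intro x hx
      apply Subtype.ext
      exact hinj x.1 ((hTX _).1 x.2) (congrArg Subtype.val hx)
    · intro d
      obtain ⟨x, hx, hxd⟩ := hsurj d.1 ((hTD _).1 d.2)
      exact ⟨⟨x, (hTX _).2 hx⟩, Subtype.ext hxd⟩
  let e : TX ≃ₗ[k] TD := LinearEquiv.ofBijective ψT hψT
  let θ' : P.V →ₗ[k] TD := (toLin θ).codRestrict TD fun v => by
    rw [hTD, ← map_smul, hn, map_zero]
  refine ⟨toLin.symm (TX.subtype ∘ₗ e.symm.toLinearMap ∘ₗ θ'), ?_⟩
  refine homRep_ext fun v => ?_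
  rw [toLin_pushLoc]
  change ψ.hom ((e.symm (θ' v) : TX) : X.V) = toLin θ v
  have h1 : e (e.symm (θ' v)) = θ' v := e.apply_symm_apply _
  exact congrArg Subtype.val h1

/-- If `n` kills `P` and `ψ` is bijective on `n`-torsion, then `pushLoc r ψ P` is an isomorphism. -/
lemma isIso_pushLoc_of_torsion (ψ : Rep.res r X ⟶ D) (P : Rep.{u} k G) (n : k)
    (hn : ∀ a : P.V, n • a = 0) (hinj : ∀ x : X.V, n • x = 0 → ψ.hom x = 0 → x = 0)
    (hsurj : ∀ d : D.V, n • d = 0 → ∃ x : X.V, n • x = 0 ∧ ψ.hom x = d) :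
    IsIso (pushLoc r ψ P) := by
  have hbij : Function.Bijective (pushLoc r ψ P).hom :=
    ⟨pushLoc_injective_of_torsion r ψ P n hn hinj,
      pushLoc_surjective_of_torsion r ψ P n hn hinj hsurj⟩
  have : IsIso ((forget (Rep.{u} k G')).map (pushLoc r ψ P)) :=
    (isIso_iff_bijective _).2 hbij
  exact isIso_of_reflects_iso _ (forget (Rep.{u} k G'))

end push

section row

variable (SA S : ShortComplex (Rep.{u} k G)) (D : Rep.{u} k G') (π : Rep.res r S.X₂ ⟶ D)

/-- The local row `Hom(Res A, D) → Hom(Res F, D) → Hom(Res R, D)`. -/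
noncomputable abbrev Sv : ShortComplex (Rep.{u} k G') := homSC (SA.map (Rep.resFunctor r)) D

/-- The local row is short exact when `n` kills `A`, `R` is `k`-projective and `D` is
`n`-divisible. -/
theorem Sv_shortExact {SA : ShortComplex (Rep.{u} k G)} (hSA : SA.ShortExact)
    [Module.Projective k SA.X₁.V] (n : k) (hn : ∀ a : SA.X₃.V, n • a = 0)
    (hD : ∀ x : D.V, ∃ y : D.V, n • y = x) : (Sv r SA D).ShortExact := by
  have hres : (SA.map (Rep.resFunctor r)).ShortExact := (Rep.shortExact_res r).mpr hSA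
  have : Module.Projective k (SA.map (Rep.resFunctor r)).X₁.V :=
    ‹Module.Projective k SA.X₁.V›
  exact homSC_shortExact_of_divisible hres n
    (exists_f_eq_smul_of_smul_eq_zero hres n hn) D hD

variable {D}

/-- `Res (Hom(A, E)) ⟶ Hom(Res A, D)`, `φ ↦ π ∘ S.f ∘ φ`. -/
noncomputable def mLoc : Rep.res r (homRep SA.X₃ S.X₁) ⟶ (Sv r SA D).X₁ :=
  pushLoc r ((Rep.resFunctor r).map S.f ≫ π) SA.X₃

/-- `Res (Hom(F, J)) ⟶ Hom(Res F, D)`, `φ ↦ π ∘ φ`. -/
noncomputable def fLoc : Rep.res r (homRep SA.X₂ S.X₂) ⟶ (Sv r SA D).X₂ :=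
  pushLoc r π SA.X₂

/-- `Res (Hom(R, J)) ⟶ Hom(Res R, D)`, `φ ↦ π ∘ φ`. -/
noncomputable def gLoc : Rep.res r (homRep SA.X₁ S.X₂) ⟶ (Sv r SA D).X₃ :=
  pushLoc r π SA.X₁

/-- Compatibility `(c1)` of `D/ShaTwo.lean`. -/
lemma c1 :
    (Rep.resFunctor r).map (homRes SA.g S.X₁ ≫ homMap SA.X₂ S.f) ≫ fLoc r SA S π =
      mLoc r SA S π ≫ (Sv r SA D).f := by
  ext φ
  rfl

/-- Compatibility `(c2)` of `D/ShaTwo.lean`. -/
lemma c2 :
    (Rep.resFunctor r).map (homRes SA.f S.X₂) ≫ gLoc r SA S π =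
      fLoc r SA S π ≫ (Sv r SA D).g := by
  ext φ
  rfl

end row

section coh

open Fermat.Agent.CFT.LC.El

variable {r} {𝒰 : Levels G} {𝒰' : Levels G'} (hr : Levels.Continuous r 𝒰' 𝒰)

/-- Composing the restriction with an isomorphism of coefficients does not change the kernel. -/
lemma map_eq_zero_iff_of_isIso {M : Rep.{u} k G} {N : Rep.{u} k G'} (β : Rep.res r M ⟶ N)
    [IsIso β] (n : ℕ) (x : H 𝒰 M n) :
    map (A := M) (B := N) hr β n x = 0 ↔
      map (A := M) (B := Rep.res r M) hr (𝟙 _) n x = 0 := by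
  have h1 : map (A := M) (B := N) hr β n x =
      mapId β n (map (A := M) (B := Rep.res r M) hr (𝟙 _) n x) := by
    rw [map_mapId_apply hr (𝟙 _) β n x, Category.id_comp]
  rw [h1]
  constructor
  · intro h
    have h2 := congrArg (mapId (𝒰 := 𝒰') (inv β) n) h
    rw [mapId_mapId_apply, IsIso.hom_inv_id, mapId_one_apply, map_zero] at h2
    exact h2
  · intro h
    rw [h, map_zero]

variable (SA S : ShortComplex (Rep.{u} k G)) {D : Rep.{u} k G'} (π : Rep.res r S.X₂ ⟶ D)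

/-- **The local condition of THEOREM I is local triviality**: if `n` kills `A` and
`Res E ⟶ Res J ⟶ D` is bijective on `n`-torsion, a class of `H²(G, Hom(A, E))` dies under
`mLoc` iff its restriction to `G'` vanishes. -/
theorem map_mLoc_eq_zero_iff (n : k) (hn : ∀ a : SA.X₃.V, n • a = 0)
    (hinj : ∀ x : S.X₁.V, n • x = 0 → π.hom (S.f.hom x) = 0 → x = 0)
    (hsurj : ∀ d : D.V, n • d = 0 → ∃ x : S.X₁.V, n • x = 0 ∧ π.hom (S.f.hom x) = d)
    (m : ℕ) (x : H 𝒰 (homRep SA.X₃ S.X₁) m) :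
    map (A := homRep SA.X₃ S.X₁) (B := (Sv r SA D).X₁) hr (mLoc r SA S π) m x = 0 ↔
      map (A := homRep SA.X₃ S.X₁) (B := Rep.res r (homRep SA.X₃ S.X₁)) hr (𝟙 _) m x = 0 := by
  have : IsIso (mLoc r SA S π) :=
    isIso_pushLoc_of_torsion r ((Rep.resFunctor r).map S.f ≫ π) SA.X₃ n hn hinj hsurj
  exact map_eq_zero_iff_of_isIso hr (mLoc r SA S π) m x

end coh

end Fermat.Agent.CFT.D.LocalRow
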