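/-
PROJECT C, Layer D (helper23), slice D2f part 1: FINITE BIPRODUCT DECOMPOSITIONS
`J = ⊕_{v ∈ ι} J_v` of representations and their effect on level-constant cohomology.

The decomposition is given by biproduct DATA in the preadditive category `Rep k G`
(`BiprodData J Jv`: projections `p v : J ⟶ Jv v`, inclusions `i v : Jv v ⟶ J` with
`i v ≫ p v = 𝟙`, `i v ≫ p v' = 0` for `v ≠ v'`, `∑ v, p v ≫ i v = 𝟙`), so that any model of the
`S`-idele module `J_S = ∏_{q ∈ S} J_q` can be plugged in.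

Exports:
* `BiprodData.hom P`, `BiprodData.res φ`: transport through `Hom(P, -)` and restriction;
* `BiprodData.mapId_decomp`, `BiprodData.eq_zero_of_forall_mapId_p`: decomposition of `LC.H 𝒰 J n`;
* `BiprodData.eq_zero_of_forall_map`: joint injectivity of the localisation maps on `H(J)` from
  injectivity place by place (this is (ii) of `LocalGlobal`);
* `BiprodData.eq_zero_of_forall_map_pushLoc`: the same for `Hom(P, J)` and the maps `pushLoc` of
  `D/LocalRow.lean`, i.e. (h4a), (h4b) of `ShaTwo.exists_bdry_eq` from the statements for the `J_v`;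
* `BiprodData.frob`, `BiprodData.supp`, `BiprodData.localGlobal`: the hypotheses `LocalGlobal` of
  `D/Pairing.lean` from statements about the single `J_v`.
-/
import Fermat.Agent.CFT.D.Pairing
import Fermat.Agent.CFT.D.LocalRow

set_option autoImplicit false

universe u

namespace Fermat.Agent.CFT.D

open CategoryTheory Fermat.Agent.CFT.LC Fermat.Agent.CFT.LC.El Fermat.Agent.CFT.A7.HomRep

/-- Biproduct data exhibiting `J` as the finite direct sum of the `Jv v` in `Rep k G`. -/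
structure BiprodData {k G : Type u} [CommRing k] [Group G] {ι : Type*} [Fintype ι]
    (J : Rep.{u} k G) (Jv : ι → Rep.{u} k G) where
  /-- the projections -/
  p : ∀ v, J ⟶ Jv v
  /-- the inclusions -/
  i : ∀ v, Jv v ⟶ J
  i_p_self : ∀ v, i v ≫ p v = 𝟙 (Jv v)
  i_p_ne : ∀ v v', v ≠ v' → i v ≫ p v' = 0
  sum_p_i : ∑ v, p v ≫ i v = 𝟙 J

namespace BiprodData

variable {k G : Type u} [CommRing k] [Group G] {ι : Type*} [Fintype ι]
  {J : Rep.{u} k G} {Jv : ι → Rep.{u} k G} (b : BiprodData J Jv)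

/-- Transport of biproduct data through an additive functor. -/
def mapFunctor {G' : Type u} [Group G'] (F : Rep.{u} k G ⥤ Rep.{u} k G') [F.Additive] :
    BiprodData (F.obj J) (fun v => F.obj (Jv v)) where
  p v := F.map (b.p v)
  i v := F.map (b.i v)
  i_p_self v := by rw [← F.map_comp, b.i_p_self, F.map_id]
  i_p_ne v v' h := by rw [← F.map_comp, b.i_p_ne v v' h, F.map_zero]
  sum_p_i := by
    simp_rw [← F.map_comp]
    rw [← F.map_sum, b.sum_p_i, F.map_id]

/-- Biproduct data for `Hom(P, J) = ⊕ Hom(P, J_v)`. -/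
noncomputable def hom (P : Rep.{u} k G) :
    BiprodData (homRep P J) (fun v => homRep P (Jv v)) :=
  b.mapFunctor (Rep.ihom P)

@[simp] lemma hom_p (P : Rep.{u} k G) (v : ι) : (b.hom P).p v = homMap P (b.p v) := rfl

@[simp] lemma hom_i (P : Rep.{u} k G) (v : ι) : (b.hom P).i v = homMap P (b.i v) := rfl

/-- Biproduct data for the restriction along a group homomorphism. -/
noncomputable def res {G' : Type u} [Group G'] (φ : G' →* G) :
    BiprodData (Rep.res φ J) (fun v => Rep.res φ (Jv v)) :=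
  b.mapFunctor (Rep.resFunctor φ)

section Cohomology

variable {𝒰 : Levels G}

omit [Group G] [Fintype ι] in
/-- A finite sum of morphisms of `ModuleCat` is applied termwise. -/
lemma sum_hom_apply {A B : ModuleCat.{u} k} {σ : Type*} (s : Finset σ) (f : σ → (A ⟶ B))
    (y : A) : (∑ j ∈ s, f j : A ⟶ B) y = ∑ j ∈ s, (f j) y := by
  change (∑ j ∈ s, f j : A ⟶ B).hom y = ∑ j ∈ s, (f j).hom y
  rw [ModuleCat.hom_sum, LinearMap.sum_apply]

/-- Every class of `Hⁿ_LC(G, J)` is the sum of its components. -/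
lemma mapId_decomp (n : ℕ) (y : H 𝒰 J n) :
    y = ∑ v, mapId (b.i v) n (mapId (b.p v) n y) := by
  have h1 : mapId (𝒰 := 𝒰) (∑ v, b.p v ≫ b.i v) n y = y := by
    rw [b.sum_p_i, LC.mapId_id]
    rfl
  rw [mapId_sum] at h1
  conv_lhs => rw [← h1]
  rw [sum_hom_apply]
  refine Finset.sum_congr rfl (fun v _ => ?_)
  rw [mapId_mapId_apply]

/-- A class of `Hⁿ_LC(G, J)` all of whose components vanish is zero. -/
lemma eq_zero_of_forall_mapId_p (n : ℕ) (y : H 𝒰 J n) (h : ∀ v, mapId (b.p v) n y = 0) :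
    y = 0 := by
  rw [b.mapId_decomp n y]
  exact Finset.sum_eq_zero (fun v _ => by rw [h v, map_zero])

/-- A class supported at the single index `v`. -/
lemma eq_mapId_i_of_forall_ne (n : ℕ) (y : H 𝒰 J n) (v : ι)
    (h : ∀ v', v' ≠ v → mapId (b.p v') n y = 0) :
    y = mapId (b.i v) n (mapId (b.p v) n y) := by
  classical
  conv_lhs => rw [b.mapId_decomp n y]
  rw [Finset.sum_eq_single v]
  · intro v' _ hv'
    rw [h v' hv', map_zero]
  · intro hv
    exact absurd (Finset.mem_univ v) hv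

/-- The component at `v'` of a class pushed in from `J_v` is zero for `v' ≠ v`. -/
lemma mapId_p_mapId_i_of_ne (n : ℕ) {v v' : ι} (h : v ≠ v') (y : H 𝒰 (Jv v) n) :
    mapId (b.p v') n (mapId (b.i v) n y) = 0 := by
  rw [mapId_mapId_apply, b.i_p_ne v v' h, mapId_zero_hom]
  rfl

lemma mapId_p_mapId_i_self (n : ℕ) (v : ι) (y : H 𝒰 (Jv v) n) :
    mapId (b.p v) n (mapId (b.i v) n y) = y := by
  rw [mapId_mapId_apply, b.i_p_self, LC.mapId_id]
  rfl

end Cohomology

section Local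

variable {𝒰 : Levels G} {Gv : ι → Type u} [∀ v, Group (Gv v)] (r : ∀ v, Gv v →* G)
  {𝒰v : ∀ v, Levels (Gv v)} (hr : ∀ v, Levels.Continuous (r v) (𝒰v v) 𝒰)
  {D : ∀ v, Rep.{u} k (Gv v)} (π' : ∀ v, Rep.res (r v) (Jv v) ⟶ D v)

/-- The localisation map of `J` at `v`: project to `J_v`, then localise. -/
noncomputable def loc (v : ι) : Rep.res (r v) J ⟶ D v :=
  (Rep.resFunctor (r v)).map (b.p v) ≫ π' v

lemma map_loc (n : ℕ) (v : ι) (y : H 𝒰 J n) :
    map (A := J) (B := D v) (hr v) (b.loc r π' v) n y =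
      map (A := Jv v) (B := D v) (hr v) (π' v) n (mapId (b.p v) n y) := by
  rw [loc, mapId_map_apply]

/-- **Joint injectivity from injectivity place by place.**  If every
`Hⁿ(G, J_v) → Hⁿ(G_v, D_v)` is injective, then a class of `Hⁿ(G, J)` which dies under all
localisation maps `f v` (equal to `loc`) vanishes.  This is (ii) of `LocalGlobal` and, applied to
`b.hom F`, `b.hom R`, the hypotheses (h4a), (h4b) of `ShaTwo.exists_bdry_eq`. -/
theorem eq_zero_of_forall_map (n : ℕ)
    (hinj : ∀ v, ∀ y : H 𝒰 (Jv v) n,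
      map (A := Jv v) (B := D v) (hr v) (π' v) n y = 0 → y = 0)
    (f : ∀ v, Rep.res (r v) J ⟶ D v) (hf : ∀ v, f v = b.loc r π' v)
    (y : H 𝒰 J n) (hy : ∀ v, map (A := J) (B := D v) (hr v) (f v) n y = 0) : y = 0 := by
  apply b.eq_zero_of_forall_mapId_p n y
  intro v
  apply hinj v
  rw [← b.map_loc r hr π' n v y, ← hf v]
  exact hy v

/-- **Frobenius reciprocity for `J` from Frobenius reciprocity for the `J_v`**: a local morphism
into `D_v` lifts to a global morphism into `J` whose other components vanish. -/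
theorem frob {R : Rep.{u} k G}
    (hfrob : ∀ v, ∀ χ : Rep.res (r v) R ⟶ D v, ∃ φ : R ⟶ Jv v,
      (Rep.resFunctor (r v)).map φ ≫ π' v = χ)
    (v : ι) (χ : Rep.res (r v) R ⟶ D v) :
    ∃ φ : R ⟶ J, (Rep.resFunctor (r v)).map φ ≫ b.loc r π' v = χ ∧
      ∀ v', v' ≠ v → (Rep.resFunctor (r v')).map φ ≫ b.loc r π' v' = 0 := by
  obtain ⟨φ, hφ⟩ := hfrob v χ
  refine ⟨φ ≫ b.i v, ?_, ?_⟩
  · rw [loc, ← Category.assoc, ← Functor.map_comp, Category.assoc, b.i_p_self, Category.comp_id,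
      hφ]
  · intro v' hv'
    rw [loc, ← Category.assoc, ← Functor.map_comp, Category.assoc, b.i_p_ne v v' (Ne.symm hv'),
      Limits.comp_zero, Functor.map_zero, Limits.zero_comp]

/-- **Support condition (i) of `LocalGlobal`**: a class of `H²(G, J)` whose localisations away
from `v` vanish and which dies in `H²(G, C)` is zero, provided localisation is injective place by
place and `H²(G, J_v) → H²(G, C)` is injective. -/
theorem supp {C : Rep.{u} k G} (g : J ⟶ C) (n : ℕ)
    (hinj : ∀ v, ∀ y : H 𝒰 (Jv v) n,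
      map (A := Jv v) (B := D v) (hr v) (π' v) n y = 0 → y = 0)
    (hg : ∀ v, ∀ y : H 𝒰 (Jv v) n, mapId (b.i v ≫ g) n y = 0 → y = 0)
    (v : ι) (y : H 𝒰 J n)
    (h1 : ∀ v', v' ≠ v → map (A := J) (B := D v') (hr v') (b.loc r π' v') n y = 0)
    (h2 : mapId g n y = 0) : y = 0 := by
  have h3 : y = mapId (b.i v) n (mapId (b.p v) n y) := by
    apply b.eq_mapId_i_of_forall_ne n y v
    intro v' hv'
    apply hinj v'
    rw [← b.map_loc r hr π' n v' y]
    exact h1 v' hv'
  have h4 : mapId (b.p v) n y = 0 := by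
    apply hg v
    rw [← mapId_mapId_apply, ← h3]
    exact h2
  rw [h3, h4, map_zero]

end Local

section HomLocal

open Fermat.Agent.CFT.D.LocalRow

variable {𝒰 : Levels G} {Gv : ι → Type u} [∀ v, Group (Gv v)] (r : ∀ v, Gv v →* G)
  {𝒰v : ∀ v, Levels (Gv v)} (hr : ∀ v, Levels.Continuous (r v) (𝒰v v) 𝒰)
  {D : ∀ v, Rep.{u} k (Gv v)} (π' : ∀ v, Rep.res (r v) (Jv v) ⟶ D v)

/-- The localisation maps `pushLoc` (helper10's `D/LocalRow.lean`) of `Hom(P, J)` are the `loc`
of the biproduct data `b.hom P`. -/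
lemma pushLoc_loc (P : Rep.{u} k G) (v : ι) :
    pushLoc (r v) (b.loc r π' v) P =
      (b.hom P).loc r (fun v => pushLoc (r v) (π' v) P) v := by
  rw [loc, ← pushLoc_homMap]
  rfl

/-- **(h4a)/(h4b) of `ShaTwo.exists_bdry_eq` for `J = ⊕ J_v`** (in the `pushLoc` shape of
`D/LocalRow.lean`: `fLoc`, `gLoc`) from the statements for the single `J_v`: a class of
`Hⁿ(G, Hom(P, J))` dying in all `Hⁿ(G_v, Hom(Res_v P, D_v))` vanishes. -/
theorem eq_zero_of_forall_map_pushLoc (P : Rep.{u} k G) (n : ℕ)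
    (hinj : ∀ v, ∀ y : H 𝒰 (homRep P (Jv v)) n,
      map (A := homRep P (Jv v)) (B := homRep (Rep.res (r v) P) (D v)) (hr v)
        (pushLoc (r v) (π' v) P) n y = 0 → y = 0)
    (y : H 𝒰 (homRep P J) n)
    (hy : ∀ v, map (A := homRep P J) (B := homRep (Rep.res (r v) P) (D v)) (hr v)
      (pushLoc (r v) (b.loc r π' v) P) n y = 0) : y = 0 :=
  (b.hom P).eq_zero_of_forall_map r hr (fun v => pushLoc (r v) (π' v) P) n hinj
    (fun v => pushLoc (r v) (b.loc r π' v) P) (fun v => b.pushLoc_loc r π' P v) y hy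

end HomLocal

section LocalGlobal

variable {𝒰 : Levels G} {SA : ShortComplex (Rep.{u} k G)}
  {Gv : ι → Type u} [∀ v, Group (Gv v)] (r : ∀ v, Gv v →* G)
  {𝒰v : ∀ v, Levels (Gv v)}
  (hr : ∀ v, Levels.Continuous (r v) (𝒰v v) 𝒰)
  {C : Rep.{u} k G} (g : J ⟶ C)
  {D : ∀ v, Rep.{u} k (Gv v)} (π' : ∀ v, Rep.res (r v) (Jv v) ⟶ D v)

/-- **The hypotheses `LocalGlobal` of `D/Pairing.lean` for `J = ⊕ J_v`** from statements about the
single summands: (inj) `H²(G, J_v) → H²(G_v, D_v)` injective, (frob) Frobenius reciprocity for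
`J_v`, (hg) `H²(G, J_v) → H²(G, C)` injective, and local non-degeneracy. -/
theorem localGlobal
    (hinj : ∀ v, ∀ y : H 𝒰 (Jv v) 2,
      map (A := Jv v) (B := D v) (hr v) (π' v) 2 y = 0 → y = 0)
    (hfrob : ∀ v, ∀ χ : Rep.res (r v) SA.X₁ ⟶ D v, ∃ φ : SA.X₁ ⟶ Jv v,
      (Rep.resFunctor (r v)).map φ ≫ π' v = χ)
    (hg : ∀ v, ∀ y : H 𝒰 (Jv v) 2, mapId (b.i v ≫ g) 2 y = 0 → y = 0)
    (hloc : ∀ v, ∀ z : H (𝒰v v) (Rep.res (r v) SA.X₁) 2,
      (∀ χ : Rep.res (r v) SA.X₁ ⟶ D v, mapId χ 2 z = 0) → z = 0) :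
    LocalGlobal (SA := SA) r hr g (b.loc r π') where
  supp v y h1 h2 := b.supp r hr π' g 2 hinj hg v y h1 h2
  inj y hy := b.eq_zero_of_forall_map r hr π' 2 hinj (b.loc r π') (fun _ => rfl) y hy
  frob v χ := b.frob r π' hfrob v χ
  locNondeg := hloc

end LocalGlobal

end BiprodData

end Fermat.Agent.CFT.D
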