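/-
PROJECT C, Layer D (helper23), slice D2f part 2: FROBENIUS RECIPROCITY from an induced-module
criterion.

For `r : G' →* G`, a representation `Jv` of `G`, a representation `D` of `G'` and
`π' : Res_r Jv ⟶ D` (think `G' = Gal(Q̄_q/ℚ_q)`, `Jv = J_q = colim_F (F ⊗ ℚ_q)^×`,
`D = Q̄_q^×`, `π' =` evaluation at the chosen place), the pair `(Jv, π')` is *induced from* `D` if

* (sep) an element `x` of `Jv` with `π' (g x) = 0` for all `g : G` vanishes;
* (ind) every `r`-equivariant function `f : G → D` (`f (r d * g) = d • f g`) which is right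
  invariant under some level is of the form `g ↦ π' (g x)`.

Then `Hom_G(R, Jv) → Hom_{G'}(Res_r R, D)`, `φ ↦ π' ∘ φ`, is bijective for every smooth `R`
(`frobEquiv`).  Its surjectivity is the hypothesis `hfrob` of `BiprodData.frob` /
`BiprodData.localGlobal` (`D/Biprod.lean`), i.e. (iii) of `LocalGlobal` (`D/Pairing.lean`).

The smooth induced module `sInd 𝒰 D' B` of `LC/SmoothInd.lean` with `sIndEv` is induced in this
sense (`inducedFrom_sInd`).
-/
import Fermat.Agent.CFT.LC.SmoothInd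
import Fermat.Agent.CFT.D.Biprod

set_option autoImplicit false

universe u

namespace Fermat.Agent.CFT.D.Frobenius

open CategoryTheory Fermat.Agent.CFT.LC

variable {k G G' : Type u} [CommRing k] [Group G] [Group G']

section Core

variable (r : G' →* G) {Jv : Rep.{u} k G} {D : Rep.{u} k G'} (π' : Rep.res r Jv ⟶ D)

/-- (sep): the functions `g ↦ π' (g x)` separate the elements of `Jv`. -/
def SepPoints : Prop := ∀ x : Jv.V, (∀ g : G, π'.hom (Jv.ρ g x) = 0) → x = 0

variable {r π'}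

lemma SepPoints.eq_of_forall (h : SepPoints r π') {x y : Jv.V}
    (hxy : ∀ g : G, π'.hom (Jv.ρ g x) = π'.hom (Jv.ρ g y)) : x = y := by
  rw [← sub_eq_zero]
  apply h
  intro g
  rw [map_sub, map_sub, hxy g, sub_self]

/-- Uniqueness in Frobenius reciprocity. -/
theorem SepPoints.lift_unique (h : SepPoints r π') {R : Rep.{u} k G} (φ₁ φ₂ : R ⟶ Jv)
    (h12 : (Rep.resFunctor r).map φ₁ ≫ π' = (Rep.resFunctor r).map φ₂ ≫ π') : φ₁ = φ₂ := by
  ext m
  apply h.eq_of_forall
  intro g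
  have h1 : ∀ φ : R ⟶ Jv, π'.hom (Jv.ρ g (φ.hom m)) =
      ((Rep.resFunctor r).map φ ≫ π').hom (R.ρ g m) := by
    intro φ
    rw [← Rep.hom_comm_apply]
    rfl
  exact (h1 φ₁).trans ((congrArg (fun ψ => ψ.hom (R.ρ g m)) h12).trans (h1 φ₂).symm)

/-- **Core of Frobenius reciprocity**: if for every `m : R` the function `g ↦ χ (g m)` is of the
form `g ↦ π' (g x)`, then `χ` lifts to a morphism `R ⟶ Jv`. -/
theorem SepPoints.exists_lift_of_forall_exists (h : SepPoints r π') {R : Rep.{u} k G}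
    (χ : Rep.res r R ⟶ D)
    (hex : ∀ m : R.V, ∃ x : Jv.V, ∀ g : G, π'.hom (Jv.ρ g x) = χ.hom (R.ρ g m)) :
    ∃ φ : R ⟶ Jv, (Rep.resFunctor r).map φ ≫ π' = χ := by
  choose x hx using hex
  have hadd : ∀ m m', x (m + m') = x m + x m' := by
    intro m m'
    apply h.eq_of_forall
    intro g
    rw [hx, map_add, map_add, map_add, map_add, hx, hx]
  have hsmul : ∀ (c : k) m, x (c • m) = c • x m := by
    intro c m
    apply h.eq_of_forall
    intro g
    rw [hx, map_smul, map_smul, map_smul, map_smul, hx]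
  have hρ : ∀ (g₀ : G) m, x (R.ρ g₀ m) = Jv.ρ g₀ (x m) := by
    intro g₀ m
    apply h.eq_of_forall
    intro g
    rw [hx, ← Module.End.mul_apply, ← map_mul, ← Module.End.mul_apply, ← map_mul, hx]
  refine ⟨Rep.ofHom ⟨{ toFun := x, map_add' := hadd, map_smul' := hsmul }, fun g => ?_⟩, ?_⟩
  · ext m
    exact hρ g m
  · ext m
    have := hx m 1
    rw [map_one, map_one] at this
    exact this

end Core

section Induced

variable (𝒰 : Levels G) (r : G' →* G) {Jv : Rep.{u} k G} {D : Rep.{u} k G'}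
  (π' : Rep.res r Jv ⟶ D)

/-- `(Jv, π')` is (smoothly) induced from the representation `D` of `G'` along `r : G' →* G`. -/
structure InducedFrom : Prop where
  /-- the functions `g ↦ π' (g x)` separate the elements of `Jv` -/
  sep : SepPoints r π'
  /-- every smooth `r`-equivariant function `G → D` is of the form `g ↦ π' (g x)` -/
  ind : ∀ f : G → D.V, (∀ (d : G') (g : G), f (r d * g) = D.ρ d (f g)) →
    (∃ U ∈ 𝒰.sets, ∀ g, ∀ u ∈ U, f (g * u) = f g) → ∃ x : Jv.V, ∀ g : G, π'.hom (Jv.ρ g x) = f g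

variable {𝒰 r π'}

omit [Group G'] in
/-- The function `g ↦ χ (g m)` attached to a local morphism `χ` and `m : R`. -/
lemma equivariant_apply {R : Rep.{u} k G} [Group G'] {r : G' →* G} {D : Rep.{u} k G'}
    (χ : Rep.res r R ⟶ D) (m : R.V) (d : G') (g : G) :
    χ.hom (R.ρ (r d * g) m) = D.ρ d (χ.hom (R.ρ g m)) := by
  rw [← Rep.hom_comm_apply, map_mul, Module.End.mul_apply]
  rfl

/-- **Frobenius reciprocity, existence**: for an induced pair `(Jv, π')` and a smooth `R`, every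
morphism `χ : Res_r R ⟶ D` of representations of `G'` is `π' ∘ Res φ` for a morphism
`φ : R ⟶ Jv` of representations of `G`. -/
theorem InducedFrom.exists_lift (h : InducedFrom 𝒰 r π') {R : Rep.{u} k G} (hR : IsSmooth 𝒰 R)
    (χ : Rep.res r R ⟶ D) : ∃ φ : R ⟶ Jv, (Rep.resFunctor r).map φ ≫ π' = χ := by
  apply h.sep.exists_lift_of_forall_exists χ
  intro m
  apply h.ind (fun g => χ.hom (R.ρ g m)) (fun d g => equivariant_apply χ m d g)
  obtain ⟨U, hU, hUm⟩ := hR m
  refine ⟨U, hU, fun g u hu => ?_⟩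
  rw [map_mul, Module.End.mul_apply, hUm u hu]

/-- **Frobenius reciprocity at one level**: the same for a single subgroup `U` acting trivially on
`R`, when (ind) is only known for functions right invariant under `U`. -/
theorem SepPoints.exists_lift_of_level (h : SepPoints r π') (U : Subgroup G)
    (hind : ∀ f : G → D.V, (∀ (d : G') (g : G), f (r d * g) = D.ρ d (f g)) →
      (∀ g, ∀ u ∈ U, f (g * u) = f g) → ∃ x : Jv.V, ∀ g : G, π'.hom (Jv.ρ g x) = f g)
    {R : Rep.{u} k G} (hR : ∀ u ∈ U, ∀ m : R.V, R.ρ u m = m) (χ : Rep.res r R ⟶ D) :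
    ∃ φ : R ⟶ Jv, (Rep.resFunctor r).map φ ≫ π' = χ := by
  apply h.exists_lift_of_forall_exists χ
  intro m
  apply hind (fun g => χ.hom (R.ρ g m)) (fun d g => equivariant_apply χ m d g)
  intro g u hu
  rw [map_mul, Module.End.mul_apply, hR u hu]

variable (π') in
/-- The map `Hom_G(R, Jv) →+ Hom_{G'}(Res_r R, D)`, `φ ↦ π' ∘ Res φ`. -/
noncomputable def frobHom (R : Rep.{u} k G) : (R ⟶ Jv) →+ (Rep.res r R ⟶ D) where
  toFun φ := (Rep.resFunctor r).map φ ≫ π'
  map_zero' := by rw [Functor.map_zero, Limits.zero_comp]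
  map_add' φ φ' := by rw [Functor.map_add, Preadditive.add_comp]

@[simp] lemma frobHom_apply (R : Rep.{u} k G) (φ : R ⟶ Jv) :
    frobHom π' R φ = (Rep.resFunctor r).map φ ≫ π' := rfl

/-- **Frobenius reciprocity** as an additive equivalence
`Hom_G(R, Jv) ≃+ Hom_{G'}(Res_r R, D)`, `φ ↦ π' ∘ Res φ`. -/
noncomputable def InducedFrom.frobEquiv (h : InducedFrom 𝒰 r π') {R : Rep.{u} k G}
    (hR : IsSmooth 𝒰 R) : (R ⟶ Jv) ≃+ (Rep.res r R ⟶ D) :=
  AddEquiv.ofBijective (frobHom π' R)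
    ⟨fun φ₁ φ₂ h12 => h.sep.lift_unique φ₁ φ₂ h12, fun χ => h.exists_lift hR χ⟩

@[simp] lemma InducedFrom.frobEquiv_apply (h : InducedFrom 𝒰 r π') {R : Rep.{u} k G}
    (hR : IsSmooth 𝒰 R) (φ : R ⟶ Jv) :
    h.frobEquiv hR φ = (Rep.resFunctor r).map φ ≫ π' := rfl

end Induced

section SInd

variable (𝒰 : Levels G) (D' : Subgroup G) (B : Rep.{u} k D')

/-- The smooth induced module `sInd 𝒰 D' B` with the evaluation `sIndEv` is induced from `B`. -/
theorem inducedFrom_sInd : InducedFrom 𝒰 D'.subtype (sIndEv 𝒰 D' B) where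
  sep := by
    intro x hx
    refine iFn_ext fun g => ?_
    have := hx g
    rw [sIndEv_apply, iFn_ρ, one_mul] at this
    rw [this]
    rfl
  ind := by
    intro f hf1 hf2
    refine ⟨iMk f (fun d g => hf1 d g) hf2, fun g => ?_⟩
    rw [sIndEv_apply, iFn_ρ, one_mul]
    rfl

end SInd

section Biprod

variable {ι : Type*} [Fintype ι] {J : Rep.{u} k G} {Jv : ι → Rep.{u} k G} (b : BiprodData J Jv)
  {𝒰 : Levels G} {Gv : ι → Type u} [∀ v, Group (Gv v)] (r : ∀ v, Gv v →* G)
  {D : ∀ v, Rep.{u} k (Gv v)} (π' : ∀ v, Rep.res (r v) (Jv v) ⟶ D v)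

/-- **(iii) of `LocalGlobal` for `J = ⊕ J_v` with every `(J_v, π'_v)` induced**: every local
morphism `Res_v R ⟶ D_v` on a smooth `R` is the `v`-component of a global morphism `R ⟶ J` whose
other components vanish. -/
theorem frob_of_inducedFrom (h : ∀ v, InducedFrom 𝒰 (r v) (π' v)) {R : Rep.{u} k G}
    (hR : IsSmooth 𝒰 R) (v : ι) (χ : Rep.res (r v) R ⟶ D v) :
    ∃ φ : R ⟶ J, (Rep.resFunctor (r v)).map φ ≫ b.loc r π' v = χ ∧
      ∀ v', v' ≠ v → (Rep.resFunctor (r v')).map φ ≫ b.loc r π' v' = 0 :=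
  b.frob r π' (fun v χ => (h v).exists_lift hR χ) v χ

end Biprod

end Fermat.Agent.CFT.D.Frobenius
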