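/-
PROJECT C, Layer D (helper13): a class of `H²_LC(G, A)` from a CYCLIC LAYER.

`U` a level with `G ⧸ U = ⟨σ⟩` cyclic of order `n > 1`, `g : A ⟶ C`, `a₀ ∈ (A^U)^σ`.  The class
`y₀ := infl [stdCocycle a₀] ∈ H²_LC(G, A)` of the carry cocycle of `a₀` satisfies
* `r • y₀ = 0` as soon as `r • a₀` is a norm from `A^U`;
* `g_* y₀ ≠ 0` in `H²_LC(G, C)` as soon as `g a₀` is NOT a norm from `C^U` and inflation
  `H²(G ⧸ U, C^U) → H²_LC(G, C)` is injective (class formations: `cf.infl_two_injective`).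

This is input (B) of `D/Supp.lean` (the one class needed for hypothesis (i) `LocalGlobal.supp`):
for `A = J_q`, `C = C_S ⊗ ℤ_(p)`, `U` the level of a layer `Q_m` of the cyclotomic `ℤ_p`-tower,
`a₀ = t₀ ⊗ 1` with `t₀ ∈ ℚ_q^×`, `r = p`.
-/
import Fermat.Agent.CFT.A7.Limit
import Fermat.Agent.CFT.C6.CyclicLayer

set_option autoImplicit false

noncomputable section

namespace Fermat.Agent.CFT.D.CyclicClass

open CategoryTheory groupCohomology Fermat.Agent.CFT.LC Fermat.Agent.CFT.A7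
  Fermat.Agent.CFT.Local.CyclicH2

section Finite

variable {k Γ : Type} [CommRing k] [Group Γ] {A C : Rep.{0} k Γ} (g : A ⟶ C)
  {σ : Γ} {n : ℕ} (hord : orderOf σ = n) (hn : 0 < n) (hgen : ∀ x : Γ, ∃ i : ℕ, σ ^ i = x)

include hord hn hgen in
/-- `r • [stdCocycle a₀] = 0` iff `r • a₀` is a norm. -/
theorem smul_H2π_stdCocycle_eq_zero_iff (h1 : 1 < n) (r : k) {a₀ : A} (ha₀ : A.ρ σ a₀ = a₀) :
    r • (H2π A).hom (stdCocycle hord hn hgen ha₀) = 0 ↔ ∃ b : A, r • a₀ = nrm A σ n b := by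
  rw [← map_smul]
  have h := H2π_eq_zero_iff_trSum (A := A) hord hgen (r • stdCocycle hord hn hgen ha₀)
  have h2 : trSum A σ n (⇑(r • stdCocycle hord hn hgen ha₀) : Γ × Γ → A) = r • a₀ := by
    have : (⇑(r • stdCocycle hord hn hgen ha₀) : Γ × Γ → A) =
        r • (⇑(stdCocycle hord hn hgen ha₀) : Γ × Γ → A) := rfl
    rw [this, Fermat.Agent.CFT.C6.CyclicLayer.trSum_smul, trSum_stdCocycle hord hn hgen h1 ha₀]
  rw [h2] at h
  exact h

include hord hn hgen in
/-- The image of `[stdCocycle a₀]` under a coefficient map vanishes iff the image of `a₀` is a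
norm. -/
theorem map_H2π_stdCocycle_eq_zero_iff (h1 : 1 < n) {a₀ : A} (ha₀ : A.ρ σ a₀ = a₀) :
    (groupCohomology.map (MonoidHom.id Γ) g 2).hom ((H2π A).hom (stdCocycle hord hn hgen ha₀)) = 0 ↔
      ∃ c : C, g.hom a₀ = nrm C σ n c := by
  have h0 := congrArg (fun φ => φ.hom (stdCocycle hord hn hgen ha₀))
    (H2π_comp_map (A := A) (B := C) (MonoidHom.id Γ) g)
  simp only [ModuleCat.hom_comp, LinearMap.comp_apply] at h0
  rw [h0]
  have h := H2π_eq_zero_iff_trSum (A := C) hord hgen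
    ((mapCocycles₂ (MonoidHom.id Γ) g).hom (stdCocycle hord hn hgen ha₀))
  have h2 : trSum C σ n
      (⇑((mapCocycles₂ (MonoidHom.id Γ) g).hom (stdCocycle hord hn hgen ha₀)) : Γ × Γ → C) =
      g.hom a₀ := by
    have h3 : ∀ x : Γ × Γ,
        ((mapCocycles₂ (MonoidHom.id Γ) g).hom (stdCocycle hord hn hgen ha₀)) x =
          g.hom (stdCocycle hord hn hgen ha₀ x) := fun x => rfl
    unfold trSum
    simp_rw [h3]
    rw [← map_sum]
    congr 1
    exact trSum_stdCocycle hord hn hgen h1 ha₀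
  rw [h2] at h
  exact h

end Finite

section LC

variable {k G : Type} [CommRing k] [Group G] (𝒰 : Levels G) {A C : Rep.{0} k G} (g : A ⟶ C)
  (U : Subgroup G) [U.Normal] (hU : U ∈ 𝒰.sets)
  {σ : G ⧸ U} {n : ℕ} (hord : orderOf σ = n) (h1 : 1 < n) (hgen : ∀ x : G ⧸ U, ∃ i : ℕ, σ ^ i = x)

include hord h1 hgen in
/-- **One class from a cyclic layer.** -/
theorem exists_class (hinfl : Function.Injective (infl 𝒰 C U hU 2).hom) (r : k)
    (a₀ : A.quotientToInvariants U) (ha₀ : (A.quotientToInvariants U).ρ σ a₀ = a₀)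
    (hr : ∃ b : A.quotientToInvariants U, r • a₀ = nrm (A.quotientToInvariants U) σ n b)
    (hne : ∀ c : C.quotientToInvariants U,
      (layerMap g U).hom a₀ ≠ nrm (C.quotientToInvariants U) σ n c) :
    ∃ y₀ : H 𝒰 A 2, r • y₀ = 0 ∧ (mapId (𝒰 := 𝒰) g 2).hom y₀ ≠ 0 := by
  have hn : 0 < n := by omega
  refine ⟨(infl 𝒰 A U hU 2).hom ((H2π (A.quotientToInvariants U)).hom
    (stdCocycle hord hn hgen ha₀)), ?_, ?_⟩
  · rw [← map_smul,
      (smul_H2π_stdCocycle_eq_zero_iff hord hn hgen h1 r ha₀).2 hr, map_zero]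
  · rw [infl_mapId]
    intro h0
    have h2 := (injective_iff_map_eq_zero _).1 hinfl _ h0
    obtain ⟨c, hc⟩ := (map_H2π_stdCocycle_eq_zero_iff (layerMap g U) hord hn hgen h1 ha₀).1 h2
    exact hne c hc

end LC

end Fermat.Agent.CFT.D.CyclicClass
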