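/-
PROJECT C, Layer D, slice D4-abstract (helper28): the abstract combination of THEOREM I
(`D/ShaTwo`), THEOREM II in push-forward form (`D/Pairing`) and the counting step (`D/Count`).

Data: two short exact sequences of representations of `G`,

    `SA : R → F → A`      (a resolution of `A` by lattices)   and   `S : E → J → C`,

and, for every place `v`, a group `Gv v → G`, a representation `D v` of `Gv v` and a morphism
`π v : Res_v J ⟶ D v`.  Put `M := Hom(A, E)`, `Φ_B X := Hom(B, X)`.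

* `SFof`, `SRof`, `rhoOf`: the rows `Φ_F(E → J → C)`, `Φ_R(E → J → C)` and the restriction
  `Φ_F ⟶ Φ_R`; the third short exact sequence `M → Φ_F E → Φ_R E` is `homSC SA E`.
* `Svof`, `locM`, `locF`, `locR`: the local rows `Hom(A, D_v) → Hom(F, D_v) → Hom(R, D_v)` and the
  localisation maps `φ ↦ π_v ∘ φ`.
* `bdryHom : Hom_G(R, C) →+ H²(G, M)`: the double connecting map of THEOREM I read on
  `H⁰(Φ_R C) = Hom_G(R, C)`; `bdryHom_eq_zero_iff`: its kernel is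
  `W = im Hom_G(F, C) + im Hom_G(R, J)`.
* `sha2loc`: the classes of `H²(G, M)` dying in every `H²(Gv v, Hom(A, D_v))`;
  `sha2locEquiv : Hom_G(R, C) ⧸ W ≃+ sha2loc`.
* `sha2 r hr A = ⨅ v, ker (res_v)` on `H²(G, A)` (any `A`); `sha2loc_eq_sha2` when the local
  coefficient maps `Hom(A, E) → Hom(A, D_v)` are injective on `H²(Gv v, -)`, e.g. isomorphisms
  (`locHom_bijective`, `isIso_locHom`, `mapId_injective_of_isIso`).
* `smul_mem_subW`: `p • Hom_G(R, C) ⊆ im Hom_G(F, C)` as soon as `p F ⊆ R`.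
* `mem_sha2loc_iff_exists_bdryHom` (B1), `bdryHom_eq_zero_iff_exists` (B2), `assembleTheta` with
  `assembleTheta_injective` (T1), `assembleTheta_comp_f/_comp_g` (T2), `exists_assembleTheta_eq`
  (T3): the package `(b, θ)` consumed by `D/EvalPairing`.
* `card_sha1_eq_card_sha2loc`, `card_sha1_eq_card_sha2`: `|Ш¹(A)| = |Ш²(Hom(A, E))|` (both
  finite), when `Hom_G(R, C) ⧸ W` is finite and `H²(G, C)` has exactly `p` elements killed by `p`.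
-/
import Fermat.Agent.CFT.D.ShaTwo
import Fermat.Agent.CFT.D.Pairing
import Fermat.Agent.CFT.D.Count
import Fermat.Agent.CFT.A7.HomRepLC
import Fermat.Agent.CFT.A5c.HomCoind

set_option autoImplicit false

universe u

namespace Fermat.Agent.CFT.D

open CategoryTheory Fermat.Agent.CFT.LC Fermat.Agent.CFT.LC.El Fermat.Agent.CFT.A7.HomRep

variable {k G : Type u} [CommRing k] [Group G]

section Rows

variable (SA S : ShortComplex (Rep.{u} k G))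

/-- The row `Φ_F E → Φ_F J → Φ_F C`. -/
noncomputable abbrev SFof : ShortComplex (Rep.{u} k G) := S.map (Rep.ihom SA.X₂)

/-- The row `Φ_R E → Φ_R J → Φ_R C`. -/
noncomputable abbrev SRof : ShortComplex (Rep.{u} k G) := S.map (Rep.ihom SA.X₁)

/-- The restriction `Φ_F ⟶ Φ_R` along `R → F`. -/
noncomputable def rhoOf : SFof SA S ⟶ SRof SA S where
  τ₁ := homRes SA.f S.X₁
  τ₂ := homRes SA.f S.X₂
  τ₃ := homRes SA.f S.X₃
  comm₁₂ := homRes_homMap SA.f S.f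
  comm₂₃ := homRes_homMap SA.f S.g

/-- `M = Hom(A, E) ⟶ Φ_F E`. -/
noncomputable abbrev iOf : homRep SA.X₃ S.X₁ ⟶ (SFof SA S).X₁ := homRes SA.g S.X₁

lemma iOf_rhoOf : iOf SA S ≫ (rhoOf SA S).τ₁ = 0 := (homSC SA S.X₁).zero

end Rows

section Global

variable {𝒰 : Levels G} [𝒰.IsFin]
variable {SA S : ShortComplex (Rep.{u} k G)}
  (hSF : (SFof SA S).ShortExact) (hSR : (SRof SA S).ShortExact)
  (hSE : (homSC SA S.X₁).ShortExact)
  (smFJ : IsSmooth 𝒰 (homRep SA.X₂ S.X₂)) (smRJ : IsSmooth 𝒰 (homRep SA.X₁ S.X₂))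
  (smFE : IsSmooth 𝒰 (homRep SA.X₂ S.X₁))

/-- The double connecting map of THEOREM I, `Hom_G(R, C) = H⁰(Φ_R C) → H¹(Φ_R E) → H²(M)`. -/
noncomputable def bdryHom : (SA.X₁ ⟶ S.X₃) →+ H 𝒰 (homRep SA.X₃ S.X₁) 2 :=
  (bdry (𝒰 := 𝒰) (SF := SFof SA S) (SR := SRof SA S) hSR smRJ (rhoOf SA S) (iOf SA S)
      (iOf_rhoOf SA S) hSE smFE).hom.toAddMonoidHom.comp
    (h0HomEquiv 𝒰 SA.X₁ S.X₃).symm.toAddEquiv.toAddMonoidHom

lemma bdryHom_apply (φ : SA.X₁ ⟶ S.X₃) :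
    bdryHom hSR hSE smRJ smFE φ =
      bdry (𝒰 := 𝒰) (SF := SFof SA S) (SR := SRof SA S) hSR smRJ (rhoOf SA S) (iOf SA S)
        (iOf_rhoOf SA S) hSE smFE ((h0HomEquiv 𝒰 SA.X₁ S.X₃).symm φ) := rfl

include hSF smFJ in
/-- **Kernel of `bdryHom`** `= W = im Hom_G(F, C) + im Hom_G(R, J)`, given `(h2) H¹(Φ_F J) = 0`. -/
theorem bdryHom_eq_zero_iff (h2 : ∀ x : H 𝒰 (homRep SA.X₂ S.X₂) 1, x = 0) (φ : SA.X₁ ⟶ S.X₃) :
    bdryHom hSR hSE smRJ smFE φ = 0 ↔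
      φ ∈ subW (Preadditive.leftComp S.X₃ SA.f) (Preadditive.rightComp SA.X₁ S.g) := by
  refine (bdry_eq_zero_iff (SF := SFof SA S) (SR := SRof SA S) hSF hSR smFJ smRJ
    (rhoOf SA S) (iOf SA S) (iOf_rhoOf SA S) hSE smFE h2
    ((h0HomEquiv 𝒰 SA.X₁ S.X₃).symm φ)).trans ?_
  constructor
  · rintro ⟨ψ, χ, h⟩
    have h' : φ = SA.f ≫ h0HomEquiv 𝒰 SA.X₂ S.X₃ ψ + h0HomEquiv 𝒰 SA.X₁ S.X₂ χ ≫ S.g :=
      ((h0HomEquiv 𝒰 SA.X₁ S.X₃).apply_symm_apply φ).symm.trans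
        ((congrArg (h0HomEquiv 𝒰 SA.X₁ S.X₃) h).trans
          ((map_add (h0HomEquiv 𝒰 SA.X₁ S.X₃) _ _).trans
            (congrArg₂ (· + ·) (h0HomEquiv_homRes 𝒰 SA.f ψ) (h0HomEquiv_homMap 𝒰 S.g χ))))
    rw [h']
    exact AddSubgroup.add_mem _
      (AddSubgroup.mem_sup_left ⟨h0HomEquiv 𝒰 SA.X₂ S.X₃ ψ, rfl⟩)
      (AddSubgroup.mem_sup_right ⟨h0HomEquiv 𝒰 SA.X₁ S.X₂ χ, rfl⟩)
  · intro h
    obtain ⟨a, ⟨ψ, rfl⟩, b, ⟨χ, rfl⟩, hab⟩ := AddSubgroup.mem_sup.1 h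
    refine ⟨(h0HomEquiv 𝒰 SA.X₂ S.X₃).symm ψ, (h0HomEquiv 𝒰 SA.X₁ S.X₂).symm χ, ?_⟩
    apply (h0HomEquiv 𝒰 SA.X₁ S.X₃).injective
    refine ((h0HomEquiv 𝒰 SA.X₁ S.X₃).apply_symm_apply φ).trans (hab.symm.trans ?_)
    refine Eq.symm ((map_add (h0HomEquiv 𝒰 SA.X₁ S.X₃) _ _).trans
      (congrArg₂ (· + ·)
        ((h0HomEquiv_homRes 𝒰 SA.f ((h0HomEquiv 𝒰 SA.X₂ S.X₃).symm ψ)).trans ?_)
        ((h0HomEquiv_homMap 𝒰 S.g ((h0HomEquiv 𝒰 SA.X₁ S.X₂).symm χ)).trans ?_)))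
    · rw [LinearEquiv.apply_symm_apply]
      rfl
    · rw [LinearEquiv.apply_symm_apply]
      rfl

end Global

section Local

variable {𝒰 : Levels G} [𝒰.IsFin]
variable (SA S : ShortComplex (Rep.{u} k G))
variable {ι : Type*} {Gv : ι → Type u} [∀ v, Group (Gv v)] (r : ∀ v, Gv v →* G)
  {𝒰v : ∀ v, Levels (Gv v)} [∀ v, (𝒰v v).IsFin]
  (hr : ∀ v, Levels.Continuous (r v) (𝒰v v) 𝒰)
  {D : ∀ v, Rep.{u} k (Gv v)} (π : ∀ v, Rep.res (r v) S.X₂ ⟶ D v)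

/-- The local row `Hom(A, D_v) → Hom(F, D_v) → Hom(R, D_v)`. -/
noncomputable abbrev Svof (D : ∀ v, Rep.{u} k (Gv v)) (v : ι) :
    ShortComplex (Rep.{u} k (Gv v)) :=
  homSC (SA.map (Rep.resFunctor (r v))) (D v)

/-- `Res_v Hom(B, X) ⟶ Hom(Res_v B, Y)`, `φ ↦ θ ∘ φ`, for `θ : Res_v X ⟶ Y`. -/
noncomputable def locHom (v : ι) (B X : Rep.{u} k G) {Y : Rep.{u} k (Gv v)}
    (θ : Rep.res (r v) X ⟶ Y) :
    Rep.res (r v) (homRep B X) ⟶ homRep (Rep.res (r v) B) Y :=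
  (Fermat.Agent.CFT.A5c.resIhomIso (r v) B X).hom ≫ homMap (Rep.res (r v) B) θ

lemma toLin_locHom (v : ι) (B X : Rep.{u} k G) {Y : Rep.{u} k (Gv v)}
    (θ : Rep.res (r v) X ⟶ Y) (φ : (homRep B X).V) (b : B.V) :
    toLin ((locHom r v B X θ).hom φ) b = θ.hom (toLin φ b) := rfl

variable {S}

/-- Localisation of `M = Hom(A, E)`: `φ ↦ π_v ∘ (E → J) ∘ φ`. -/
noncomputable abbrev locM (v : ι) :
    Rep.res (r v) (homRep SA.X₃ S.X₁) ⟶ (Svof SA r D v).X₁ :=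
  locHom r v SA.X₃ S.X₁ ((Rep.resFunctor (r v)).map S.f ≫ π v)

/-- Localisation of `Φ_F J`: `φ ↦ π_v ∘ φ`. -/
noncomputable abbrev locF (v : ι) :
    Rep.res (r v) (SFof SA S).X₂ ⟶ (Svof SA r D v).X₂ :=
  locHom r v SA.X₂ S.X₂ (π v)

/-- Localisation of `Φ_R J`: `φ ↦ π_v ∘ φ`. -/
noncomputable abbrev locR (v : ι) :
    Rep.res (r v) (SRof SA S).X₂ ⟶ (Svof SA r D v).X₃ :=
  locHom r v SA.X₁ S.X₂ (π v)

lemma locF_c1 (v : ι) :
    (Rep.resFunctor (r v)).map (iOf SA S ≫ (SFof SA S).f) ≫ locF SA r π v =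
      locM SA r π v ≫ (Svof SA r D v).f := by
  ext φ
  rfl

lemma locR_c2 (v : ι) :
    (Rep.resFunctor (r v)).map (rhoOf SA S).τ₂ ≫ locR SA r π v =
      locF SA r π v ≫ (Svof SA r D v).g := by
  ext φ
  rfl

end Local

section Sha2

variable {𝒰 : Levels G} [𝒰.IsFin]
variable {SA S : ShortComplex (Rep.{u} k G)}
  (hSF : (SFof SA S).ShortExact) (hSR : (SRof SA S).ShortExact)
  (hSE : (homSC SA S.X₁).ShortExact)
  (smFJ : IsSmooth 𝒰 (homRep SA.X₂ S.X₂)) (smRJ : IsSmooth 𝒰 (homRep SA.X₁ S.X₂))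
  (smFE : IsSmooth 𝒰 (homRep SA.X₂ S.X₁))
variable {ι : Type*} {Gv : ι → Type u} [∀ v, Group (Gv v)] (r : ∀ v, Gv v →* G)
  {𝒰v : ∀ v, Levels (Gv v)} [∀ v, (𝒰v v).IsFin]
  (hr : ∀ v, Levels.Continuous (r v) (𝒰v v) 𝒰)
  {D : ∀ v, Rep.{u} k (Gv v)} (π : ∀ v, Rep.res (r v) S.X₂ ⟶ D v)
  (hSv : ∀ v, (Svof SA r D v).ShortExact)
  (smv : ∀ v, IsSmooth (𝒰v v) (homRep (Rep.res (r v) SA.X₂) (D v)))

/-- The classes of `H²(G, Hom(A, E))` which die in every `H²(Gv v, Hom(A, D_v))`. -/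
noncomputable def sha2loc : AddSubgroup (H 𝒰 (homRep SA.X₃ S.X₁) 2) where
  carrier := {x | ∀ v, map (A := homRep SA.X₃ S.X₁) (B := (Svof SA r D v).X₁) (hr v)
    (locM SA r π v) 2 x = 0}
  zero_mem' := fun v => map_zero _
  add_mem' := fun {a b} ha hb v => by
    change map (A := homRep SA.X₃ S.X₁) (B := (Svof SA r D v).X₁) (hr v)
      (locM SA r π v) 2 (a + b) = 0
    rw [map_add, ha v, hb v, add_zero]
  neg_mem' := fun {a} ha v => by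
    change map (A := homRep SA.X₃ S.X₁) (B := (Svof SA r D v).X₁) (hr v)
      (locM SA r π v) 2 (-a) = 0
    rw [map_neg, ha v, neg_zero]

omit [𝒰.IsFin] [∀ v, (𝒰v v).IsFin] in
lemma mem_sha2loc_iff (x : H 𝒰 (homRep SA.X₃ S.X₁) 2) :
    x ∈ sha2loc (SA := SA) r hr π ↔
      ∀ v, map (A := homRep SA.X₃ S.X₁) (B := (Svof SA r D v).X₁) (hr v)
        (locM SA r π v) 2 x = 0 := Iff.rfl

include hSv smv in
/-- Classes in the image of `bdryHom` are locally trivial. -/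
theorem bdryHom_mem_sha2loc (φ : SA.X₁ ⟶ S.X₃) :
    bdryHom hSR hSE smRJ smFE φ ∈ sha2loc (SA := SA) r hr π := fun v =>
  loc_bdry (SF := SFof SA S) (SR := SRof SA S) hSR smRJ (rhoOf SA S) (iOf SA S)
    (iOf_rhoOf SA S) hSE smFE r hr (Sv := Svof SA r D) hSv smv (locM SA r π) (locF SA r π)
    (locR SA r π) (locF_c1 SA r π) (locR_c2 SA r π) v _

include hSF smFJ hSv smv in
/-- **Locally trivial classes are in the image of `bdryHom`** (THEOREM I). -/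
theorem exists_bdryHom_eq (h1 : ∀ x : H 𝒰 (homRep SA.X₂ S.X₃) 1, x = 0)
    (h3 : ∀ v, ∀ x : H (𝒰v v) (homRep (Rep.res (r v) SA.X₂) (D v)) 1, x = 0)
    (h4a : ∀ x : H 𝒰 (homRep SA.X₂ S.X₂) 2,
      (∀ v, map (A := homRep SA.X₂ S.X₂) (B := homRep (Rep.res (r v) SA.X₂) (D v)) (hr v)
        (locHom r v SA.X₂ S.X₂ (π v)) 2 x = 0) → x = 0)
    (h4b : ∀ x : H 𝒰 (homRep SA.X₁ S.X₂) 1,
      (∀ v, map (A := homRep SA.X₁ S.X₂) (B := homRep (Rep.res (r v) SA.X₁) (D v)) (hr v)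
        (locHom r v SA.X₁ S.X₂ (π v)) 1 x = 0) → x = 0)
    (x : H 𝒰 (homRep SA.X₃ S.X₁) 2) (hx : x ∈ sha2loc (SA := SA) r hr π) :
    ∃ φ : SA.X₁ ⟶ S.X₃, bdryHom hSR hSE smRJ smFE φ = x := by
  obtain ⟨c, hc⟩ := exists_bdry_eq (SF := SFof SA S) (SR := SRof SA S) hSF hSR smFJ smRJ
    (rhoOf SA S) (iOf SA S) (iOf_rhoOf SA S) hSE smFE r hr (Sv := Svof SA r D) hSv smv
    (locM SA r π) (locF SA r π) (locR SA r π) (locF_c1 SA r π) (locR_c2 SA r π) h1 h3 h4a h4b x hx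
  refine ⟨h0HomEquiv 𝒰 SA.X₁ S.X₃ c, ?_⟩
  rw [bdryHom_apply]
  refine Eq.trans ?_ hc
  exact congrArg _ ((h0HomEquiv 𝒰 SA.X₁ S.X₃).symm_apply_apply c)

end Sha2

section Quotient

variable {𝒰 : Levels G} [𝒰.IsFin]
variable {SA S : ShortComplex (Rep.{u} k G)}
  (hSF : (SFof SA S).ShortExact) (hSR : (SRof SA S).ShortExact)
  (hSE : (homSC SA S.X₁).ShortExact)
  (smFJ : IsSmooth 𝒰 (homRep SA.X₂ S.X₂)) (smRJ : IsSmooth 𝒰 (homRep SA.X₁ S.X₂))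
  (smFE : IsSmooth 𝒰 (homRep SA.X₂ S.X₁))
variable {ι : Type*} {Gv : ι → Type u} [∀ v, Group (Gv v)] (r : ∀ v, Gv v →* G)
  {𝒰v : ∀ v, Levels (Gv v)} [∀ v, (𝒰v v).IsFin]
  (hr : ∀ v, Levels.Continuous (r v) (𝒰v v) 𝒰)
  {D : ∀ v, Rep.{u} k (Gv v)} (π : ∀ v, Rep.res (r v) S.X₂ ⟶ D v)
  (hSv : ∀ v, (Svof SA r D v).ShortExact)
  (smv : ∀ v, IsSmooth (𝒰v v) (homRep (Rep.res (r v) SA.X₂) (D v)))
  (h1 : ∀ x : H 𝒰 (homRep SA.X₂ S.X₃) 1, x = 0)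
  (h2 : ∀ x : H 𝒰 (homRep SA.X₂ S.X₂) 1, x = 0)
  (h3 : ∀ v, ∀ x : H (𝒰v v) (homRep (Rep.res (r v) SA.X₂) (D v)) 1, x = 0)
  (h4a : ∀ x : H 𝒰 (homRep SA.X₂ S.X₂) 2,
    (∀ v, map (A := homRep SA.X₂ S.X₂) (B := homRep (Rep.res (r v) SA.X₂) (D v)) (hr v)
      (locHom r v SA.X₂ S.X₂ (π v)) 2 x = 0) → x = 0)
  (h4b : ∀ x : H 𝒰 (homRep SA.X₁ S.X₂) 1,
    (∀ v, map (A := homRep SA.X₁ S.X₂) (B := homRep (Rep.res (r v) SA.X₁) (D v)) (hr v)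
      (locHom r v SA.X₁ S.X₂ (π v)) 1 x = 0) → x = 0)

/-- `bdryHom` with values in `sha2`. -/
noncomputable def bdryToSha2loc : (SA.X₁ ⟶ S.X₃) →+ sha2loc (SA := SA) r hr π :=
  (bdryHom hSR hSE smRJ smFE).codRestrict _
    (bdryHom_mem_sha2loc hSR hSE smRJ smFE r hr π hSv smv)

lemma bdryToSha2loc_coe (φ : SA.X₁ ⟶ S.X₃) :
    (bdryToSha2loc hSR hSE smRJ smFE r hr π hSv smv φ : H 𝒰 (homRep SA.X₃ S.X₁) 2) =
      bdryHom hSR hSE smRJ smFE φ := rfl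

include hSF smFJ h1 h3 h4a h4b in
theorem bdryToSha2loc_surjective :
    Function.Surjective (bdryToSha2loc hSR hSE smRJ smFE r hr π hSv smv) := by
  rintro ⟨x, hx⟩
  obtain ⟨φ, hφ⟩ := exists_bdryHom_eq hSF hSR hSE smFJ smRJ smFE r hr π hSv smv h1 h3 h4a h4b x hx
  exact ⟨φ, Subtype.ext hφ⟩

include hSF smFJ h2 in
theorem ker_bdryToSha2loc :
    (bdryToSha2loc hSR hSE smRJ smFE r hr π hSv smv).ker =
      subW (Preadditive.leftComp S.X₃ SA.f) (Preadditive.rightComp SA.X₁ S.g) := by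
  ext φ
  rw [AddMonoidHom.mem_ker, ← bdryHom_eq_zero_iff hSF hSR hSE smFJ smRJ smFE h2 φ]
  constructor
  · intro h
    exact congrArg Subtype.val h
  · intro h
    exact Subtype.ext h

/-- **THEOREM I**: `Hom_G(R, C) ⧸ (im Hom_G(F, C) + im Hom_G(R, J)) ≃+ Ш²(Hom(A, E))`. -/
noncomputable def sha2locEquiv :
    ((SA.X₁ ⟶ S.X₃) ⧸ subW (Preadditive.leftComp S.X₃ SA.f) (Preadditive.rightComp SA.X₁ S.g)) ≃+
      sha2loc (SA := SA) r hr π :=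
  (QuotientAddGroup.quotientAddEquivOfEq
    (ker_bdryToSha2loc hSF hSR hSE smFJ smRJ smFE r hr π hSv smv h2).symm).trans
    (QuotientAddGroup.quotientKerEquivOfSurjective _
      (bdryToSha2loc_surjective hSF hSR hSE smFJ smRJ smFE r hr π hSv smv h1 h3 h4a h4b))

lemma sha2locEquiv_mk (φ : SA.X₁ ⟶ S.X₃) :
    (sha2locEquiv hSF hSR hSE smFJ smRJ smFE r hr π hSv smv h1 h2 h3 h4a h4b
      (QuotientAddGroup.mk φ) : H 𝒰 (homRep SA.X₃ S.X₁) 2) = bdryHom hSR hSE smRJ smFE φ := rfl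

end Quotient

section Exponent

variable {SA S : ShortComplex (Rep.{u} k G)}

/-- `p • Hom_G(R, C) ⊆ im Hom_G(F, C) ⊆ W` as soon as `p F ⊆ R`. -/
theorem smul_mem_subW (hSA : SA.ShortExact) (p : ℕ)
    (hpF : ∀ v : SA.X₂.V, ∃ w : SA.X₁.V, SA.f.hom w = p • v) (φ : SA.X₁ ⟶ S.X₃) :
    p • φ ∈ subW (Preadditive.leftComp S.X₃ SA.f) (Preadditive.rightComp SA.X₁ S.g) := by
  classical
  have hinj : Function.Injective SA.f.hom := (Rep.mono_iff_injective _).1 hSA.mono_f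
  choose w hw using hpF
  have hw_add : ∀ a b, w (a + b) = w a + w b := fun a b =>
    hinj (by rw [map_add, hw, hw, hw, smul_add])
  have hw_smul : ∀ (c : k) a, w (c • a) = c • w a := fun c a =>
    hinj (by rw [map_smul, hw, hw, smul_comm])
  have hw_ρ : ∀ g a, w (SA.X₂.ρ g a) = SA.X₁.ρ g (w a) := fun g a =>
    hinj (by rw [hw, Rep.hom_comm_apply, hw, map_nsmul])
  have hwf : ∀ x, w (SA.f.hom x) = p • x := fun x => hinj (by rw [hw, map_nsmul])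
  let L : SA.X₂.V →ₗ[k] S.X₃.V :=
    { toFun := fun v => φ.hom (w v)
      map_add' := fun a b => by rw [hw_add, map_add]
      map_smul' := fun c a => by rw [hw_smul, map_smul]; rfl }
  let ψ : SA.X₂ ⟶ S.X₃ := Rep.ofHom ⟨L, fun g => by
    ext v
    change φ.hom (w (SA.X₂.ρ g v)) = S.X₃.ρ g (φ.hom (w v))
    rw [hw_ρ, Rep.hom_comm_apply]⟩
  refine AddSubgroup.mem_sup_left ⟨ψ, ?_⟩
  ext x
  change φ.hom (w (SA.f.hom x)) = (p • φ).hom x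
  rw [hwf, map_nsmul]
  rfl

end Exponent

section ShaTwoRes

variable {𝒰 : Levels G}
variable {ι : Type*} {Gv : ι → Type u} [∀ v, Group (Gv v)] (r : ∀ v, Gv v →* G)
  {𝒰v : ∀ v, Levels (Gv v)} (hr : ∀ v, Levels.Continuous (r v) (𝒰v v) 𝒰)

/-- The classes of `H²(G, A)` which are locally trivial: `⨅ v, ker (res_v)`. -/
noncomputable def sha2 (A : Rep.{u} k G) : AddSubgroup (H 𝒰 A 2) where
  carrier := {x | ∀ v, resv r hr v A 2 x = 0}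
  zero_mem' := fun v => map_zero _
  add_mem' := fun {a b} ha hb v => by
    change resv r hr v A 2 (a + b) = 0
    rw [map_add, ha v, hb v, add_zero]
  neg_mem' := fun {a} ha v => by
    change resv r hr v A 2 (-a) = 0
    rw [map_neg, ha v, neg_zero]

lemma mem_sha2_iff (A : Rep.{u} k G) (x : H 𝒰 A 2) :
    x ∈ sha2 r hr A ↔ ∀ v, resv r hr v A 2 x = 0 := Iff.rfl

lemma sha2_eq_iInf (A : Rep.{u} k G) :
    sha2 r hr A = ⨅ v, (resv r hr v A 2).hom.toAddMonoidHom.ker := by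
  ext x
  rw [mem_sha2_iff, AddSubgroup.mem_iInf]
  rfl

/-- An isomorphism of coefficients induces an injection on cohomology. -/
lemma mapId_injective_of_isIso {A B : Rep.{u} k G} (f : A ⟶ B) [IsIso f] (n : ℕ) :
    Function.Injective (mapId (𝒰 := 𝒰) f n) := by
  intro x y hxy
  have h : ∀ z : H 𝒰 A n, mapId (𝒰 := 𝒰) (inv f) n (mapId (𝒰 := 𝒰) f n z) = z := fun z => by
    rw [mapId_mapId_apply, IsIso.hom_inv_id, mapId_one_apply]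
  rw [← h x, ← h y]
  exact congrArg _ hxy

variable {SA S : ShortComplex (Rep.{u} k G)}
  {D : ∀ v, Rep.{u} k (Gv v)} (π : ∀ v, Rep.res (r v) S.X₂ ⟶ D v)

/-- If the local coefficient maps `Hom(A, E) → Hom(A, D_v)` are injective on `H²(Gv v, -)`, the
two versions of `Ш²(Hom(A, E))` agree. -/
theorem sha2loc_eq_sha2
    (hM : ∀ v, Function.Injective (mapId (𝒰 := 𝒰v v) (locM SA r π v) 2)) :
    sha2loc (SA := SA) r hr π = sha2 r hr (homRep SA.X₃ S.X₁) := by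
  ext x
  rw [mem_sha2loc_iff, mem_sha2_iff]
  refine forall_congr' fun v => ?_
  have e : map (A := homRep SA.X₃ S.X₁) (B := (Svof SA r D v).X₁) (hr v) (locM SA r π v) 2 x =
      mapId (𝒰 := 𝒰v v) (locM SA r π v) 2 (resv r hr v (homRep SA.X₃ S.X₁) 2 x) :=
    map_eq_mapId_res (hr v) (locM SA r π v) 2 x
  rw [e]
  constructor
  · intro h
    exact hM v (h.trans (map_zero _).symm)
  · intro h
    rw [h, map_zero]

end ShaTwoRes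

section LocIso

variable {G' : Type u} [Group G'] (φ : G' →* G)

/-- `locHom` for one group homomorphism: `Res Hom(B, X) ⟶ Hom(Res B, Y)`, `f ↦ θ ∘ f`. -/
lemma locHom_bijective_aux (B X : Rep.{u} k G) {Y : Rep.{u} k G'} (θ : Rep.res φ X ⟶ Y) (p : ℕ)
    (hB : ∀ b : B.V, p • b = 0) (hinj : Function.Injective θ.hom)
    (hsurj : ∀ y : Y.V, p • y = 0 → ∃ x : X.V, θ.hom x = y) :
    Function.Bijective
      ((Fermat.Agent.CFT.A5c.resIhomIso φ B X).hom ≫ homMap (Rep.res φ B) θ).hom := by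
  classical
  constructor
  · intro f f' h
    apply homRep_ext (P := B) (X := X)
    intro b
    apply hinj
    exact congrArg (fun ψ => toLin (P := Rep.res φ B) (X := Y) ψ b) h
  · intro ψ
    have hψ : ∀ b : B.V, ∃ x : X.V, θ.hom x = toLin (P := Rep.res φ B) (X := Y) ψ b := fun b =>
      hsurj _ (by
        rw [← map_nsmul (toLin (P := Rep.res φ B) (X := Y) ψ) p b]
        exact (congrArg _ (hB b)).trans (map_zero _))
    choose w hw using hψ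
    let L : B.V →ₗ[k] X.V :=
      { toFun := w
        map_add' := fun a b => hinj (by rw [map_add, hw, hw, hw, map_add])
        map_smul' := fun c a => hinj (by rw [map_smul, hw, hw, map_smul]; rfl) }
    refine ⟨toLin (P := B) (X := X).symm L, ?_⟩
    apply homRep_ext (P := Rep.res φ B) (X := Y)
    intro b
    exact hw b

end LocIso

section LocIso'

variable {ι : Type*} {Gv : ι → Type u} [∀ v, Group (Gv v)] (r : ∀ v, Gv v →* G)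

/-- `locHom r v B X θ` is bijective when `B` is killed by `p`, `θ` is injective and every
element of `Y` killed by `p` is in the image of `θ`. -/
theorem locHom_bijective (v : ι) (B X : Rep.{u} k G) {Y : Rep.{u} k (Gv v)}
    (θ : Rep.res (r v) X ⟶ Y) (p : ℕ) (hB : ∀ b : B.V, p • b = 0)
    (hinj : Function.Injective θ.hom)
    (hsurj : ∀ y : Y.V, p • y = 0 → ∃ x : X.V, θ.hom x = y) :
    Function.Bijective (locHom r v B X θ).hom :=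
  locHom_bijective_aux (r v) B X θ p hB hinj hsurj

theorem isIso_locHom (v : ι) (B X : Rep.{u} k G) {Y : Rep.{u} k (Gv v)}
    (θ : Rep.res (r v) X ⟶ Y) (p : ℕ) (hB : ∀ b : B.V, p • b = 0)
    (hinj : Function.Injective θ.hom)
    (hsurj : ∀ y : Y.V, p • y = 0 → ∃ x : X.V, θ.hom x = y) :
    IsIso (locHom r v B X θ) :=
  (ConcreteCategory.isIso_iff_bijective _).2 (locHom_bijective r v B X θ p hB hinj hsurj)

end LocIso'

section Main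

variable {𝒰 : Levels G} [𝒰.IsFin]
variable {SA S : ShortComplex (Rep.{u} k G)} (hSA : SA.ShortExact) (smA : IsSmooth 𝒰 SA.X₂)
  (hSF : (SFof SA S).ShortExact) (hSR : (SRof SA S).ShortExact)
  (hSE : (homSC SA S.X₁).ShortExact)
  (smFJ : IsSmooth 𝒰 (homRep SA.X₂ S.X₂)) (smRJ : IsSmooth 𝒰 (homRep SA.X₁ S.X₂))
  (smFE : IsSmooth 𝒰 (homRep SA.X₂ S.X₁))
variable {ι : Type*} {Gv : ι → Type u} [∀ v, Group (Gv v)] (r : ∀ v, Gv v →* G)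
  {𝒰v : ∀ v, Levels (Gv v)} [∀ v, (𝒰v v).IsFin]
  (hr : ∀ v, Levels.Continuous (r v) (𝒰v v) 𝒰)
  {D : ∀ v, Rep.{u} k (Gv v)} (π : ∀ v, Rep.res (r v) S.X₂ ⟶ D v)
  (hSv : ∀ v, (Svof SA r D v).ShortExact)
  (smv : ∀ v, IsSmooth (𝒰v v) (homRep (Rep.res (r v) SA.X₂) (D v)))
  (h1 : ∀ x : H 𝒰 (homRep SA.X₂ S.X₃) 1, x = 0)
  (h2 : ∀ x : H 𝒰 (homRep SA.X₂ S.X₂) 1, x = 0)
  (h3 : ∀ v, ∀ x : H (𝒰v v) (homRep (Rep.res (r v) SA.X₂) (D v)) 1, x = 0)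
  (h4a : ∀ x : H 𝒰 (homRep SA.X₂ S.X₂) 2,
    (∀ v, map (A := homRep SA.X₂ S.X₂) (B := homRep (Rep.res (r v) SA.X₂) (D v)) (hr v)
      (locHom r v SA.X₂ S.X₂ (π v)) 2 x = 0) → x = 0)
  (h4b : ∀ x : H 𝒰 (homRep SA.X₁ S.X₂) 1,
    (∀ v, map (A := homRep SA.X₁ S.X₂) (B := homRep (Rep.res (r v) SA.X₁) (D v)) (hr v)
      (locHom r v SA.X₁ S.X₂ (π v)) 1 x = 0) → x = 0)
  (hF1 : ∀ x : H 𝒰 SA.X₂ 1, x = 0)
  (hF1v : ∀ v, ∀ x : H (𝒰v v) (Rep.res (r v) SA.X₂) 1, x = 0)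
  (hc : ∀ y : H 𝒰 SA.X₂ 2, (∀ ψ : SA.X₂ ⟶ S.X₃, mapId ψ 2 y = 0) → y = 0)
  (hf : ∀ x : H 𝒰 SA.X₁ 2, (∀ φ : SA.X₁ ⟶ S.X₃, mapId φ 2 x = 0) → x = 0)
  (hLG : LocalGlobal (SA := SA) r hr S.g π)
  (hg : ∀ χ : (SA.X₁ ⟶ S.X₃) →+ H 𝒰 S.X₃ 2,
    χ ∈ annihW (T := H 𝒰 S.X₃ 2) (Preadditive.leftComp S.X₃ SA.f)
        (Preadditive.rightComp SA.X₁ S.g) →
      ∃ x : H 𝒰 SA.X₁ 2, ∀ φ : SA.X₁ ⟶ S.X₃, mapId φ 2 x = χ φ)
  (p : ℕ) [Fact p.Prime]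
  [Finite ((SA.X₁ ⟶ S.X₃) ⧸
    subW (Preadditive.leftComp S.X₃ SA.f) (Preadditive.rightComp SA.X₁ S.g))]
  (hpF : ∀ v : SA.X₂.V, ∃ w : SA.X₁.V, SA.f.hom w = p • v)
  (hT : Nat.card (torsionP p (H 𝒰 S.X₃ 2)) = p)

include hSF hSR hSE smFJ smRJ smFE hSv smv h1 h2 h3 h4a h4b in
/-- `Ш²(Hom(A, E))` is finite. -/
theorem finite_sha2loc : Finite (sha2loc (SA := SA) r hr π) :=
  Finite.of_equiv _
    (sha2locEquiv hSF hSR hSE smFJ smRJ smFE r hr π hSv smv h1 h2 h3 h4a h4b).toEquiv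

include hSA smA hF1 hF1v hc hf hLG hg hpF hT in
/-- `|Ш¹(A)| = |Hom_G(R, C) ⧸ W|` (THEOREM II + counting). -/
theorem card_sha1_eq_card_quotient :
    Nat.card (sha1 r hr SA.X₃) =
      Nat.card ((SA.X₁ ⟶ S.X₃) ⧸
        subW (Preadditive.leftComp S.X₃ SA.f) (Preadditive.rightComp SA.X₁ S.g)) :=
  (Nat.card_congr (shaOnePushEquiv hSA smA r hr hF1 hF1v hc hf hLG hg).toEquiv).trans
    (card_annihW (T := H 𝒰 S.X₃ 2) (Preadditive.leftComp S.X₃ SA.f)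
      (Preadditive.rightComp SA.X₁ S.g) p (fun x => smul_mem_subW hSA p hpF x) hT)

include hSA smA hF1 hF1v hc hf hLG hg hpF hT in
/-- `Ш¹(A)` is finite. -/
theorem finite_sha1 : Finite (sha1 r hr SA.X₃) := by
  apply Nat.finite_of_card_ne_zero
  rw [card_sha1_eq_card_quotient hSA smA r hr π hF1 hF1v hc hf hLG hg p hpF hT]
  exact Nat.card_pos.ne'

include hSA smA hSF hSR hSE smFJ smRJ smFE hSv smv h1 h2 h3 h4a h4b hF1 hF1v hc hf hLG hg hpF hT in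
/-- **Abstract Poitou–Tate count**: `|Ш¹(A)| = |Ш²(Hom(A, E))|`. -/
theorem card_sha1_eq_card_sha2loc :
    Nat.card (sha1 r hr SA.X₃) = Nat.card (sha2loc (SA := SA) r hr π) :=
  (card_sha1_eq_card_quotient hSA smA r hr π hF1 hF1v hc hf hLG hg p hpF hT).trans
    (Nat.card_congr
      (sha2locEquiv hSF hSR hSE smFJ smRJ smFE r hr π hSv smv h1 h2 h3 h4a h4b).toEquiv)

include hSA smA hSF hSR hSE smFJ smRJ smFE hSv smv h1 h2 h3 h4a h4b hF1 hF1v hc hf hLG hg hpF hT in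
/-- **Abstract Poitou–Tate count**, with `Ш²` defined by pure restriction maps:
`|Ш¹(A)| = |Ш²(Hom(A, E))|`, when the local coefficient maps `Hom(A, E) → Hom(A, D_v)` are
injective on `H²(Gv v, -)`. -/
theorem card_sha1_eq_card_sha2
    (hM : ∀ v, Function.Injective (mapId (𝒰 := 𝒰v v) (locM SA r π v) 2)) :
    Nat.card (sha1 r hr SA.X₃) = Nat.card (sha2 r hr (homRep SA.X₃ S.X₁)) := by
  rw [← sha2loc_eq_sha2 r hr π hM]
  exact card_sha1_eq_card_sha2loc hSA smA hSF hSR hSE smFJ smRJ smFE r hr π hSv smv h1 h2 h3 h4a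
    h4b hF1 hF1v hc hf hLG hg p hpF hT

include hSF hSR hSE smFJ smRJ smFE hSv smv h1 h2 h3 h4a h4b in
/-- `Ш²(Hom(A, E))` (pure restriction form) is finite. -/
theorem finite_sha2
    (hM : ∀ v, Function.Injective (mapId (𝒰 := 𝒰v v) (locM SA r π v) 2)) :
    Finite (sha2 r hr (homRep SA.X₃ S.X₁)) := by
  rw [← sha2loc_eq_sha2 r hr π hM]
  exact finite_sha2loc hSF hSR hSE smFJ smRJ smFE r hr π hSv smv h1 h2 h3 h4a h4b

end Main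

section Shape

/-! ### The package `(b, θ)` in the shape consumed by `D/EvalPairing` (helper8 #861) -/

variable {𝒰 : Levels G} [𝒰.IsFin]
variable {SA S : ShortComplex (Rep.{u} k G)} (hSA : SA.ShortExact) (smA : IsSmooth 𝒰 SA.X₂)
  (hSF : (SFof SA S).ShortExact) (hSR : (SRof SA S).ShortExact)
  (hSE : (homSC SA S.X₁).ShortExact)
  (smFJ : IsSmooth 𝒰 (homRep SA.X₂ S.X₂)) (smRJ : IsSmooth 𝒰 (homRep SA.X₁ S.X₂))
  (smFE : IsSmooth 𝒰 (homRep SA.X₂ S.X₁))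
variable {ι : Type*} {Gv : ι → Type u} [∀ v, Group (Gv v)] (r : ∀ v, Gv v →* G)
  {𝒰v : ∀ v, Levels (Gv v)} [∀ v, (𝒰v v).IsFin]
  (hr : ∀ v, Levels.Continuous (r v) (𝒰v v) 𝒰)
  {D : ∀ v, Rep.{u} k (Gv v)} (π : ∀ v, Rep.res (r v) S.X₂ ⟶ D v)
  (hSv : ∀ v, (Svof SA r D v).ShortExact)
  (smv : ∀ v, IsSmooth (𝒰v v) (homRep (Rep.res (r v) SA.X₂) (D v)))
  (h1 : ∀ x : H 𝒰 (homRep SA.X₂ S.X₃) 1, x = 0)
  (h2 : ∀ x : H 𝒰 (homRep SA.X₂ S.X₂) 1, x = 0)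
  (h3 : ∀ v, ∀ x : H (𝒰v v) (homRep (Rep.res (r v) SA.X₂) (D v)) 1, x = 0)
  (h4a : ∀ x : H 𝒰 (homRep SA.X₂ S.X₂) 2,
    (∀ v, map (A := homRep SA.X₂ S.X₂) (B := homRep (Rep.res (r v) SA.X₂) (D v)) (hr v)
      (locHom r v SA.X₂ S.X₂ (π v)) 2 x = 0) → x = 0)
  (h4b : ∀ x : H 𝒰 (homRep SA.X₁ S.X₂) 1,
    (∀ v, map (A := homRep SA.X₁ S.X₂) (B := homRep (Rep.res (r v) SA.X₁) (D v)) (hr v)
      (locHom r v SA.X₁ S.X₂ (π v)) 1 x = 0) → x = 0)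
  (hF1 : ∀ x : H 𝒰 SA.X₂ 1, x = 0)
  (hF1v : ∀ v, ∀ x : H (𝒰v v) (Rep.res (r v) SA.X₂) 1, x = 0)
  (hc : ∀ y : H 𝒰 SA.X₂ 2, (∀ ψ : SA.X₂ ⟶ S.X₃, mapId ψ 2 y = 0) → y = 0)
  (hf : ∀ x : H 𝒰 SA.X₁ 2, (∀ φ : SA.X₁ ⟶ S.X₃, mapId φ 2 x = 0) → x = 0)
  (hLG : LocalGlobal (SA := SA) r hr S.g π)
  (hg : ∀ χ : (SA.X₁ ⟶ S.X₃) →+ H 𝒰 S.X₃ 2,
    χ ∈ annihW (T := H 𝒰 S.X₃ 2) (Preadditive.leftComp S.X₃ SA.f)
        (Preadditive.rightComp SA.X₁ S.g) →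
      ∃ x : H 𝒰 SA.X₁ 2, ∀ φ : SA.X₁ ⟶ S.X₃, mapId φ 2 x = χ φ)

include hSF smFJ hSv smv h1 h3 h4a h4b in
/-- **(B1)**: a class of `H²(G, Hom(A, E))` is locally trivial iff it is in the image of
`b = bdryHom`. -/
theorem mem_sha2loc_iff_exists_bdryHom (x : H 𝒰 (homRep SA.X₃ S.X₁) 2) :
    (∀ v, map (A := homRep SA.X₃ S.X₁) (B := (Svof SA r D v).X₁) (hr v)
      (locM SA r π v) 2 x = 0) ↔ ∃ h : SA.X₁ ⟶ S.X₃, bdryHom hSR hSE smRJ smFE h = x := by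
  constructor
  · intro hx
    exact exists_bdryHom_eq hSF hSR hSE smFJ smRJ smFE r hr π hSv smv h1 h3 h4a h4b x hx
  · rintro ⟨h, rfl⟩
    exact bdryHom_mem_sha2loc hSR hSE smRJ smFE r hr π hSv smv h

include hSF smFJ hSv smv h1 h3 h4a h4b in
/-- **(B1)**, pure restriction form. -/
theorem mem_sha2_iff_exists_bdryHom
    (hM : ∀ v, Function.Injective (mapId (𝒰 := 𝒰v v) (locM SA r π v) 2))
    (x : H 𝒰 (homRep SA.X₃ S.X₁) 2) :
    (∀ v, resv r hr v (homRep SA.X₃ S.X₁) 2 x = 0) ↔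
      ∃ h : SA.X₁ ⟶ S.X₃, bdryHom hSR hSE smRJ smFE h = x := by
  rw [← mem_sha2_iff, ← sha2loc_eq_sha2 r hr π hM, mem_sha2loc_iff]
  exact mem_sha2loc_iff_exists_bdryHom hSF hSR hSE smFJ smRJ smFE r hr π hSv smv h1 h3 h4a h4b x

include hSF smFJ in
/-- **(B2)**: the kernel of `b = bdryHom` is `im Hom_G(F, C) + im Hom_G(R, J)`. -/
theorem bdryHom_eq_zero_iff_exists (h2 : ∀ x : H 𝒰 (homRep SA.X₂ S.X₂) 1, x = 0)
    (h : SA.X₁ ⟶ S.X₃) :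
    bdryHom hSR hSE smRJ smFE h = 0 ↔
      ∃ (ψ : SA.X₂ ⟶ S.X₃) (φ : SA.X₁ ⟶ S.X₂), h = SA.f ≫ ψ + φ ≫ S.g := by
  rw [bdryHom_eq_zero_iff hSF hSR hSE smFJ smRJ smFE h2 h]
  constructor
  · intro hh
    obtain ⟨a, ⟨ψ, rfl⟩, b, ⟨φ, rfl⟩, hab⟩ := AddSubgroup.mem_sup.1 hh
    exact ⟨ψ, φ, hab.symm⟩
  · rintro ⟨ψ, φ, rfl⟩
    exact AddSubgroup.add_mem _ (AddSubgroup.mem_sup_left ⟨ψ, rfl⟩)
      (AddSubgroup.mem_sup_right ⟨φ, rfl⟩)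

/-- **`θ`**: `Ш¹(A) →+ (Hom_G(R, C) →+ H²(G, C))`, `θ y φ = φ_* (δ y)`. -/
noncomputable def assembleTheta (C : Rep.{u} k G) :
    sha1 r hr SA.X₃ →+ ((SA.X₁ ⟶ C) →+ H 𝒰 C 2) :=
  (theta hSA smA (push 𝒰 SA.X₁ C 2)).comp (sha1 r hr SA.X₃).subtype

omit [∀ v, (𝒰v v).IsFin] in
lemma assembleTheta_apply (C : Rep.{u} k G) (y : sha1 r hr SA.X₃) (φ : SA.X₁ ⟶ C) :
    assembleTheta hSA smA r hr C y φ = mapId φ 2 (lcδ hSA smA 1 2 rfl y.1) := rfl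

/-- `θ` is the coercion of `shaOnePushEquiv`. -/
lemma assembleTheta_eq_coe (y : sha1 r hr SA.X₃) :
    assembleTheta hSA smA r hr S.X₃ y =
      (shaOnePushEquiv hSA smA r hr hF1 hF1v hc hf hLG hg y).1 := rfl

include hF1 hf in
omit [∀ v, (𝒰v v).IsFin] in
/-- **(T1)**: `θ` is injective. -/
theorem assembleTheta_injective :
    Function.Injective (assembleTheta hSA smA r hr S.X₃) := by
  rw [injective_iff_map_eq_zero]
  intro y hy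
  apply Subtype.ext
  exact theta_injective hSA smA (push 𝒰 SA.X₁ S.X₃ 2) hF1 hf y.1 hy

omit [∀ v, (𝒰v v).IsFin] in
/-- **(T2)**, first half: `θ y` kills the image of `Hom_G(F, C)`. -/
theorem assembleTheta_comp_f (C : Rep.{u} k G) (y : sha1 r hr SA.X₃) (ψ : SA.X₂ ⟶ C) :
    assembleTheta hSA smA r hr C y (SA.f ≫ ψ) = 0 := by
  rw [assembleTheta_apply, ← mapId_mapId_apply, mapId_f_lcδ_apply hSA smA 1 2 rfl y.1, map_zero]

include hLG in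
/-- **(T2)**, second half: `θ y` kills the image of `Hom_G(R, J)`. -/
theorem assembleTheta_comp_g (y : sha1 r hr SA.X₃) (φ : SA.X₁ ⟶ S.X₂) :
    assembleTheta hSA smA r hr S.X₃ y (φ ≫ S.g) = 0 := by
  rw [assembleTheta_apply]
  refine (forall_push_proj_eq_zero_iff r hr hLG (lcδ hSA smA 1 2 rfl y.1)).2 (fun v => ?_) φ
  have h1 : lcδ (𝒰 := 𝒰v v) (X := SA.map (Rep.resFunctor (r v))) (shortExact_resv hSA r v)
      (smooth_resv smA r hr v) 1 2 rfl (resv r hr v SA.X₃ 1 y.1) = 0 :=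
    (congrArg _ (y.2 v)).trans (map_zero _)
  exact (resv_lcδ hSA smA r hr v y.1).trans h1

include hF1 hF1v hc hf hLG hg in
/-- **(T3)**: every character of `Hom_G(R, C)` killing `im Hom_G(F, C) + im Hom_G(R, J)` is `θ y`. -/
theorem exists_assembleTheta_eq (χ : (SA.X₁ ⟶ S.X₃) →+ H 𝒰 S.X₃ 2)
    (hχ1 : ∀ ψ : SA.X₂ ⟶ S.X₃, χ (SA.f ≫ ψ) = 0) (hχ2 : ∀ φ : SA.X₁ ⟶ S.X₂, χ (φ ≫ S.g) = 0) :
    ∃ y : sha1 r hr SA.X₃, assembleTheta hSA smA r hr S.X₃ y = χ := by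
  obtain ⟨y, hy⟩ := (shaOnePushEquiv hSA smA r hr hF1 hF1v hc hf hLG hg).surjective
    ⟨χ, hχ1, hχ2⟩
  exact ⟨y, congrArg Subtype.val hy⟩

end Shape

end Fermat.Agent.CFT.D
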