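/-
PROJECT C, Layer D, slice D1-prep part 1 (helper25): CHANGE OF THE COEFFICIENT RING.

For a ring homomorphism `φ : k →+* k'` and `M : Rep k' G` we define `resScalars φ M : Rep k G`
(same carrier, `k` acting through `φ`, same operators) and show that level-constant cohomology
does not see the difference:

* `hEquiv φ 𝒰 M n : H 𝒰 M n ≃+ H 𝒰 (resScalars φ M) n`, the class of a cocycle going to the class
  of the same function (`hEquiv_Hπ`);
* `hEquiv_map` : compatibility with `LC.map` (restriction / localisation / coefficient maps).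

Used with `k' = ZMod p` and `k = ℤ` or `ℤ_(p)`: the frozen `sha₁`, `sha₂` are computed over
`ZMod p`, whereas the Poitou–Tate machinery (Hom-lattices, class formations) lives over `k`.
-/
import Fermat.Agent.CFT.LC.Elementwise

set_option autoImplicit false

universe u

namespace Fermat.Agent.CFT.D.CoeffChange

open CategoryTheory groupCohomology Fermat.Agent.CFT.LC

variable {k k' : Type u} [CommRing k] [CommRing k'] (φ : k →+* k')

/-! ### Restriction of scalars on modules -/

/-- The carrier `V` with scalars restricted along `φ`. -/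
def RS (_φ : k →+* k') (V : Type*) : Type _ := V

instance instAddCommGroupRS (V : Type*) [AddCommGroup V] : AddCommGroup (RS φ V) :=
  inferInstanceAs (AddCommGroup V)

instance instModuleRS (V : Type*) [AddCommGroup V] [Module k' V] : Module k (RS φ V) :=
  Module.compHom V φ

/-- The identity map `V → RS φ V`. -/
def toRS (V : Type*) [AddCommGroup V] : V ≃+ RS φ V := AddEquiv.refl V

theorem smul_RS {V : Type*} [AddCommGroup V] [Module k' V] (c : k) (x : RS φ V) :
    c • x = toRS φ V (φ c • (toRS φ V).symm x) := rfl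

/-- Restriction of scalars of a linear map. -/
def resLin {V W : Type*} [AddCommGroup V] [Module k' V] [AddCommGroup W] [Module k' W]
    (f : V →ₗ[k'] W) : RS φ V →ₗ[k] RS φ W where
  toFun := f
  map_add' := f.map_add
  map_smul' c x := f.map_smul (φ c) x

theorem resLin_apply {V W : Type*} [AddCommGroup V] [Module k' V] [AddCommGroup W] [Module k' W]
    (f : V →ₗ[k'] W) (x : V) : resLin φ f x = f x := rfl

theorem resLin_one {V : Type*} [AddCommGroup V] [Module k' V] :
    resLin φ (1 : V →ₗ[k'] V) = 1 := rfl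

theorem resLin_mul {V : Type*} [AddCommGroup V] [Module k' V] (f g : V →ₗ[k'] V) :
    resLin φ (f * g) = resLin φ f * resLin φ g := rfl

theorem resLin_comp {V W X : Type*} [AddCommGroup V] [Module k' V] [AddCommGroup W] [Module k' W]
    [AddCommGroup X] [Module k' X] (f : W →ₗ[k'] X) (g : V →ₗ[k'] W) :
    resLin φ (f ∘ₗ g) = resLin φ f ∘ₗ resLin φ g := rfl

/-! ### Restriction of scalars on representations -/

variable {G : Type u} [Group G]

/-- Restriction of scalars of a representation. -/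
def resRho {V : Type*} [AddCommGroup V] [Module k' V] (ρ : Representation k' G V) :
    Representation k G (RS φ V) where
  toFun g := resLin φ (ρ g)
  map_one' := by rw [map_one]; rfl
  map_mul' g h := by rw [map_mul]; rfl

theorem resRho_apply {V : Type*} [AddCommGroup V] [Module k' V] (ρ : Representation k' G V)
    (g : G) (x : V) : resRho φ ρ g x = ρ g x := rfl

/-- **Restriction of scalars** `Rep k' G → Rep k G` along `φ : k →+* k'`. -/
noncomputable def resScalars (M : Rep.{u} k' G) : Rep.{u} k G := Rep.of (resRho φ M.ρ)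

theorem resScalars_ρ_apply (M : Rep.{u} k' G) (g : G) (x : M.V) :
    (resScalars φ M).ρ g x = M.ρ g x := rfl

/-- The identity `M.V ≃+ (resScalars φ M).V`. -/
def toRes (M : Rep.{u} k' G) : M.V ≃+ (resScalars φ M).V := AddEquiv.refl M.V

theorem toRes_ρ (M : Rep.{u} k' G) (g : G) (x : M.V) :
    toRes φ M (M.ρ g x) = (resScalars φ M).ρ g (toRes φ M x) := rfl

theorem toRes_smul (M : Rep.{u} k' G) (c : k) (x : M.V) :
    toRes φ M (φ c • x) = c • toRes φ M x := rfl

/-- Restriction of scalars of a morphism of representations. -/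
noncomputable def resScalarsMap {M N : Rep.{u} k' G} (f : M ⟶ N) :
    resScalars φ M ⟶ resScalars φ N :=
  Rep.ofHom ⟨resLin φ f.hom.toLinearMap, fun g => by
    ext x
    exact Rep.hom_comm_apply f g x⟩

theorem resScalarsMap_apply {M N : Rep.{u} k' G} (f : M ⟶ N) (x : M.V) :
    (resScalarsMap φ f).hom (toRes φ M x) = toRes φ N (f.hom x) := rfl

theorem resScalarsMap_id (M : Rep.{u} k' G) : resScalarsMap φ (𝟙 M) = 𝟙 _ := rfl

theorem resScalarsMap_comp {M N P : Rep.{u} k' G} (f : M ⟶ N) (g : N ⟶ P) :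
    resScalarsMap φ (f ≫ g) = resScalarsMap φ f ≫ resScalarsMap φ g := rfl

/-- Restriction of scalars as a functor. -/
noncomputable def resScalarsFunctor : Rep.{u} k' G ⥤ Rep.{u} k G where
  obj M := resScalars φ M
  map f := resScalarsMap φ f

/-- Restriction of scalars commutes with restriction of the group. -/
theorem res_resScalars {G' : Type u} [Group G'] (ψ : G' →* G) (M : Rep.{u} k' G) :
    Rep.res ψ (resScalars φ M) = resScalars φ (Rep.res ψ M) := rfl

/-- Restriction of scalars of a morphism `Res_ψ A ⟶ B`, typed as a morphism out of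
`Res_ψ (resScalars φ A)`. -/
noncomputable def resScalarsMapRes {G' : Type u} [Group G'] (ψ : G' →* G) {A : Rep.{u} k' G}
    {B : Rep.{u} k' G'} (f : Rep.res ψ A ⟶ B) : Rep.res ψ (resScalars φ A) ⟶ resScalars φ B :=
  Rep.ofHom (ρ := (resScalars φ A).ρ.comp ψ) (σ := resRho φ B.ρ)
    ⟨resLin φ (V := A.V) (W := B.V) f.hom.toLinearMap, fun g => by
      ext x
      exact Rep.hom_comm_apply f g x⟩

theorem resScalarsMapRes_apply {G' : Type u} [Group G'] (ψ : G' →* G) {A : Rep.{u} k' G}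
    {B : Rep.{u} k' G'} (f : Rep.res ψ A ⟶ B) (x : A.V) :
    (resScalarsMapRes φ ψ f).hom (toRes φ A x) = toRes φ B (f.hom x) := rfl

theorem resScalarsMapRes_eq {G' : Type u} [Group G'] (ψ : G' →* G) {A : Rep.{u} k' G}
    {B : Rep.{u} k' G'} (f : Rep.res ψ A ⟶ B) :
    resScalarsMapRes φ ψ f = resScalarsMap φ f := rfl

theorem isSmooth_resScalars_iff (𝒰 : Levels G) (M : Rep.{u} k' G) :
    IsSmooth 𝒰 (resScalars φ M) ↔ IsSmooth 𝒰 M := Iff.rfl

/-! ### A lifting lemma for quotient presentations -/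

section Lift

variable {Z Z' X X' : Type*} [AddCommGroup Z] [AddCommGroup Z'] [AddCommGroup X] [AddCommGroup X']

/-- Two surjections `π : Z → X`, `π' : Z' → X'` and an isomorphism `e : Z ≃+ Z'` matching the
kernels induce an isomorphism `X ≃+ X'`. -/
noncomputable def liftEquiv (π : Z →+ X) (π' : Z' →+ X') (hπ : Function.Surjective π)
    (hπ' : Function.Surjective π') (e : Z ≃+ Z') (h : ∀ z, π z = 0 ↔ π' (e z) = 0) : X ≃+ X' :=
  (QuotientAddGroup.quotientKerEquivOfSurjective π hπ).symm.trans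
    ((QuotientAddGroup.congr π.ker π'.ker e (by
      ext z'
      constructor
      · rintro ⟨z, hz, rfl⟩
        exact (h z).1 hz
      · intro hz'
        refine ⟨e.symm z', (h _).2 ?_, by simp⟩
        rw [AddMonoidHom.mem_ker] at hz'
        simpa using hz')).trans
      (QuotientAddGroup.quotientKerEquivOfSurjective π' hπ'))

theorem liftEquiv_apply (π : Z →+ X) (π' : Z' →+ X') (hπ : Function.Surjective π)
    (hπ' : Function.Surjective π') (e : Z ≃+ Z') (h : ∀ z, π z = 0 ↔ π' (e z) = 0) (z : Z) :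
    liftEquiv π π' hπ hπ' e h (π z) = π' (e z) := by
  have h1 : (QuotientAddGroup.quotientKerEquivOfSurjective π hπ).symm (π z) =
      (QuotientAddGroup.mk z : Z ⧸ π.ker) :=
    (AddEquiv.symm_apply_eq _).2 rfl
  rw [liftEquiv, AddEquiv.trans_apply, AddEquiv.trans_apply, h1]
  rfl

end Lift

/-! ### Level-constant cohomology -/

section Cohomology

variable (𝒰 : Levels G) (M : Rep.{u} k' G)

/-- The identity on level-constant cochains. -/
def cochainsEquiv (n : ℕ) : cochains 𝒰 M n ≃+ cochains 𝒰 (resScalars φ M) n where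
  toFun f := ⟨f.1, f.2⟩
  invFun f := ⟨f.1, f.2⟩
  left_inv _ := rfl
  right_inv _ := rfl
  map_add' _ _ := rfl

theorem cochainsEquiv_coe (n : ℕ) (f : cochains 𝒰 M n) (g : Fin n → G) :
    (cochainsEquiv φ 𝒰 M n f).1 g = toRes φ M (f.1 g) := rfl

theorem d_resScalars (n : ℕ) (f : (Fin n → G) → M.V) :
    (inhomogeneousCochains.d (resScalars φ M) n).hom (fun g => toRes φ M (f g)) =
      fun g => toRes φ M ((inhomogeneousCochains.d M n).hom f g) := by
  funext g
  rw [inhomogeneousCochains.d_hom_apply, inhomogeneousCochains.d_hom_apply, map_add, map_sum]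
  congr 1
  refine Finset.sum_congr rfl fun j _ => ?_
  rw [← toRes_smul, map_pow, map_neg, map_one]

theorem dLC_cochainsEquiv (n : ℕ) (f : cochains 𝒰 M n) :
    dLC 𝒰 (resScalars φ M) n (cochainsEquiv φ 𝒰 M n f) =
      cochainsEquiv φ 𝒰 M (n + 1) (dLC 𝒰 M n f) :=
  Subtype.ext (d_resScalars φ M n f.1)

/-- The identity on level-constant cocycles. -/
noncomputable def cocyclesEquiv (n : ℕ) : cocyclesLC 𝒰 M n ≃+ cocyclesLC 𝒰 (resScalars φ M) n where
  toFun z := ⟨cochainsEquiv φ 𝒰 M n z.1, by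
    have hz : dLC 𝒰 M n z.1 = 0 := z.2
    show dLC 𝒰 (resScalars φ M) n (cochainsEquiv φ 𝒰 M n z.1) = 0
    rw [dLC_cochainsEquiv, hz, map_zero]⟩
  invFun z := ⟨(cochainsEquiv φ 𝒰 M n).symm z.1, by
    have hz : dLC 𝒰 (resScalars φ M) n z.1 = 0 := z.2
    show dLC 𝒰 M n ((cochainsEquiv φ 𝒰 M n).symm z.1) = 0
    apply (cochainsEquiv φ 𝒰 M (n + 1)).injective
    rw [← dLC_cochainsEquiv, AddEquiv.apply_symm_apply, hz, map_zero]⟩
  left_inv _ := rfl
  right_inv _ := rfl
  map_add' _ _ := rfl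

theorem cocyclesEquiv_coe (n : ℕ) (z : cocyclesLC 𝒰 M n) :
    (cocyclesEquiv φ 𝒰 M n z).1 = cochainsEquiv φ 𝒰 M n z.1 := rfl

theorem Hπ_eq_zero_iff_resScalars (n : ℕ) (z : cocyclesLC 𝒰 M n) :
    Hπ 𝒰 M n z = 0 ↔ Hπ 𝒰 (resScalars φ M) n (cocyclesEquiv φ 𝒰 M n z) = 0 := by
  cases n with
  | zero =>
    rw [Hπ_eq_zero_iff_zero, Hπ_eq_zero_iff_zero]
    exact (AddEquiv.map_eq_zero_iff _).symm
  | succ n =>
    rw [Hπ_eq_zero_iff_succ, Hπ_eq_zero_iff_succ]
    constructor
    · rintro ⟨y, hy⟩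
      exact ⟨cochainsEquiv φ 𝒰 M n y, by rw [dLC_cochainsEquiv, hy]; rfl⟩
    · rintro ⟨y, hy⟩
      refine ⟨(cochainsEquiv φ 𝒰 M n).symm y, ?_⟩
      apply (cochainsEquiv φ 𝒰 M (n + 1)).injective
      rw [← dLC_cochainsEquiv, AddEquiv.apply_symm_apply, hy]
      rfl

/-- **Level-constant cohomology does not depend on the coefficient ring.** -/
noncomputable def hEquiv (n : ℕ) : H 𝒰 M n ≃+ H 𝒰 (resScalars φ M) n :=
  liftEquiv (Z := cocyclesLC 𝒰 M n) (Z' := cocyclesLC 𝒰 (resScalars φ M) n) (X := H 𝒰 M n)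
    (X' := H 𝒰 (resScalars φ M) n)
    (Hπ 𝒰 M n).toAddMonoidHom (Hπ 𝒰 (resScalars φ M) n).toAddMonoidHom
    (Hπ_surjective 𝒰 M n) (Hπ_surjective 𝒰 (resScalars φ M) n) (cocyclesEquiv φ 𝒰 M n)
    (fun z => Hπ_eq_zero_iff_resScalars φ 𝒰 M n z)

theorem hEquiv_Hπ (n : ℕ) (z : cocyclesLC 𝒰 M n) :
    hEquiv φ 𝒰 M n (Hπ 𝒰 M n z) = Hπ 𝒰 (resScalars φ M) n (cocyclesEquiv φ 𝒰 M n z) := by
  unfold hEquiv
  exact liftEquiv_apply _ _ _ _ _ _ z

theorem hEquiv_symm_Hπ (n : ℕ) (z : cocyclesLC 𝒰 (resScalars φ M) n) :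
    (hEquiv φ 𝒰 M n).symm (Hπ 𝒰 (resScalars φ M) n z) =
      Hπ 𝒰 M n ((cocyclesEquiv φ 𝒰 M n).symm z) := by
  rw [AddEquiv.symm_apply_eq, hEquiv_Hπ, AddEquiv.apply_symm_apply]

/-- The scalar action corresponds. -/
theorem hEquiv_smul (n : ℕ) (c : k) (x : H 𝒰 M n) :
    hEquiv φ 𝒰 M n (φ c • x) = c • hEquiv φ 𝒰 M n x := by
  induction x using H_induction_on with
  | h z =>
    rw [← map_smul, hEquiv_Hπ, hEquiv_Hπ, ← map_smul]
    rfl

end Cohomology

section Functoriality

variable {G' : Type u} [Group G'] {𝒰 : Levels G} {𝒰' : Levels G'} {ψ : G' →* G}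

/-- **Compatibility of `hEquiv` with `LC.map`.** -/
theorem hEquiv_map (hψ : Levels.Continuous ψ 𝒰' 𝒰) {A : Rep.{u} k' G} {B : Rep.{u} k' G'}
    (f : Rep.res ψ A ⟶ B) (n : ℕ) (x : H 𝒰 A n) :
    hEquiv φ 𝒰' B n (map hψ f n x) =
      map (A := resScalars φ A) (B := resScalars φ B) hψ (resScalarsMapRes φ ψ f) n
        (hEquiv φ 𝒰 A n x) := by
  induction x using H_induction_on with
  | h z =>
    rw [map_Hπ, hEquiv_Hπ, hEquiv_Hπ, map_Hπ]
    rfl

/-- Same group, coefficient map only. -/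
theorem hEquiv_mapId {A B : Rep.{u} k' G} (f : A ⟶ B) (n : ℕ) (x : H 𝒰 A n) :
    hEquiv φ 𝒰 B n (mapId f n x) = mapId (resScalarsMap φ f) n (hEquiv φ 𝒰 A n x) := by
  induction x using H_induction_on with
  | h z =>
    rw [map_Hπ, hEquiv_Hπ, hEquiv_Hπ, map_Hπ]
    rfl

/-- Kernels of localisation maps correspond. -/
theorem map_eq_zero_iff (hψ : Levels.Continuous ψ 𝒰' 𝒰) {A : Rep.{u} k' G} {B : Rep.{u} k' G'}
    (f : Rep.res ψ A ⟶ B) (n : ℕ) (x : H 𝒰 A n) :
    map hψ f n x = 0 ↔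
      map (A := resScalars φ A) (B := resScalars φ B) hψ (resScalarsMapRes φ ψ f) n
        (hEquiv φ 𝒰 A n x) = 0 := by
  rw [← hEquiv_map, AddEquiv.map_eq_zero_iff]

end Functoriality

end Fermat.Agent.CFT.D.CoeffChange
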