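/-
PROJECT C, Layer D, slice D1-prep part 2 (helper25): THE DUAL TWIST AS A Hom-MODULE.

Let `M : Rep (ZMod p) G` be finite dimensional, `χ : G →* (ZMod p)ˣ`, and let
`A := M.dualTwist χ` be the prelude's twisted dual (`(g f)(m) = χ(g) f(g⁻¹ m)`).  Let `k` be a
commutative ring with a ring homomorphism `φ : k →+* ZMod p` (`k = ℤ` or `ℤ_(p)`), and let
`E : Rep k G` contain "`μ_p`": a morphism `ι : resScalars φ (chiRep χ) ⟶ E` of `k`-linear
representations which is injective with image the `p`-torsion of `E`.  Then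

  `dualTwistIso : resScalars φ M ≅ homRep (resScalars φ A) E`,   `m ↦ (f ↦ ι (f m))`

is an isomorphism of `k`-linear representations (`M = Hom(M', μ_p) = Hom(M', E)`).
The underlying morphism `thetaMor` exists without any hypothesis and is natural in `(E, ι)`.
-/
import Fermat.Agent.CFT.D.CoeffChange
import Fermat.Agent.CFT.A7.HomRep
import Fermat.Prelude.Def_GroupCohomology_Selmer

set_option autoImplicit false

namespace Fermat.Agent.CFT.D.DualTwist

open CategoryTheory Fermat.Agent.CFT.LC Fermat.Agent.CFT.D.CoeffChange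
  Fermat.Agent.CFT.A7.HomRep

variable {k G : Type} [CommRing k] [Group G] {p : ℕ} [Fact p.Prime] (φ : k →+* ZMod p)

/-- The character `χ` as a one-dimensional representation on `ZMod p`. -/
noncomputable abbrev chiRep (χ : G →* (ZMod p)ˣ) : Rep.{0} (ZMod p) G :=
  Rep.of ((Representation.trivial (ZMod p) G (ZMod p)).twist χ)

theorem chiRep_ρ_apply (χ : G →* (ZMod p)ˣ) (g : G) (c : ZMod p) :
    (chiRep χ).ρ g c = (χ g : ZMod p) * c := rfl

theorem natCast_smul_resScalars (A : Rep.{0} (ZMod p) G) (a : (resScalars φ A).V) :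
    (p : k) • a = 0 := by
  have h : (p : k) • a = toRes φ A ((φ (p : k)) • (toRes φ A).symm a) := rfl
  rw [h, map_natCast, ZMod.natCast_self, zero_smul, map_zero]

section Main

variable (M : Rep.{0} (ZMod p) G) (χ : G →* (ZMod p)ˣ) {E : Rep.{0} k G}
  (ι : resScalars φ (chiRep χ) ⟶ E)

/-- `A := M.dualTwist χ` with scalars restricted to `k`. -/
noncomputable abbrev dualK : Rep.{0} k G := resScalars φ (M.dualTwist χ)

/-- `f ↦ ι (f m)` as a `k`-linear map `A → E`. -/
noncomputable def thetaLin (m : M.V) : (dualK φ M χ).V →ₗ[k] E.V :=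
  ι.hom.toLinearMap ∘ₗ
    resLin φ (V := Module.Dual (ZMod p) M.V) (W := ZMod p) (Module.Dual.eval (ZMod p) M.V m)

theorem thetaLin_apply (m : M.V) (f : Module.Dual (ZMod p) M.V) :
    thetaLin φ M χ ι m (toRes φ (M.dualTwist χ) f) = ι.hom (toRes φ (chiRep χ) (f m)) := rfl

/-- `m ↦ (f ↦ ι (f m))` as a function `M → Hom(A, E)`. -/
noncomputable def thetaFun (m : (resScalars φ M).V) : (homRep (dualK φ M χ) E).V :=
  toLin.symm (thetaLin φ M χ ι ((toRes φ M).symm m))

theorem toLin_thetaFun (m : (resScalars φ M).V) (f : (dualK φ M χ).V) :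
    toLin (thetaFun φ M χ ι m) f =
      ι.hom (toRes φ (chiRep χ) (((toRes φ (M.dualTwist χ)).symm f) ((toRes φ M).symm m))) :=
  rfl

/-- `m ↦ (f ↦ ι (f m))` as a `k`-linear map `M → Hom(A, E)`. -/
noncomputable def thetaHom : (resScalars φ M).V →ₗ[k] (homRep (dualK φ M χ) E).V where
  toFun m := thetaFun φ M χ ι m
  map_add' m m' := by
    apply toLin.injective
    refine LinearMap.ext fun f => ?_
    rw [map_add, LinearMap.add_apply, toLin_thetaFun, toLin_thetaFun, toLin_thetaFun, map_add,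
      map_add, map_add, map_add]
  map_smul' c m := by
    apply toLin.injective
    refine LinearMap.ext fun f => ?_
    rw [RingHom.id_apply, map_smul, LinearMap.smul_apply, toLin_thetaFun, toLin_thetaFun]
    have h1 : (toRes φ M).symm (c • m) = φ c • (toRes φ M).symm m := rfl
    rw [h1, map_smul, toRes_smul, map_smul]

theorem toLin_thetaHom (m : M.V) (f : Module.Dual (ZMod p) M.V) :
    toLin (thetaHom φ M χ ι (toRes φ M m)) (toRes φ (M.dualTwist χ) f) =
      ι.hom (toRes φ (chiRep χ) (f m)) := rfl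

theorem thetaHom_ρ (g : G) (m : (resScalars φ M).V) :
    thetaHom φ M χ ι ((resScalars φ M).ρ g m) =
      (homRep (dualK φ M χ) E).ρ g (thetaHom φ M χ ι m) := by
  apply toLin.injective
  refine LinearMap.ext fun f => ?_
  rw [toLin_ρ]
  -- unfold both sides
  obtain ⟨m, rfl⟩ := (toRes φ M).surjective m
  obtain ⟨f, rfl⟩ := (toRes φ (M.dualTwist χ)).surjective f
  have h1 : (dualK φ M χ).ρ g⁻¹ (toRes φ (M.dualTwist χ) f) =
      toRes φ (M.dualTwist χ) ((M.dualTwist χ).ρ g⁻¹ f) := rfl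
  rw [h1, ← toRes_ρ, toLin_thetaHom, toLin_thetaHom, Rep.dualTwist_ρ_apply, inv_inv]
  have h2 : ((χ g⁻¹ : ZMod p) • (f ∘ₗ M.ρ g)) m = (chiRep χ).ρ g⁻¹ (f (M.ρ g m)) := rfl
  rw [h2, toRes_ρ, Rep.hom_comm_apply, ← Module.End.mul_apply, ← map_mul, mul_inv_cancel,
    map_one, Module.End.one_apply]

/-- `m ↦ (f ↦ ι (f m))` as a morphism of representations. -/
noncomputable def thetaMor : resScalars φ M ⟶ homRep (dualK φ M χ) E :=
  Rep.ofHom (ρ := resRho φ M.ρ) (σ := Representation.linHom (dualK φ M χ).ρ E.ρ)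
    ⟨thetaHom φ M χ ι, fun g => LinearMap.ext fun m => thetaHom_ρ φ M χ ι g m⟩

theorem thetaMor_hom_apply (m : (resScalars φ M).V) :
    (thetaMor φ M χ ι).hom m = thetaHom φ M χ ι m := rfl

theorem toLin_thetaMor (m : M.V) (f : Module.Dual (ZMod p) M.V) :
    toLin ((thetaMor φ M χ ι).hom (toRes φ M m)) (toRes φ (M.dualTwist χ) f) =
      ι.hom (toRes φ (chiRep χ) (f m)) := rfl

/-- Naturality in `(E, ι)`. -/
theorem thetaMor_comp {E' : Rep.{0} k G} (π : E ⟶ E') :
    thetaMor φ M χ ι ≫ homMap (dualK φ M χ) π = thetaMor φ M χ (ι ≫ π) := rfl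

theorem thetaHom_injective (hinj : Function.Injective ι.hom) :
    Function.Injective (thetaHom φ M χ ι) := by
  rw [← LinearMap.ker_eq_bot, LinearMap.ker_eq_bot']
  intro m hm
  obtain ⟨m, rfl⟩ := (toRes φ M).surjective m
  have h1 : ∀ f : Module.Dual (ZMod p) M.V, f m = 0 := by
    intro f
    have h2 : toLin (thetaHom φ M χ ι (toRes φ M m)) (toRes φ (M.dualTwist χ) f) = 0 := by
      rw [hm, map_zero, LinearMap.zero_apply]
    rw [toLin_thetaHom] at h2
    exact hinj (h2.trans (map_zero _).symm)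
  rw [(Module.forall_dual_apply_eq_zero_iff (ZMod p) m).1 h1, map_zero]

theorem thetaHom_surjective [FiniteDimensional (ZMod p) M.V] (hinj : Function.Injective ι.hom)
    (hrange : ∀ e : E.V, (p : k) • e = 0 → ∃ c, ι.hom c = e) :
    Function.Surjective (thetaHom φ M χ ι) := by
  intro Ψ
  -- `Ψ` takes values in the image of `ι`
  have hmem : ∀ a, toLin Ψ a ∈ LinearMap.range ι.hom.toLinearMap := by
    intro a
    apply hrange
    rw [← map_smul, natCast_smul_resScalars, map_zero]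
  -- factor `Ψ = ι ∘ ψ₀`
  let ψ₀ : (dualK φ M χ).V →ₗ[k] (resScalars φ (chiRep χ)).V :=
    (LinearEquiv.ofInjective ι.hom.toLinearMap hinj).symm.toLinearMap ∘ₗ
      (toLin Ψ).codRestrict _ hmem
  have hψ₀ : ∀ a, ι.hom (ψ₀ a) = toLin Ψ a := by
    intro a
    have := (LinearEquiv.ofInjective ι.hom.toLinearMap hinj).apply_symm_apply
      ((toLin Ψ).codRestrict _ hmem a)
    exact congrArg Subtype.val this
  -- `ψ₀` is an element of the double dual
  let ψ₁ : Module.Dual (ZMod p) (Module.Dual (ZMod p) M.V) :=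
    AddMonoidHom.toZModLinearMap p
      (((toRes φ (chiRep χ)).symm.toAddMonoidHom.comp ψ₀.toAddMonoidHom).comp
        (toRes φ (M.dualTwist χ)).toAddMonoidHom)
  have hψ₁ : ∀ f, toRes φ (chiRep χ) (ψ₁ f) = ψ₀ (toRes φ (M.dualTwist χ) f) := fun _ => rfl
  refine ⟨toRes φ M ((Module.evalEquiv (ZMod p) M.V).symm ψ₁), ?_⟩
  apply toLin.injective
  refine LinearMap.ext fun f => ?_
  obtain ⟨f, rfl⟩ := (toRes φ (M.dualTwist χ)).surjective f
  rw [toLin_thetaHom, ← hψ₀, ← hψ₁]
  congr 2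
  have := (Module.evalEquiv (ZMod p) M.V).apply_symm_apply ψ₁
  exact congrArg (fun ψ => ψ f) this

/-- **The dual twist as a Hom-module**: `M ≅ Hom(M.dualTwist χ, E)` over `k`. -/
noncomputable def dualTwistIso [FiniteDimensional (ZMod p) M.V] (hinj : Function.Injective ι.hom)
    (hrange : ∀ e : E.V, (p : k) • e = 0 → ∃ c, ι.hom c = e) :
    resScalars φ M ≅ homRep (dualK φ M χ) E :=
  Rep.mkIso (ρ := resRho φ M.ρ) (σ := Representation.linHom (dualK φ M χ).ρ E.ρ)
    (Representation.Equiv.mk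
      (LinearEquiv.ofBijective (thetaHom φ M χ ι)
        ⟨thetaHom_injective φ M χ ι hinj, thetaHom_surjective φ M χ ι hinj hrange⟩)
      (fun g => LinearMap.ext fun m => thetaHom_ρ φ M χ ι g m))

theorem dualTwistIso_hom [FiniteDimensional (ZMod p) M.V] (hinj : Function.Injective ι.hom)
    (hrange : ∀ e : E.V, (p : k) • e = 0 → ∃ c, ι.hom c = e) :
    (dualTwistIso φ M χ ι hinj hrange).hom = thetaMor φ M χ ι := rfl

end Main

/-! ### Cohomological form -/

section Cohomology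

/-- An isomorphism of representations induces an isomorphism on level-constant cohomology. -/
noncomputable def mapIdEquiv {k G : Type} [CommRing k] [Group G] {𝒰 : Levels G}
    {A B : Rep.{0} k G} (e : A ≅ B) (n : ℕ) : H 𝒰 A n ≃+ H 𝒰 B n where
  toFun := mapId e.hom n
  invFun := mapId e.inv n
  left_inv x := by rw [El.mapId_mapId_apply, e.hom_inv_id, El.mapId_one_apply]
  right_inv x := by rw [El.mapId_mapId_apply, e.inv_hom_id, El.mapId_one_apply]
  map_add' := map_add _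

theorem mapIdEquiv_apply {k G : Type} [CommRing k] [Group G] {𝒰 : Levels G}
    {A B : Rep.{0} k G} (e : A ≅ B) (n : ℕ) (x : H 𝒰 A n) :
    mapIdEquiv (𝒰 := 𝒰) e n x = mapId e.hom n x := rfl

variable (M : Rep.{0} (ZMod p) G) (χ : G →* (ZMod p)ˣ) {E : Rep.{0} k G}
  (ι : resScalars φ (chiRep χ) ⟶ E) [FiniteDimensional (ZMod p) M.V]
  (hinj : Function.Injective ι.hom) (hrange : ∀ e : E.V, (p : k) • e = 0 → ∃ c, ι.hom c = e)

/-- **`Hⁿ(M) ≃ Hⁿ(Hom(M.dualTwist χ, E))`**: `ZMod p`-coefficients on the left, `k`-coefficients on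
the right. -/
noncomputable def hDualTwist (𝒰 : Levels G) (n : ℕ) :
    H 𝒰 M n ≃+ H 𝒰 (homRep (dualK φ M χ) E) n :=
  (hEquiv φ 𝒰 M n).trans (mapIdEquiv (dualTwistIso φ M χ ι hinj hrange) n)

theorem hDualTwist_apply (𝒰 : Levels G) (n : ℕ) (x : H 𝒰 M n) :
    hDualTwist φ M χ ι hinj hrange 𝒰 n x = mapId (thetaMor φ M χ ι) n (hEquiv φ 𝒰 M n x) := rfl

/-- **Local–global compatibility.**  Let `ψ : G' →* G` be continuous, `E'` a `G'`-module
receiving `π : Res_ψ E ⟶ E'`, with `μ_p ⊂ E'` given by `ι' = π ∘ ι`.  If `mv` is the map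
`Hom(A, E) → Hom(Res A, E')`, `Ψ ↦ π ∘ Ψ`, then the localisation map with `ZMod p`-coefficients
`Hⁿ(G, M) → Hⁿ(G', Res M)` corresponds to `LC.map hψ mv n` under `hDualTwist`. -/
theorem hDualTwist_map {G' : Type} [Group G'] {𝒰 : Levels G} {𝒰' : Levels G'} {ψ : G' →* G}
    (hψ : Levels.Continuous ψ 𝒰' 𝒰) {E' : Rep.{0} k G'} (π : Rep.res ψ E ⟶ E')
    (ι' : resScalars φ (chiRep (χ.comp ψ)) ⟶ E')
    (hι' : ∀ c : ZMod p, ι'.hom (toRes φ (chiRep (χ.comp ψ)) c) =
      π.hom (ι.hom (toRes φ (chiRep χ) c)))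
    (hinj' : Function.Injective ι'.hom)
    (hrange' : ∀ e : E'.V, (p : k) • e = 0 → ∃ c, ι'.hom c = e)
    (mv : Rep.res ψ (homRep (dualK φ M χ) E) ⟶
      homRep (dualK φ (Rep.res ψ M) (χ.comp ψ)) E')
    (hmv : ∀ (Ψ : (homRep (dualK φ M χ) E).V) (f : Module.Dual (ZMod p) M.V),
      toLin (mv.hom Ψ) (toRes φ ((Rep.res ψ M).dualTwist (χ.comp ψ)) f) =
        π.hom (toLin Ψ (toRes φ (M.dualTwist χ) f)))
    (n : ℕ) (x : H 𝒰 M n) :
    hDualTwist φ (Rep.res ψ M) (χ.comp ψ) ι' hinj' hrange' 𝒰' n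
        (map (A := M) (B := Rep.res ψ M) hψ (𝟙 _) n x) =
      map (A := homRep (dualK φ M χ) E) (B := homRep (dualK φ (Rep.res ψ M) (χ.comp ψ)) E')
        hψ mv n (hDualTwist φ M χ ι hinj hrange 𝒰 n x) := by
  have hmor : resScalarsMapRes φ ψ (𝟙 (Rep.res ψ M)) ≫ thetaMor φ (Rep.res ψ M) (χ.comp ψ) ι' =
      (Rep.resFunctor ψ).map (thetaMor φ M χ ι) ≫ mv := by
    apply Rep.hom_ext
    apply Representation.IntertwiningMap.ext
    refine LinearMap.ext fun m => ?_
    obtain ⟨m, rfl⟩ := (toRes φ M).surjective m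
    apply toLin.injective
    refine LinearMap.ext fun f => ?_
    obtain ⟨f, rfl⟩ := (toRes φ ((Rep.res ψ M).dualTwist (χ.comp ψ))).surjective f
    have h1 : toLin ((resScalarsMapRes φ ψ (𝟙 (Rep.res ψ M)) ≫
        thetaMor φ (Rep.res ψ M) (χ.comp ψ) ι').hom (toRes φ M m))
        (toRes φ ((Rep.res ψ M).dualTwist (χ.comp ψ)) f) =
        ι'.hom (toRes φ (chiRep (χ.comp ψ)) (f m)) := rfl
    have h2 : toLin (((Rep.resFunctor ψ).map (thetaMor φ M χ ι) ≫ mv).hom (toRes φ M m))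
        (toRes φ ((Rep.res ψ M).dualTwist (χ.comp ψ)) f) =
        toLin (mv.hom ((thetaMor φ M χ ι).hom (toRes φ M m)))
          (toRes φ ((Rep.res ψ M).dualTwist (χ.comp ψ)) f) := rfl
    exact h1.trans ((hι' _).trans ((hmv _ _).symm.trans h2.symm))
  rw [hDualTwist_apply, hDualTwist_apply, hEquiv_map, El.map_mapId_apply, El.mapId_map_apply,
    hmor]

end Cohomology

end Fermat.Agent.CFT.D.DualTwist
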