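/-
PROJECT C, Layer D (helper8): the final pairing of Poitou–Tate duality is an evaluation pairing.

`V₂` is a quotient of an abelian group `HR` (through `b`), and `V₁` is identified (through `θ`)
with the group of characters `HR → T` vanishing on `ker b`, where the `p`-torsion of `T` has
`p` elements.  Then there is a `ZMod p`-bilinear pairing `V₁ × V₂ → ZMod p` which is
non-degenerate on both sides.  No finiteness is needed: a vector space has enough functionals.
-/
import Fermat.Agent.CFT.D.Count

set_option autoImplicit false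

namespace Fermat.Agent.CFT.D

section EvalPairing

variable (p : ℕ) [Fact p.Prime]
variable {V₁ V₂ HR T : Type*} [AddCommGroup V₁] [Module (ZMod p) V₁] [AddCommGroup V₂]
  [Module (ZMod p) V₂] [AddCommGroup HR] [AddCommGroup T]

/-- An additive identification of a group with `p` elements with `ZMod p`. -/
lemma exists_addEquiv_zmod_of_card {A : Type*} [AddCommGroup A] (hA : Nat.card A = p) :
    Nonempty (A ≃+ ZMod p) := by
  have hp : p.Prime := Fact.out
  have : Finite A := Nat.finite_of_card_ne_zero (by rw [hA]; exact hp.ne_zero)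
  have hcyc : IsAddCyclic A := isAddCyclic_of_prime_card hA
  exact ⟨(zmodAddCyclicAddEquiv hcyc).symm.trans (ZMod.ringEquivCongr hA).toAddEquiv⟩

lemma nsmul_eq_zero_of_zmodModule (n : ℕ) {V : Type*} [AddCommGroup V] [Module (ZMod n) V]
    (x : V) : n • x = 0 := by
  have h : ((n : ZMod n)) • x = 0 := by rw [ZMod.natCast_self, zero_smul]
  rwa [Nat.cast_smul_eq_nsmul] at h

/-- **The evaluation pairing.** -/
theorem exists_pairing_of_eval (hT : Nat.card (torsionP p T) = p)
    (b : HR →+ V₂) (hb : Function.Surjective b)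
    (θ : V₁ →+ (HR →+ T)) (hθ : Function.Injective θ)
    (hker : ∀ y h, b h = 0 → θ y h = 0)
    (hreal : ∀ χ : HR →+ T, (∀ h, b h = 0 → χ h = 0) → ∃ y, θ y = χ) :
    ∃ B : V₁ →ₗ[ZMod p] V₂ →ₗ[ZMod p] ZMod p,
      (∀ y, (∀ x, B y x = 0) → y = 0) ∧ (∀ x, (∀ y, B y x = 0) → x = 0) := by
  classical
  obtain ⟨eT⟩ := exists_addEquiv_zmod_of_card p hT
  -- values of `θ` are `p`-torsion
  have htors : ∀ y h, θ y h ∈ torsionP p T := fun y h => by
    rw [mem_torsionP, ← map_nsmul]
    exact hker y _ (by rw [map_nsmul, nsmul_eq_zero_of_zmodModule p])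
  -- a set-theoretic section of `b`
  let s : V₂ → HR := Function.surjInv hb
  have hs : ∀ x, b (s x) = x := Function.surjInv_eq hb
  have hsec : ∀ y h, θ y (s (b h)) = θ y h := fun y h => by
    rw [← sub_eq_zero, ← map_sub]
    exact hker y _ (by rw [map_sub, hs, sub_self])
  -- the pairing as a function
  let β : V₁ → V₂ → ZMod p := fun y x => eT ⟨θ y (s x), htors y (s x)⟩
  have hβ : ∀ y h, β y (b h) = eT ⟨θ y h, htors y h⟩ := fun y h => by
    change eT ⟨θ y (s (b h)), _⟩ = _
    congr 2
    exact hsec y h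
  have hβx : ∀ y x x', β y (x + x') = β y x + β y x' := fun y x x' => by
    obtain ⟨h, rfl⟩ := hb x
    obtain ⟨h', rfl⟩ := hb x'
    rw [← map_add, hβ, hβ, hβ, ← map_add]
    congr 1
    apply Subtype.ext
    exact map_add (θ y) h h'
  have hβy : ∀ y y' x, β (y + y') x = β y x + β y' x := fun y y' x => by
    change eT ⟨θ (y + y') (s x), _⟩ = eT ⟨θ y (s x), _⟩ + eT ⟨θ y' (s x), _⟩
    rw [← map_add]
    congr 1
    apply Subtype.ext
    change θ (y + y') (s x) = θ y (s x) + θ y' (s x)
    rw [map_add, AddMonoidHom.add_apply]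
  let B₀ : V₁ →+ (V₂ →ₗ[ZMod p] ZMod p) :=
    AddMonoidHom.mk' (fun y => (AddMonoidHom.mk' (β y) (hβx y)).toZModLinearMap p)
      (fun y y' => by
        ext x
        exact hβy y y' x)
  refine ⟨B₀.toZModLinearMap p, fun y hy => ?_, fun x hx => ?_⟩
  · -- left kernel
    apply hθ
    rw [map_zero]
    ext h
    have h1 : β y (b h) = 0 := hy (b h)
    rw [hβ, ← map_zero eT] at h1
    have h2 := congrArg Subtype.val (eT.injective h1)
    exact h2
  · -- right kernel
    by_contra hne
    obtain ⟨f, hf⟩ : ∃ f : Module.Dual (ZMod p) V₂, f x ≠ 0 := by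
      by_contra hall
      exact hne ((Module.forall_dual_apply_eq_zero_iff (ZMod p) x).1
        fun f => by_contra fun hf => hall ⟨f, hf⟩)
    let χ : HR →+ T :=
      (torsionP p T).subtype.comp (eT.symm.toAddMonoidHom.comp (f.toAddMonoidHom.comp b))
    have hχ : ∀ h, b h = 0 → χ h = 0 := fun h hh => by
      change ((eT.symm (f (b h)) : torsionP p T) : T) = 0
      rw [hh, map_zero, map_zero]
      rfl
    obtain ⟨y, hy⟩ := hreal χ hχ
    apply hf
    obtain ⟨h, rfl⟩ := hb x
    have h1 : β y (b h) = 0 := hx y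
    rw [hβ] at h1
    have h2 : (⟨θ y h, htors y h⟩ : torsionP p T) = eT.symm (f (b h)) := by
      apply Subtype.ext
      change θ y h = _
      rw [hy]
      rfl
    rw [h2, AddEquiv.apply_symm_apply] at h1
    exact h1

end EvalPairing

end Fermat.Agent.CFT.D
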