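/-
PROJECT C, Layer D (helper8), D4: reduction of the frozen statement S55 to the abstract
Poitou–Tate package.

Input: a coefficient ring `k` with `φ : k →+* ZMod p`, a smooth `GQ`-module `E` over `k` with
`μ_p ⊂ E` (`ι`, injective, onto the `p`-torsion), and the output of the abstract assembly:
a surjection `b` of an abelian group `HR` onto the locally trivial classes of
`H²(G_S, Hom(A, E))` and an identification `θ` of the locally trivial classes of `H¹(G_S, A)`
with the characters of `HR` vanishing on `ker b`, where `A = M.dualTwist (cycloChar p)` viewed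
over `k`.  Output: the perfect pairing of S55.
-/
import Fermat.Agent.CFT.Bridge.Sha
import Fermat.Agent.CFT.Bridge.Cyclo
import Fermat.Agent.CFT.D.DualTwist
import Fermat.Agent.CFT.D.LocalRow
import Fermat.Agent.CFT.D.EvalPairing
import Fermat.Agent.CFT.D.ShaOne

set_option autoImplicit false

namespace Fermat.Agent.CFT.D.Reduce

open CategoryTheory groupCohomology ExtCitation
open Fermat.Agent.CFT.LC Fermat.Agent.CFT.LC.El Fermat.Agent.CFT.Bridge
open Fermat.Agent.CFT.D.CoeffChange Fermat.Agent.CFT.D.DualTwist Fermat.Agent.CFT.A7.HomRep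

/-! ### The finite places of `S` -/

section Places

variable (S : Finset Nat.Primes)

/-- The local Galois group at a prime of `S`. -/
abbrev Gv (q : ↥S) : Type := primeLocalGaloisGroup q.1

/-- The localisation homomorphism at a prime of `S`. -/
noncomputable abbrev rv (q : ↥S) : Gv S q →* GQ := primeLocalToGlobal q.1

/-- The level family of the local group. -/
noncomputable abbrev Uv (q : ↥S) : Levels (Gv S q) := levelsOf (rv S q)

lemma hrv (q : ↥S) : Levels.Continuous (rv S q) (Uv S q) (levelsS S) :=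
  continuous_levelsOf S _

variable {k : Type} [CommRing k]

/-- Classes of `Hⁿ(G_S, X)` which are locally trivial at all primes of `S`. -/
noncomputable def shaK (X : Rep.{0} k GQ) (n : ℕ) : AddSubgroup (H (levelsS S) X n) where
  carrier := {x | ∀ q : ↥S,
    map (A := X) (B := Rep.res (rv S q) X) (hrv S q) (𝟙 _) n x = 0}
  zero_mem' := fun q => map_zero _
  add_mem' := fun {a b} ha hb q => by
    change map (A := X) (B := Rep.res (rv S q) X) (hrv S q) (𝟙 _) n (a + b) = 0
    rw [map_add, ha q, hb q, add_zero]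
  neg_mem' := fun {a} ha q => by
    change map (A := X) (B := Rep.res (rv S q) X) (hrv S q) (𝟙 _) n (-a) = 0
    rw [map_neg, ha q, neg_zero]

lemma mem_shaK_iff (X : Rep.{0} k GQ) (n : ℕ) (x : H (levelsS S) X n) :
    x ∈ shaK S X n ↔ ∀ q : ↥S,
      map (A := X) (B := Rep.res (rv S q) X) (hrv S q) (𝟙 _) n x = 0 := Iff.rfl

lemma mem_shaK_iff_shaLCfin (X : Rep.{0} k GQ) (n : ℕ) (x : H (levelsS S) X n) :
    x ∈ shaK S X n ↔ x ∈ shaLCfin S X n := by
  rw [mem_shaK_iff, mem_shaLCfin_iff]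
  rfl

lemma mem_shaK_one_iff_sha1 (X : Rep.{0} k GQ) (x : H (levelsS S) X 1) :
    x ∈ shaK S X 1 ↔ x ∈ sha1 (rv S) (hrv S) X := Iff.rfl

/-- Isomorphic coefficients have the same locally trivial classes. -/
lemma mapId_iso_mem_shaK_iff {A B : Rep.{0} k GQ} (e : A ≅ B) (n : ℕ)
    (x : H (levelsS S) A n) : mapId e.hom n x ∈ shaK S B n ↔ x ∈ shaK S A n := by
  rw [mem_shaK_iff, mem_shaK_iff]
  refine forall_congr' fun q => ?_
  rw [mapId_map_apply (hrv S q), Category.comp_id]
  have : IsIso ((Rep.resFunctor (rv S q)).map e.hom) :=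
    (inferInstance : IsIso ((Rep.resFunctor (rv S q)).mapIso e).hom)
  exact LocalRow.map_eq_zero_iff_of_isIso (hrv S q) ((Rep.resFunctor (rv S q)).map e.hom) n x

end Places

/-! ### Change of coefficient ring -/

section Coeff

variable (S : Finset Nat.Primes) {k : Type} [CommRing k] {p : ℕ} [Fact p.Prime]
  (φ : k →+* ZMod p)

lemma hEquiv_mem_shaK_iff (X : Rep.{0} (ZMod p) GQ) (n : ℕ) (x : H (levelsS S) X n) :
    hEquiv φ (levelsS S) X n x ∈ shaK S (resScalars φ X) n ↔ x ∈ shaK S X n := by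
  rw [mem_shaK_iff, mem_shaK_iff]
  refine forall_congr' fun q => ?_
  exact (map_eq_zero_iff φ (hrv S q) (𝟙 (Rep.res (rv S q) X)) n x).symm

end Coeff

/-! ### The reduction -/

section Main

variable {p : ℕ} [Fact p.Prime] (S : Finset Nat.Primes)
  (M : Rep (ZMod p) GQ) [FiniteDimensional (ZMod p) M]
  {k : Type} [CommRing k] (φ : k →+* ZMod p) {E : Rep.{0} k GQ}
  (ι : resScalars φ (chiRep (cycloChar p)) ⟶ E) (hinj : Function.Injective ι.hom)
  (hrange : ∀ e : E.V, (p : k) • e = 0 → ∃ c, ι.hom c = e)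

include hinj hrange in
/-- **S55 from the abstract Poitou–Tate package.** -/
theorem result_of_package (hp2 : p ≠ 2) (hpS : pPrime p ∈ S)
    (hsm : ∀ m : M, ∃ F : IntermediateField ℚ Qbar, FiniteDimensional ℚ F ∧
      ∀ s ∈ F.fixingSubgroup, M.ρ s m = m)
    (hMur : ∀ q : Nat.Primes, q ∉ S → ∀ A : ValuationSubring Qbar,
      A.LiesOverPrime (q : ℕ) → ∀ g ∈ A.inertiaSubgroupIn ℚ, M.ρ g = 1)
    {HR T : Type} [AddCommGroup HR] [AddCommGroup T]
    (hT : Nat.card (torsionP p T) = p)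
    (b : HR →+ H (levelsS S) (homRep (dualK φ M (cycloChar p)) E) 2)
    (hb : ∀ x, x ∈ shaK S (homRep (dualK φ M (cycloChar p)) E) 2 ↔ ∃ h, b h = x)
    (θ : sha1 (rv S) (hrv S) (dualK φ M (cycloChar p)) →+ (HR →+ T))
    (hθ : Function.Injective θ)
    (hker : ∀ y h, b h = 0 → θ y h = 0)
    (hreal : ∀ χ : HR →+ T, (∀ h, b h = 0 → χ h = 0) → ∃ y, θ y = χ) :
    ∃ B : sha₁ S (M.dualTwist (cycloChar p)) →ₗ[ZMod p] sha₂ S M →ₗ[ZMod p] ZMod p,
      (∀ y, (∀ x, B y x = 0) → y = 0) ∧ (∀ x, (∀ y, B y x = 0) → x = 0) := by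
  have hp : p.Prime := Fact.out
  -- `2` is a unit in `ZMod p`
  have h2 : IsUnit (2 : ZMod p) := by
    have hcop : Nat.Coprime 2 p :=
      (Nat.coprime_primes Nat.prime_two hp).2 (Ne.symm hp2)
    have := (ZMod.isUnit_iff_coprime 2 p).2 hcop
    exact_mod_cast this
  -- levels acting trivially on `M` and on its Tate dual
  have hU : MonoidHom.ker M.ρ ∈ (levelsS S).sets := ker_mem_levelsS M S hsm hMur
  have htriv : ∀ s ∈ MonoidHom.ker M.ρ, ∀ m : M, M.ρ s m = m := fun s hs m => by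
    rw [MonoidHom.mem_ker.1 hs]
    rfl
  set M' : Rep (ZMod p) GQ := M.dualTwist (cycloChar p) with hM'
  have hU' : MonoidHom.ker M'.ρ ∈ (levelsS S).sets :=
    ker_dualTwist_mem_levelsS S M hpS hsm hMur
  have htriv' : ∀ s ∈ MonoidHom.ker M'.ρ, ∀ m : M', M'.ρ s m = m := fun s hs m => by
    rw [MonoidHom.mem_ker.1 hs]
    rfl
  -- the ambient identifications
  let amb₂ : continuousH2S S M ≃+ H (levelsS S) (homRep (dualK φ M (cycloChar p)) E) 2 :=
    (h2SEquiv S M hU htriv).toAddEquiv.trans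
      (hDualTwist φ M (cycloChar p) ι hinj hrange (levelsS S) 2)
  have hamb₂ : ∀ x : continuousH2S S M, amb₂ x ∈ shaK S _ 2 ↔ x ∈ sha₂ S M := fun x => by
    change mapId (dualTwistIso φ M (cycloChar p) ι hinj hrange).hom 2
      (hEquiv φ (levelsS S) M 2 (h2SEquiv S M hU htriv x)) ∈ shaK S _ 2 ↔ _
    rw [mapId_iso_mem_shaK_iff, hEquiv_mem_shaK_iff, mem_shaK_iff_shaLCfin,
      ← shaLC_eq_shaLCfin S M h2 1, h2SEquiv_mem_shaLC_iff]
  let amb₁ : H (levelsS S) M' 1 ≃+ H (levelsS S) (dualK φ M (cycloChar p)) 1 :=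
    hEquiv φ (levelsS S) M' 1
  have hamb₁ : ∀ x : H (levelsS S) M' 1,
      amb₁ x ∈ sha1 (rv S) (hrv S) (dualK φ M (cycloChar p)) ↔ x ∈ shaLC S M' 1 := fun x => by
    rw [← mem_shaK_one_iff_sha1]
    change hEquiv φ (levelsS S) M' 1 x ∈ shaK S (resScalars φ M') 1 ↔ _
    rw [hEquiv_mem_shaK_iff, mem_shaK_iff_shaLCfin, ← shaLC_eq_shaLCfin S M' h2 0]
  -- the surjection onto `sha₂`
  let b' : HR →+ sha₂ S M :=
    AddMonoidHom.mk' (fun h => ⟨amb₂.symm (b h), by
      rw [← hamb₂, AddEquiv.apply_symm_apply]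
      exact (hb _).2 ⟨h, rfl⟩⟩) (fun h h' => by
      apply Subtype.ext
      change amb₂.symm (b (h + h')) = amb₂.symm (b h) + amb₂.symm (b h')
      rw [map_add, map_add])
  have hb'0 : ∀ h, b' h = 0 ↔ b h = 0 := fun h => by
    constructor
    · intro hh
      have h1 : amb₂.symm (b h) = 0 := congrArg Subtype.val hh
      exact (AddEquiv.map_eq_zero_iff amb₂.symm).1 h1
    · intro hh
      apply Subtype.ext
      change amb₂.symm (b h) = 0
      rw [hh, map_zero]
  have hb' : Function.Surjective b' := by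
    rintro ⟨x, hx⟩
    obtain ⟨h, hh⟩ := (hb (amb₂ x)).1 ((hamb₂ x).2 hx)
    refine ⟨h, Subtype.ext ?_⟩
    change amb₂.symm (b h) = x
    rw [hh, AddEquiv.symm_apply_apply]
  -- the identification of `sha₁`
  let σ : sha₁ S M' →+ sha1 (rv S) (hrv S) (dualK φ M (cycloChar p)) :=
    AddMonoidHom.mk' (fun y => ⟨amb₁ ((sha₁Equiv S M' hU' htriv').symm y).1,
      (hamb₁ _).2 ((sha₁Equiv S M' hU' htriv').symm y).2⟩) (fun y y' => by
      apply Subtype.ext
      change amb₁ ((sha₁Equiv S M' hU' htriv').symm (y + y')).1 =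
        amb₁ ((sha₁Equiv S M' hU' htriv').symm y).1 +
          amb₁ ((sha₁Equiv S M' hU' htriv').symm y').1
      rw [map_add, Submodule.coe_add, map_add])
  have hσinj : Function.Injective σ := by
    intro y y' h
    have h1 : amb₁ ((sha₁Equiv S M' hU' htriv').symm y).1 =
        amb₁ ((sha₁Equiv S M' hU' htriv').symm y').1 := congrArg Subtype.val h
    exact (sha₁Equiv S M' hU' htriv').symm.injective (Subtype.ext (amb₁.injective h1))
  have hσsurj : Function.Surjective σ := by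
    rintro ⟨z, hz⟩
    have hz' : amb₁.symm z ∈ shaLC S M' 1 := by
      rw [← hamb₁, AddEquiv.apply_symm_apply]
      exact hz
    refine ⟨sha₁Equiv S M' hU' htriv' ⟨amb₁.symm z, hz'⟩, Subtype.ext ?_⟩
    change amb₁ ((sha₁Equiv S M' hU' htriv').symm
      (sha₁Equiv S M' hU' htriv' ⟨amb₁.symm z, hz'⟩)).1 = z
    rw [LinearEquiv.symm_apply_apply, AddEquiv.apply_symm_apply]
  refine exists_pairing_of_eval p hT b' hb' (θ.comp σ) (hθ.comp hσinj)
    (fun y h hh => hker _ h ((hb'0 h).1 hh)) (fun χ hχ => ?_)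
  obtain ⟨y₀, hy₀⟩ := hreal χ (fun h hh => hχ h ((hb'0 h).2 hh))
  obtain ⟨y, rfl⟩ := hσsurj y₀
  exact ⟨y, hy₀⟩

end Main

end Fermat.Agent.CFT.D.Reduce
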