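/-
PROJECT C, Layer D, slice D1mu part 1 (helper25): `μ_p ⊂ Qbarˣ` as the twisted line `ZMod p (χ)`.

`muP p : ZMod p →+ Additive Qbarˣ`, `c ↦ ζ ^ c` for a chosen primitive `p`-th root of unity `ζ`:
injective, image = the `p`-torsion of `Qbarˣ`, equivariant for the PRELUDE's cyclotomic
character `ExtCitation.cycloChar p` (`map_muP`), and with values in helper1's `E_S` when
`p ∈ S` (`muP_mem_ES`).
-/
import Mathlib
import Fermat.Prelude.Def_ExtCitation_KummerBridge
import Fermat.Agent.CFT.C7.KummerUnram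

set_option autoImplicit false

namespace Fermat.Agent.CFT.D.MuP

open ExtCitation Fermat.Agent.CFT.C7.KummerUnram

local notation "Qbar" => AlgebraicClosure ℚ

variable (p : ℕ) [Fact p.Prime]

theorem exists_zeta : ∃ ζ : Qbarˣ, IsPrimitiveRoot ζ p := by
  have : NeZero p := ⟨(Fact.out : p.Prime).ne_zero⟩
  obtain ⟨ζ, hζ⟩ := HasEnoughRootsOfUnity.exists_primitiveRoot Qbar p
  exact ⟨hζ.isUnit (NeZero.ne p) |>.unit, hζ.isUnit_unit (NeZero.ne p)⟩

/-- A chosen primitive `p`-th root of unity of `Qbar`, as a unit. -/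
noncomputable def zeta : Qbarˣ := (exists_zeta p).choose

theorem zeta_spec : IsPrimitiveRoot (zeta p) p := (exists_zeta p).choose_spec

theorem zeta_pow_self : zeta p ^ p = 1 := (zeta_spec p).pow_eq_one

/-- `c ↦ ζ ^ c`, as an additive map `ZMod p →+ Additive Qbarˣ`. -/
noncomputable def muP : ZMod p →+ Additive Qbarˣ :=
  ZMod.lift p ⟨zmultiplesHom (Additive Qbarˣ) (Additive.ofMul (zeta p)), by
    rw [zmultiplesHom_apply, natCast_zsmul, ← ofMul_pow, zeta_pow_self, ofMul_one]⟩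

theorem muP_intCast (n : ℤ) : muP p (n : ZMod p) = Additive.ofMul (zeta p ^ n) := by
  rw [muP, ZMod.lift_coe, zmultiplesHom_apply, ofMul_zpow]

theorem muP_natCast (n : ℕ) : muP p (n : ZMod p) = Additive.ofMul (zeta p ^ n) := by
  have := muP_intCast p (n : ℤ)
  rwa [Int.cast_natCast, zpow_natCast] at this

theorem muP_eq (c : ZMod p) : muP p c = Additive.ofMul (zeta p ^ c.val) := by
  have : NeZero p := ⟨(Fact.out : p.Prime).ne_zero⟩
  conv_lhs => rw [← ZMod.natCast_zmod_val c]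
  exact muP_natCast p c.val

theorem muP_injective : Function.Injective (muP p) := by
  have : NeZero p := ⟨(Fact.out : p.Prime).ne_zero⟩
  rw [injective_iff_map_eq_zero]
  intro c hc
  rw [muP_eq] at hc
  have h1 : zeta p ^ c.val = 1 := hc
  have h2 : p ∣ c.val := (zeta_spec p).dvd_of_pow_eq_one _ h1
  have h3 : c.val = 0 := Nat.eq_zero_of_dvd_of_lt h2 (ZMod.val_lt c)
  exact (ZMod.val_eq_zero c).1 h3

/-- The image of `muP` is the `p`-torsion. -/
theorem exists_muP_eq (u : Additive Qbarˣ) (hu : p • u = 0) : ∃ c, muP p c = u := by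
  have : NeZero p := ⟨(Fact.out : p.Prime).ne_zero⟩
  have h1 : Additive.toMul u ∈ rootsOfUnity p Qbar := by
    rw [mem_rootsOfUnity]
    exact hu
  rw [← (zeta_spec p).zpowers_eq] at h1
  obtain ⟨n, hn⟩ := h1
  refine ⟨(n : ZMod p), ?_⟩
  rw [muP_intCast]
  exact congrArg Additive.ofMul hn

theorem nsmul_muP (c : ZMod p) : p • muP p c = 0 := by
  rw [← map_nsmul, nsmul_eq_mul, ZMod.natCast_self, zero_mul, map_zero]

theorem muP_mem_rootsOfUnity (c : ZMod p) :
    Additive.toMul (muP p c) ∈ rootsOfUnity p Qbar := by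
  rw [mem_rootsOfUnity]
  exact nsmul_muP p c

/-- **Equivariance for the prelude's cyclotomic character.** -/
theorem map_muP (σ : Qbar ≃ₐ[ℚ] Qbar) (c : ZMod p) :
    Units.map ((σ : Qbar →+* Qbar) : Qbar →* Qbar) (Additive.toMul (muP p c)) =
      Additive.toMul (muP p ((cycloChar p σ : ZMod p) * c)) := by
  have : NeZero p := ⟨(Fact.out : p.Prime).ne_zero⟩
  -- the action on `ζ`
  have hz : Units.map ((σ : Qbar →+* Qbar) : Qbar →* Qbar) (zeta p) =
      zeta p ^ (cycloChar p σ : ZMod p).val := by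
    apply Units.ext
    rw [Units.coe_map, Units.val_pow_eq_pow_val]
    exact modularCyclotomicCharacter.spec Qbar (card_rootsOfUnity_eq_self p)
      (σ : Qbar ≃+* Qbar) ((zeta_spec p).mem_rootsOfUnity)
  rw [muP_eq, toMul_ofMul, map_pow, hz, ← pow_mul]
  have h1 : ((cycloChar p σ : ZMod p) * c) =
      (((cycloChar p σ : ZMod p).val * c.val : ℕ) : ZMod p) := by
    rw [Nat.cast_mul, ZMod.natCast_zmod_val, ZMod.natCast_zmod_val]
  rw [h1, muP_natCast, toMul_ofMul]

/-- `μ_p ⊂ E_S` when `p ∈ S`. -/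
theorem muP_mem_ES {S : Finset Nat.Primes} (hpS : (⟨p, Fact.out⟩ : Nat.Primes) ∈ S) (c : ZMod p) :
    Additive.toMul (muP p c) ∈ ES S :=
  rootsOfUnity_le_ES (isSNat_prime hpS) (muP_mem_rootsOfUnity p c)

end Fermat.Agent.CFT.D.MuP
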