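/-
PROJECT C, Layer D, slice D1mu part 2 (helper25): `μ_p ⊂ E` after localisation.

* `iotaOfAdd` : an additive `χ`-equivariant map `ZMod p → Y` (`Y : Rep k G`) is a morphism
  `resScalars φ (chiRep χ) ⟶ Y` as soon as additive maps of `k`-modules are `k`-linear.
* `iotaLoc` : if `Y` is the localisation of `X : Rep R G` at a multiplicative set `M` of elements
  prime to `p` (helper9's `IsLocRep`), and `j₀ : ZMod p →+ X` is injective, `χ`-equivariant, with
  image the `p`-torsion of `X`, then `ι := f ∘ j₀` is injective with image the `p`-torsion of `Y`: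
  exactly the data `(ι, hinj, hrange)` consumed by `DualTwist.dualTwistIso` / `hDualTwist`.
* `liftMuP` : for a `Γ = Gal(Qbar/ℚ)`-module `X` embedded equivariantly in `Additive Qbarˣ` and
  containing `μ_p`, the map `j₀` with `e ∘ j₀ = muP` (character = the prelude's `cycloChar p`).
-/
import Fermat.Agent.CFT.D.DualTwist
import Fermat.Agent.CFT.D.MuP
import Fermat.Agent.CFT.A7.BaseChange
import Fermat.Agent.CFT.A5.PGroupFree

set_option autoImplicit false

namespace Fermat.Agent.CFT.D.MuPLoc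

open CategoryTheory Fermat.Agent.CFT.D.CoeffChange Fermat.Agent.CFT.D.DualTwist
  Fermat.Agent.CFT.A7.BaseChange Fermat.Agent.CFT.A5

variable {k G : Type} [CommRing k] [Group G] {p : ℕ} [Fact p.Prime] (φ : k →+* ZMod p)
  (χ : G →* (ZMod p)ˣ) {Y : Rep.{0} k G}

/-- An additive map `ZMod p → Y` as a `k`-linear map. -/
noncomputable def iotaLin (hk : AddHomsLinear k) (j : ZMod p →+ Y.V) :
    (resScalars φ (chiRep χ)).V →ₗ[k] Y.V where
  toFun c := j ((toRes φ (chiRep χ)).symm c)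
  map_add' c c' := by rw [map_add, map_add]
  map_smul' a c :=
    hk (resScalars φ (chiRep χ)).V Y.V (j.comp (toRes φ (chiRep χ)).symm.toAddMonoidHom) a c

/-- An additive `χ`-equivariant map `ZMod p → Y` as a morphism of representations over `k`. -/
noncomputable def iotaOfAdd (hk : AddHomsLinear k) (j : ZMod p →+ Y.V)
    (hj : ∀ g c, Y.ρ g (j c) = j ((χ g : ZMod p) * c)) : resScalars φ (chiRep χ) ⟶ Y :=
  Rep.ofHom (ρ := resRho φ (chiRep χ).ρ) (σ := Y.ρ)
    ⟨iotaLin φ χ hk j,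
      fun g => LinearMap.ext fun c => (hj g ((toRes φ (chiRep χ)).symm c)).symm⟩

theorem iotaOfAdd_apply (hk : AddHomsLinear k) (j : ZMod p →+ Y.V)
    (hj : ∀ g c, Y.ρ g (j c) = j ((χ g : ZMod p) * c)) (c : ZMod p) :
    (iotaOfAdd φ χ hk j hj).hom (toRes φ (chiRep χ) c) = j c := rfl

section Loc

variable {R : Type} [CommRing R] [Algebra R k] {M : Submonoid R} {X : Rep.{0} R G}
  {f : X.V →+ Y.V} (hf : IsLocRep M X Y f) (hMp : ∀ s ∈ M, IsCoprime s (p : R))
  (j₀ : ZMod p →+ X.V) (hinj₀ : Function.Injective j₀)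
  (hrange₀ : ∀ x : X.V, (p : R) • x = 0 → ∃ c, j₀ c = x)
  (htors₀ : ∀ c, (p : R) • j₀ c = 0)
  (hequiv₀ : ∀ g c, X.ρ g (j₀ c) = j₀ ((χ g : ZMod p) * c))

include hf hMp hinj₀ htors₀ in
theorem comp_injective : Function.Injective (f.comp j₀) := by
  rw [injective_iff_map_eq_zero]
  intro c hc
  obtain ⟨s, hs, hsx⟩ := hf.eq_zero (j₀ c) hc
  obtain ⟨a, b, hab⟩ := hMp s hs
  have h1 : j₀ c = (a * s + b * (p : R)) • j₀ c := by rw [hab, one_smul]
  rw [add_smul, mul_smul, mul_smul, hsx, htors₀, smul_zero, smul_zero, add_zero] at h1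
  exact (injective_iff_map_eq_zero j₀).1 hinj₀ c h1

include hf hMp hrange₀ in
theorem comp_range (y : Y.V) (hy : (p : k) • y = 0) : ∃ c, f (j₀ c) = y := by
  obtain ⟨s, hs, x, hx⟩ := hf.surj y
  -- `p • x` dies in `Y`
  have h1 : f ((p : R) • x) = 0 := by
    rw [hf.map_smul, ← hx, smul_smul, mul_comm, ← smul_smul, map_natCast, hy, smul_zero]
  obtain ⟨s', hs', hs'x⟩ := hf.eq_zero _ h1
  have h2 : (p : R) • (s' • x) = 0 := by rw [smul_smul, mul_comm, ← smul_smul, hs'x]
  obtain ⟨c, hc⟩ := hrange₀ _ h2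
  obtain ⟨a, b, hab⟩ := hMp (s' * s) (M.mul_mem hs' hs)
  -- `a • j₀ c` is again `p`-torsion
  have h3 : (p : R) • (a • j₀ c) = 0 := by
    rw [smul_smul, mul_comm, ← smul_smul, hc, h2, smul_zero]
  obtain ⟨c', hc'⟩ := hrange₀ _ h3
  refine ⟨c', ?_⟩
  rw [hc', hf.map_smul, hc, hf.map_smul, ← hx]
  have h4 : y = algebraMap R k (a * (s' * s) + b * (p : R)) • y := by rw [hab, map_one, one_smul]
  rw [map_add, add_smul, map_mul, map_mul, map_mul, map_natCast, mul_smul (algebraMap R k b),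
    hy, smul_zero, add_zero] at h4
  rw [smul_smul, smul_smul, mul_assoc]
  exact h4.symm

/-- **`μ_p` inside the localisation.** -/
noncomputable def iotaLoc (hk : AddHomsLinear k) : resScalars φ (chiRep χ) ⟶ Y :=
  iotaOfAdd φ χ hk (f.comp j₀) (fun g c => by
    rw [AddMonoidHom.comp_apply, AddMonoidHom.comp_apply, ← hf.map_ρ, hequiv₀])

theorem iotaLoc_apply (hk : AddHomsLinear k) (c : ZMod p) :
    (iotaLoc φ χ hf j₀ hequiv₀ hk).hom (toRes φ (chiRep χ) c) = f (j₀ c) := rfl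

include hMp hinj₀ htors₀ in
theorem iotaLoc_injective (hk : AddHomsLinear k) :
    Function.Injective (iotaLoc φ χ hf j₀ hequiv₀ hk).hom := by
  intro c c' h
  obtain ⟨c, rfl⟩ := (toRes φ (chiRep χ)).surjective c
  obtain ⟨c', rfl⟩ := (toRes φ (chiRep χ)).surjective c'
  rw [iotaLoc_apply, iotaLoc_apply] at h
  rw [comp_injective hf hMp j₀ hinj₀ htors₀ h]

include hMp hrange₀ in
theorem iotaLoc_range (hk : AddHomsLinear k) (y : Y.V) (hy : (p : k) • y = 0) :
    ∃ c, (iotaLoc φ χ hf j₀ hequiv₀ hk).hom c = y := by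
  obtain ⟨c, hc⟩ := comp_range hf hMp j₀ hrange₀ y hy
  exact ⟨toRes φ (chiRep χ) c, hc⟩

end Loc

/-! ### `μ_p` inside a Galois submodule of `Qbarˣ` -/

section Lift

local notation "Qbar" => AlgebraicClosure ℚ

variable (p) {X : Rep.{0} ℤ (Qbar ≃ₐ[ℚ] Qbar)} (e : X.V →+ Additive Qbarˣ)
  (he : Function.Injective e)
  (heq : ∀ (σ : Qbar ≃ₐ[ℚ] Qbar) (x : X.V), e (X.ρ σ x) =
    Additive.ofMul (Units.map ((σ : Qbar →+* Qbar) : Qbar →* Qbar) (Additive.toMul (e x))))
  (hμ : ∀ c : ZMod p, ∃ x, e x = MuP.muP p c)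

/-- The copy of `μ_p` inside a module `X` embedded in `Additive Qbarˣ`. -/
noncomputable def liftMuP : ZMod p →+ X.V :=
  AddMonoidHom.mk' (fun c => (hμ c).choose) (fun c c' => he (by
    have h1 := (hμ c).choose_spec
    have h2 := (hμ c').choose_spec
    have h3 := (hμ (c + c')).choose_spec
    have h4 : e ((hμ c).choose + (hμ c').choose) = MuP.muP p (c + c') := by
      rw [map_add e, h1, h2, map_add]
    exact h3.trans h4.symm))

theorem e_liftMuP (c : ZMod p) : e (liftMuP p e he hμ c) = MuP.muP p c := (hμ c).choose_spec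

theorem liftMuP_injective : Function.Injective (liftMuP p e he hμ) := by
  intro c c' h
  apply MuP.muP_injective p
  rw [← e_liftMuP p e he hμ, ← e_liftMuP p e he hμ, h]

theorem liftMuP_range (x : X.V) (hx : ((p : ℕ) : ℤ) • x = 0) : ∃ c, liftMuP p e he hμ c = x := by
  have h1 : p • e x = 0 := by
    rw [← map_nsmul, ← natCast_zsmul, hx, map_zero]
  obtain ⟨c, hc⟩ := MuP.exists_muP_eq p (e x) h1
  exact ⟨c, he (by rw [e_liftMuP, hc])⟩

theorem liftMuP_tors (c : ZMod p) : ((p : ℕ) : ℤ) • liftMuP p e he hμ c = 0 := by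
  apply he
  rw [natCast_zsmul, map_nsmul, e_liftMuP, MuP.nsmul_muP, map_zero]

include heq in
/-- Equivariance for the prelude's cyclotomic character. -/
theorem liftMuP_equiv (σ : Qbar ≃ₐ[ℚ] Qbar) (c : ZMod p) :
    X.ρ σ (liftMuP p e he hμ c) =
      liftMuP p e he hμ ((ExtCitation.cycloChar p σ : ZMod p) * c) := by
  apply he
  rw [heq, e_liftMuP, e_liftMuP, MuP.map_muP]
  rfl

end Lift

end Fermat.Agent.CFT.D.MuPLoc
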