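/-
PROJECT C, Layer D (helper23), slice (D-inj/frob): the fields `inj` (ii) and `frob` (iii) of
`D.Main.Datum` for `J = ⊕_{v} J_v`, from the arithmetic contract `H4.LevelData` of each summand.

GENERIC PART.  `b : BiprodData J Jv`, localisation maps `π' v : Res_{r v} (Jv v) ⟶ D v`, and for
every place `v`

* `hdata v` : cofinally many levels `U` carry `LevelData (Jv v) (r v) (𝒰v v) (π' v) U`
  (one place: index type `Unit`);
* `h90 v`   : Hilbert 90 for the layers of `D v`;
* `hsm v`   : `Jv v` is smooth.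

Then (`inj`) the maps `H²(G, J) → H²(G_v, D_v)` induced by `b.loc r π' v` are jointly injective,
and (`frob`) Frobenius reciprocity holds for every smooth `R`.  The level family on `G_v` in the
conclusion of `inj` may be any family `𝒰v' v` refined by `𝒰v v` (for the Datum: `𝒰v = levelsLoc`,
`𝒰v' = levelsOf`), see `map_eq_zero_of_refines`.
-/
import Fermat.Agent.CFT.C7.JInj
import Fermat.Agent.CFT.C7.JInduced
import Fermat.Agent.CFT.D.Frobenius
import Fermat.Agent.CFT.D.Biprod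
import Fermat.Agent.CFT.D.H4.QMain
import Fermat.Agent.CFT.Idele.QSBiprod
import Fermat.Agent.CFT.D.Reduce
import Fermat.Agent.CFT.D.Assemble

set_option autoImplicit false
set_option linter.unusedSectionVars false

universe u w

namespace Fermat.Agent.CFT.D.DatumInjFrob

open CategoryTheory Fermat.Agent.CFT.LC Fermat.Agent.CFT.LC.El Fermat.Agent.CFT.D.H4
  Fermat.Agent.CFT.D.Frobenius Fermat.Agent.CFT.C1 Fermat.Agent.CFT.InfRes2
  Fermat.Agent.CFT.A7.HomRep

/-! ### Change of the level family on the small group -/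

section Refines

variable {k G G' : Type u} [CommRing k] [Group G] [Group G'] {𝒰 : Levels G}
  {𝒰' 𝒰'' : Levels G'} {φ : G' →* G} {A : Rep.{u} k G} {B : Rep.{u} k G'}

/-- Passing to a finer level family on the small group, on complexes. -/
lemma mapComplex_refines (hφ' : Levels.Continuous φ 𝒰' 𝒰) (hφ'' : Levels.Continuous φ 𝒰'' 𝒰)
    (h : 𝒰''.Refines 𝒰') (ψ : Rep.res φ A ⟶ B) :
    mapComplex (A := A) (B := B) hφ' ψ ≫
        mapComplex (A := B) (B := B) (Levels.continuous_id_of_refines h) (𝟙 B) =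
      mapComplex (A := A) (B := B) hφ'' ψ := by
  ext n f : 3
  apply Subtype.ext
  rfl

/-- Passing to a finer level family on the small group, on cohomology. -/
lemma map_refines (hφ' : Levels.Continuous φ 𝒰' 𝒰) (hφ'' : Levels.Continuous φ 𝒰'' 𝒰)
    (h : 𝒰''.Refines 𝒰') (ψ : Rep.res φ A ⟶ B) (n : ℕ) (x : H 𝒰 A n) :
    map (A := B) (B := B) (Levels.continuous_id_of_refines h) (𝟙 B) n
        (map (A := A) (B := B) hφ' ψ n x) =
      map (A := A) (B := B) hφ'' ψ n x := by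
  have h1 : map (A := A) (B := B) hφ' ψ n ≫
      map (A := B) (B := B) (Levels.continuous_id_of_refines h) (𝟙 B) n =
        map (A := A) (B := B) hφ'' ψ n :=
    (HomologicalComplex.homologyMap_comp _ _ n).symm.trans
      (congrArg (fun f => HomologicalComplex.homologyMap f n) (mapComplex_refines hφ' hφ'' h ψ))
  rw [← h1, ConcreteCategory.comp_apply]

/-- A class killed by `map` for a level family `𝒰'` is killed by `map` for any finer family. -/
lemma map_eq_zero_of_refines (hφ' : Levels.Continuous φ 𝒰' 𝒰) (hφ'' : Levels.Continuous φ 𝒰'' 𝒰)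
    (h : 𝒰''.Refines 𝒰') (ψ : Rep.res φ A ⟶ B) (n : ℕ) (x : H 𝒰 A n)
    (hx : map (A := A) (B := B) hφ' ψ n x = 0) : map (A := A) (B := B) hφ'' ψ n x = 0 := by
  rw [← map_refines hφ' hφ'' h ψ n x, hx, map_zero]

end Refines

/-! ### Transport of biproduct data through a functor changing the coefficient ring -/

section MapRing

variable {k k' G G' : Type u} [CommRing k] [CommRing k'] [Group G] [Group G'] {ι : Type*}
  [Fintype ι] {J : Rep.{u} k G} {Jv : ι → Rep.{u} k G}

/-- Transport of biproduct data through an additive functor `Rep k G ⥤ Rep k' G'`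
(`BiprodData.mapFunctor` with a change of coefficient ring, e.g. `k' ⊗ -`). -/
def mapRing (b : BiprodData J Jv) (F : Rep.{u} k G ⥤ Rep.{u} k' G') [F.Additive] :
    BiprodData (F.obj J) (fun v => F.obj (Jv v)) where
  p v := F.map (b.p v)
  i v := F.map (b.i v)
  i_p_self v := by rw [← F.map_comp, b.i_p_self, F.map_id]
  i_p_ne v v' h := by rw [← F.map_comp, b.i_p_ne v v' h, F.map_zero]
  sum_p_i := by
    simp_rw [← F.map_comp]
    rw [← F.map_sum, b.sum_p_i, F.map_id]

end MapRing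

/-! ### The generic statements -/

section Generic

variable {k G : Type u} [CommRing k] [Group G] {ι : Type*} [Fintype ι]
  {J : Rep.{u} k G} {Jv : ι → Rep.{u} k G} (b : BiprodData J Jv)
  {𝒰 : Levels G} {Gv : ι → Type u} [∀ v, Group (Gv v)] (r : ∀ v, Gv v →* G)
  {𝒰v 𝒰v' : ∀ v, Levels (Gv v)}
  (hr : ∀ v, Levels.Continuous (r v) (𝒰v v) 𝒰) (hr' : ∀ v, Levels.Continuous (r v) (𝒰v' v) 𝒰)
  (href : ∀ v, (𝒰v v).Refines (𝒰v' v))
  {D : ∀ v, Rep.{u} k (Gv v)} (π' : ∀ v, Rep.res (r v) (Jv v) ⟶ D v)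
  (hdata : ∀ v, ∀ U₀ ∈ 𝒰.sets, ∃ (U : Subgroup G) (_ : U.Normal) (_ : U ∈ 𝒰.sets) (_ : U ≤ U₀),
    Nonempty (LevelData.{u, w} (Jv v) (fun _ : Unit => r v) (fun _ : Unit => 𝒰v v)
      (fun _ : Unit => π' v) U))

include hdata in
/-- Injectivity of `H²(G, J_v) → H²(G_v, D_v)` for one summand. -/
theorem inj_place
    (h90 : ∀ v (V W : Subgroup (Gv v)) (_ : V.Normal) (_ : W.Normal), V ∈ (𝒰v v).sets →
      W ∈ (𝒰v v).sets → W ≤ V → H1Vanishes ((D v).quotientToInvariants W) (layer V W))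
    (v : ι) (y : H 𝒰 (Jv v) 2)
    (hy : map (A := Jv v) (B := D v) (hr v) (π' v) 2 y = 0) : y = 0 :=
  Fermat.Agent.CFT.C7.JInj.h4_two_plain (ι := Unit) (Gv := fun _ => Gv v) (φ := fun _ => r v)
    (𝒰v := fun _ => 𝒰v v) (Y := fun _ => D v) (π := fun _ => π' v) (fun _ => hr v) (hdata v)
    (fun _ => h90 v) y (fun _ => hy)

include hdata hr href in
/-- **Field `inj` of the Datum** (generic form): the localisation maps
`H²(G, J) → H²(G_v, D_v)` are jointly injective. -/
theorem inj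
    (h90 : ∀ v (V W : Subgroup (Gv v)) (_ : V.Normal) (_ : W.Normal), V ∈ (𝒰v v).sets →
      W ∈ (𝒰v v).sets → W ≤ V → H1Vanishes ((D v).quotientToInvariants W) (layer V W))
    (y : H 𝒰 J 2)
    (hy : ∀ v, map (A := J) (B := D v) (hr' v) (b.loc r π' v) 2 y = 0) : y = 0 := by
  refine b.eq_zero_of_forall_map r hr π' 2 (inj_place r hr π' hdata h90) (b.loc r π')
    (fun _ => rfl) y ?_
  intro v
  exact map_eq_zero_of_refines (hr' v) (hr v) (href v) _ 2 y (hy v)

include hdata in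
/-- Every summand is smoothly induced. -/
theorem inducedFrom_place (hsm : ∀ v, IsSmooth 𝒰 (Jv v)) (v : ι) :
    InducedFrom 𝒰 (r v) (π' v) :=
  Fermat.Agent.CFT.C7.JInduced.inducedFrom (ι := Unit) (Gv := fun _ => Gv v) (φ := fun _ => r v)
    (𝒰v := fun _ => 𝒰v v) (Y := fun _ => D v) (π := fun _ => π' v) (hsm v) (hdata v)

include hdata in
/-- **Field `frob` of the Datum** (generic form): Frobenius reciprocity for every smooth `R`. -/
theorem frob (hsm : ∀ v, IsSmooth 𝒰 (Jv v)) (R : Rep.{u} k G) (hR : IsSmooth 𝒰 R) (v : ι)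
    (χ : Rep.res (r v) R ⟶ D v) :
    ∃ ψ : R ⟶ J, (Rep.resFunctor (r v)).map ψ ≫ b.loc r π' v = χ ∧
      ∀ v', v' ≠ v → (Rep.resFunctor (r v')).map ψ ≫ b.loc r π' v' = 0 :=
  frob_of_inducedFrom b r π' (inducedFrom_place r π' hdata hsm) hR v χ

end Generic

/-! ### The instance: `J_S ⊗ k = ⊕_{q ∈ S} J_q ⊗ k` over a localisation `k` of `ℤ` -/

section Concrete

open scoped TensorProduct
open Fermat.Agent.CFT.Idele Fermat.Agent.CFT.Bridge Fermat.Agent.CFT.LocalBridge
  Fermat.Agent.CFT.A7.BaseChange Fermat.Agent.CFT.D.H4.QIdele Fermat.Agent.CFT.D.Reduce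
  ExtCitation

variable (S : Finset Nat.Primes) (k : Type) [CommRing k] [Algebra ℤ k]

/-- `J_S ⊗ k`, the middle term of helper27's `C7.SES.seqK S k`. -/
noncomputable abbrev JK : Rep.{0} k GQ := tensorRep (k := k) (QS.J S)

/-- **`J_S ⊗ k = ⊕_{q ∈ S} J_q ⊗ k`** as biproduct data. -/
noncomputable def biprodK : BiprodData (JK S k) (fun q : ↥S => JqK S q.1 k) :=
  mapRing (QS.biprod S) (tensorFunctor (R := ℤ) (G := GQ) k)

/-- The local module `D_q = ℚ̄_qˣ ⊗ k` at `q ∈ S`, as a representation of `Gv S q`. -/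
noncomputable abbrev DlocK (q : ↥S) : Rep.{0} k (Gv S q) := DqK q.1 k

/-- The localisation map `π_q : Res_q (J_q ⊗ k) ⟶ D_q` at `q ∈ S`, over `rv S q`. -/
noncomputable abbrev piqK (q : ↥S) : Rep.res (rv S q) (JqK S q.1 k) ⟶ DlocK S k q := piK S q.1 k

/-- **The localisation map `π_q : Res_q (J_S ⊗ k) ⟶ D_q`** of the Datum: project to `J_q ⊗ k`,
then evaluate at the chosen place. -/
noncomputable def piJK (q : ↥S) : Rep.res (rv S q) (JK S k) ⟶ DlocK S k q :=
  (biprodK S k).loc (rv S) (piqK S k) q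

@[simp] lemma biprodK_p (q : ↥S) : (biprodK S k).p q = tensorMap k (QS.proj S q.1) := rfl

@[simp] lemma biprodK_i (q : ↥S) : (biprodK S k).i q = tensorMap k (QS.single S q.1 q.2) := rfl

lemma piJK_eq (q : ↥S) :
    piJK S k q = (Rep.resFunctor (rv S q)).map (tensorMap k (QS.proj S q.1)) ≫ piqK S k q := rfl

/-- `piJK` is the base change of helper11's localisation map `QS.loc q S` of `J_S` (the form
`π q := k ⊗ QS.loc q S` of the Datum). -/
lemma piJK_eq_tensorMapRes (q : ↥S) :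
    piJK S k q = tensorMapRes k (rv S q) (QS.loc q.1 S) := by
  apply Rep.hom_ext
  apply Representation.IntertwiningMap.ext
  apply LinearMap.ext
  intro x
  induction x using TensorProduct.induction_on with
  | zero => rw [map_zero, map_zero]
  | tmul c x => rfl
  | add a b ha hb => rw [map_add, map_add, ha, hb]

lemma piJK_toTensorRep (q : ↥S) (x : (QS.J S).V) :
    (piJK S k q).hom (toTensorRep (k := k) (QS.J S) x) =
      toTensorRep (k := k) (Fermat.Agent.CFT.GaloisDict.unitsRep ℚ_[(q.1 : ℕ)] (PadicAlgCl (q.1 : ℕ)))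
        ((QS.loc q.1 S).hom x) := by
  rw [piJK_eq_tensorMapRes]
  exact tensorMapRes_toTensorRep k (rv S q) (QS.loc q.1 S) x

variable (M : Submonoid ℤ) [IsLocalization M k]

include M in
/-- `J_q ⊗ k` is smooth for the levels of `G_S`. -/
theorem isSmooth_JqK (q : Nat.Primes) : IsSmooth (levelsS S) (JqK S q k) :=
  isSmooth_tensorRep M (levelsS S) (QS.isSmooth_Jq S q)

include M in
/-- **Field `inj` of `D.Main.Datum`** for `SES.X₂ = J_S ⊗ k`, `Dloc = DlocK`, `π = piJK`:
`H²(G_S, J_S ⊗ k) → ∏_{q ∈ S} H²(G_q, ℚ̄_qˣ ⊗ k)` is injective. -/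
theorem inj_JK (y : H (levelsS S) (JK S k) 2)
    (hy : ∀ q, map (A := JK S k) (B := DlocK S k q) (hrv S q) (piJK S k q) 2 y = 0) : y = 0 :=
  inj (biprodK S k) (rv S) (𝒰v := fun q : ↥S => levelsLoc (q.1 : ℕ)) (𝒰v' := Uv S)
    (fun q => continuous_loc S q.1) (hrv S) (fun q => levelsLoc_refines_levelsOf (q.1 : ℕ))
    (piqK S k) (fun q => hdata_JqK S q.1 k M)
    (fun q V W hV hW hVm hWm hle =>
      h90_of_classFormation (cfDqK q.1 k M) V W hV hW hVm hWm hle) y hy

include M in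
/-- **Field `frob` of `D.Main.Datum`** for `SES.X₂ = J_S ⊗ k`, `Dloc = DlocK`, `π = piJK`:
Frobenius reciprocity for every smooth `R`. -/
theorem frob_JK (R : Rep.{0} k GQ) (hR : IsSmooth (levelsS S) R) (q : ↥S)
    (χ : Rep.res (rv S q) R ⟶ DlocK S k q) :
    ∃ ψ : R ⟶ JK S k, (Rep.resFunctor (rv S q)).map ψ ≫ piJK S k q = χ ∧
      ∀ q', q' ≠ q → (Rep.resFunctor (rv S q')).map ψ ≫ piJK S k q' = 0 :=
  frob (biprodK S k) (rv S) (𝒰v := fun q : ↥S => levelsLoc (q.1 : ℕ)) (piqK S k)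
    (fun q => hdata_JqK S q.1 k M) (fun q => isSmooth_JqK S k M q.1) R hR q χ

include M in
/-- **Field `h4_one` of `D.Main.Datum`** (semilocal Shapiro in degree one) for `SES.X₂ = J_S ⊗ k`,
`Dloc = DlocK`, `π = piJK`. -/
theorem h4_one_JK (B : Rep.{0} k GQ)
    (hB : ∃ U ∈ (levelsS S).sets, ∀ u ∈ U, ∀ b : B.V, B.ρ u b = b)
    (x : H (levelsS S) (homRep B (JK S k)) 1)
    (hx : ∀ q, map (A := homRep B (JK S k)) (B := homRep (Rep.res (rv S q) B) (DlocK S k q))
      (hrv S q) (locHom (rv S) q B (JK S k) (piJK S k q)) 1 x = 0) : x = 0 := by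
  obtain ⟨U₁, hU₁, hB⟩ := hB
  refine (biprodK S k).eq_zero_of_forall_map_pushLoc (rv S)
    (𝒰v := fun q : ↥S => levelsLoc (q.1 : ℕ)) (fun q => continuous_loc S q.1) (piqK S k) B 1
    (fun q y hy => h4_one_JqK S q.1 M B U₁ hU₁ hB y hy) x ?_
  intro q
  exact map_eq_zero_of_refines (hrv S q) (continuous_loc S q.1)
    (levelsLoc_refines_levelsOf (q.1 : ℕ)) _ 1 x (hx q)

include M in
/-- **Field `h4_two` of `D.Main.Datum`** (semilocal Shapiro in degree two) for `SES.X₂ = J_S ⊗ k`,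
`Dloc = DlocK`, `π = piJK`. -/
theorem h4_two_JK (B : Rep.{0} k GQ) [Module.Free k B.V]
    (hB : ∃ U ∈ (levelsS S).sets, ∀ u ∈ U, ∀ b : B.V, B.ρ u b = b)
    (x : H (levelsS S) (homRep B (JK S k)) 2)
    (hx : ∀ q, map (A := homRep B (JK S k)) (B := homRep (Rep.res (rv S q) B) (DlocK S k q))
      (hrv S q) (locHom (rv S) q B (JK S k) (piJK S k q)) 2 x = 0) : x = 0 := by
  obtain ⟨U₁, hU₁, hB⟩ := hB
  refine (biprodK S k).eq_zero_of_forall_map_pushLoc (rv S)
    (𝒰v := fun q : ↥S => levelsLoc (q.1 : ℕ)) (fun q => continuous_loc S q.1) (piqK S k) B 2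
    (fun q y hy => h4_two_JqK S q.1 M B U₁ hU₁ hB y hy) x ?_
  intro q
  exact map_eq_zero_of_refines (hrv S q) (continuous_loc S q.1)
    (levelsLoc_refines_levelsOf (q.1 : ℕ)) _ 2 x (hx q)

end Concrete

end Fermat.Agent.CFT.D.DatumInjFrob
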