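import Mathlib
import Fermat.Agent.CFT.D.Realize
import Fermat.Agent.CFT.A7.NTK
import Fermat.Agent.CFT.A7.NTInt

/-!
# PROJECT C, Layer D glue: finite-level Nakayama–Tate duality (NT) on the layers of a class formation

`cf : A7.ClassFormation 𝒰 C` a class formation over a coefficient ring `k` (a PID of characteristic
zero in which additive maps between `k`-modules are linear: `k = ℤ`, `k = ℤ_(p)`), `B` a `k`-lattice
(free of finite rank) on which a level acts trivially.  Then the layer `B^U = B` is a lattice over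
the finite group `G ⧸ U`, the layer `C^U` is a class module, and (NT) (`A7.NTK`) applies:

* `ntb`  : `D.NTb 𝒰 U₀ B C` — the hypotheses `hNTF`, `hNTR` of `shaOnePushEquivOfClassFormation`
  (`D/Pairing`), i.e. the hypothesis `hNT` of (LIM-b) (`A7/Limit`);
* `ntc`  : `Realize.NTc (B^U) (C^U)` — the hypothesis `hNTc` of `Realize.hg_of_N3_of_NTc`;
* `nta_layer`, `ntd_layer` : the two other faces of the perfect pairing, on a layer;
* `ntb_int`, `ntc_int` : the same for `k = ℤ`, unconditionally (`A7.NTInt`).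
-/

set_option autoImplicit false

noncomputable section

namespace Fermat.Agent.CFT.D.NTGlue

open CategoryTheory groupCohomology Fermat.Agent.CFT.LC Fermat.Agent.CFT.A5
  Fermat.Agent.CFT.A5.Tate Fermat.Agent.CFT.A7 Fermat.Agent.CFT.A7.NT Fermat.Agent.CFT.D.Realize

variable {k G : Type} [CommRing k] [Group G]

/-- A supplier of the hypotheses of (NT): for every finite group `Γ`, every class module `(C, φ)`
over `Γ` and every `k`-lattice `Q` over `Γ`. -/
def NTSupply (k : Type) [CommRing k] : Prop :=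
  ∀ (Γ : Type) [Group Γ] [Fintype Γ] (C : Rep.{0} k Γ) (φ : cocycles₂ C), IsClassModule C φ →
    ∀ Q : Rep.{0} k Γ, Module.Free k Q.V → Module.Finite k Q.V → NTHyp Q C φ

/-- (NT) is available over a PID of characteristic zero with `AddHomsLinear`. -/
theorem ntSupply_of_pid [IsDomain k] [IsPrincipalIdealRing k] [CharZero k]
    (hR : AddHomsLinear k) : NTSupply k :=
  fun _ _ _ _ _ hC Q hfree hfin => by
    have := hfree
    have := hfin
    exact NTK.ntHyp_of_isClassModule hR hC Q

/-- (NT) is available over `ℤ`. -/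
theorem ntSupply_int : NTSupply ℤ :=
  fun _ _ _ _ _ hC Q hfree hfin => NTInt.nthyp_of_isClassModule hC Q hfree hfin

/-! ### (NT) on a layer -/

section Layer

variable {𝒰 : Levels G} {C : Rep.{0} k G}

/-- If `U` acts trivially on the lattice `B`, the layer `B^U` is a lattice. -/
theorem free_layer (U : Subgroup G) [U.Normal] (B : Rep.{0} k G) [Module.Free k B.V]
    (hB : ∀ u ∈ U, ∀ b : B.V, B.ρ u b = b) : Module.Free k (B.quotientToInvariants U).V :=
  Module.Free.of_equiv (layerEquiv U hB).symm

theorem finite_layer (U : Subgroup G) [U.Normal] (B : Rep.{0} k G) [Module.Finite k B.V]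
    (hB : ∀ u ∈ U, ∀ b : B.V, B.ρ u b = b) : Module.Finite k (B.quotientToInvariants U).V :=
  Module.Finite.equiv (layerEquiv U hB).symm

/-- The hypotheses of (NT) for the twice shifted layer of a lattice. -/
theorem ntHyp_layer (hK : NTSupply k) (cf : ClassFormation 𝒰 C) (U : Subgroup G) [U.Normal]
    (hU : U ∈ 𝒰.sets) [Fintype (G ⧸ U)] (B : Rep.{0} k G) [Module.Free k B.V]
    [Module.Finite k B.V] (hB : ∀ u ∈ U, ∀ b : B.V, B.ρ u b = b) :
    NTHyp (A2.up (A2.up (B.quotientToInvariants U))) (C.quotientToInvariants U) (cf.φ U hU) := by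
  have := free_layer U B hB
  have := finite_layer U B hB
  exact hK (G ⧸ U) _ _ (cf.isClassModule U hU) _ inferInstance inferInstance

variable (hK : NTSupply k) (cf : ClassFormation 𝒰 C) (U : Subgroup G) [U.Normal]
  (hU : U ∈ 𝒰.sets) [Fintype (G ⧸ U)] (B : Rep.{0} k G) [Module.Free k B.V]
  [Module.Finite k B.V] (hB : ∀ u ∈ U, ∀ b : B.V, B.ρ u b = b)

include hK cf hU hB

/-- **(NT-b) on a layer.** -/
theorem ntb_layer (y : groupCohomology (B.quotientToInvariants U) 2)
    (hy : ∀ χ : B.quotientToInvariants U ⟶ C.quotientToInvariants U,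
      (groupCohomology.map (A := B.quotientToInvariants U) (B := C.quotientToInvariants U)
        (MonoidHom.id (G ⧸ U)) χ 2).hom y = 0) : y = 0 := by
  have := free_layer U B hB
  have := finite_layer U B hB
  exact NT.nt_b (B.quotientToInvariants U) (C.quotientToInvariants U) (cf.φ U hU)
    (ntHyp_layer hK cf U hU B hB) y hy

/-- **(NT-a) on a layer.** -/
theorem nta_layer (χ : B.quotientToInvariants U ⟶ C.quotientToInvariants U)
    (hχ : ∀ y : groupCohomology (B.quotientToInvariants U) 2,
      (groupCohomology.map (A := B.quotientToInvariants U) (B := C.quotientToInvariants U)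
        (MonoidHom.id (G ⧸ U)) χ 2).hom y = 0) :
    ∃ θ : (B.quotientToInvariants U).V →ₗ[k] (C.quotientToInvariants U).V,
      χ = normHom (B.quotientToInvariants U) (C.quotientToInvariants U) θ := by
  have := free_layer U B hB
  have := finite_layer U B hB
  exact NT.nt_a (B.quotientToInvariants U) (C.quotientToInvariants U) (cf.φ U hU)
    (ntHyp_layer hK cf U hU B hB) χ hχ

/-- **(NT-c) on a layer**, in the shape of `Realize.NTc`. -/
theorem ntc : NTc (B.quotientToInvariants U) (C.quotientToInvariants U) := by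
  have := free_layer U B hB
  have := finite_layer U B hB
  exact fun f hf => NT.nt_c (B.quotientToInvariants U) (C.quotientToInvariants U) (cf.φ U hU)
    (ntHyp_layer hK cf U hU B hB) f hf

/-- **(NT-d) on a layer.** -/
theorem ntd_layer (f : groupCohomology (B.quotientToInvariants U) 2 →+
      groupCohomology (C.quotientToInvariants U) 2) :
    ∃ χ : B.quotientToInvariants U ⟶ C.quotientToInvariants U,
      ∀ y : groupCohomology (B.quotientToInvariants U) 2,
        (groupCohomology.map (A := B.quotientToInvariants U) (B := C.quotientToInvariants U)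
          (MonoidHom.id (G ⧸ U)) χ 2).hom y = f y := by
  have := free_layer U B hB
  have := finite_layer U B hB
  exact NT.nt_d (B.quotientToInvariants U) (C.quotientToInvariants U) (cf.φ U hU)
    (ntHyp_layer hK cf U hU B hB) f

end Layer

/-! ### The hypothesis `NTb` of (LIM-b) / `shaOnePushEquivOfClassFormation` -/

section NTb

variable {𝒰 : Levels G} {C : Rep.{0} k G}

/-- **(NT-b) on all layers below `U₀`**: helper28's `D.NTb`, for a lattice `B` on which `U₀` acts
trivially. -/
theorem ntb (hK : NTSupply k) (cf : ClassFormation 𝒰 C) (U₀ : Subgroup G) (B : Rep.{0} k G)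
    [Module.Free k B.V] [Module.Finite k B.V] (hB : ∀ u ∈ U₀, ∀ b : B.V, B.ρ u b = b) :
    NTb 𝒰 U₀ B C := by
  intro U _ hU hle y hy
  have : U.FiniteIndex := cf.finiteIndex U hU
  have : Finite (G ⧸ U) := Subgroup.finite_quotient_of_finiteIndex
  let _ : Fintype (G ⧸ U) := Fintype.ofFinite _
  exact ntb_layer hK cf U hU B (fun u hu b => hB u (hle hu) b) y hy

/-- `D.NTb` over a PID of characteristic zero with `AddHomsLinear` (`k = ℤ_(p)`). -/
theorem ntb_of_pid [IsDomain k] [IsPrincipalIdealRing k] [CharZero k] (hR : AddHomsLinear k)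
    (cf : ClassFormation 𝒰 C) (U₀ : Subgroup G) (B : Rep.{0} k G)
    [Module.Free k B.V] [Module.Finite k B.V] (hB : ∀ u ∈ U₀, ∀ b : B.V, B.ρ u b = b) :
    NTb 𝒰 U₀ B C :=
  ntb (ntSupply_of_pid hR) cf U₀ B hB

/-- `Realize.NTc` on a layer over a PID of characteristic zero with `AddHomsLinear`. -/
theorem ntc_of_pid [IsDomain k] [IsPrincipalIdealRing k] [CharZero k] (hR : AddHomsLinear k)
    (cf : ClassFormation 𝒰 C) (U : Subgroup G) [U.Normal] (hU : U ∈ 𝒰.sets) [Fintype (G ⧸ U)]
    (B : Rep.{0} k G) [Module.Free k B.V] [Module.Finite k B.V]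
    (hB : ∀ u ∈ U, ∀ b : B.V, B.ρ u b = b) :
    NTc (B.quotientToInvariants U) (C.quotientToInvariants U) :=
  ntc (ntSupply_of_pid hR) cf U hU B hB

end NTb

/-! ### `k = ℤ` -/

section Int

variable {𝒰 : Levels G} {C : Rep.{0} ℤ G}

/-- `D.NTb` for a class formation over `ℤ`, unconditionally.  The lattice hypotheses are stated
for the `ℤ`-module structure `B.hV2` carried by `B` (what a `k`-generic caller has at `k = ℤ`). -/
theorem ntb_int (cf : ClassFormation 𝒰 C) (U₀ : Subgroup G) (B : Rep.{0} ℤ G)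
    (hfree : @Module.Free ℤ B.V _ _ B.hV2) (hfin : @Module.Finite ℤ B.V _ _ B.hV2)
    (hB : ∀ u ∈ U₀, ∀ b : B.V, B.ρ u b = b) :
    NTb 𝒰 U₀ B C :=
  @ntb ℤ G _ _ 𝒰 C ntSupply_int cf U₀ B hfree hfin hB

/-- `Realize.NTc` on a layer for a class formation over `ℤ`, unconditionally. -/
theorem ntc_int (cf : ClassFormation 𝒰 C) (U : Subgroup G) [U.Normal] (hU : U ∈ 𝒰.sets)
    [Fintype (G ⧸ U)] (B : Rep.{0} ℤ G)
    (hfree : @Module.Free ℤ B.V _ _ B.hV2) (hfin : @Module.Finite ℤ B.V _ _ B.hV2)
    (hB : ∀ u ∈ U, ∀ b : B.V, B.ρ u b = b) :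
    NTc (B.quotientToInvariants U) (C.quotientToInvariants U) :=
  @ntc ℤ G _ _ 𝒰 C ntSupply_int cf U _ hU _ B hfree hfin hB

/-- `ntb_int` for the default `ℤ`-module structure of the additive group `B.V`. -/
theorem ntb_int' (cf : ClassFormation 𝒰 C) (U₀ : Subgroup G) (B : Rep.{0} ℤ G)
    (hfree : @Module.Free ℤ B.V _ _ (AddCommGroup.toIntModule B.V))
    (hfin : @Module.Finite ℤ B.V _ _ (AddCommGroup.toIntModule B.V))
    (hB : ∀ u ∈ U₀, ∀ b : B.V, B.ρ u b = b) :
    NTb 𝒰 U₀ B C := by
  rw [A2.int_module_eq] at hfree hfin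
  exact ntb_int cf U₀ B hfree hfin hB

/-- `ntc_int` for the default `ℤ`-module structure of the additive group `B.V`. -/
theorem ntc_int' (cf : ClassFormation 𝒰 C) (U : Subgroup G) [U.Normal] (hU : U ∈ 𝒰.sets)
    [Fintype (G ⧸ U)] (B : Rep.{0} ℤ G)
    (hfree : @Module.Free ℤ B.V _ _ (AddCommGroup.toIntModule B.V))
    (hfin : @Module.Finite ℤ B.V _ _ (AddCommGroup.toIntModule B.V))
    (hB : ∀ u ∈ U, ∀ b : B.V, B.ρ u b = b) :
    NTc (B.quotientToInvariants U) (C.quotientToInvariants U) := by
  rw [A2.int_module_eq] at hfree hfin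
  exact ntc_int cf U hU B hfree hfin hB

end Int

end Fermat.Agent.CFT.D.NTGlue
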