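/-
PROJECT C, Layer D (helper8), D4: the final assembly.

`Datum S φ` is the CONTRACT between the arithmetic layers (C7, B, C) and Layer D: a short exact
sequence `E → J → C` of smooth `GQ`-modules over `k` (`k = ℤ_(p)`), `μ_p ⊂ E`, a class formation
on `C`, local modules `D_q` with class formations, and the local–global facts on `J`.
`result_of_datum` proves the frozen statement S55 from a `Datum`.
-/
import Fermat.Agent.CFT.D.Reduce
import Fermat.Agent.CFT.D.Assemble
import Fermat.Agent.CFT.D.Resolution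
import Fermat.Agent.CFT.D.NTGlue
import Fermat.Agent.CFT.D.LocalRow

set_option autoImplicit false

namespace Fermat.Agent.CFT.D.Main

open CategoryTheory groupCohomology ExtCitation
open Fermat.Agent.CFT.LC Fermat.Agent.CFT.LC.El Fermat.Agent.CFT.Bridge
open Fermat.Agent.CFT.D.CoeffChange Fermat.Agent.CFT.D.DualTwist Fermat.Agent.CFT.A7.HomRep
open Fermat.Agent.CFT.D.Reduce Fermat.Agent.CFT.D.Realize Fermat.Agent.CFT.A7
open Fermat.Agent.CFT.A5

/-! ### The contract -/

/-- The arithmetic input of Poitou–Tate duality for `G_{ℚ,S}` with `p`-primary coefficients. -/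
structure Datum {p : ℕ} [Fact p.Prime] (S : Finset Nat.Primes) {k : Type} [CommRing k]
    (φ : k →+* ZMod p) where
  /-- the sequence `E → J → C` (`S`-units, `S`-ideles, `S`-idele classes of `ℚ_S`, tensored
  with `k`) -/
  SES : ShortComplex (Rep.{0} k GQ)
  exact : SES.ShortExact
  smE : IsSmooth (levelsS S) SES.X₁
  smJ : IsSmooth (levelsS S) SES.X₂
  smC : IsSmooth (levelsS S) SES.X₃
  /-- `E` is `p`-divisible -/
  divE : ∀ x : SES.X₁.V, ∃ y : SES.X₁.V, (p : k) • y = x
  /-- `μ_p ⊂ E` -/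
  ι : resScalars φ (chiRep (cycloChar p)) ⟶ SES.X₁
  ι_inj : Function.Injective ι.hom
  ι_range : ∀ e : SES.X₁.V, (p : k) • e = 0 → ∃ c, ι.hom c = e
  /-- the global class formation -/
  cf : ClassFormation (levelsS S) SES.X₃
  /-- the `p`-torsion of `H²(G_S, C)` has `p` elements -/
  hT : Nat.card (torsionP p (H (levelsS S) SES.X₃ 2)) = p
  /-- the local modules `D_q = Q̄_q^× ⊗ k` -/
  Dloc : ∀ q : ↥S, Rep.{0} k (Gv S q)
  π : ∀ q : ↥S, Rep.res (rv S q) SES.X₂ ⟶ Dloc q
  smD : ∀ q, IsSmooth (Uv S q) (Dloc q)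
  divD : ∀ q, ∀ x : (Dloc q).V, ∃ y : (Dloc q).V, (p : k) • y = x
  /-- `E → D_q` is bijective on `p`-torsion -/
  loc_inj : ∀ q, ∀ x : SES.X₁.V, (p : k) • x = 0 → (π q).hom (SES.f.hom x) = 0 → x = 0
  loc_surj : ∀ q, ∀ d : (Dloc q).V, (p : k) • d = 0 →
    ∃ x : SES.X₁.V, (p : k) • x = 0 ∧ (π q).hom (SES.f.hom x) = d
  /-- the local class formations -/
  cfD : ∀ q, ClassFormation (Uv S q) (Dloc q)
  /-- (h4b): semilocal Shapiro in degree one, for every lattice `B` -/
  h4_one : ∀ (B : Rep.{0} k GQ) [Module.Free k B.V] [Module.Finite k B.V],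
    (∃ U ∈ (levelsS S).sets, ∀ u ∈ U, ∀ b : B.V, B.ρ u b = b) →
    ∀ x : H (levelsS S) (homRep B SES.X₂) 1,
      (∀ q, map (A := homRep B SES.X₂) (B := homRep (Rep.res (rv S q) B) (Dloc q)) (hrv S q)
        (locHom (rv S) q B SES.X₂ (π q)) 1 x = 0) → x = 0
  /-- (h4a): semilocal Shapiro in degree two, for every lattice `B` -/
  h4_two : ∀ (B : Rep.{0} k GQ) [Module.Free k B.V] [Module.Finite k B.V],
    (∃ U ∈ (levelsS S).sets, ∀ u ∈ U, ∀ b : B.V, B.ρ u b = b) →
    ∀ x : H (levelsS S) (homRep B SES.X₂) 2,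
      (∀ q, map (A := homRep B SES.X₂) (B := homRep (Rep.res (rv S q) B) (Dloc q)) (hrv S q)
        (locHom (rv S) q B SES.X₂ (π q)) 2 x = 0) → x = 0
  /-- (i): a class of `H²(G_S, J)` supported at one prime and dying in `H²(G_S, C)` vanishes -/
  supp : ∀ q, ∀ y : H (levelsS S) SES.X₂ 2,
    (∀ q', q' ≠ q → map (A := SES.X₂) (B := Dloc q') (hrv S q') (π q') 2 y = 0) →
      mapId SES.g 2 y = 0 → y = 0
  /-- (ii): `H²(G_S, J) → ∏ H²(G_q, D_q)` is injective -/
  inj : ∀ y : H (levelsS S) SES.X₂ 2,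
    (∀ q, map (A := SES.X₂) (B := Dloc q) (hrv S q) (π q) 2 y = 0) → y = 0
  /-- (iii): Frobenius reciprocity -/
  frob : ∀ (R : Rep.{0} k GQ), IsSmooth (levelsS S) R → ∀ q (χ : Rep.res (rv S q) R ⟶ Dloc q),
    ∃ ψ : R ⟶ SES.X₂, (Rep.resFunctor (rv S q)).map ψ ≫ π q = χ ∧
      ∀ q', q' ≠ q → (Rep.resFunctor (rv S q')).map ψ ≫ π q' = 0
  /-- (N3): exponent-`p` existence theorem, cofinally -/
  n3 : ∀ U₀ ∈ (levelsS S).sets, ∃ U' : Subgroup GQ, ∃ _ : U'.Normal,
    U' ∈ (levelsS S).sets ∧ U' ≤ U₀ ∧ ((p : ℕ) : k) ∣ ((Nat.card (GQ ⧸ U') : ℕ) : k) ∧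
      ∀ [Fintype (layerSub U₀ U')], N3 SES.X₃ ((p : ℕ) : k) U₀ U'

/-! ### The theorem -/

section Main

variable {p : ℕ} [Fact p.Prime] (S : Finset Nat.Primes) {k : Type} [CommRing k] [IsDomain k]
  [IsPrincipalIdealRing k] [CharZero k] (φ : k →+* ZMod p)

/-- `IsZero` for a module means every element vanishes. -/
lemma eq_zero_of_isZero {R : Type} [Ring R] {X : ModuleCat.{0} R} (h : Limits.IsZero X) (x : X) :
    x = 0 := by
  have := (ModuleCat.isZero_iff_subsingleton).1 h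
  exact Subsingleton.elim _ _

/-- **Poitou–Tate duality for `Ш¹`, `Ш²` (frozen statement S55) from the arithmetic datum.** -/
theorem result_of_datum (hR : AddHomsLinear k) (dat : Datum S φ) (hp2 : p ≠ 2)
    (hpS : pPrime p ∈ S) (M : Rep (ZMod p) GQ) [FiniteDimensional (ZMod p) M]
    (hsm : ∀ m : M, ∃ F : IntermediateField ℚ Qbar, FiniteDimensional ℚ F ∧
      ∀ s ∈ F.fixingSubgroup, M.ρ s m = m)
    (hMur : ∀ q : Nat.Primes, q ∉ S → ∀ A : ValuationSubring Qbar,
      A.LiesOverPrime (q : ℕ) → ∀ g ∈ A.inertiaSubgroupIn ℚ, M.ρ g = 1) :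
    ∃ B : sha₁ S (M.dualTwist (cycloChar p)) →ₗ[ZMod p] sha₂ S M →ₗ[ZMod p] ZMod p,
      (∀ y, (∀ x, B y x = 0) → y = 0) ∧ (∀ x, (∀ y, B y x = 0) → x = 0) := by
  classical
  have hp : p.Prime := Fact.out
  -- the module `A = M.dualTwist χ` over `k`
  set M' : Rep (ZMod p) GQ := M.dualTwist (cycloChar p) with hM'
  set A : Rep.{0} k GQ := dualK φ M (cycloChar p) with hA
  have hfinM' : Finite M'.V := Module.finite_of_finite (ZMod p)
  have hfinA : Finite A.V := Finite.of_equiv _ (toRes φ M').toEquiv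
  have hker' : MonoidHom.ker M'.ρ ∈ (levelsS S).sets :=
    ker_dualTwist_mem_levelsS S M hpS hsm hMur
  have smA : IsSmooth (levelsS S) A := fun a =>
    ⟨MonoidHom.ker M'.ρ, hker', fun s hs => by
      obtain ⟨a, rfl⟩ := (toRes φ M').surjective a
      change toRes φ M' (M'.ρ s a) = _
      rw [MonoidHom.mem_ker.1 hs]
      rfl⟩
  have hpA : ∀ a : A.V, ((p : ℕ) : k) • a = 0 := natCast_smul_resScalars φ M'
  -- the resolution
  have hprojR : Module.Projective k (Resolution.RA A).V := Resolution.projective_RA A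
  have hfreeR : Module.Free k (Resolution.RA A).V := Resolution.free_RA A
  have hfinR : Module.Finite k (Resolution.RA A).V := Resolution.finite_RA A
  have hprojR' : Module.Projective k (Resolution.SA A).X₁.V := hprojR
  have hfreeR' : Module.Free k (Resolution.SA A).X₁.V := hfreeR
  have hfinR' : Module.Finite k (Resolution.SA A).X₁.V := hfinR
  have hfinF' : Module.Finite k (Resolution.SA A).X₂.V :=
    inferInstanceAs (Module.Finite k (Resolution.FA A).V)
  have hfreeF' : Module.Free k (Resolution.SA A).X₂.V :=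
    inferInstanceAs (Module.Free k (Resolution.FA A).V)
  have smF : IsSmooth (levelsS S) (Resolution.SA A).X₂ := Resolution.isSmooth_FA A smA
  have smR : IsSmooth (levelsS S) (Resolution.SA A).X₁ := Resolution.isSmooth_RA A smA
  have hSA : (Resolution.SA A).ShortExact := Resolution.SA_shortExact A
  have hpF : ∀ v : (Resolution.SA A).X₂.V, ∃ w : (Resolution.SA A).X₁.V,
      (Resolution.SA A).f.hom w = ((p : ℕ) : k) • v :=
    Resolution.exists_incl_eq_smul A ((p : ℕ) : k) hpA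
  -- a level acting trivially on `F` and `R`
  obtain ⟨U₀, hU₀, hFtriv⟩ := PermH1.exists_level_trivial (Resolution.basisFA A)
    (Resolution.FA_ρ_basis A) (levelsS S) (Resolution.isOpen_stabilizer A smA)
  have hRtriv : ∀ u ∈ U₀, ∀ b : (Resolution.RA A).V, (Resolution.RA A).ρ u b = b :=
    fun u hu b => Subtype.ext (hFtriv u hu b.1)
  -- the rows and columns
  have hSF : (SFof (Resolution.SA A) dat.SES).ShortExact := Resolution.SF_shortExact dat.exact
  have hSR : (SRof (Resolution.SA A) dat.SES).ShortExact := Resolution.SR_shortExact dat.exact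
  have hSE : (homSC (Resolution.SA A) dat.SES.X₁).ShortExact :=
    homSC_shortExact_of_divisible (S := Resolution.SA A) hSA ((p : ℕ) : k) hpF dat.SES.X₁
      dat.divE
  have smFJ : IsSmooth (levelsS S) (homRep (Resolution.SA A).X₂ dat.SES.X₂) :=
    isSmooth_homRep smF dat.smJ
  have smRJ : IsSmooth (levelsS S) (homRep (Resolution.SA A).X₁ dat.SES.X₂) :=
    isSmooth_homRep smR dat.smJ
  have smFE : IsSmooth (levelsS S) (homRep (Resolution.SA A).X₂ dat.SES.X₁) :=
    isSmooth_homRep smF dat.smE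
  -- the local rows
  have hSv : ∀ q, (Svof (Resolution.SA A) (rv S) dat.Dloc q).ShortExact := fun q =>
    LocalRow.Sv_shortExact (rv S q) (dat.Dloc q) hSA ((p : ℕ) : k) hpA (dat.divD q)
  have smv : ∀ q, IsSmooth (Uv S q)
      (homRep (Rep.res (rv S q) (Resolution.SA A).X₂) (dat.Dloc q)) := fun q => by
    have : Module.Finite k (Rep.res (rv S q) (Resolution.SA A).X₂).V :=
      inferInstanceAs (Module.Finite k (Resolution.FA A).V)
    exact isSmooth_homRep (IsSmooth.res_of_continuous (hrv S q) smF) (dat.smD q)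
  -- vanishing of `H¹`
  have h1 : ∀ x : H (levelsS S) (homRep (Resolution.SA A).X₂ dat.SES.X₃) 1, x = 0 := fun x =>
    eq_zero_of_isZero (Resolution.isZero_H_homRep_FA' A smA dat.SES.X₃ dat.smC 1
      (fun V hV => dat.cf.isZero_H1_restrict V hV)) x
  have h3 : ∀ q, ∀ x : H (Uv S q)
      (homRep (Rep.res (rv S q) (Resolution.SA A).X₂) (dat.Dloc q)) 1, x = 0 := fun q x =>
    eq_zero_of_isZero (Resolution.isZero_H_homRep_res_FA A (rv S q) (hrv S q) smA (dat.Dloc q)
      (dat.smD q) 1 (fun V hV => (dat.cfD q).isZero_H1_restrict V hV)) x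
  -- (h2) follows from semilocal Shapiro in degree one and (h3)
  have h2 : ∀ x : H (levelsS S) (homRep (Resolution.SA A).X₂ dat.SES.X₂) 1, x = 0 := fun x =>
    dat.h4_one (Resolution.FA A) ⟨U₀, hU₀, hFtriv⟩ x (fun q => h3 q _)
  -- semilocal Shapiro
  have h4a := dat.h4_two (Resolution.FA A) ⟨U₀, hU₀, hFtriv⟩
  have h4b := dat.h4_one (Resolution.RA A) ⟨U₀, hU₀, hRtriv⟩
  -- the local coefficient maps are isomorphisms
  have hMinj : ∀ q, Function.Injective
      (mapId (𝒰 := Uv S q) (locM (Resolution.SA A) (rv S) dat.π q) 2) := fun q => by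
    have : IsIso (locM (Resolution.SA A) (rv S) dat.π q) :=
      LocalRow.isIso_pushLoc_of_torsion (rv S q)
        ((Rep.resFunctor (rv S q)).map dat.SES.f ≫ dat.π q) A ((p : ℕ) : k) hpA
        (dat.loc_inj q) (dat.loc_surj q)
    exact mapId_injective_of_isIso _ 2
  -- THEOREM II inputs
  have hF1 : ∀ x : H (levelsS S) (Resolution.SA A).X₂ 1, x = 0 := fun x =>
    Resolution.eq_zero_of_H1_FA A smA x
  have hF1v : ∀ q, ∀ x : H (Uv S q) (Rep.res (rv S q) (Resolution.SA A).X₂) 1, x = 0 :=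
    fun q x => Resolution.eq_zero_of_H1_res_FA A (rv S q) (hrv S q) smA x
  have hc : ∀ y : H (levelsS S) (Resolution.SA A).X₂ 2,
      (∀ ψ : (Resolution.SA A).X₂ ⟶ dat.SES.X₃, mapId ψ 2 y = 0) → y = 0 := fun y hy =>
    dat.cf.eq_zero_of_forall_mapId_eq_zero U₀ hU₀ hFtriv
      (NTGlue.ntb_of_pid hR dat.cf U₀ (Resolution.FA A) hFtriv) y hy
  have hf : ∀ x : H (levelsS S) (Resolution.SA A).X₁ 2,
      (∀ ψ : (Resolution.SA A).X₁ ⟶ dat.SES.X₃, mapId ψ 2 x = 0) → x = 0 := fun x hx =>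
    dat.cf.eq_zero_of_forall_mapId_eq_zero U₀ hU₀ hRtriv
      (NTGlue.ntb_of_pid hR dat.cf U₀ (Resolution.RA A) hRtriv) x hx
  have hLG : LocalGlobal (SA := Resolution.SA A) (rv S) (hrv S) dat.SES.g dat.π :=
    { supp := dat.supp
      inj := dat.inj
      frob := fun q χ => dat.frob (Resolution.RA A) smR q χ
      locNondeg := fun q z hz => by
        have hfree : Module.Free k (Rep.res (rv S q) (Resolution.RA A)).V := hfreeR
        have hfin : Module.Finite k (Rep.res (rv S q) (Resolution.RA A)).V := hfinR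
        have hmem : U₀.comap (rv S q) ∈ (Uv S q).sets :=
          Levels.mem_comap_sets (mem_levelsAll_of_mem_levelsS S hU₀)
        have htriv : ∀ u ∈ U₀.comap (rv S q), ∀ b : (Rep.res (rv S q) (Resolution.RA A)).V,
            (Rep.res (rv S q) (Resolution.RA A)).ρ u b = b := fun u hu b => hRtriv _ hu b
        exact (dat.cfD q).eq_zero_of_forall_mapId_eq_zero _ hmem htriv
          (NTGlue.ntb_of_pid hR (dat.cfD q) _ (Rep.res (rv S q) (Resolution.RA A)) htriv)
          z hz }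
  -- realisability
  obtain ⟨U', hU'n, hU', hle, hdvd, hN3⟩ := dat.n3 U₀ hU₀
  have hfi : U'.FiniteIndex := dat.cf.finiteIndex U' hU'
  have hfq : Finite (GQ ⧸ U') := Subgroup.finite_quotient_of_finiteIndex
  let _ : Fintype (GQ ⧸ U') := Fintype.ofFinite _
  let _ : Fintype (layerSub U₀ U') := Fintype.ofFinite _
  have hg := hg_of_N3_of_NTc hSA dat.SES.g dat.cf p hp.ne_zero hpF U₀ U' hU' hle hRtriv hdvd hN3
    (NTGlue.ntc_of_pid hR dat.cf U' hU' (Resolution.RA A)
      (fun u hu b => hRtriv u (hle hu) b))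
  -- (B2)
  have hB2 := bdryHom_eq_zero_iff_exists hSF hSR hSE smFJ smRJ smFE h2
  -- conclude
  refine result_of_package S M φ dat.ι dat.ι_inj dat.ι_range hp2 hpS hsm hMur dat.hT
    (bdryHom hSR hSE smRJ smFE)
    (fun x => mem_sha2_iff_exists_bdryHom hSF hSR hSE smFJ smRJ smFE (rv S) (hrv S) dat.π hSv smv
      h1 h3 h4a h4b hMinj x)
    (assembleTheta hSA smF (rv S) (hrv S) dat.SES.X₃)
    (assembleTheta_injective hSA smF (rv S) (hrv S) hF1 hf)
    (fun y h hh => ?_) (fun χ hχ => ?_)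
  · obtain ⟨ψ, φ', rfl⟩ := (hB2 h).1 hh
    have e1 := assembleTheta_comp_f hSA smF (rv S) (hrv S) dat.SES.X₃ y ψ
    have e2 := assembleTheta_comp_g hSA smF (rv S) (hrv S) dat.π hLG y φ'
    rw [map_add]
    exact (congrArg₂ (· + ·) e1 e2).trans (add_zero 0)
  · refine exists_assembleTheta_eq hSA smF (rv S) (hrv S) dat.π hF1 hF1v hc hf hLG hg χ
      (fun ψ => hχ _ ((hB2 _).2 ⟨ψ, 0, by rw [Limits.zero_comp, add_zero]⟩))
      (fun φ' => hχ _ ((hB2 _).2 ⟨0, φ', by rw [Limits.comp_zero, zero_add]⟩))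

end Main

end Fermat.Agent.CFT.D.Main
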