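/-
PROJECT C, Layer D (helper23): the field `supp` (i) of `D.Main.Datum` / `DatumBuild.GlobalInputs`
REDUCED TO ONE CLASS PER PRIME.

For `J_S ⊗ k = ⊕_{q ∈ S} J_q ⊗ k` (`D/DatumInjFrob.lean`: `JK`, `biprodK`, `DlocK`, `piJK`) and any
`g : J_S ⊗ k ⟶ C`: if for every `q ∈ S` there is ONE class `y₀ ∈ H²(G_S, J_q ⊗ k)` with
`p • y₀ = 0` whose image in `H²(G_S, C)` is nonzero, then a class of `H²(G_S, J_S ⊗ k)` whose
localisations away from `q` vanish and which dies in `H²(G_S, C)` is zero (`supp_JK`).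

Inputs: helper13's `D/Supp.eq_zero_of_mapId_eq_zero_of_class` and `A7/TorsionP`
(`exists_pow_smul_eq_zero`, `ClassFormation.card_torsionP`), the local class formation
`cfDqK` (helper4/helper21), the per-place injectivity `DatumInjFrob.inj_place`, `BiprodData.supp`,
and a local level of index divisible by `p` (`exists_levelsLoc_dvd`, from an extension of `ℚ_q` of
degree `p`, helper18's `Local/UnramifiedExists`).
-/
import Fermat.Agent.CFT.D.DatumInjFrob
import Fermat.Agent.CFT.D.Supp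
import Fermat.Agent.CFT.A7.TorsionP
import Fermat.Agent.CFT.Local.UnramifiedExists
import Fermat.Agent.CFT.D.ZpModel
import Fermat.Agent.CFT.C7.SES

set_option autoImplicit false
set_option linter.unusedSectionVars false

noncomputable section

namespace Fermat.Agent.CFT.D.DatumSupp

open CategoryTheory ExtCitation IntermediateField Module
open Fermat.Agent.CFT.LC Fermat.Agent.CFT.LC.El Fermat.Agent.CFT.Bridge
  Fermat.Agent.CFT.LocalBridge Fermat.Agent.CFT.Idele Fermat.Agent.CFT.A7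
  Fermat.Agent.CFT.A7.BaseChange Fermat.Agent.CFT.D.H4 Fermat.Agent.CFT.D.H4.QIdele
  Fermat.Agent.CFT.D.Reduce Fermat.Agent.CFT.D.DatumInjFrob

/-! ### A local level of index divisible by `p` -/

section LocalLevel

variable (q : ℕ) [Fact q.Prime]

/-- For every `n > 0` some level of `Gal(ℚ̄_q/ℚ_q)` has index divisible by `n`. -/
theorem exists_levelsLoc_dvd (n : ℕ) (hn : 0 < n) :
    ∃ U ∈ (levelsLoc q).sets, n ∣ Nat.card (LocGal q ⧸ U) := by
  have : Finite (IsLocalRing.ResidueField ℤ_[q]) :=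
    Finite.of_equiv _ (PadicInt.residueField (p := q)).symm.toEquiv
  obtain ⟨f, α, -, -, -, -, -, hdeg⟩ :=
    Fermat.Agent.CFT.Local.Unramified.exists_adjoin_root ℤ_[q] ℚ_[q] n hn (PadicAlgCl q)
  have hfd : FiniteDimensional ℚ_[q] ℚ_[q]⟮α⟯ :=
    Module.finite_of_finrank_pos (by rw [hdeg]; exact hn)
  set E : IntermediateField ℚ_[q] (PadicAlgCl q) :=
    IntermediateField.normalClosure ℚ_[q] ℚ_[q]⟮α⟯ (PadicAlgCl q) with hE
  have hEfd : FiniteDimensional ℚ_[q] E := normalClosure.is_finiteDimensional _ _ _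
  have hEn : Normal ℚ_[q] E := normalClosure.normal _ _ _
  refine ⟨E.fixingSubgroup, ⟨E, hEfd, hEn, rfl⟩, ?_⟩
  have h1 : Nat.card (LocGal q ⧸ E.fixingSubgroup) = finrank ℚ_[q] E :=
    (IntermediateField.finrank_eq_fixingSubgroup_index (PadicAlgCl q) E).symm
  rw [h1, ← hdeg]
  exact IntermediateField.finrank_dvd_of_le_right (IntermediateField.le_normalClosure _)

end LocalLevel

/-! ### The reduction -/

section Supp

variable (S : Finset Nat.Primes) (k : Type) [CommRing k] [Algebra ℤ k] (M : Submonoid ℤ)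
  [IsLocalization M k] [IsDomain k] [CharZero k] (p : ℕ) [Fact p.Prime]

include M in
/-- Per-place injectivity of `H²(G_S, J_q ⊗ k) → H²(G_S, C)` from one class. -/
theorem hg_of_class (hunit : ∀ m : ℕ, m.Coprime p → IsUnit (m : k))
    (hk : Nat.card (k ⧸ Ideal.span {(p : k)}) = p) {C : Rep.{0} k GQ} (q : ↥S)
    (gv : JqK S q.1 k ⟶ C)
    (hy₀ : ∃ y₀ : H (levelsS S) (JqK S q.1 k) 2, (p : k) • y₀ = 0 ∧ mapId gv 2 y₀ ≠ 0)
    (y : H (levelsS S) (JqK S q.1 k) 2) (hy : mapId gv 2 y = 0) : y = 0 := by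
  have hp : p.Prime := Fact.out
  obtain ⟨y₀, hy₀p, hy₀⟩ := hy₀
  obtain ⟨U₀, hU₀, hdvd⟩ := exists_levelsLoc_dvd (q.1 : ℕ) p hp.pos
  have : U₀.Normal := (levelsLoc (q.1 : ℕ)).normal U₀ hU₀
  refine eq_zero_of_mapId_eq_zero_of_class (continuous_loc S q.1) gv (piK S q.1 k) p ?_ ?_ ?_
    y₀ hy₀p hy₀ y hy
  · intro z hz
    exact inj_place (ι := ↥S) (rv S) (𝒰v := fun q : ↥S => levelsLoc (q.1 : ℕ))
      (fun q => continuous_loc S q.1) (piqK S k) (fun q => hdata_JqK S q.1 k M)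
      (fun q V W hV hW hVm hWm hle =>
        h90_of_classFormation (cfDqK q.1 k M) V W hV hW hVm hWm hle) q z hz
  · intro z
    exact exists_pow_smul_eq_zero (levelsS S) (JqK S q.1 k) p hunit 1 z
  · exact (cfDqK q.1 k M).card_torsionP p U₀ hU₀ hdvd hp.ne_zero hk

include M in
/-- **Field `supp` of the Datum, reduced to one class per prime** (generic `k`, any
`g : J_S ⊗ k ⟶ C`). -/
theorem supp_JK (hunit : ∀ m : ℕ, m.Coprime p → IsUnit (m : k))
    (hk : Nat.card (k ⧸ Ideal.span {(p : k)}) = p) {C : Rep.{0} k GQ} (g : JK S k ⟶ C)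
    (hy₀ : ∀ q : ↥S, ∃ y₀ : H (levelsS S) (JqK S q.1 k) 2,
      (p : k) • y₀ = 0 ∧ mapId ((biprodK S k).i q ≫ g) 2 y₀ ≠ 0)
    (q : ↥S) (y : H (levelsS S) (JK S k) 2)
    (h1 : ∀ q', q' ≠ q →
      map (A := JK S k) (B := DlocK S k q') (hrv S q') (piJK S k q') 2 y = 0)
    (h2 : mapId g 2 y = 0) : y = 0 := by
  refine (biprodK S k).supp (rv S) (𝒰v := fun q : ↥S => levelsLoc (q.1 : ℕ))
    (fun q => continuous_loc S q.1) (piqK S k) g 2 ?_ ?_ q y ?_ h2
  · intro v z hz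
    exact inj_place (ι := ↥S) (rv S) (𝒰v := fun q : ↥S => levelsLoc (q.1 : ℕ))
      (fun q => continuous_loc S q.1) (piqK S k) (fun q => hdata_JqK S q.1 k M)
      (fun q V W hV hW hVm hWm hle =>
        h90_of_classFormation (cfDqK q.1 k M) V W hV hW hVm hWm hle) v z hz
  · intro v z hz
    exact hg_of_class S k M p hunit hk v ((biprodK S k).i v ≫ g) (hy₀ v) z hz
  · intro q' hq'
    exact map_eq_zero_of_refines (hrv S q') (continuous_loc S q'.1)
      (levelsLoc_refines_levelsOf (q'.1 : ℕ)) _ 2 y (h1 q' hq')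

end Supp

/-! ### The field of `DatumBuild.GlobalInputs` over `Zp p` -/

section Zp

open Fermat.Agent.CFT.D.ZpModel Fermat.Agent.CFT.C7.SES

variable (S : Finset Nat.Primes) (p : ℕ) [Fact p.Prime]

/-- **`GlobalInputs.supp` (verbatim field type of `D/Datum/Build.lean`) from one class per prime**:
for every `q ∈ S` a class `y₀ ∈ H²(G_S, J_q ⊗ ℤ_(p))` of order `p` whose image in
`H²(G_S, C_S ⊗ ℤ_(p))` is nonzero. -/
theorem supp_Zp
    (hy₀ : ∀ q : ↥S, ∃ y₀ : H (levelsS S) (JqK S q.1 (Zp p)) 2,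
      (p : Zp p) • y₀ = 0 ∧
        mapId ((biprodK S (Zp p)).i q ≫ (seqK S (Zp p)).g) 2 y₀ ≠ 0) :
    ∀ q, ∀ y : H (levelsS S) (seqK S (Zp p)).X₂ 2,
      (∀ q', q' ≠ q → map (A := (seqK S (Zp p)).X₂) (B := DlocK S (Zp p) q') (hrv S q')
        (piJK S (Zp p) q') 2 y = 0) → mapId (seqK S (Zp p)).g 2 y = 0 → y = 0 :=
  fun q y h1 h2 => supp_JK S (Zp p) (primeTo p) p (isUnit_natCast_of_coprime p)
    (card_quotient_span_p p) (seqK S (Zp p)).g hy₀ q y h1 h2

end Zp

end Fermat.Agent.CFT.D.DatumSupp
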