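/-
PROJECT C, Layer D / C7 glue (helper4): THE `k`-LEVEL OBJECTS OF THE LOCAL PART OF `D.Main.Datum`.

`S : Finset Nat.Primes`, `k` a commutative ring with its canonical `ℤ`-algebra structure (`k = ℤ_(p)`),
`Gv S q`, `rv S q`, `Uv S q`, `hrv S q` of `D/Reduce.lean` (prelude groups), helper11's `QS.*`,
helper9's tensor model, helper27's `seqK S k` (`(seqK S k).X₂ = JSK S k` by `rfl`).

* `JSK S k = k ⊗ J_S`, `JvK S k q = k ⊗ J_q` (`q : ↥S`), `biprodK S k : BiprodData (JSK S k) (JvK S k)`;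
* `DlocK S k q = k ⊗ ℚ̄_qˣ : Rep k (Gv S q)`  (**`Datum.Dloc`**);
* `piqK S k q : Rep.res (rv S q) (JvK S k q) ⟶ DlocK S k q` (`= k ⊗ QS.pi`);
* `piSK S k q : Rep.res (rv S q) (JSK S k) ⟶ DlocK S k q := (biprodK S k).loc (rv S) (piqK S k) q`
  (**`Datum.π`**), with `piSK_toTensorRep`, `piSK_smul_toTensorRep`.
-/
import Fermat.Agent.CFT.D.H4.QMain
import Fermat.Agent.CFT.D.Reduce
import Fermat.Agent.CFT.Idele.QSBiprod

set_option autoImplicit false

open CategoryTheory TensorProduct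
open Fermat.Agent.CFT.Idele Fermat.Agent.CFT.LocalBridge Fermat.Agent.CFT.Bridge
  Fermat.Agent.CFT.LC Fermat.Agent.CFT.GaloisDict Fermat.Agent.CFT.A7.BaseChange
  Fermat.Agent.CFT.D.Reduce Fermat.Agent.CFT.D.H4 Fermat.Agent.CFT.D.H4.QIdele

noncomputable section

namespace Fermat.Agent.CFT.D.DatumObjects

universe u

/-- Transport of biproduct data through an additive functor which may change the coefficient
ring (e.g. `tensorFunctor k : Rep ℤ G ⥤ Rep k G`). -/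
def mapFunctorK {R k G G' : Type u} [CommRing R] [CommRing k] [Group G] [Group G'] {ι : Type*}
    [Fintype ι] {J : Rep.{u} R G} {Jv : ι → Rep.{u} R G} (b : BiprodData J Jv)
    (F : Rep.{u} R G ⥤ Rep.{u} k G') [F.Additive] :
    BiprodData (F.obj J) (fun v => F.obj (Jv v)) where
  p v := F.map (b.p v)
  i v := F.map (b.i v)
  i_p_self v := by rw [← F.map_comp, b.i_p_self, F.map_id]
  i_p_ne v v' h := by rw [← F.map_comp, b.i_p_ne v v' h, F.map_zero]
  sum_p_i := by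
    simp_rw [← F.map_comp]
    rw [← F.map_sum, b.sum_p_i, F.map_id]

variable (S : Finset Nat.Primes) (k : Type) [CommRing k]

/-- `J_S ⊗ k` (`= (seqK S k).X₂`). -/
abbrev JSK : Rep.{0} k GQ := tensorRep (k := k) (QS.J S)

/-- `J_q ⊗ k`, for `q ∈ S`. -/
abbrev JvK (q : ↥S) : Rep.{0} k GQ := tensorRep (k := k) (QS.Jq S q.1)

/-- `J_S ⊗ k = ⊕_{q ∈ S} J_q ⊗ k`. -/
def biprodK : BiprodData (JSK S k) (JvK S k) :=
  mapFunctorK (QS.biprod S) (tensorFunctor (R := ℤ) (G := GQ) k)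

@[simp] lemma biprodK_p (q : ↥S) : (biprodK S k).p q = tensorMap k (QS.proj S q.1) := rfl

@[simp] lemma biprodK_i (q : ↥S) : (biprodK S k).i q = tensorMap k (QS.single S q.1 q.2) := rfl

/-- **`Datum.Dloc`**: `ℚ̄_qˣ ⊗ k` as a representation of the prelude's local Galois group. -/
abbrev DlocK (q : ↥S) : Rep.{0} k (Gv S q) := DqK q.1 k

/-- `π_q ⊗ k : Res (J_q ⊗ k) ⟶ ℚ̄_qˣ ⊗ k`. -/
def piqK (q : ↥S) : Rep.res (rv S q) (JvK S k q) ⟶ DlocK S k q := piK S q.1 k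

/-- **`Datum.π`**: `Res (J_S ⊗ k) ⟶ ℚ̄_qˣ ⊗ k`, projection to the `q`-component followed by the
evaluation at the place of `ℚ̄` cut out by `padicPlace q`. -/
def piSK (q : ↥S) : Rep.res (rv S q) (JSK S k) ⟶ DlocK S k q :=
  (biprodK S k).loc (rv S) (piqK S k) q

lemma piqK_toTensorRep (q : ↥S) (x : (QS.Jq S q.1).V) :
    (piqK S k q).hom (toTensorRep (k := k) (QS.Jq S q.1) x) =
      toTensorRep (k := k) (unitsRep ℚ_[(q.1 : ℕ)] (PadicAlgCl (q.1 : ℕ)))
        ((QS.pi q.1 S).hom x) :=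
  tensorMapRes_toTensorRep k _ _ x

/-- On the image of `J_S`, `piSK` is `QS.loc` (helper11). -/
lemma piSK_toTensorRep (q : ↥S) (x : (QS.J S).V) :
    (piSK S k q).hom (toTensorRep (k := k) (QS.J S) x) =
      toTensorRep (k := k) (unitsRep ℚ_[(q.1 : ℕ)] (PadicAlgCl (q.1 : ℕ)))
        ((QS.loc q.1 S).hom x) := by
  change (piqK S k q).hom ((tensorMap k (QS.proj S q.1)).hom (toTensorRep (k := k) (QS.J S) x)) = _
  rw [← tensorMap_toTensorRep, piqK_toTensorRep]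
  rfl

/-- `k`-linear form: `piSK (c • (1 ⊗ x)) = c • (1 ⊗ QS.loc x)`. -/
lemma piSK_smul_toTensorRep (q : ↥S) (c : k) (x : (QS.J S).V) :
    (piSK S k q).hom (c • toTensorRep (k := k) (QS.J S) x) =
      c • toTensorRep (k := k) (unitsRep ℚ_[(q.1 : ℕ)] (PadicAlgCl (q.1 : ℕ)))
        ((QS.loc q.1 S).hom x) := by
  rw [map_smul, piSK_toTensorRep]

end Fermat.Agent.CFT.D.DatumObjects
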