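/-
PROJECT C, Layer D, slice D2a.3 part 1 (helper10): level-constant `H¹` of a PERMUTATION LATTICE
vanishes.

`P : Rep k G` has a `k`-basis `b` indexed by a finite `G`-set `ι`, permuted by `G`
(`P.ρ g (b i) = b (g • i)`), with open stabilisers, and `k` is a domain of characteristic zero.
Then every level-constant 1-cocycle `f : G → P` is the coboundary of a (smooth) vector:

* on `Stab i` the coordinate `g ↦ f(g)_i` is an additive map into `k` which is trivial on a
  subgroup of finite index, hence zero (`k` is torsion free);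
* therefore `a_i := f(t)_{r}` (`r` the chosen representative of the orbit of `i`, `t • i = r`)
  does not depend on `t`, and `f = d a`.

This is `H¹(G, k[G/U]) = Hom_cont(U, k) = 0` (Shapiro) without Shapiro.
-/
import Fermat.Agent.CFT.LC.LowDegree
import Fermat.Agent.CFT.LC.Restrict

set_option autoImplicit false

universe u

namespace Fermat.Agent.CFT.D.PermH1

open CategoryTheory groupCohomology MulAction Fermat.Agent.CFT.LC

variable {k G : Type u} [CommRing k] [Group G]
variable {ι : Type*} [MulAction G ι] {P : Rep.{u} k G} (b : Module.Basis ι k P)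

section coords

variable (hperm : ∀ g i, P.ρ g (b i) = b (g • i))

include hperm in
/-- The coordinates of `g • v` are the permuted coordinates of `v`. -/
lemma repr_ρ (g : G) (v : P) (i : ι) : b.repr (P.ρ g v) i = b.repr v (g⁻¹ • i) := by
  classical
  have h : (Finsupp.lapply i : (ι →₀ k) →ₗ[k] k) ∘ₗ b.repr.toLinearMap ∘ₗ P.ρ g =
      (Finsupp.lapply (g⁻¹ • i) : (ι →₀ k) →ₗ[k] k) ∘ₗ b.repr.toLinearMap := by
    refine b.ext fun j => ?_
    simp only [LinearMap.comp_apply, LinearEquiv.coe_coe, Finsupp.lapply_apply, hperm,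
      Module.Basis.repr_self, Finsupp.single_apply]
    have : g • j = i ↔ j = g⁻¹ • i := by
      constructor
      · rintro rfl; rw [inv_smul_smul]
      · rintro rfl; rw [smul_inv_smul]
    simp only [this]
  exact LinearMap.congr_fun h v

variable (f : G → P)

/-- The coordinates of a 1-cochain. -/
noncomputable def coord (g : G) (i : ι) : k := b.repr (f g) i

include hperm in
lemma coord_mul (hf : f ∈ cocycles₁ P) (g h : G) (i : ι) :
    coord b f (g * h) i = coord b f h (g⁻¹ • i) + coord b f g i := by
  unfold coord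
  rw [(mem_cocycles₁_iff f).1 hf g h, map_add, Finsupp.add_apply, repr_ρ b hperm]

omit [MulAction G ι] in
lemma coord_one (hf : f ∈ cocycles₁ P) (i : ι) : coord b f 1 i = 0 := by
  unfold coord
  have : f 1 = 0 := cocycles₁_map_one (⟨f, hf⟩ : cocycles₁ P)
  rw [this, map_zero, Finsupp.zero_apply]

include hperm in
lemma coord_pow (hf : f ∈ cocycles₁ P) (g : G) (i : ι) (hg : g • i = i) (n : ℕ) :
    coord b f (g ^ n) i = n * coord b f g i := by
  induction n with
  | zero => rw [pow_zero, coord_one b f hf, Nat.cast_zero, zero_mul]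
  | succ n ih =>
    have hgi : g⁻¹ • i = i := by
      rw [inv_smul_eq_iff, hg]
    rw [pow_succ', coord_mul b hperm f hf, hgi, ih, Nat.cast_succ]
    ring

include hperm in
/-- On the stabiliser of `i` the `i`-th coordinate of a level-constant cocycle vanishes. -/
lemma coord_eq_zero_of_mem_stabilizer [IsDomain k] [CharZero k] (hf : f ∈ cocycles₁ P)
    {U : Subgroup G} [U.Normal] [U.FiniteIndex] (hU : ∀ g, ∀ s ∈ U, f (g * s) = f g)
    (g : G) (i : ι) (hg : g • i = i) : coord b f g i = 0 := by
  have h1 : coord b f (g ^ U.index) i = 0 := by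
    have h2 : f (g ^ U.index) = f 1 := by
      have := hU 1 (g ^ U.index) (U.pow_index_mem g)
      rwa [one_mul] at this
    unfold coord
    rw [h2]
    exact coord_one b f hf i
  rw [coord_pow b hperm f hf g i hg] at h1
  rcases mul_eq_zero.1 h1 with h | h
  · exact absurd (Nat.cast_eq_zero.1 h) Subgroup.FiniteIndex.index_ne_zero
  · exact h

end coords

section main

variable (hperm : ∀ g i, P.ρ g (b i) = b (g • i)) (𝒰 : Levels G)
  (hopen : ∀ i : ι, 𝒰.IsOpen (stabilizer G i))

include hperm hopen in
/-- Some level acts trivially on a permutation lattice with open stabilisers. -/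
lemma exists_level_trivial [Finite ι] : ∃ V ∈ 𝒰.sets, ∀ s ∈ V, ∀ v : P, P.ρ s v = v := by
  classical
  have := Fintype.ofFinite ι
  choose W hW hWle using hopen
  obtain ⟨V, hV, hVle⟩ := 𝒰.exists_le_finset Finset.univ W fun i _ => hW i
  refine ⟨V, hV, fun s hs v => ?_⟩
  have h : P.ρ s = LinearMap.id := b.ext fun i => by
    rw [hperm, LinearMap.id_apply]
    congr 1
    exact hWle i (hVle i (Finset.mem_univ i) hs)
  rw [h]
  rfl

include hperm hopen in
/-- A permutation lattice with open stabilisers is smooth. -/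
lemma isSmooth_of_perm [Finite ι] : IsSmooth 𝒰 P := fun v => by
  obtain ⟨V, hV, h⟩ := exists_level_trivial b hperm 𝒰 hopen
  exact ⟨V, hV, fun s hs => h s hs v⟩

include hperm hopen in
/-- **Level-constant `H¹` of a permutation lattice vanishes** (`k` a domain of characteristic
zero, finitely many basis vectors, open stabilisers). -/
theorem eq_zero_of_perm [Finite ι] [IsDomain k] [CharZero k] [𝒰.IsFin] (x : H 𝒰 P 1) :
    x = 0 := by
  classical
  have := Fintype.ofFinite ι
  obtain ⟨f, rfl⟩ := H1π'_surjective 𝒰 P x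
  obtain ⟨hf, U, hU, hfU⟩ := (mem_Z₁_iff f.1).1 f.2
  have := 𝒰.normal U hU
  have := Levels.IsFin.finiteIndex U hU
  rw [H1π'_eq_zero_iff, mem_B₁_iff]
  -- vanishing on stabilisers
  have hstab : ∀ (g : G) (i : ι), g • i = i → coord b f.1 g i = 0 := fun g i hg =>
    coord_eq_zero_of_mem_stabilizer b hperm f.1 hf hfU.1 g i hg
  -- orbit representatives
  let r : ι → ι := fun i => (Quotient.mk (orbitRel G ι) i).out
  have hr : ∀ (g : G) (i : ι), r (g • i) = r i := fun g i => by
    have : Quotient.mk (orbitRel G ι) (g • i) = Quotient.mk (orbitRel G ι) i :=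
      Quotient.sound (s := orbitRel G ι) (mem_orbit i g)
    change (Quotient.mk (orbitRel G ι) (g • i)).out = (Quotient.mk (orbitRel G ι) i).out
    rw [this]
  have hex : ∀ i : ι, ∃ t : G, t • i = r i := fun i => by
    have h1 : (orbitRel G ι) (Quotient.mk (orbitRel G ι) i).out i :=
      Quotient.mk_out (s := orbitRel G ι) i
    rw [orbitRel_apply] at h1
    exact h1
  choose t ht using hex
  -- independence of the choice of `t`
  have hindep : ∀ (j : ι) (s s' : G), s • j = r j → s' • j = r j →
      coord b f.1 s (r j) = coord b f.1 s' (r j) := by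
    intro j s s' hs hs'
    have hj : s⁻¹ • r j = j := by rw [inv_smul_eq_iff, hs]
    have hfix : (s' * s⁻¹) • r j = r j := by rw [mul_smul, hj, hs']
    have hfix' : (s' * s⁻¹)⁻¹ • r j = r j := by rw [inv_smul_eq_iff, hfix]
    have h1 : s' = (s' * s⁻¹) * s := by group
    rw [h1, coord_mul b hperm f.1 hf, hfix', hstab _ _ hfix, add_zero]
  let c : ι → k := fun i => coord b f.1 (t i) (r i)
  have hc : ∀ (g : G) (i : ι), coord b f.1 g i = c (g⁻¹ • i) - c i := by
    intro g i
    have h1 : c (g⁻¹ • i) = coord b f.1 (t i * g) (r i) := by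
      change coord b f.1 (t (g⁻¹ • i)) (r (g⁻¹ • i)) = _
      have h2 := hindep (g⁻¹ • i) (t (g⁻¹ • i)) (t i * g) (ht _)
        (by rw [mul_smul, smul_inv_smul, ht, hr])
      rw [hr] at h2
      rw [hr]
      exact h2
    have h3 : (t i)⁻¹ • r i = i := by rw [inv_smul_eq_iff, ht]
    rw [h1, coord_mul b hperm f.1 hf, h3]
    change _ = coord b f.1 g i + c i - c i
    ring
  refine ⟨∑ i, c i • b i, ?_, ?_⟩
  · obtain ⟨V, hV, h⟩ := exists_level_trivial b hperm 𝒰 hopen
    exact ⟨V, hV, fun s hs => h s hs _⟩
  · funext g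
    apply b.repr.injective
    ext i
    rw [d₀₁_hom_apply, map_sub, Finsupp.sub_apply, repr_ρ b hperm, Module.Basis.repr_sum_self]
    exact (hc g i).symm

include hperm hopen in
theorem isZero_H1_of_perm [Finite ι] [IsDomain k] [CharZero k] [𝒰.IsFin] :
    Limits.IsZero (H 𝒰 P 1) := by
  have : Subsingleton (H 𝒰 P 1) :=
    subsingleton_of_forall_eq 0 fun x => eq_zero_of_perm b hperm 𝒰 hopen x
  exact ModuleCat.isZero_of_subsingleton _

end main

end Fermat.Agent.CFT.D.PermH1
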