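/-
PROJECT C, Layer D, slice D2a.3 (helper10): the canonical permutation resolution of a finite
module.

For `A : Rep k G` (in the application: `A.V` finite, smooth, killed by `p`):

* `Pts A`   : the underlying `G`-set of `A`;
* `FA A`    : the permutation lattice `k[A]` (`Rep.ofMulAction k G (Pts A)`), with its basis
              `basisFA A` permuted by `G` (`FA_ρ_basis`);
* `piA A`   : `FA A ⟶ A`, `[a] ↦ a`;
* `RA A`    : the kernel of `piA A` as a representation, `incl A : RA A ⟶ FA A`;
* `SA A`    : the short complex `RA A → FA A → A`, short exact (`SA_shortExact`).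

Then freeness / finiteness, smoothness, `p • FA A ⊆ RA A`, vanishing of the level-constant `H¹`
of `FA A` (also after restriction along any continuous homomorphism), and the instance of
helper8's THEOREM I (`D/ShaTwo.lean`) for `SF := Hom(FA A, S)`, `SR := Hom(RA A, S)`.
-/
import Fermat.Agent.CFT.D.PermH1
import Fermat.Agent.CFT.D.ShaTwo
import Fermat.Agent.CFT.A7.HomRepLC
import Fermat.Agent.CFT.A7.HomRepDiv
import Fermat.Agent.CFT.LC.PermHom

set_option autoImplicit false

universe u

namespace Fermat.Agent.CFT.D.Resolution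

open CategoryTheory MulAction Fermat.Agent.CFT.LC Fermat.Agent.CFT.A7.HomRep

variable {k G : Type u} [CommRing k] [Group G]

/-- The underlying `G`-set of a representation. -/
@[ext] structure Pts (A : Rep.{u} k G) : Type u where
  /-- the underlying vector -/
  val : A.V

section objects

variable (A : Rep.{u} k G)

/-- `Pts A` is in bijection with the underlying module. -/
def ptsEquiv : Pts A ≃ A.V where
  toFun := Pts.val
  invFun := Pts.mk
  left_inv _ := rfl
  right_inv _ := rfl

instance [Finite A.V] : Finite (Pts A) := Finite.of_equiv _ (ptsEquiv A).symm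

instance : MulAction G (Pts A) where
  smul g x := ⟨A.ρ g x.val⟩
  one_smul x := by
    ext
    change A.ρ 1 x.val = x.val
    rw [map_one]
    rfl
  mul_smul g h x := by
    ext
    change A.ρ (g * h) x.val = A.ρ g (A.ρ h x.val)
    rw [map_mul]
    rfl

lemma smul_val (g : G) (x : Pts A) : (g • x).val = A.ρ g x.val := rfl

lemma mem_stabilizer_pts_iff (g : G) (x : Pts A) : g ∈ stabilizer G x ↔ A.ρ g x.val = x.val := by
  rw [mem_stabilizer_iff, Pts.ext_iff, smul_val]

/-- The permutation lattice `k[A]`. -/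
noncomputable abbrev FA : Rep.{u} k G := Rep.ofMulAction k G (Pts A)

/-- The basis of `FA A` indexed by the elements of `A`. -/
noncomputable def basisFA : Module.Basis (Pts A) k (FA A) := MonoidAlgebra.basis (Pts A) k

/-- `G` permutes the basis of `FA A`. -/
lemma FA_ρ_basis (g : G) (a : Pts A) : (FA A).ρ g (basisFA A a) = basisFA A (g • a) :=
  Representation.ofMulAction_single g a 1

/-- The linear map underlying `piA`. -/
noncomputable def piLin : (FA A).V →ₗ[k] A.V := (basisFA A).constr k fun a => a.val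

lemma piLin_basis (a : Pts A) : piLin A (basisFA A a) = a.val :=
  (basisFA A).constr_basis k _ a

lemma piLin_ρ (g : G) (v : (FA A).V) : piLin A ((FA A).ρ g v) = A.ρ g (piLin A v) := by
  have h : piLin A ∘ₗ (FA A).ρ g = A.ρ g ∘ₗ piLin A := (basisFA A).ext fun a => by
    change piLin A ((FA A).ρ g (basisFA A a)) = A.ρ g (piLin A (basisFA A a))
    rw [FA_ρ_basis, piLin_basis, piLin_basis, smul_val]
  exact LinearMap.congr_fun h v

/-- The augmentation `k[A] ⟶ A`, `[a] ↦ a`. -/
noncomputable def piA : FA A ⟶ A :=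
  ConcreteCategory.ofHom (C := Rep.{u} k G)
    (LinearMap.intertwiningMap_of_isIntertwiningMap (ρ := (FA A).ρ) (σ := A.ρ) (f := piLin A)
      (piLin_ρ A))

lemma piA_hom_apply (v : (FA A).V) : (piA A).hom v = piLin A v := rfl

lemma piA_basis (a : Pts A) : (piA A).hom (basisFA A a) = a.val := piLin_basis A a

lemma piA_surjective : Function.Surjective (piA A).hom := fun a =>
  ⟨basisFA A ⟨a⟩, piA_basis A ⟨a⟩⟩

/-- The kernel of the augmentation, as a submodule. -/
noncomputable def kerPi : Submodule k (FA A).V := LinearMap.ker (piLin A)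

lemma kerPi_le_comap (g : G) : kerPi A ≤ (kerPi A).comap ((FA A).ρ g) := fun v hv => by
  change piLin A ((FA A).ρ g v) = 0
  rw [piLin_ρ, (LinearMap.mem_ker.1 hv : piLin A v = 0), map_zero]

/-- The kernel of the augmentation, as a representation. -/
noncomputable abbrev RA : Rep.{u} k G := Rep.subrepresentation (FA A) (kerPi A) (kerPi_le_comap A)

/-- The inclusion `RA A ⟶ FA A`. -/
noncomputable def incl : RA A ⟶ FA A := Rep.subtype (FA A) (kerPi A) (kerPi_le_comap A)

lemma incl_hom_apply (r : (RA A).V) : (incl A).hom r = (r : (FA A).V) := rfl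

lemma incl_injective : Function.Injective (incl A).hom := fun _ _ h => Subtype.ext h

lemma incl_piA : incl A ≫ piA A = 0 := by
  ext r
  exact r.2

/-- The canonical resolution `RA A → FA A → A`. -/
noncomputable def SA : ShortComplex (Rep.{u} k G) := ShortComplex.mk (incl A) (piA A) (incl_piA A)

@[simp] lemma SA_X₁ : (SA A).X₁ = RA A := rfl
@[simp] lemma SA_X₂ : (SA A).X₂ = FA A := rfl
@[simp] lemma SA_X₃ : (SA A).X₃ = A := rfl
@[simp] lemma SA_f : (SA A).f = incl A := rfl
@[simp] lemma SA_g : (SA A).g = piA A := rfl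

/-- The canonical resolution is short exact. -/
theorem SA_shortExact : (SA A).ShortExact :=
  shortExact_of_elementwise _ (incl_injective A)
    (fun v hv => ⟨⟨v, hv⟩, rfl⟩) (piA_surjective A)

end objects

/-! ### Freeness and finiteness -/

section free

variable (A : Rep.{u} k G)

instance free_FA : Module.Free k (FA A).V := Module.Free.of_basis (basisFA A)

instance finite_FA [Finite A.V] : Module.Finite k (FA A).V := Module.Finite.of_basis (basisFA A)

/-- Over a principal ideal domain the kernel lattice is free. -/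
theorem free_RA [IsDomain k] [IsPrincipalIdealRing k] [Finite A.V] : Module.Free k (RA A).V := by
  obtain ⟨n, ⟨bN⟩⟩ := Submodule.nonempty_basis_of_pid (basisFA A) (kerPi A)
  exact Module.Free.of_basis bN

/-- Over a principal ideal domain the kernel lattice is projective. -/
theorem projective_RA [IsDomain k] [IsPrincipalIdealRing k] [Finite A.V] :
    Module.Projective k (RA A).V := by
  have := free_RA A
  infer_instance

/-- Over a noetherian ring the kernel lattice is finitely generated. -/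
theorem finite_RA [IsNoetherianRing k] [Finite A.V] : Module.Finite k (RA A).V := by
  have h1 : IsNoetherian k (FA A).V := isNoetherian_of_isNoetherianRing_of_finite k _
  have h2 : IsNoetherian k ↥(kerPi A) := isNoetherian_submodule' (kerPi A)
  exact Module.IsNoetherian.finite k ↥(kerPi A)

/-- If `n` kills `A` then `n • FA A ⊆ RA A`. -/
lemma exists_incl_eq_smul (n : k) (hn : ∀ a : A.V, n • a = 0) (v : (FA A).V) :
    ∃ w : (RA A).V, (incl A).hom w = n • v :=
  ⟨⟨n • v, by change piLin A (n • v) = 0; rw [map_smul, hn]⟩, rfl⟩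

end free

/-! ### Smoothness and vanishing of `H¹` -/

section smooth

variable (A : Rep.{u} k G) {𝒰 : Levels G}

/-- The stabilisers of the points of a smooth representation are open. -/
lemma isOpen_stabilizer (hA : IsSmooth 𝒰 A) (x : Pts A) : 𝒰.IsOpen (stabilizer G x) := by
  obtain ⟨U, hU, h⟩ := hA x.val
  exact ⟨U, hU, fun s hs => (mem_stabilizer_pts_iff A s x).2 (h s hs)⟩

lemma isSmooth_FA [Finite A.V] (hA : IsSmooth 𝒰 A) : IsSmooth 𝒰 (FA A) :=
  PermH1.isSmooth_of_perm (basisFA A) (FA_ρ_basis A) 𝒰 (isOpen_stabilizer A hA)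

lemma isSmooth_RA [Finite A.V] (hA : IsSmooth 𝒰 A) : IsSmooth 𝒰 (RA A) := fun r => by
  obtain ⟨U, hU, h⟩ := isSmooth_FA A hA r.1
  exact ⟨U, hU, fun s hs => Subtype.ext (h s hs)⟩

/-- **`H¹(G, FA A) = 0`** for `k` a domain of characteristic zero. -/
theorem eq_zero_of_H1_FA [Finite A.V] [IsDomain k] [CharZero k] [𝒰.IsFin] (hA : IsSmooth 𝒰 A)
    (x : H 𝒰 (FA A) 1) : x = 0 :=
  PermH1.eq_zero_of_perm (basisFA A) (FA_ρ_basis A) 𝒰 (isOpen_stabilizer A hA) x

theorem isZero_H1_FA [Finite A.V] [IsDomain k] [CharZero k] [𝒰.IsFin] (hA : IsSmooth 𝒰 A) :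
    Limits.IsZero (H 𝒰 (FA A) 1) :=
  PermH1.isZero_H1_of_perm (basisFA A) (FA_ρ_basis A) 𝒰 (isOpen_stabilizer A hA)

/-- **`H¹(G', Res FA A) = 0`** for any continuous homomorphism `r : G' →* G` (the local vanishing
`hF1v` of `D/ShaOne.lean`). -/
theorem eq_zero_of_H1_res_FA {G' : Type u} [Group G'] {𝒰' : Levels G'} [𝒰'.IsFin] (r : G' →* G)
    (hr : Levels.Continuous r 𝒰' 𝒰) [Finite A.V] [IsDomain k] [CharZero k] (hA : IsSmooth 𝒰 A)
    (x : H 𝒰' (Rep.res r (FA A)) 1) : x = 0 := by
  let _ : MulAction G' (Pts A) := MulAction.compHom (Pts A) r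
  refine PermH1.eq_zero_of_perm (P := Rep.res r (FA A)) (basisFA A)
    (fun g a => FA_ρ_basis A (r g) a) 𝒰' (fun a => ?_) x
  obtain ⟨U, hU, hle⟩ := isOpen_stabilizer A hA a
  obtain ⟨U', hU', hle'⟩ := hr U hU
  exact ⟨U', hU', fun s hs => hle (hle' hs)⟩

/-- Vanishing of the level-constant cohomology of `Hom(FA A, X)` from the vanishing for the
stabilisers (helper28's `isZero_H_ihom_of_perm`). -/
theorem isZero_H_homRep_FA [Finite A.V] [𝒰.IsFin] (hA : IsSmooth 𝒰 A) (X : Rep.{u} k G)
    (hX : IsSmooth 𝒰 X) (n : ℕ)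
    (h : ∀ a : Pts A, Limits.IsZero
      (H (𝒰.restrict (stabilizer G a)) (Rep.res (stabilizer G a).subtype X) n)) :
    Limits.IsZero (H 𝒰 (homRep (FA A) X) n) :=
  isZero_H_ihom_of_perm (FA A) X (basisFA A) (FA_ρ_basis A) 𝒰 hX (isOpen_stabilizer A hA) n h

/-- Variant of `isZero_H_homRep_FA`: vanishing for all open subgroups suffices
(hypotheses `(h1)`, `(h2)` of THEOREM I). -/
theorem isZero_H_homRep_FA' [Finite A.V] [𝒰.IsFin] (hA : IsSmooth 𝒰 A) (X : Rep.{u} k G)
    (hX : IsSmooth 𝒰 X) (n : ℕ)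
    (h : ∀ V : Subgroup G, 𝒰.IsOpen V →
      Limits.IsZero (H (𝒰.restrict V) (Rep.res V.subtype X) n)) :
    Limits.IsZero (H 𝒰 (homRep (FA A) X) n) :=
  isZero_H_homRep_FA A hA X hX n fun a => h _ (isOpen_stabilizer A hA a)

/-- The local version (hypothesis `(h3)` of THEOREM I): for a continuous `r : G' →* G` and a
smooth representation `X` of `G'`, the cohomology of `Hom(Res FA A, X)` vanishes in degree `n` as
soon as the cohomology of `X` vanishes in degree `n` for all open subgroups of `G'`. -/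
theorem isZero_H_homRep_res_FA {G' : Type u} [Group G'] {𝒰' : Levels G'} [𝒰'.IsFin] (r : G' →* G)
    (hr : Levels.Continuous r 𝒰' 𝒰) [Finite A.V] (hA : IsSmooth 𝒰 A) (X : Rep.{u} k G')
    (hX : IsSmooth 𝒰' X) (n : ℕ)
    (h : ∀ V : Subgroup G', 𝒰'.IsOpen V →
      Limits.IsZero (H (𝒰'.restrict V) (Rep.res V.subtype X) n)) :
    Limits.IsZero (H 𝒰' (homRep (Rep.res r (FA A)) X) n) := by
  let _ : MulAction G' (Pts A) := MulAction.compHom (Pts A) r
  have hopen : ∀ a : Pts A, 𝒰'.IsOpen (stabilizer G' a) := fun a => by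
    obtain ⟨U, hU, hle⟩ := isOpen_stabilizer A hA a
    obtain ⟨U', hU', hle'⟩ := hr U hU
    exact ⟨U', hU', fun s hs => hle (hle' hs)⟩
  exact isZero_H_ihom_of_perm (Rep.res r (FA A)) X (basisFA A)
    (fun g a => FA_ρ_basis A (r g) a) 𝒰' hX hopen n fun a => h _ (hopen a)

end smooth

/-! ### The instance of THEOREM I (`D/ShaTwo.lean`) -/

section theoremI

variable (A : Rep.{u} k G) (S : ShortComplex (Rep.{u} k G))

/-- `Hom(FA A, S)`: the column `Φ_F E → Φ_F J → Φ_F C`. -/
noncomputable abbrev SF : ShortComplex (Rep.{u} k G) := S.map (Rep.ihom (FA A))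

/-- `Hom(RA A, S)`: the column `Φ_R E → Φ_R J → Φ_R C`. -/
noncomputable abbrev SR : ShortComplex (Rep.{u} k G) := S.map (Rep.ihom (RA A))

/-- Restriction along `RA A ⊆ FA A`. -/
noncomputable def rho : SF A S ⟶ SR A S where
  τ₁ := homRes (incl A) S.X₁
  τ₂ := homRes (incl A) S.X₂
  τ₃ := homRes (incl A) S.X₃
  comm₁₂ := homRes_homMap (incl A) S.f
  comm₂₃ := homRes_homMap (incl A) S.g

@[simp] lemma rho_τ₁ : (rho A S).τ₁ = homRes (incl A) S.X₁ := rfl
@[simp] lemma rho_τ₂ : (rho A S).τ₂ = homRes (incl A) S.X₂ := rfl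
@[simp] lemma rho_τ₃ : (rho A S).τ₃ = homRes (incl A) S.X₃ := rfl

/-- `Hom(A, E) ⟶ Hom(FA A, E)`. -/
noncomputable def iM : homRep A S.X₁ ⟶ (SF A S).X₁ := homRes (piA A) S.X₁

lemma iM_rho : iM A S ≫ (rho A S).τ₁ = 0 := (homSC (SA A) S.X₁).zero

variable {A S}

lemma SF_shortExact (hS : S.ShortExact) : (SF A S).ShortExact := ihom_shortExact (FA A) hS

lemma SR_shortExact [Module.Projective k (RA A).V] (hS : S.ShortExact) : (SR A S).ShortExact :=
  ihom_shortExact (RA A) hS

/-- The row `Hom(A, E) → Hom(FA A, E) → Hom(RA A, E)` is short exact when `n` kills `A` and `E`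
is `n`-divisible. -/
theorem row_shortExact [Module.Projective k (RA A).V] (n : k) (hn : ∀ a : A.V, n • a = 0)
    (hE : ∀ x : S.X₁.V, ∃ y : S.X₁.V, n • y = x) :
    (ShortComplex.mk (iM A S) (rho A S).τ₁ (iM_rho A S)).ShortExact := by
  have : Module.Projective k (SA A).X₁.V := ‹Module.Projective k (RA A).V›
  exact homSC_shortExact_of_divisible (S := SA A) (SA_shortExact A) n (exists_incl_eq_smul A n hn)
    S.X₁ hE

variable {𝒰 : Levels G}

lemma isSmooth_SF_X₂ [Finite A.V] (hA : IsSmooth 𝒰 A) (hJ : IsSmooth 𝒰 S.X₂) :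
    IsSmooth 𝒰 (SF A S).X₂ :=
  isSmooth_homRep (isSmooth_FA A hA) hJ

lemma isSmooth_SF_X₁ [Finite A.V] (hA : IsSmooth 𝒰 A) (hE : IsSmooth 𝒰 S.X₁) :
    IsSmooth 𝒰 (SF A S).X₁ :=
  isSmooth_homRep (isSmooth_FA A hA) hE

lemma isSmooth_SR_X₂ [Finite A.V] [Module.Finite k (RA A).V] (hA : IsSmooth 𝒰 A)
    (hJ : IsSmooth 𝒰 S.X₂) : IsSmooth 𝒰 (SR A S).X₂ :=
  isSmooth_homRep (isSmooth_RA A hA) hJ

end theoremI

end Fermat.Agent.CFT.D.Resolution
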