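/-
PROJECT C, Layer D (helper10): THEOREM I of the D-plan, fully instantiated.

`SA : R → F → A` and `S : E → J → C` are short exact sequences of smooth representations of `G`
(`R`, `F` finitely generated projective over `k`, `n • A = 0`, `E` `n`-divisible).  For a family
of continuous homomorphisms `r v : Gv v →* G` and smooth `n`-divisible representations `D v` of
`Gv v` with `π v : Res J ⟶ D v` such that `Res E ⟶ Res J ⟶ D v` is bijective on `n`-torsion: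

* `bdryG : H⁰(G, Hom(R, C)) ⟶ H²(G, Hom(A, E))` is the double connecting map of `D/ShaTwo.lean`;
* `bdryG_eq_zero_iff`  : `ker bdryG = im H⁰(Hom(F, C)) + im H⁰(Hom(R, J))`;
* `forall_res_eq_zero_iff` : the everywhere locally trivial classes of `H²(G, Hom(A, E))` are
  exactly the image of `bdryG`.
-/
import Fermat.Agent.CFT.D.LocalRow
import Fermat.Agent.CFT.A7.HomRepLC

set_option autoImplicit false

universe u

namespace Fermat.Agent.CFT.D.TheoremI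

open CategoryTheory Fermat.Agent.CFT.LC Fermat.Agent.CFT.LC.El Fermat.Agent.CFT.A7.HomRep
  Fermat.Agent.CFT.D.LocalRow

variable {k G : Type u} [CommRing k] [Group G]

section columns

variable (SA S : ShortComplex (Rep.{u} k G))

/-- The column `Hom(F, E) → Hom(F, J) → Hom(F, C)`. -/
noncomputable abbrev colF : ShortComplex (Rep.{u} k G) := S.map (Rep.ihom SA.X₂)

/-- The column `Hom(R, E) → Hom(R, J) → Hom(R, C)`. -/
noncomputable abbrev colR : ShortComplex (Rep.{u} k G) := S.map (Rep.ihom SA.X₁)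

/-- Restriction along `R → F`. -/
noncomputable def rhoG : colF SA S ⟶ colR SA S where
  τ₁ := homRes SA.f S.X₁
  τ₂ := homRes SA.f S.X₂
  τ₃ := homRes SA.f S.X₃
  comm₁₂ := homRes_homMap SA.f S.f
  comm₂₃ := homRes_homMap SA.f S.g

@[simp] lemma rhoG_τ₁ : (rhoG SA S).τ₁ = homRes SA.f S.X₁ := rfl
@[simp] lemma rhoG_τ₂ : (rhoG SA S).τ₂ = homRes SA.f S.X₂ := rfl
@[simp] lemma rhoG_τ₃ : (rhoG SA S).τ₃ = homRes SA.f S.X₃ := rfl

/-- `Hom(A, E) ⟶ Hom(F, E)`. -/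
noncomputable def iG : homRep SA.X₃ S.X₁ ⟶ (colF SA S).X₁ := homRes SA.g S.X₁

lemma iG_rhoG : iG SA S ≫ (rhoG SA S).τ₁ = 0 := (homSC SA S.X₁).zero

end columns

section global

variable {SA S : ShortComplex (Rep.{u} k G)} {𝒰 : Levels G} [𝒰.IsFin]
  [Module.Projective k SA.X₁.V] [Module.Projective k SA.X₂.V]
  [Module.Finite k SA.X₁.V] [Module.Finite k SA.X₂.V]
  (hSA : SA.ShortExact) (hS : S.ShortExact)
  (smR : IsSmooth 𝒰 SA.X₁) (smF : IsSmooth 𝒰 SA.X₂) (smE : IsSmooth 𝒰 S.X₁) (smJ : IsSmooth 𝒰 S.X₂)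
  (n : k) (hn : ∀ a : SA.X₃.V, n • a = 0) (hE : ∀ x : S.X₁.V, ∃ y : S.X₁.V, n • y = x)

include hS in
omit [𝒰.IsFin] [Module.Projective k SA.X₁.V] [Module.Finite k SA.X₁.V]
  [Module.Finite k SA.X₂.V] in
lemma colF_shortExact : (colF SA S).ShortExact := ihom_shortExact SA.X₂ hS

include hS in
omit [𝒰.IsFin] [Module.Projective k SA.X₂.V] [Module.Finite k SA.X₁.V]
  [Module.Finite k SA.X₂.V] in
lemma colR_shortExact : (colR SA S).ShortExact := ihom_shortExact SA.X₁ hS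

include hSA hn hE in
omit [𝒰.IsFin] [Module.Projective k SA.X₂.V] [Module.Finite k SA.X₁.V]
  [Module.Finite k SA.X₂.V] in
lemma rowG_shortExact :
    (ShortComplex.mk (iG SA S) (rhoG SA S).τ₁ (iG_rhoG SA S)).ShortExact :=
  homSC_shortExact_of_divisible hSA n (exists_f_eq_smul_of_smul_eq_zero hSA n hn) S.X₁ hE

/-- The double connecting homomorphism `H⁰(G, Hom(R, C)) ⟶ H²(G, Hom(A, E))`. -/
noncomputable def bdryG : H 𝒰 (homRep SA.X₁ S.X₃) 0 ⟶ H 𝒰 (homRep SA.X₃ S.X₁) 2 :=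
  bdry (SR := colR SA S) (colR_shortExact hS) (isSmooth_homRep smR smJ) (rhoG SA S) (iG SA S)
    (iG_rhoG SA S) (rowG_shortExact hSA n hn hE) (isSmooth_homRep smF smE)

/-- **THEOREM I, kernel.** -/
theorem bdryG_eq_zero_iff (h2 : ∀ x : H 𝒰 (homRep SA.X₂ S.X₂) 1, x = 0)
    (c : H 𝒰 (homRep SA.X₁ S.X₃) 0) :
    bdryG hSA hS smR smF smE smJ n hn hE c = 0 ↔
      ∃ (ψ : H 𝒰 (homRep SA.X₂ S.X₃) 0) (φ : H 𝒰 (homRep SA.X₁ S.X₂) 0),
        c = mapId (homRes SA.f S.X₃) 0 ψ + mapId (homMap SA.X₁ S.g) 0 φ :=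
  bdry_eq_zero_iff (SF := colF SA S) (SR := colR SA S) (colF_shortExact hS) (colR_shortExact hS)
    (isSmooth_homRep smF smJ) (isSmooth_homRep smR smJ) (rhoG SA S) (iG SA S)
    (iG_rhoG SA S) (rowG_shortExact hSA n hn hE) (isSmooth_homRep smF smE) h2 c

end global

section family

variable {SA S : ShortComplex (Rep.{u} k G)} {𝒰 : Levels G} [𝒰.IsFin]
  [Module.Projective k SA.X₁.V] [Module.Projective k SA.X₂.V]
  [Module.Finite k SA.X₁.V] [Module.Finite k SA.X₂.V]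
  (hSA : SA.ShortExact) (hS : S.ShortExact)
  (smR : IsSmooth 𝒰 SA.X₁) (smF : IsSmooth 𝒰 SA.X₂) (smE : IsSmooth 𝒰 S.X₁) (smJ : IsSmooth 𝒰 S.X₂)
  (n : k) (hn : ∀ a : SA.X₃.V, n • a = 0) (hE : ∀ x : S.X₁.V, ∃ y : S.X₁.V, n • y = x)
  {ι : Type*} {Gv : ι → Type u} [∀ v, Group (Gv v)] (r : ∀ v, Gv v →* G)
  {𝒰v : ∀ v, Levels (Gv v)} [∀ v, (𝒰v v).IsFin]
  (hr : ∀ v, Levels.Continuous (r v) (𝒰v v) 𝒰)
  {D : ∀ v, Rep.{u} k (Gv v)} (smD : ∀ v, IsSmooth (𝒰v v) (D v))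
  (hD : ∀ v, ∀ x : (D v).V, ∃ y : (D v).V, n • y = x)
  (π : ∀ v, Rep.res (r v) S.X₂ ⟶ D v)

include smF hr smD in
omit [𝒰.IsFin] [Module.Projective k SA.X₁.V] [Module.Projective k SA.X₂.V]
  [Module.Finite k SA.X₁.V] [∀ v, (𝒰v v).IsFin] in
lemma isSmooth_Sv_X₂ (v : ι) : IsSmooth (𝒰v v) (Sv (r v) SA (D v)).X₂ := by
  have : Module.Finite k (Rep.res (r v) SA.X₂).V := ‹Module.Finite k SA.X₂.V›
  exact isSmooth_homRep (P := Rep.res (r v) SA.X₂) (IsSmooth.res_of_continuous (hr v) smF) (smD v)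

include hr smD hD in
omit [Module.Projective k SA.X₂.V] in
/-- Classes in the image of `bdryG` are everywhere locally trivial (in the `mLoc` form). -/
theorem mLoc_bdryG (v : ι) (c : H 𝒰 (homRep SA.X₁ S.X₃) 0) :
    map (A := homRep SA.X₃ S.X₁) (B := (Sv (r v) SA (D v)).X₁) (hr v) (mLoc (r v) SA S (π v)) 2
      (bdryG hSA hS smR smF smE smJ n hn hE c) = 0 :=
  loc_bdry (SF := colF SA S) (SR := colR SA S) (colR_shortExact hS) (isSmooth_homRep smR smJ)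
    (rhoG SA S) (iG SA S) (iG_rhoG SA S) (rowG_shortExact hSA n hn hE) (isSmooth_homRep smF smE)
    r hr (Sv := fun v => Sv (r v) SA (D v))
    (fun v => Sv_shortExact (r v) (D v) hSA n hn (hD v))
    (fun v => isSmooth_Sv_X₂ smF r hr smD v)
    (fun v => mLoc (r v) SA S (π v)) (fun v => fLoc (r v) SA S (π v))
    (fun v => gLoc (r v) SA S (π v)) (fun v => c1 (r v) SA S (π v))
    (fun v => c2 (r v) SA S (π v)) v c

include hr smD hD in
/-- Classes which die under all `mLoc` are in the image of `bdryG`. -/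
theorem exists_bdryG_eq_of_mLoc
    (h1 : ∀ x : H 𝒰 (homRep SA.X₂ S.X₃) 1, x = 0)
    (h3 : ∀ v, ∀ x : H (𝒰v v) (homRep (Rep.res (r v) SA.X₂) (D v)) 1, x = 0)
    (h4a : ∀ x : H 𝒰 (homRep SA.X₂ S.X₂) 2,
      (∀ v, map (A := homRep SA.X₂ S.X₂) (B := (Sv (r v) SA (D v)).X₂) (hr v)
        (fLoc (r v) SA S (π v)) 2 x = 0) → x = 0)
    (h4b : ∀ x : H 𝒰 (homRep SA.X₁ S.X₂) 1,
      (∀ v, map (A := homRep SA.X₁ S.X₂) (B := (Sv (r v) SA (D v)).X₃) (hr v)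
        (gLoc (r v) SA S (π v)) 1 x = 0) → x = 0)
    (x : H 𝒰 (homRep SA.X₃ S.X₁) 2)
    (hx : ∀ v, map (A := homRep SA.X₃ S.X₁) (B := (Sv (r v) SA (D v)).X₁) (hr v)
      (mLoc (r v) SA S (π v)) 2 x = 0) :
    ∃ c, bdryG hSA hS smR smF smE smJ n hn hE c = x :=
  exists_bdry_eq (SF := colF SA S) (SR := colR SA S) (colF_shortExact hS) (colR_shortExact hS)
    (isSmooth_homRep smF smJ) (isSmooth_homRep smR smJ)
    (rhoG SA S) (iG SA S) (iG_rhoG SA S) (rowG_shortExact hSA n hn hE) (isSmooth_homRep smF smE)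
    r hr (Sv := fun v => Sv (r v) SA (D v))
    (fun v => Sv_shortExact (r v) (D v) hSA n hn (hD v))
    (fun v => isSmooth_Sv_X₂ smF r hr smD v)
    (fun v => mLoc (r v) SA S (π v)) (fun v => fLoc (r v) SA S (π v))
    (fun v => gLoc (r v) SA S (π v)) (fun v => c1 (r v) SA S (π v))
    (fun v => c2 (r v) SA S (π v)) h1 h3 h4a h4b x hx

include hr smD hD in
/-- **THEOREM I, image**: the everywhere locally trivial classes of `H²(G, Hom(A, E))` are exactly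
the image of `bdryG`. -/
theorem forall_res_eq_zero_iff
    (hinj : ∀ v, ∀ x : S.X₁.V, n • x = 0 → (π v).hom (S.f.hom x) = 0 → x = 0)
    (hsurj : ∀ v, ∀ d : (D v).V, n • d = 0 → ∃ x : S.X₁.V, n • x = 0 ∧ (π v).hom (S.f.hom x) = d)
    (h1 : ∀ x : H 𝒰 (homRep SA.X₂ S.X₃) 1, x = 0)
    (h3 : ∀ v, ∀ x : H (𝒰v v) (homRep (Rep.res (r v) SA.X₂) (D v)) 1, x = 0)
    (h4a : ∀ x : H 𝒰 (homRep SA.X₂ S.X₂) 2,
      (∀ v, map (A := homRep SA.X₂ S.X₂) (B := (Sv (r v) SA (D v)).X₂) (hr v)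
        (fLoc (r v) SA S (π v)) 2 x = 0) → x = 0)
    (h4b : ∀ x : H 𝒰 (homRep SA.X₁ S.X₂) 1,
      (∀ v, map (A := homRep SA.X₁ S.X₂) (B := (Sv (r v) SA (D v)).X₃) (hr v)
        (gLoc (r v) SA S (π v)) 1 x = 0) → x = 0)
    (x : H 𝒰 (homRep SA.X₃ S.X₁) 2) :
    (∀ v, map (A := homRep SA.X₃ S.X₁) (B := Rep.res (r v) (homRep SA.X₃ S.X₁)) (hr v) (𝟙 _) 2
        x = 0) ↔
      ∃ c, bdryG hSA hS smR smF smE smJ n hn hE c = x := by
  have key : ∀ (v : ι) (y : H 𝒰 (homRep SA.X₃ S.X₁) 2),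
      map (A := homRep SA.X₃ S.X₁) (B := (Sv (r v) SA (D v)).X₁) (hr v)
        (mLoc (r v) SA S (π v)) 2 y = 0 ↔
      map (A := homRep SA.X₃ S.X₁) (B := Rep.res (r v) (homRep SA.X₃ S.X₁)) (hr v) (𝟙 _) 2
        y = 0 :=
    fun v y => map_mLoc_eq_zero_iff (hr v) SA S (π v) n hn (hinj v) (hsurj v) 2 y
  constructor
  · intro hx
    exact exists_bdryG_eq_of_mLoc hSA hS smR smF smE smJ n hn hE r hr smD hD π h1 h3 h4a h4b x
      fun v => (key v x).2 (hx v)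
  · rintro ⟨c, rfl⟩ v
    exact (key v _).1 (mLoc_bdryG hSA hS smR smF smE smJ n hn hE r hr smD hD π v c)

end family

end Fermat.Agent.CFT.D.TheoremI
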