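/-
PROJECT C, Layer D (helper10): the DISCHARGE layer on top of helper28's `D/Assemble.lean`.

All side conditions of the package `(b, θ)` of `D/Assemble.lean` (`hSF hSR hSE smFJ smRJ smFE hSv
smv hM`) are derived from the basic hypotheses

* `SA : R → F → A`, `S : E → J → C` short exact; `R`, `F` finitely generated projective over `k`
  and smooth; `E`, `J` smooth; `n • A = 0`; `E` is `n`-divisible;
* `D v` smooth and `n`-divisible, `Res E ⟶ Res J ⟶ D v` bijective on `n`-torsion,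

first for a generic `SA`, then for the canonical resolution `SA := Resolution.SA A` of a finite
smooth module `A` (where also `hF1`, `hF1v`, `(h1)`, `(h3)` are discharged).
-/
import Fermat.Agent.CFT.D.Assemble
import Fermat.Agent.CFT.D.TheoremI
import Fermat.Agent.CFT.D.Resolution

set_option autoImplicit false

universe u

namespace Fermat.Agent.CFT.D.Discharge

open CategoryTheory Fermat.Agent.CFT.LC Fermat.Agent.CFT.LC.El Fermat.Agent.CFT.A7.HomRep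
  Fermat.Agent.CFT.D.LocalRow Fermat.Agent.CFT.D.TheoremI

variable {k G : Type u} [CommRing k] [Group G]

section generic

variable {SA S : ShortComplex (Rep.{u} k G)} {𝒰 : Levels G} [𝒰.IsFin]
  [Module.Projective k SA.X₁.V] [Module.Projective k SA.X₂.V]
  [Module.Finite k SA.X₁.V] [Module.Finite k SA.X₂.V]
  (hSA : SA.ShortExact) (hS : S.ShortExact)
  (smR : IsSmooth 𝒰 SA.X₁) (smF : IsSmooth 𝒰 SA.X₂) (smE : IsSmooth 𝒰 S.X₁) (smJ : IsSmooth 𝒰 S.X₂)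
  (n : k) (hn : ∀ a : SA.X₃.V, n • a = 0) (hE : ∀ x : S.X₁.V, ∃ y : S.X₁.V, n • y = x)

include hSA hn hE in
omit [𝒰.IsFin] [Module.Projective k SA.X₂.V] [Module.Finite k SA.X₁.V]
  [Module.Finite k SA.X₂.V] in
lemma hSE : (homSC SA S.X₁).ShortExact :=
  homSC_shortExact_of_divisible hSA n (exists_f_eq_smul_of_smul_eq_zero hSA n hn) S.X₁ hE

/-- The map `b : Hom_G(R, C) →+ H²(G, Hom(A, E))` of `D/Assemble.lean` with all side conditions
discharged. -/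
noncomputable def bHom : (SA.X₁ ⟶ S.X₃) →+ H 𝒰 (homRep SA.X₃ S.X₁) 2 :=
  bdryHom (SA := SA) (S := S) (colR_shortExact hS) (hSE hSA n hn hE) (isSmooth_homRep smR smJ)
    (isSmooth_homRep smF smE)

/-- **(B2)**: `ker b = im Hom_G(F, C) + im Hom_G(R, J)`. -/
theorem bHom_eq_zero_iff (h2 : ∀ x : H 𝒰 (homRep SA.X₂ S.X₂) 1, x = 0) (h : SA.X₁ ⟶ S.X₃) :
    bHom hSA hS smR smF smE smJ n hn hE h = 0 ↔
      ∃ (ψ : SA.X₂ ⟶ S.X₃) (φ : SA.X₁ ⟶ S.X₂), h = SA.f ≫ ψ + φ ≫ S.g :=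
  bdryHom_eq_zero_iff_exists (SA := SA) (S := S) (colF_shortExact hS) (colR_shortExact hS)
    (hSE hSA n hn hE) (isSmooth_homRep smF smJ) (isSmooth_homRep smR smJ)
    (isSmooth_homRep smF smE) h2 h

variable {ι : Type*} {Gv : ι → Type u} [∀ v, Group (Gv v)] (r : ∀ v, Gv v →* G)
  {𝒰v : ∀ v, Levels (Gv v)} [∀ v, (𝒰v v).IsFin]
  (hr : ∀ v, Levels.Continuous (r v) (𝒰v v) 𝒰)
  {D : ∀ v, Rep.{u} k (Gv v)} (smD : ∀ v, IsSmooth (𝒰v v) (D v))
  (hD : ∀ v, ∀ x : (D v).V, ∃ y : (D v).V, n • y = x)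
  (π : ∀ v, Rep.res (r v) S.X₂ ⟶ D v)

include hn in
omit [𝒰.IsFin] [Module.Projective k SA.X₁.V] [Module.Projective k SA.X₂.V]
  [Module.Finite k SA.X₁.V] [Module.Finite k SA.X₂.V] [∀ v, (𝒰v v).IsFin] in
/-- The hypothesis `hM` of `D/Assemble.lean` from bijectivity on `n`-torsion. -/
lemma hM (hinj : ∀ v, ∀ x : S.X₁.V, n • x = 0 → (π v).hom (S.f.hom x) = 0 → x = 0)
    (hsurj : ∀ v, ∀ d : (D v).V, n • d = 0 → ∃ x : S.X₁.V, n • x = 0 ∧ (π v).hom (S.f.hom x) = d)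
    (v : ι) : Function.Injective (mapId (𝒰 := 𝒰v v) (locM SA r π v) 2) := by
  have : IsIso (locM SA r π v) :=
    isIso_pushLoc_of_torsion (r v) ((Rep.resFunctor (r v)).map S.f ≫ π v) SA.X₃ n hn
      (hinj v) (hsurj v)
  exact mapId_injective_of_isIso (locM SA r π v) 2

include hr smD hD in
/-- **(B1)**, pure restriction form: a class of `H²(G, Hom(A, E))` is everywhere locally trivial
iff it is in the image of `b`. -/
theorem forall_resv_eq_zero_iff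
    (hinj : ∀ v, ∀ x : S.X₁.V, n • x = 0 → (π v).hom (S.f.hom x) = 0 → x = 0)
    (hsurj : ∀ v, ∀ d : (D v).V, n • d = 0 → ∃ x : S.X₁.V, n • x = 0 ∧ (π v).hom (S.f.hom x) = d)
    (h1 : ∀ x : H 𝒰 (homRep SA.X₂ S.X₃) 1, x = 0)
    (h3 : ∀ v, ∀ x : H (𝒰v v) (homRep (Rep.res (r v) SA.X₂) (D v)) 1, x = 0)
    (h4a : ∀ x : H 𝒰 (homRep SA.X₂ S.X₂) 2,
      (∀ v, map (A := homRep SA.X₂ S.X₂) (B := homRep (Rep.res (r v) SA.X₂) (D v)) (hr v)
        (locHom r v SA.X₂ S.X₂ (π v)) 2 x = 0) → x = 0)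
    (h4b : ∀ x : H 𝒰 (homRep SA.X₁ S.X₂) 1,
      (∀ v, map (A := homRep SA.X₁ S.X₂) (B := homRep (Rep.res (r v) SA.X₁) (D v)) (hr v)
        (locHom r v SA.X₁ S.X₂ (π v)) 1 x = 0) → x = 0)
    (x : H 𝒰 (homRep SA.X₃ S.X₁) 2) :
    (∀ v, resv r hr v (homRep SA.X₃ S.X₁) 2 x = 0) ↔
      ∃ h : SA.X₁ ⟶ S.X₃, bHom hSA hS smR smF smE smJ n hn hE h = x :=
  mem_sha2_iff_exists_bdryHom (SA := SA) (S := S) (colF_shortExact hS) (colR_shortExact hS)
    (hSE hSA n hn hE) (isSmooth_homRep smF smJ) (isSmooth_homRep smR smJ)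
    (isSmooth_homRep smF smE) r hr π
    (fun v => Sv_shortExact (r v) (D v) hSA n hn (hD v))
    (fun v => isSmooth_Sv_X₂ smF r hr smD v) h1 h3 h4a h4b
    (hM n hn r π hinj hsurj) x

end generic

/-! ### The canonical resolution of a finite smooth module -/

section resolution

open Resolution

variable (A : Rep.{u} k G) [Finite A.V] [IsDomain k] [IsPrincipalIdealRing k]

instance instProjectiveX₁ : Module.Projective k (SA A).X₁.V := projective_RA A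
instance instProjectiveX₂ : Module.Projective k (SA A).X₂.V :=
  inferInstanceAs (Module.Projective k (FA A).V)
instance instFiniteX₁ : Module.Finite k (SA A).X₁.V := finite_RA A
instance instFiniteX₂ : Module.Finite k (SA A).X₂.V := inferInstanceAs (Module.Finite k (FA A).V)

omit [IsDomain k] [IsPrincipalIdealRing k] in
lemma eq_zero_of_isZero {X : ModuleCat.{u} k} (h : Limits.IsZero X) (x : X) : x = 0 := by
  have := ModuleCat.subsingleton_of_isZero h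
  exact Subsingleton.elim x 0

omit [IsDomain k] [IsPrincipalIdealRing k] in
/-- A quotient of a smooth representation is smooth. -/
lemma isSmooth_X₃ {S : ShortComplex (Rep.{u} k G)} {𝒰 : Levels G} (hS : S.ShortExact)
    (smJ : IsSmooth 𝒰 S.X₂) : IsSmooth 𝒰 S.X₃ := fun c => by
  obtain ⟨j, rfl⟩ := (Rep.epi_iff_surjective S.g).1 hS.epi_g c
  obtain ⟨U, hU, h⟩ := smJ j
  exact ⟨U, hU, fun s hs => by rw [← Rep.hom_comm_apply, h s hs]⟩

variable {A} {S : ShortComplex (Rep.{u} k G)} {𝒰 : Levels G} [𝒰.IsFin]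
  (hS : S.ShortExact) (hA : IsSmooth 𝒰 A) (smE : IsSmooth 𝒰 S.X₁) (smJ : IsSmooth 𝒰 S.X₂)
  (n : k) (hn : ∀ a : A.V, n • a = 0) (hE : ∀ x : S.X₁.V, ∃ y : S.X₁.V, n • y = x)

/-- The map `b : Hom_G(RA A, C) →+ H²(G, Hom(A, E))` for the canonical resolution of `A`. -/
noncomputable def bHomA : (RA A ⟶ S.X₃) →+ H 𝒰 (homRep A S.X₁) 2 :=
  bHom (SA := SA A) (SA_shortExact A) hS (isSmooth_RA A hA) (isSmooth_FA A hA) smE smJ n hn hE

/-- **(B2)** for the canonical resolution. -/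
theorem bHomA_eq_zero_iff (h2 : ∀ x : H 𝒰 (homRep (FA A) S.X₂) 1, x = 0) (h : RA A ⟶ S.X₃) :
    bHomA hS hA smE smJ n hn hE h = 0 ↔
      ∃ (ψ : FA A ⟶ S.X₃) (φ : RA A ⟶ S.X₂), h = incl A ≫ ψ + φ ≫ S.g :=
  bHom_eq_zero_iff (SA := SA A) (SA_shortExact A) hS (isSmooth_RA A hA) (isSmooth_FA A hA)
    smE smJ n hn hE h2 h

variable {ι : Type*} {Gv : ι → Type u} [∀ v, Group (Gv v)] (r : ∀ v, Gv v →* G)
  {𝒰v : ∀ v, Levels (Gv v)} [∀ v, (𝒰v v).IsFin]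
  (hr : ∀ v, Levels.Continuous (r v) (𝒰v v) 𝒰)
  {D : ∀ v, Rep.{u} k (Gv v)} (smD : ∀ v, IsSmooth (𝒰v v) (D v))
  (hD : ∀ v, ∀ x : (D v).V, ∃ y : (D v).V, n • y = x)
  (π : ∀ v, Rep.res (r v) S.X₂ ⟶ D v)

include hr smD hD in
/-- **(B1)** for the canonical resolution, with `(h1)` and `(h3)` discharged from the vanishing
of `H¹` of `C` resp. `D v` on all open subgroups (class formations). -/
theorem forall_resv_eq_zero_iff_A
    (hinj : ∀ v, ∀ x : S.X₁.V, n • x = 0 → (π v).hom (S.f.hom x) = 0 → x = 0)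
    (hsurj : ∀ v, ∀ d : (D v).V, n • d = 0 → ∃ x : S.X₁.V, n • x = 0 ∧ (π v).hom (S.f.hom x) = d)
    (h1 : ∀ V : Subgroup G, 𝒰.IsOpen V →
      Limits.IsZero (H (𝒰.restrict V) (Rep.res V.subtype S.X₃) 1))
    (h3 : ∀ v, ∀ V : Subgroup (Gv v), (𝒰v v).IsOpen V →
      Limits.IsZero (H ((𝒰v v).restrict V) (Rep.res V.subtype (D v)) 1))
    (h4a : ∀ x : H 𝒰 (homRep (FA A) S.X₂) 2,
      (∀ v, map (A := homRep (FA A) S.X₂) (B := homRep (Rep.res (r v) (FA A)) (D v)) (hr v)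
        (locHom r v (FA A) S.X₂ (π v)) 2 x = 0) → x = 0)
    (h4b : ∀ x : H 𝒰 (homRep (RA A) S.X₂) 1,
      (∀ v, map (A := homRep (RA A) S.X₂) (B := homRep (Rep.res (r v) (RA A)) (D v)) (hr v)
        (locHom r v (RA A) S.X₂ (π v)) 1 x = 0) → x = 0)
    (x : H 𝒰 (homRep A S.X₁) 2) :
    (∀ v, resv r hr v (homRep A S.X₁) 2 x = 0) ↔
      ∃ h : RA A ⟶ S.X₃, bHomA hS hA smE smJ n hn hE h = x :=
  forall_resv_eq_zero_iff (SA := SA A) (SA_shortExact A) hS (isSmooth_RA A hA) (isSmooth_FA A hA)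
    smE smJ n hn hE r hr smD hD π hinj hsurj
    (fun x => eq_zero_of_isZero
      (isZero_H_homRep_FA' A hA S.X₃ (isSmooth_X₃ hS smJ) 1 h1) x)
    (fun v x => eq_zero_of_isZero
      (isZero_H_homRep_res_FA A (r v) (hr v) hA (D v) (smD v) 1 (h3 v)) x)
    h4a h4b x

/-! #### The map `θ` (THEOREM II) for the canonical resolution -/

set_option linter.unusedSectionVars false

variable [CharZero k]

/-- The map `θ : Ш¹(A) →+ (Hom_G(RA A, C) →+ H²(G, C))` for the canonical resolution. -/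
noncomputable def thetaA (C : Rep.{u} k G) : sha1 r hr A →+ ((RA A ⟶ C) →+ H 𝒰 C 2) :=
  assembleTheta (SA := SA A) (SA_shortExact A) (isSmooth_FA A hA) r hr C

omit [∀ v, (𝒰v v).IsFin] [CharZero k] in
lemma thetaA_apply (C : Rep.{u} k G) (y : sha1 r hr A) (φ : RA A ⟶ C) :
    thetaA hA r hr C y φ =
      mapId φ 2 (lcδ (X := SA A) (SA_shortExact A) (isSmooth_FA A hA) 1 2 rfl y.1) := rfl

omit [∀ v, (𝒰v v).IsFin] in
/-- **(T1)** for the canonical resolution: `θ` is injective (`hF1` discharged). -/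
theorem thetaA_injective
    (hf : ∀ x : H 𝒰 (RA A) 2, (∀ φ : RA A ⟶ S.X₃, mapId φ 2 x = 0) → x = 0) :
    Function.Injective (thetaA hA r hr S.X₃) :=
  assembleTheta_injective (SA := SA A) (S := S) (SA_shortExact A) (isSmooth_FA A hA) r hr
    (fun x => eq_zero_of_H1_FA A hA x) hf

omit [∀ v, (𝒰v v).IsFin] [CharZero k] in
/-- **(T2)**, first half. -/
theorem thetaA_comp_incl (C : Rep.{u} k G) (y : sha1 r hr A) (ψ : FA A ⟶ C) :
    thetaA hA r hr C y (incl A ≫ ψ) = 0 :=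
  assembleTheta_comp_f (SA := SA A) (SA_shortExact A) (isSmooth_FA A hA) r hr C y ψ

omit [CharZero k] in
/-- **(T2)**, second half. -/
theorem thetaA_comp_g (hLG : LocalGlobal (SA := SA A) r hr S.g π) (y : sha1 r hr A)
    (φ : RA A ⟶ S.X₂) : thetaA hA r hr S.X₃ y (φ ≫ S.g) = 0 :=
  assembleTheta_comp_g (SA := SA A) (S := S) (SA_shortExact A) (isSmooth_FA A hA) r hr π hLG y φ

/-- **(T3)** for the canonical resolution (`hF1`, `hF1v` discharged). -/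
theorem exists_thetaA_eq
    (hc : ∀ y : H 𝒰 (FA A) 2, (∀ ψ : FA A ⟶ S.X₃, mapId ψ 2 y = 0) → y = 0)
    (hf : ∀ x : H 𝒰 (RA A) 2, (∀ φ : RA A ⟶ S.X₃, mapId φ 2 x = 0) → x = 0)
    (hLG : LocalGlobal (SA := SA A) r hr S.g π)
    (hg : ∀ χ : (RA A ⟶ S.X₃) →+ H 𝒰 S.X₃ 2,
      χ ∈ annihW (T := H 𝒰 S.X₃ 2) (Preadditive.leftComp S.X₃ (incl A))
          (Preadditive.rightComp (RA A) S.g) →
        ∃ x : H 𝒰 (RA A) 2, ∀ φ : RA A ⟶ S.X₃, mapId φ 2 x = χ φ)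
    (χ : (RA A ⟶ S.X₃) →+ H 𝒰 S.X₃ 2)
    (hχ1 : ∀ ψ : FA A ⟶ S.X₃, χ (incl A ≫ ψ) = 0)
    (hχ2 : ∀ φ : RA A ⟶ S.X₂, χ (φ ≫ S.g) = 0) :
    ∃ y : sha1 r hr A, thetaA hA r hr S.X₃ y = χ :=
  exists_assembleTheta_eq (SA := SA A) (S := S) (SA_shortExact A) (isSmooth_FA A hA) r hr π
    (fun x => eq_zero_of_H1_FA A hA x)
    (fun v x => eq_zero_of_H1_res_FA A (r v) (hr v) hA x) hc hf hLG hg χ hχ1 hχ2

end resolution

end Fermat.Agent.CFT.D.Discharge
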