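/-
PROJECT C, Layer D, slice D2e, part 2 (helper6): FINITENESS of `Q = Hom_G(R, C) ⧸ W`.

`Q` is a quotient of `Ĥ⁰(G ⧸ U', Hom(R, C^{U'})) = Hom_{G/U'}(R, C^{U'}) / norms`, because by (N3)
the norms lie in `m • Hom_G(R, C) ⊆ im Hom_G(F, C) ⊆ W` (`Realize.exists_normHom_eq_smul`,
`Realize.exists_comp_eq_smul`); and by (NT-a) `Hom_{G/U'}(R, C^{U'}) / norms` embeds into
`Hom(H²(G ⧸ U', R), H²(G ⧸ U', C^{U'}))`, which is finite.  This is the instance argument
`[Finite ((R ⟶ C) ⧸ subW ..)]` of `D/Assemble.card_sha1_eq_card_sha2` and `D/Count.card_annihW`.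
-/
import Mathlib
import Fermat.Agent.CFT.D.Realize
import Fermat.Agent.CFT.D.Count

set_option autoImplicit false

noncomputable section

universe u

namespace Fermat.Agent.CFT.D.Realize

open CategoryTheory groupCohomology Fermat.Agent.CFT.LC Fermat.Agent.CFT.A7 Fermat.Agent.CFT.A7.NT

/-! ### Finiteness of `H²` of a finite group with finitely generated coefficients -/

section FiniteH2

/-- A finitely generated module killed by `N` over a ring with `k ⧸ (N)` finite is finite. -/
theorem finite_of_smul_eq_zero {k M : Type*} [CommRing k] [AddCommGroup M] [Module k M]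
    [Module.Finite k M] (N : k) (hN : ∀ x : M, N • x = 0) [Finite (k ⧸ Ideal.span {N})] :
    Finite M := by
  have ht : Module.IsTorsionBy k M N := hN
  let _ := ht.module
  have : IsScalarTower k (k ⧸ Ideal.span {N}) M := inferInstance
  have : Module.Finite (k ⧸ Ideal.span {N}) M := Module.Finite.of_restrictScalars_finite k _ M
  exact Module.finite_of_finite (k ⧸ Ideal.span {N})

variable {k Γ : Type u} [CommRing k] [Group Γ]

/-- The push-forward on cohomology is additive in the coefficient morphism. -/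
lemma cohMap_add {B C : Rep.{u} k Γ} (ψ ψ' : B ⟶ C) (n : ℕ) :
    groupCohomology.map (MonoidHom.id Γ) (ψ + ψ') n =
      groupCohomology.map (MonoidHom.id Γ) ψ n + groupCohomology.map (MonoidHom.id Γ) ψ' n := by
  have h : cochainsMap (MonoidHom.id Γ) (ψ + ψ') =
      cochainsMap (MonoidHom.id Γ) ψ + cochainsMap (MonoidHom.id Γ) ψ' :=
    (cochainsFunctor k Γ).map_add
  unfold groupCohomology.map
  rw [h, HomologicalComplex.homologyMap_add]
  rfl

/-- The push-forward on cohomology along the zero morphism is zero. -/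
lemma cohMap_zero (B C : Rep.{u} k Γ) (n : ℕ) :
    groupCohomology.map (MonoidHom.id Γ) (0 : B ⟶ C) n = 0 :=
  (groupCohomology.functor k Γ n).map_zero B C

variable [IsNoetherianRing k] [Finite Γ] (B : Rep.{u} k Γ) [Module.Finite k B.V]

/-- `H²(Γ, B)` is a finitely generated `k`-module for `Γ` finite, `k` noetherian and `B` finitely
generated over `k`. -/
theorem moduleFinite_H2 : Module.Finite k (groupCohomology B 2) := by
  have h1 : IsNoetherian k (Γ × Γ → B.V) := isNoetherian_pi
  have h2 : Module.Finite k (cocycles₂ B) := Module.IsNoetherian.finite k _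
  exact Module.Finite.of_surjective (H2π B).hom
    ((ModuleCat.epi_iff_surjective (H2π B)).1 inferInstance)

/-- `H²(Γ, B)` is finite for `Γ` finite, `k` noetherian with `k ⧸ (|Γ|)` finite and `B` finitely
generated over `k` (e.g. `k = ℤ` or `ℤ_(p)`). -/
theorem finite_H2 [Finite (k ⧸ Ideal.span {((Nat.card Γ : ℕ) : k)})] :
    Finite (groupCohomology B 2) := by
  have := moduleFinite_H2 B
  exact finite_of_smul_eq_zero ((Nat.card Γ : ℕ) : k)
    (fun x => Fermat.Agent.CFT.A1.card_smul_eq_zero B 1 x)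

end FiniteH2

/-! ### Finiteness of `Q` -/

section FiniteQ

variable {k G : Type} [CommRing k] [Group G]

/-- The conclusion of **(NT-a)** (`A7.NT.nt_a`) for a pair of representations of a finite group:
a morphism `ψ : B ⟶ C` with `ψ_* = 0` on `H²(Γ, B)` is a norm. -/
def NTa {Γ : Type} [Group Γ] [Fintype Γ] (B C : Rep.{0} k Γ) : Prop :=
  ∀ ψ : B ⟶ C,
    (∀ x : groupCohomology B 2, (groupCohomology.map (MonoidHom.id Γ) ψ 2).hom x = 0) →
      ∃ θ : B.V →ₗ[k] C.V, ψ = normHom B C θ

/-- The push-forward `ψ ↦ ψ_*` on `H²`, as an additive map. -/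
def pushHom {Γ : Type} [Group Γ] (B C : Rep.{0} k Γ) :
    (B ⟶ C) →+ (groupCohomology B 2 →+ groupCohomology C 2) where
  toFun ψ := (groupCohomology.map (MonoidHom.id Γ) ψ 2).hom.toAddMonoidHom
  map_zero' := by
    ext x
    rw [cohMap_zero]
    rfl
  map_add' ψ ψ' := by
    ext x
    rw [cohMap_add]
    rfl

lemma pushHom_apply {Γ : Type} [Group Γ] (B C : Rep.{0} k Γ) (ψ : B ⟶ C)
    (x : groupCohomology B 2) :
    pushHom B C ψ x = (groupCohomology.map (MonoidHom.id Γ) ψ 2).hom x := rfl

variable {R F C : Rep.{0} k G}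

/-- **FINITENESS OF `Q`**, general form: any subgroup `W` of `Hom_G(R, C)` containing the image of
`Hom_G(F, C)` has finite index, given (N3) and (NT-a) at one level `U'` acting trivially on `R`
and the finiteness of `H²(G ⧸ U', R)` and `H²(G ⧸ U', C^{U'})`. -/
theorem finite_quotient (f : R ⟶ F) (hf : Function.Injective f.hom) (n : k)
    (hn : ∀ v : F.V, ∃ w : R.V, f.hom w = n • v) [Module.Projective k R.V]
    (U₀ U' : Subgroup G) [U'.Normal] (hle : U' ≤ U₀)
    (hRtriv : ∀ u ∈ U₀, ∀ b : R.V, R.ρ u b = b)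
    [Fintype (G ⧸ U')] [Fintype (layerSub U₀ U')]
    (hN3 : N3 C n U₀ U')
    (hNTa : NTa (R.quotientToInvariants U') (C.quotientToInvariants U'))
    [Finite (groupCohomology (R.quotientToInvariants U') 2)]
    [Finite (groupCohomology (C.quotientToInvariants U') 2)]
    (W : AddSubgroup (R ⟶ C)) (hW : ∀ ψ : F ⟶ C, f ≫ ψ ∈ W) : Finite ((R ⟶ C) ⧸ W) := by
  classical
  have hRU' : ∀ u ∈ U', ∀ b : R.V, R.ρ u b = b := fun u hu b => hRtriv u (hle hu) b
  have : Module.Projective k (R.quotientToInvariants U').V :=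
    Module.Projective.of_equiv (layerEquiv U' hRU').symm
  have hBtriv : ∀ h ∈ layerSub U₀ U', ∀ b : (R.quotientToInvariants U').V,
      (R.quotientToInvariants U').ρ h b = b := by
    rintro h ⟨u, hu, rfl⟩ b
    apply Subtype.ext
    exact hRtriv u hu b.1
  let Φ := pushHom (R.quotientToInvariants U') (C.quotientToInvariants U')
  let q : (R.quotientToInvariants U' ⟶ C.quotientToInvariants U') →+ (R ⟶ C) ⧸ W :=
    (QuotientAddGroup.mk' W).comp (liftLayerLin U' hRU').toAddMonoidHom
  have hq : ∀ ψ, q ψ = QuotientAddGroup.mk (liftLayerHom U' hRU' ψ) := fun _ => rfl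
  have hqs : Function.Surjective q := by
    intro y
    obtain ⟨φ, rfl⟩ := QuotientAddGroup.mk_surjective y
    exact ⟨layerMap φ U', by rw [hq, liftLayerHom_layerMap]⟩
  have hker : Φ.ker ≤ q.ker := by
    intro ψ hψ
    rw [AddMonoidHom.mem_ker] at hψ ⊢
    obtain ⟨θ, rfl⟩ := hNTa ψ (fun x => by
      rw [← pushHom_apply]
      change Φ ψ x = 0
      rw [hψ]
      rfl)
    obtain ⟨ψ', hψ'⟩ := exists_normHom_eq_smul (H := layerSub U₀ U') n hBtriv hN3 θ
    obtain ⟨ψ'', hψ''⟩ := exists_comp_eq_smul f hf n hn (liftLayerHom U' hRU' ψ')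
    rw [hq, QuotientAddGroup.eq_zero_iff, hψ', ← liftLayerLin_apply, map_smul, liftLayerLin_apply,
      ← hψ'']
    exact hW ψ''
  have hfin : Finite (groupCohomology (R.quotientToInvariants U') 2 →+
      groupCohomology (C.quotientToInvariants U') 2) := DFunLike.finite _
  have hfin' : Finite ((R.quotientToInvariants U' ⟶ C.quotientToInvariants U') ⧸ Φ.ker) :=
    Finite.of_equiv _ (QuotientAddGroup.quotientKerEquivRange Φ).symm.toEquiv
  refine Finite.of_surjective (QuotientAddGroup.lift Φ.ker q hker) ?_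
  intro y
  obtain ⟨ψ, rfl⟩ := hqs y
  exact ⟨QuotientAddGroup.mk ψ, rfl⟩

/-- **FINITENESS OF `Q = Hom_G(R, C) ⧸ W`** in the shape of the instance argument of
`D/Count.card_annihW` and `D/Assemble.card_sha1_eq_card_sha2`. -/
theorem finite_quotient_subW {SA : ShortComplex (Rep.{0} k G)} (hSA : SA.ShortExact)
    {J : Rep.{0} k G} (g : J ⟶ C) (n : k)
    (hn : ∀ v : SA.X₂.V, ∃ w : SA.X₁.V, SA.f.hom w = n • v) [Module.Projective k SA.X₁.V]
    (U₀ U' : Subgroup G) [U'.Normal] (hle : U' ≤ U₀)
    (hRtriv : ∀ u ∈ U₀, ∀ b : SA.X₁.V, SA.X₁.ρ u b = b)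
    [Fintype (G ⧸ U')] [Fintype (layerSub U₀ U')]
    (hN3 : N3 C n U₀ U')
    (hNTa : NTa (SA.X₁.quotientToInvariants U') (C.quotientToInvariants U'))
    [Finite (groupCohomology (SA.X₁.quotientToInvariants U') 2)]
    [Finite (groupCohomology (C.quotientToInvariants U') 2)] :
    Finite ((SA.X₁ ⟶ C) ⧸
      subW (Preadditive.leftComp C SA.f) (Preadditive.rightComp SA.X₁ g)) := by
  have hf : Function.Injective SA.f.hom := by
    have := hSA.mono_f
    exact (Rep.mono_iff_injective SA.f).1 this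
  exact finite_quotient SA.f hf n hn U₀ U' hle hRtriv hN3 hNTa _
    (fun ψ => AddSubgroup.mem_sup_left ⟨ψ, rfl⟩)

end FiniteQ

/-! ### The finiteness hypotheses from a class formation -/

section ClassFormation

variable {k G : Type} [CommRing k] [Group G] {𝒰 : Levels G} {C : Rep.{0} k G}

/-- `H²(G ⧸ U, C^U)` is finite for a layer of a class formation, if `k ⧸ ([G : U])` is finite. -/
theorem finite_H2_layer (cf : ClassFormation 𝒰 C) (U : Subgroup G) [U.Normal] (hU : U ∈ 𝒰.sets)
    [Finite (k ⧸ Ideal.span {((Nat.card (G ⧸ U) : ℕ) : k)})] :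
    Finite (groupCohomology (C.quotientToInvariants U) 2) := by
  have : Finite (G ⧸ U) := by
    have := cf.finiteIndex U hU
    exact Subgroup.finite_quotient_of_finiteIndex
  have : Module.Finite k (groupCohomology (C.quotientToInvariants U) 2) :=
    Module.Finite.of_surjective
      (LinearMap.toSpanSingleton k _ (layerClass C U (cf.φ U hU))) (fun y => by
        obtain ⟨r, hr⟩ := cf.hgen U hU y
        exact ⟨r, hr.symm⟩)
  exact finite_of_smul_eq_zero ((Nat.card (G ⧸ U) : ℕ) : k)
    (fun x => Fermat.Agent.CFT.A1.card_smul_eq_zero (C.quotientToInvariants U) 1 x)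

/-- `H²(G ⧸ U, R)` is finite if `U` acts trivially on the finitely generated `k`-module `R`, `k` is
noetherian and `k ⧸ ([G : U])` is finite. -/
theorem finite_H2_layer_of_trivial [IsNoetherianRing k] {R : Rep.{0} k G} [Module.Finite k R.V]
    (U : Subgroup G) [U.Normal] [Finite (G ⧸ U)]
    (hR : ∀ u ∈ U, ∀ b : R.V, R.ρ u b = b)
    [Finite (k ⧸ Ideal.span {((Nat.card (G ⧸ U) : ℕ) : k)})] :
    Finite (groupCohomology (R.quotientToInvariants U) 2) := by
  have : Module.Finite k (R.quotientToInvariants U).V :=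
    Module.Finite.equiv (layerEquiv U hR).symm
  exact finite_H2 (R.quotientToInvariants U)

/-- **FINITENESS OF `Q`** for a class formation: all finiteness hypotheses discharged from
`k` noetherian, `R` finitely generated and `k ⧸ ([G : U'])` finite. -/
theorem finite_quotient_subW_of_classFormation [IsNoetherianRing k] (cf : ClassFormation 𝒰 C)
    {SA : ShortComplex (Rep.{0} k G)} (hSA : SA.ShortExact)
    {J : Rep.{0} k G} (g : J ⟶ C) (n : k)
    (hn : ∀ v : SA.X₂.V, ∃ w : SA.X₁.V, SA.f.hom w = n • v) [Module.Projective k SA.X₁.V]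
    [Module.Finite k SA.X₁.V]
    (U₀ U' : Subgroup G) [U'.Normal] (hU' : U' ∈ 𝒰.sets) (hle : U' ≤ U₀)
    (hRtriv : ∀ u ∈ U₀, ∀ b : SA.X₁.V, SA.X₁.ρ u b = b)
    [Fintype (G ⧸ U')] [Fintype (layerSub U₀ U')]
    [Finite (k ⧸ Ideal.span {((Nat.card (G ⧸ U') : ℕ) : k)})]
    (hN3 : N3 C n U₀ U')
    (hNTa : NTa (SA.X₁.quotientToInvariants U') (C.quotientToInvariants U')) :
    Finite ((SA.X₁ ⟶ C) ⧸
      subW (Preadditive.leftComp C SA.f) (Preadditive.rightComp SA.X₁ g)) := by
  have := finite_H2_layer cf U' hU'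
  have := finite_H2_layer_of_trivial (R := SA.X₁) U' (fun u hu b => hRtriv u (hle hu) b)
  exact finite_quotient_subW hSA g n hn U₀ U' hle hRtriv hN3 hNTa

end ClassFormation

end Fermat.Agent.CFT.D.Realize
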