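import Mathlib
import Fermat.Agent.CFT.D.NTGlue
import Fermat.Agent.CFT.D.RealizeFinite

/-!
# PROJECT C, Layer D glue: (NT-a) on the layers of a class formation, in the shape `Realize.NTa`

Companion of `D/NTGlue`: the hypothesis `hNTa` of `Realize.finite_quotient_subW_of_classFormation`
(`D/RealizeFinite`) for a class formation over a PID `k` of characteristic zero with
`AddHomsLinear k`, resp. over `ℤ`.
-/

set_option autoImplicit false

noncomputable section

namespace Fermat.Agent.CFT.D.NTGlue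

open CategoryTheory groupCohomology Fermat.Agent.CFT.LC Fermat.Agent.CFT.A5
  Fermat.Agent.CFT.A7 Fermat.Agent.CFT.D.Realize

variable {k G : Type} [CommRing k] [Group G] {𝒰 : Levels G} {C : Rep.{0} k G}

/-- **(NT-a) on a layer**, in the shape of `Realize.NTa`. -/
theorem nta (hK : NTSupply k) (cf : ClassFormation 𝒰 C) (U : Subgroup G) [U.Normal]
    (hU : U ∈ 𝒰.sets) [Fintype (G ⧸ U)] (B : Rep.{0} k G) [Module.Free k B.V]
    [Module.Finite k B.V] (hB : ∀ u ∈ U, ∀ b : B.V, B.ρ u b = b) :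
    NTa (B.quotientToInvariants U) (C.quotientToInvariants U) :=
  fun ψ hψ => nta_layer hK cf U hU B hB ψ hψ

/-- `Realize.NTa` on a layer over a PID of characteristic zero with `AddHomsLinear`. -/
theorem nta_of_pid [IsDomain k] [IsPrincipalIdealRing k] [CharZero k] (hR : AddHomsLinear k)
    (cf : ClassFormation 𝒰 C) (U : Subgroup G) [U.Normal] (hU : U ∈ 𝒰.sets) [Fintype (G ⧸ U)]
    (B : Rep.{0} k G) [Module.Free k B.V] [Module.Finite k B.V]
    (hB : ∀ u ∈ U, ∀ b : B.V, B.ρ u b = b) :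
    NTa (B.quotientToInvariants U) (C.quotientToInvariants U) :=
  nta (ntSupply_of_pid hR) cf U hU B hB

/-- `Realize.NTa` on a layer for a class formation over `ℤ`, unconditionally. -/
theorem nta_int {C : Rep.{0} ℤ G} (cf : ClassFormation 𝒰 C) (U : Subgroup G) [U.Normal]
    (hU : U ∈ 𝒰.sets) [Fintype (G ⧸ U)] (B : Rep.{0} ℤ G)
    (hfree : @Module.Free ℤ B.V _ _ B.hV2) (hfin : @Module.Finite ℤ B.V _ _ B.hV2)
    (hB : ∀ u ∈ U, ∀ b : B.V, B.ρ u b = b) :
    NTa (B.quotientToInvariants U) (C.quotientToInvariants U) :=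
  @nta ℤ G _ _ 𝒰 C ntSupply_int cf U _ hU _ B hfree hfin hB

end Fermat.Agent.CFT.D.NTGlue
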