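/-
PROJECT C, Layer D (helper28): INTEGRATION of the abstract Poitou–Tate package.

`exists_package_of_assemble` : from the hypothesis list of `D/Assemble.lean` the tuple `(b, θ)` with
the four properties consumed by `Reduce.result_of_package` (`D/Reduce.lean`).

Then, for the canonical resolution `SA := Resolution.SA A` of a finite smooth module `A` killed by
`p`, all the non-arithmetic side conditions are discharged from `D/Resolution`, `D/TheoremI`,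
`D/LocalRow`, `D/Biprod`, `D/Frobenius`, `D/H4/Main`, `C7/JInduced`, `C7/JInj`, `D/NTGlue`,
`D/RealizeMono`, `A7/Limit`.
-/
import Fermat.Agent.CFT.D.Assemble
import Fermat.Agent.CFT.D.Resolution
import Fermat.Agent.CFT.D.TheoremI
import Fermat.Agent.CFT.D.Biprod
import Fermat.Agent.CFT.D.Frobenius
import Fermat.Agent.CFT.D.NTGlue
import Fermat.Agent.CFT.D.RealizeMono
import Fermat.Agent.CFT.D.H4.Main
import Fermat.Agent.CFT.C7.JInduced
import Fermat.Agent.CFT.C7.JInj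

set_option autoImplicit false

universe u

namespace Fermat.Agent.CFT.D.Package

open CategoryTheory Fermat.Agent.CFT.LC Fermat.Agent.CFT.LC.El Fermat.Agent.CFT.A7.HomRep
  Fermat.Agent.CFT.D

/-! ### The package from the hypothesis list of `D/Assemble` -/

section Abstract

variable {k G : Type u} [CommRing k] [Group G]
variable {𝒰 : Levels G} [𝒰.IsFin]
variable {SA S : ShortComplex (Rep.{u} k G)} (hSA : SA.ShortExact) (smA : IsSmooth 𝒰 SA.X₂)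
  (hSF : (SFof SA S).ShortExact) (hSR : (SRof SA S).ShortExact)
  (hSE : (homSC SA S.X₁).ShortExact)
  (smFJ : IsSmooth 𝒰 (homRep SA.X₂ S.X₂)) (smRJ : IsSmooth 𝒰 (homRep SA.X₁ S.X₂))
  (smFE : IsSmooth 𝒰 (homRep SA.X₂ S.X₁))
variable {ι : Type*} {Gv : ι → Type u} [∀ v, Group (Gv v)] (r : ∀ v, Gv v →* G)
  {𝒰v : ∀ v, Levels (Gv v)} [∀ v, (𝒰v v).IsFin]
  (hr : ∀ v, Levels.Continuous (r v) (𝒰v v) 𝒰)
  {D : ∀ v, Rep.{u} k (Gv v)} (π : ∀ v, Rep.res (r v) S.X₂ ⟶ D v)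
  (hSv : ∀ v, (Svof SA r D v).ShortExact)
  (smv : ∀ v, IsSmooth (𝒰v v) (homRep (Rep.res (r v) SA.X₂) (D v)))
  (h1 : ∀ x : H 𝒰 (homRep SA.X₂ S.X₃) 1, x = 0)
  (h2 : ∀ x : H 𝒰 (homRep SA.X₂ S.X₂) 1, x = 0)
  (h3 : ∀ v, ∀ x : H (𝒰v v) (homRep (Rep.res (r v) SA.X₂) (D v)) 1, x = 0)
  (h4a : ∀ x : H 𝒰 (homRep SA.X₂ S.X₂) 2,
    (∀ v, map (A := homRep SA.X₂ S.X₂) (B := homRep (Rep.res (r v) SA.X₂) (D v)) (hr v)
      (locHom r v SA.X₂ S.X₂ (π v)) 2 x = 0) → x = 0)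
  (h4b : ∀ x : H 𝒰 (homRep SA.X₁ S.X₂) 1,
    (∀ v, map (A := homRep SA.X₁ S.X₂) (B := homRep (Rep.res (r v) SA.X₁) (D v)) (hr v)
      (locHom r v SA.X₁ S.X₂ (π v)) 1 x = 0) → x = 0)
  (hF1 : ∀ x : H 𝒰 SA.X₂ 1, x = 0)
  (hF1v : ∀ v, ∀ x : H (𝒰v v) (Rep.res (r v) SA.X₂) 1, x = 0)
  (hc : ∀ y : H 𝒰 SA.X₂ 2, (∀ ψ : SA.X₂ ⟶ S.X₃, mapId ψ 2 y = 0) → y = 0)
  (hf : ∀ x : H 𝒰 SA.X₁ 2, (∀ φ : SA.X₁ ⟶ S.X₃, mapId φ 2 x = 0) → x = 0)
  (hLG : LocalGlobal (SA := SA) r hr S.g π)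
  (hg : ∀ χ : (SA.X₁ ⟶ S.X₃) →+ H 𝒰 S.X₃ 2,
    χ ∈ annihW (T := H 𝒰 S.X₃ 2) (Preadditive.leftComp S.X₃ SA.f)
        (Preadditive.rightComp SA.X₁ S.g) →
      ∃ x : H 𝒰 SA.X₁ 2, ∀ φ : SA.X₁ ⟶ S.X₃, mapId φ 2 x = χ φ)
  (hM : ∀ v, Function.Injective (mapId (𝒰 := 𝒰v v) (locM SA r π v) 2))

include hSA smA hSF hSR hSE smFJ smRJ smFE hSv smv h1 h2 h3 h4a h4b hF1 hF1v hc hf hLG hg hM in
/-- **The abstract Poitou–Tate package** in the shape of `Reduce.result_of_package`: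
`HR := Hom_G(R, C)`, `T := H²(G, C)`, `b := bdryHom`, `θ := assembleTheta`. -/
theorem exists_package_of_assemble :
    ∃ (b : (SA.X₁ ⟶ S.X₃) →+ H 𝒰 (homRep SA.X₃ S.X₁) 2)
      (θ : sha1 r hr SA.X₃ →+ ((SA.X₁ ⟶ S.X₃) →+ H 𝒰 S.X₃ 2)),
      (∀ x, (∀ v, resv r hr v (homRep SA.X₃ S.X₁) 2 x = 0) ↔ ∃ h, b h = x) ∧
      Function.Injective θ ∧
      (∀ y h, b h = 0 → θ y h = 0) ∧
      (∀ χ : (SA.X₁ ⟶ S.X₃) →+ H 𝒰 S.X₃ 2, (∀ h, b h = 0 → χ h = 0) → ∃ y, θ y = χ) := by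
  refine ⟨bdryHom hSR hSE smRJ smFE, assembleTheta hSA smA r hr S.X₃, ?_, ?_, ?_, ?_⟩
  · intro x
    exact mem_sha2_iff_exists_bdryHom hSF hSR hSE smFJ smRJ smFE r hr π hSv smv h1 h3 h4a h4b hM x
  · exact assembleTheta_injective hSA smA r hr hF1 hf
  · intro y h hh
    obtain ⟨ψ, φ, rfl⟩ := (bdryHom_eq_zero_iff_exists hSF hSR hSE smFJ smRJ smFE h2 h).1 hh
    rw [map_add, assembleTheta_comp_f hSA smA r hr S.X₃ y ψ,
      assembleTheta_comp_g hSA smA r hr π hLG y φ, add_zero]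
  · intro χ hχ
    refine exists_assembleTheta_eq hSA smA r hr π hF1 hF1v hc hf hLG hg χ (fun ψ => ?_)
      (fun φ => ?_)
    · apply hχ
      refine (bdryHom_eq_zero_iff_exists hSF hSR hSE smFJ smRJ smFE h2 _).2 ⟨ψ, 0, ?_⟩
      rw [Limits.zero_comp, add_zero]
    · apply hχ
      refine (bdryHom_eq_zero_iff_exists hSF hSR hSE smFJ smRJ smFE h2 _).2 ⟨0, φ, ?_⟩
      rw [Limits.comp_zero, zero_add]

end Abstract


/-! ### The canonical resolution: side conditions -/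

section Side

open Fermat.Agent.CFT.D.Resolution

variable {k G : Type u} [CommRing k] [Group G] {𝒰 : Levels G}
  (A : Rep.{u} k G) [Finite A.V]

/-- Some level acts trivially on the permutation lattice `FA A` of a finite smooth module. -/
lemma exists_level_triv_FA (hA : IsSmooth 𝒰 A) :
    ∃ U₀ ∈ 𝒰.sets, ∀ u ∈ U₀, ∀ b : (FA A).V, (FA A).ρ u b = b :=
  PermH1.exists_level_trivial (basisFA A) (FA_ρ_basis A) 𝒰 (isOpen_stabilizer A hA)

omit [Finite A.V] in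
/-- A subgroup acting trivially on `FA A` acts trivially on `RA A`. -/
lemma triv_RA_of_triv_FA {U₀ : Subgroup G}
    (h : ∀ u ∈ U₀, ∀ b : (FA A).V, (FA A).ρ u b = b) :
    ∀ u ∈ U₀, ∀ b : (RA A).V, (RA A).ρ u b = b :=
  fun u hu b => Subtype.ext (h u hu b.1)

end Side

/-! ### Hilbert 90 on the layers of a class formation -/

section H90

open Fermat.Agent.CFT.A7 Fermat.Agent.CFT.InfRes2 Fermat.Agent.CFT.D.H4 groupCohomology

variable {k G : Type} [CommRing k] [Group G] {𝒰 : Levels G} {C : Rep.{0} k G}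

/-- **Hilbert 90 on the layers** of a class formation, in the shape of the hypothesis `h90` of
`H4.h4_two` / `JInj.h4_two_plain`. -/
theorem h90_of_classFormation (cf : ClassFormation 𝒰 C) (V W : Subgroup G) (_ : V.Normal)
    (_ : W.Normal) (_ : V ∈ 𝒰.sets) (hW : W ∈ 𝒰.sets) (_ : W ≤ V) :
    H1Vanishes (C.quotientToInvariants W) (layer V W) := by
  have hz := (cf.isClassModule W hW).h1 (layer V W)
  have : Subsingleton (H1 (Rep.res (layer V W).subtype (C.quotientToInvariants W))) :=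
    ModuleCat.subsingleton_of_isZero hz
  exact h1Vanishes_of_subsingleton

end H90


/-! ### The package for the canonical resolution -/

section Main

open Fermat.Agent.CFT.D.Resolution Fermat.Agent.CFT.A7 Fermat.Agent.CFT.D.H4
  Fermat.Agent.CFT.D.LocalRow Fermat.Agent.CFT.D.Realize Fermat.Agent.CFT.D.NTGlue

variable {k G : Type} [CommRing k] [IsDomain k] [IsPrincipalIdealRing k] [CharZero k] [Group G]
  {𝒰 : Levels G} [𝒰.IsFin]

/-- **The Poitou–Tate package for a finite smooth module `A` killed by `p`**, from class formations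
(global on `C`, local on the `D v`), the biproduct decomposition `J = ⊕ J_v`, helper4's arithmetic
contract `LevelData` for every `J_v`, the support condition (G-c), and (N3). -/
theorem exists_package (A : Rep.{0} k G) [Finite A.V] (hA : IsSmooth 𝒰 A)
    (p : ℕ) (hp0 : p ≠ 0) (hpA : ∀ a : A.V, (p : k) • a = 0)
    {S : ShortComplex (Rep.{0} k G)} (hS : S.ShortExact)
    (smE : IsSmooth 𝒰 S.X₁) (smJ : IsSmooth 𝒰 S.X₂)
    (hE : ∀ x : S.X₁.V, ∃ y : S.X₁.V, (p : k) • y = x)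
    {ι : Type} [Fintype ι] {Gv : ι → Type} [∀ v, Group (Gv v)] (r : ∀ v, Gv v →* G)
    {𝒰v : ∀ v, Levels (Gv v)} [∀ v, (𝒰v v).IsFin]
    (hr : ∀ v, Levels.Continuous (r v) (𝒰v v) 𝒰)
    {Jv : ι → Rep.{0} k G} (b : BiprodData S.X₂ Jv)
    {D : ∀ v, Rep.{0} k (Gv v)} (smD : ∀ v, IsSmooth (𝒰v v) (D v))
    (hD : ∀ v, ∀ x : (D v).V, ∃ y : (D v).V, (p : k) • y = x)
    (π' : ∀ v, Rep.res (r v) (Jv v) ⟶ D v)
    (hinj : ∀ v, ∀ x : S.X₁.V, (p : k) • x = 0 → (b.loc r π' v).hom (S.f.hom x) = 0 → x = 0)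
    (hsurj : ∀ v, ∀ d : (D v).V, (p : k) • d = 0 →
      ∃ x : S.X₁.V, (p : k) • x = 0 ∧ (b.loc r π' v).hom (S.f.hom x) = d)
    (cf : ClassFormation 𝒰 S.X₃) (cfv : ∀ v, ClassFormation (𝒰v v) (D v)) (hK : NTSupply k)
    (hdata : ∀ v, ∀ U₀ ∈ 𝒰.sets, ∃ (U : Subgroup G) (_ : U.Normal) (_ : U ∈ 𝒰.sets) (_ : U ≤ U₀),
      Nonempty (LevelData.{0, 0} (Jv v) (fun _ : Unit => r v) (fun _ => 𝒰v v)
        (fun _ => π' v) U))
    (hsupp : ∀ v, ∀ y : H 𝒰 (Jv v) 2, mapId (b.i v ≫ S.g) 2 y = 0 → y = 0)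
    (hN3 : ∀ U₀ ∈ 𝒰.sets, ∃ U₀' ∈ 𝒰.sets, U₀' ≤ U₀ ∧ ∃ (U' : Subgroup G) (_ : U'.Normal),
      U' ∈ 𝒰.sets ∧ U' ≤ U₀' ∧ ∀ [Fintype (layerSub U₀' U')], N3 S.X₃ (p : k) U₀' U')
    (hdvd : ∃ (U₁ : Subgroup G) (_ : U₁.Normal), U₁ ∈ 𝒰.sets ∧
      (p : k) ∣ ((Nat.card (G ⧸ U₁) : ℕ) : k)) :
    ∃ (bd : (RA A ⟶ S.X₃) →+ H 𝒰 (homRep A S.X₁) 2)
      (θ : sha1 r hr A →+ ((RA A ⟶ S.X₃) →+ H 𝒰 S.X₃ 2)),
      (∀ x, (∀ v, resv r hr v (homRep A S.X₁) 2 x = 0) ↔ ∃ h, bd h = x) ∧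
      Function.Injective θ ∧
      (∀ y h, bd h = 0 → θ y h = 0) ∧
      (∀ χ : (RA A ⟶ S.X₃) →+ H 𝒰 S.X₃ 2, (∀ h, bd h = 0 → χ h = 0) → ∃ y, θ y = χ) := by
  classical
  -- instances for the resolution
  have hprojR : Module.Projective k (SA A).X₁.V := projective_RA A
  have hfreeR : Module.Free k (RA A).V := free_RA A
  have hfinR : Module.Finite k (SA A).X₁.V := finite_RA A
  have hfinR' : Module.Finite k (RA A).V := finite_RA A
  have hprojF : Module.Projective k (SA A).X₂.V :=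
    (inferInstance : Module.Projective k (FA A).V)
  have hfinF : Module.Finite k (SA A).X₂.V := (inferInstance : Module.Finite k (FA A).V)
  have hSA : (SA A).ShortExact := SA_shortExact A
  have smF : IsSmooth 𝒰 (SA A).X₂ := isSmooth_FA A hA
  have smR : IsSmooth 𝒰 (SA A).X₁ := isSmooth_RA A hA
  have smC : IsSmooth 𝒰 S.X₃ := by
    have := hS.epi_g
    exact smJ.of_surjective S.g ((Rep.epi_iff_surjective S.g).1 this)
  have hpF : ∀ v : (SA A).X₂.V, ∃ w : (SA A).X₁.V, (SA A).f.hom w = (p : k) • v :=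
    exists_incl_eq_smul A (p : k) hpA
  -- a level acting trivially on the resolution
  obtain ⟨U₀, hU₀, hFtriv⟩ := exists_level_triv_FA (𝒰 := 𝒰) A hA
  have hRtriv : ∀ u ∈ U₀, ∀ b : (RA A).V, (RA A).ρ u b = b := triv_RA_of_triv_FA A hFtriv
  -- the smoothness of the summands
  have smJv : ∀ v, IsSmooth 𝒰 (Jv v) := fun v => by
    refine smJ.of_injective (b.i v) ?_
    intro x y hxy
    have h1 := congrArg (b.p v).hom hxy
    have h2 : ∀ z : (Jv v).V, (b.p v).hom ((b.i v).hom z) = z := fun z =>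
      congrArg (fun f : Jv v ⟶ Jv v => f.hom z) (b.i_p_self v)
    rw [h2, h2] at h1
    exact h1
  -- Hilbert 90 on the local layers
  have h90 : ∀ v, ∀ (_ : Unit) (V W : Subgroup (Gv v)) (_ : V.Normal) (_ : W.Normal),
      V ∈ (𝒰v v).sets → W ∈ (𝒰v v).sets → W ≤ V →
        InfRes2.H1Vanishes ((D v).quotientToInvariants W) (layer V W) :=
    fun v _ V W hV hW hVm hWm hle => h90_of_classFormation (cfv v) V W hV hW hVm hWm hle
  -- per-place injectivity statements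
  have hinjF1 : ∀ v, ∀ y : H 𝒰 (homRep (FA A) (Jv v)) 1,
      map (A := homRep (FA A) (Jv v)) (B := homRep (Rep.res (r v) (FA A)) (D v)) (hr v)
        (pushLoc (r v) (π' v) (FA A)) 1 y = 0 → y = 0 := fun v y hy =>
    h4_one (J := Jv v) (φ := fun _ : Unit => r v) (𝒰v := fun _ => 𝒰v v) (π := fun _ => π' v)
      (fun _ => hr v) (FA A) U₀ hU₀ hFtriv (hdata v) y (fun _ => hy)
  have hinjR1 : ∀ v, ∀ y : H 𝒰 (homRep (RA A) (Jv v)) 1,
      map (A := homRep (RA A) (Jv v)) (B := homRep (Rep.res (r v) (RA A)) (D v)) (hr v)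
        (pushLoc (r v) (π' v) (RA A)) 1 y = 0 → y = 0 := fun v y hy =>
    h4_one (J := Jv v) (φ := fun _ : Unit => r v) (𝒰v := fun _ => 𝒰v v) (π := fun _ => π' v)
      (fun _ => hr v) (RA A) U₀ hU₀ hRtriv (hdata v) y (fun _ => hy)
  have hinjF2 : ∀ v, ∀ y : H 𝒰 (homRep (FA A) (Jv v)) 2,
      map (A := homRep (FA A) (Jv v)) (B := homRep (Rep.res (r v) (FA A)) (D v)) (hr v)
        (pushLoc (r v) (π' v) (FA A)) 2 y = 0 → y = 0 := fun v y hy =>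
    h4_two (J := Jv v) (φ := fun _ : Unit => r v) (𝒰v := fun _ => 𝒰v v) (π := fun _ => π' v)
      (fun _ => hr v) (FA A) U₀ hU₀ hFtriv (hdata v) (h90 v) y (fun _ => hy)
  have hinjJ2 : ∀ v, ∀ y : H 𝒰 (Jv v) 2,
      map (A := Jv v) (B := D v) (hr v) (π' v) 2 y = 0 → y = 0 := fun v y hy =>
    C7.JInj.h4_two_plain (J := Jv v) (φ := fun _ : Unit => r v) (𝒰v := fun _ => 𝒰v v)
      (π := fun _ => π' v) (fun _ => hr v) (hdata v) (h90 v) y (fun _ => hy)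
  -- the vanishing statements (h1), (h3), (h2)
  have h1 : ∀ x : H 𝒰 (homRep (SA A).X₂ S.X₃) 1, x = 0 := fun x => by
    have hz := isZero_H_homRep_FA' A hA S.X₃ smC 1 (fun V hV => cf.isZero_H1_restrict V hV)
    have hs := ModuleCat.subsingleton_of_isZero hz
    exact hs.elim x 0
  have h3 : ∀ v, ∀ x : H (𝒰v v) (homRep (Rep.res (r v) (SA A).X₂) (D v)) 1, x = 0 :=
    fun v x => by
      have hz := isZero_H_homRep_res_FA A (r v) (hr v) hA (D v) (smD v) 1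
        (fun V hV => (cfv v).isZero_H1_restrict V hV)
      have hs := ModuleCat.subsingleton_of_isZero hz
      exact hs.elim x 0
  have h2 : ∀ x : H 𝒰 (homRep (SA A).X₂ S.X₂) 1, x = 0 := fun x =>
    b.eq_zero_of_forall_map_pushLoc r hr π' (FA A) 1 hinjF1 x (fun v => h3 v _)
  have h4a : ∀ x : H 𝒰 (homRep (SA A).X₂ S.X₂) 2,
      (∀ v, map (A := homRep (SA A).X₂ S.X₂) (B := homRep (Rep.res (r v) (SA A).X₂) (D v)) (hr v)
        (locHom r v (SA A).X₂ S.X₂ (b.loc r π' v)) 2 x = 0) → x = 0 := fun x hx =>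
    b.eq_zero_of_forall_map_pushLoc r hr π' (FA A) 2 hinjF2 x hx
  have h4b : ∀ x : H 𝒰 (homRep (SA A).X₁ S.X₂) 1,
      (∀ v, map (A := homRep (SA A).X₁ S.X₂) (B := homRep (Rep.res (r v) (SA A).X₁) (D v)) (hr v)
        (locHom r v (SA A).X₁ S.X₂ (b.loc r π' v)) 1 x = 0) → x = 0 := fun x hx =>
    b.eq_zero_of_forall_map_pushLoc r hr π' (RA A) 1 hinjR1 x hx
  have hF1 : ∀ x : H 𝒰 (SA A).X₂ 1, x = 0 := fun x => eq_zero_of_H1_FA A hA x
  have hF1v : ∀ v, ∀ x : H (𝒰v v) (Rep.res (r v) (SA A).X₂) 1, x = 0 := fun v x =>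
    eq_zero_of_H1_res_FA A (r v) (hr v) hA x
  -- (c), (f): right non-degeneracy of the push-forward pairing, from (NT-b) on the layers
  have hc : ∀ y : H 𝒰 (SA A).X₂ 2, (∀ ψ : (SA A).X₂ ⟶ S.X₃, mapId ψ 2 y = 0) → y = 0 :=
    fun y hy => cf.eq_zero_of_forall_mapId_eq_zero U₀ hU₀ hFtriv
      (ntb hK cf U₀ (FA A) hFtriv) y hy
  have hf : ∀ x : H 𝒰 (SA A).X₁ 2, (∀ φ : (SA A).X₁ ⟶ S.X₃, mapId φ 2 x = 0) → x = 0 :=
    fun x hx => cf.eq_zero_of_forall_mapId_eq_zero U₀ hU₀ hRtriv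
      (ntb hK cf U₀ (RA A) hRtriv) x hx
  -- the local-global hypotheses
  have hfrob : ∀ v, ∀ χ : Rep.res (r v) (SA A).X₁ ⟶ D v, ∃ φ : (SA A).X₁ ⟶ Jv v,
      (Rep.resFunctor (r v)).map φ ≫ π' v = χ := fun v χ =>
    (C7.JInduced.inducedFrom (J := Jv v) (φ := fun _ : Unit => r v) (𝒰v := fun _ => 𝒰v v)
      (π := fun _ => π' v) (smJv v) (hdata v)).exists_lift smR χ
  have hloc : ∀ v, ∀ z : H (𝒰v v) (Rep.res (r v) (SA A).X₁) 2,
      (∀ χ : Rep.res (r v) (SA A).X₁ ⟶ D v, mapId χ 2 z = 0) → z = 0 := fun v z hz => by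
    obtain ⟨V₀, hV₀, hV₀le⟩ := hr v U₀ hU₀
    have htriv : ∀ u ∈ V₀, ∀ b : (Rep.res (r v) (RA A)).V, (Rep.res (r v) (RA A)).ρ u b = b :=
      fun u hu b => hRtriv (r v u) (hV₀le hu) b
    have : Module.Free k (Rep.res (r v) (RA A)).V := hfreeR
    have : Module.Finite k (Rep.res (r v) (RA A)).V := hfinR'
    exact (cfv v).eq_zero_of_forall_mapId_eq_zero V₀ hV₀ htriv
      (ntb hK (cfv v) V₀ (Rep.res (r v) (RA A)) htriv) z hz
  have hLG : LocalGlobal (SA := SA A) r hr S.g (b.loc r π') :=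
    b.localGlobal r hr S.g π' hinjJ2 hfrob hsupp hloc
  -- realizability (g) from (N3) and (NT-c) on the layers
  have hg : ∀ χ : ((SA A).X₁ ⟶ S.X₃) →+ H 𝒰 S.X₃ 2,
      χ ∈ annihW (T := H 𝒰 S.X₃ 2) (Preadditive.leftComp S.X₃ (SA A).f)
          (Preadditive.rightComp (SA A).X₁ S.g) →
        ∃ x : H 𝒰 (SA A).X₁ 2, ∀ φ : (SA A).X₁ ⟶ S.X₃, mapId φ 2 x = χ φ := by
    obtain ⟨U₀', hU₀', hU₀'le, U', hU'n, hU', hU'le, hN3'⟩ := hN3 U₀ hU₀
    obtain ⟨U₁, hU₁n, hU₁, hdvd'⟩ := hdvd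
    have hfin : Finite (layerSub U₀' U') := by
      have := cf.finiteIndex U' hU'
      have : Finite (G ⧸ U') := Subgroup.finite_quotient_of_finiteIndex
      infer_instance
    have : Fintype (layerSub U₀' U') := Fintype.ofFinite _
    have hRtriv' : ∀ u ∈ U₀', ∀ b : (SA A).X₁.V, (SA A).X₁.ρ u b = b :=
      fun u hu b => hRtriv u (hU₀'le hu) b
    exact hg_of_N3_of_forall_NTc hSA S.g cf p hp0 hpF U₀' U' U₁ hU' hU₁ hU'le hRtriv' hdvd' hN3'
      (fun W _ _ hW hWle => ntc hK cf W hW (RA A) (fun u hu b => hRtriv' u (hWle hu) b))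
  -- the comparison `Hom(A, E) → Hom(A, D_v)` is an isomorphism
  have hM : ∀ v, Function.Injective
      (mapId (𝒰 := 𝒰v v) (locM (SA A) r (b.loc r π') v) 2) := fun v => by
    have : IsIso (locM (SA A) r (b.loc r π') v) :=
      isIso_pushLoc_of_torsion (r v) ((Rep.resFunctor (r v)).map S.f ≫ b.loc r π' v) A (p : k)
        hpA (hinj v) (hsurj v)
    exact mapId_injective_of_isIso _ 2
  -- the exactness and smoothness side conditions
  have hSF : (SFof (SA A) S).ShortExact := ihom_shortExact (SA A).X₂ hS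
  have hSR : (SRof (SA A) S).ShortExact := ihom_shortExact (SA A).X₁ hS
  have hSE : (homSC (SA A) S.X₁).ShortExact :=
    homSC_shortExact_of_divisible hSA (p : k) hpF S.X₁ hE
  have smFJ : IsSmooth 𝒰 (homRep (SA A).X₂ S.X₂) := isSmooth_homRep smF smJ
  have smRJ : IsSmooth 𝒰 (homRep (SA A).X₁ S.X₂) := isSmooth_homRep smR smJ
  have smFE : IsSmooth 𝒰 (homRep (SA A).X₂ S.X₁) := isSmooth_homRep smF smE
  have hSv : ∀ v, (Svof (SA A) r D v).ShortExact := fun v =>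
    Sv_shortExact (r v) (D v) hSA (p : k) hpA (hD v)
  have smv : ∀ v, IsSmooth (𝒰v v) (homRep (Rep.res (r v) (SA A).X₂) (D v)) := fun v =>
    TheoremI.isSmooth_Sv_X₂ smF r hr smD v
  exact exists_package_of_assemble hSA smF hSF hSR hSE smFJ smRJ smFE r hr (b.loc r π') hSv smv
    h1 h2 h3 h4a h4b hF1 hF1v hc hf hLG hg hM

end Main

end Fermat.Agent.CFT.D.Package
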