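/-
PROJECT C, Layer D, slice D1-prep part 3 (helper25): the very last step of S55.

Two finite vector spaces over a finite field with the same number of elements admit a bilinear
pairing which is nondegenerate on both sides (`exists_nondegenerate_pairing_of_card_eq`); the
same for finite-dimensional spaces of equal dimension over any field
(`exists_nondegenerate_pairing_of_finrank_eq`).  Mathlib only.
-/
import Mathlib

set_option autoImplicit false

namespace Fermat.Agent.CFT.D.PerfectOfCard

variable {K V W : Type*} [Field K] [AddCommGroup V] [Module K V] [AddCommGroup W] [Module K W]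

/-- Finite-dimensional spaces of equal dimension admit a pairing nondegenerate on both sides. -/
theorem exists_nondegenerate_pairing_of_finrank_eq [FiniteDimensional K V] [FiniteDimensional K W]
    (h : Module.finrank K V = Module.finrank K W) :
    ∃ B : V →ₗ[K] W →ₗ[K] K,
      (∀ y, (∀ x, B y x = 0) → y = 0) ∧ (∀ x, (∀ y, B y x = 0) → x = 0) := by
  classical
  let e : W ≃ₗ[K] V := LinearEquiv.ofFinrankEq W V h.symm
  let b := Module.finBasis K V
  let d : V ≃ₗ[K] Module.Dual K V := b.toDualEquiv
  refine ⟨(LinearMap.llcomp K W V K).flip e.toLinearMap ∘ₗ d.toLinearMap, ?_, ?_⟩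
  · intro y hy
    have h1 : d y = 0 := by
      refine LinearMap.ext fun v => ?_
      obtain ⟨w, rfl⟩ := e.surjective v
      exact hy w
    exact (LinearEquiv.map_eq_zero_iff d).1 h1
  · intro x hx
    have h1 : ∀ f : Module.Dual K V, f (e x) = 0 := by
      intro f
      obtain ⟨y, rfl⟩ := d.surjective f
      exact hx y
    exact (LinearEquiv.map_eq_zero_iff e).1 ((Module.forall_dual_apply_eq_zero_iff K (e x)).1 h1)

/-- Finite spaces over a finite field with the same cardinality admit a pairing nondegenerate on
both sides. -/
theorem exists_nondegenerate_pairing_of_card_eq [Finite K] [Finite V]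
    (h : Nat.card V = Nat.card W) :
    ∃ B : V →ₗ[K] W →ₗ[K] K,
      (∀ y, (∀ x, B y x = 0) → y = 0) ∧ (∀ x, (∀ y, B y x = 0) → x = 0) := by
  have hW : Finite W := by
    apply Nat.finite_of_card_ne_zero
    rw [← h]
    exact Nat.card_pos.ne'
  have : Module.Finite K V := Module.Finite.of_finite
  have : Module.Finite K W := Module.Finite.of_finite
  apply exists_nondegenerate_pairing_of_finrank_eq
  have h1 := Module.natCard_eq_pow_finrank (K := K) (V := V)
  have h2 := Module.natCard_eq_pow_finrank (K := K) (V := W)
  rw [h, h2] at h1
  exact (Nat.pow_right_injective (Finite.one_lt_card (α := K) |> fun h => h) h1).symm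

/-- Variant: the two spaces are only known to be in bijection with finite sets of the same
cardinality. -/
theorem exists_nondegenerate_pairing_of_equiv [Finite K] {X Y : Type*} [Finite X]
    (eV : V ≃ X) (eW : W ≃ Y) (h : Nat.card X = Nat.card Y) :
    ∃ B : V →ₗ[K] W →ₗ[K] K,
      (∀ y, (∀ x, B y x = 0) → y = 0) ∧ (∀ x, (∀ y, B y x = 0) → x = 0) := by
  have : Finite V := Finite.of_equiv X eV.symm
  apply exists_nondegenerate_pairing_of_card_eq
  rw [Nat.card_congr eV, Nat.card_congr eW, h]

end Fermat.Agent.CFT.D.PerfectOfCard
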