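import Mathlib
import Fermat.Agent.CFT.D.RealizeAdapters
import Fermat.Agent.CFT.A5.NormSubgroup

/-!
# (N3) is monotone in the upper subgroup (transitivity of norms)

`NormDiv A H₁ n` and `H₁ ≤ H₀` give `NormDiv A H₀ n`: the norm of `H₀` is the sum over coset
representatives `t` of `H₀ / H₁` of `t ∘ Nm_{H₁}`, and `Σ_t t a'` is `H₀`-invariant when `a'` is
`H₁`-invariant.  Hence `N3 C n U₁ U'` and `U₁ ≤ U₀` give `N3 C n U₀ U'`, and the field `n3` of the
datum only has to be checked for cofinally many `U₀` (those below a fixed level `V`).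
-/

set_option autoImplicit false

noncomputable section

universe u

namespace Fermat.Agent.CFT.D.RealizeUpper

open Fermat.Agent.CFT.D.Realize Fermat.Agent.CFT.A5.NormSubgroup Fermat.Agent.CFT.LC

section NormDiv

variable {k Γ : Type u} [CommRing k] [Group Γ]

/-- **Transitivity of norms**: `Nm_{H₁} A ⊆ n • A^{H₁}` and `H₁ ≤ H₀` give
`Nm_{H₀} A ⊆ n • A^{H₀}`. -/
theorem normDiv_mono {A : Rep.{u} k Γ} {H₁ H₀ : Subgroup Γ} (hle : H₁ ≤ H₀)
    [Fintype H₁] [Fintype H₀] {n : k} (h : NormDiv A H₁ n) : NormDiv A H₀ n := by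
  classical
  intro a
  obtain ⟨a', hinv, hsum⟩ := h a
  let L : Subgroup H₀ := H₁.subgroupOf H₀
  have : Fintype L := Fintype.ofFinite _
  have : Fintype (H₀ ⧸ L) := Fintype.ofFinite _
  -- the sum over `L` is the sum over `H₁`
  have hL : ∑ τ : L, A.ρ ((τ : H₀) : Γ) a = n • a' := by
    rw [← hsum]
    exact Fintype.sum_equiv (Subgroup.subgroupOfEquivOfLe hle).toEquiv _ _ (fun τ => rfl)
  refine ⟨∑ q : H₀ ⧸ L, A.ρ ((q.out : H₀) : Γ) a', ?_, ?_⟩
  · -- invariance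
    intro g hg
    rw [map_sum]
    have hterm : ∀ q : H₀ ⧸ L, A.ρ g (A.ρ ((q.out : H₀) : Γ) a') =
        A.ρ ((((⟨g, hg⟩ : H₀) • q).out : H₀) : Γ) a' := by
      intro q
      set g' : H₀ := ⟨g, hg⟩ with hg'
      have hmem : ((g' • q).out)⁻¹ * (g' * q.out) ∈ L := by
        rw [← QuotientGroup.eq]
        rw [QuotientGroup.out_eq']
        conv_lhs => rw [← QuotientGroup.out_eq' q]
        rfl
      have hmem' : ((((g' • q).out)⁻¹ * (g' * q.out) : H₀) : Γ) ∈ H₁ :=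
        Subgroup.mem_subgroupOf.mp hmem
      have h1 : g * ((q.out : H₀) : Γ) =
          (((g' • q).out : H₀) : Γ) * ((((g' • q).out)⁻¹ * (g' * q.out) : H₀) : Γ) := by
        push_cast
        rw [mul_inv_cancel_left]
      rw [← Module.End.mul_apply, ← map_mul, h1, map_mul, Module.End.mul_apply, hinv _ hmem']
    rw [Finset.sum_congr rfl (fun q _ => hterm q)]
    exact Fintype.sum_equiv (MulAction.toPerm (⟨g, hg⟩ : H₀)) _ _ (fun q => rfl)
  · -- the norm
    have h1 : ∑ g : H₀, A.ρ (g : Γ) a =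
        ∑ q : H₀ ⧸ L, ∑ τ : L, A.ρ (((q.out * (τ : H₀) : H₀)) : Γ) a :=
      sum_eq_sum_quotient_sum L (fun g : H₀ => A.ρ (g : Γ) a)
    rw [h1, Finset.smul_sum]
    refine Finset.sum_congr rfl fun q _ => ?_
    have h2 : ∀ τ : L, A.ρ (((q.out * (τ : H₀) : H₀)) : Γ) a =
        A.ρ ((q.out : H₀) : Γ) (A.ρ ((τ : H₀) : Γ) a) := by
      intro τ
      rw [← Module.End.mul_apply, ← map_mul]
      rfl
    rw [Finset.sum_congr rfl (fun τ _ => h2 τ), ← map_sum, hL, map_smul]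

end NormDiv

section Layer

variable {k G : Type} [CommRing k] [Group G] {C : Rep.{0} k G}

/-- **(N3) is monotone in `U₀`**. -/
theorem n3_mono {n : k} {U₀ U₁ U' : Subgroup G} [U'.Normal] (h10 : U₁ ≤ U₀)
    [Fintype (layerSub U₀ U')] [Fintype (layerSub U₁ U')] (h : N3 C n U₁ U') :
    N3 C n U₀ U' :=
  normDiv_mono (Subgroup.map_mono h10) h

/-- The field `n3` of the datum only has to be checked below a fixed level `V`. -/
theorem n3_of_cofinal (𝒰 : Levels G) (n : k) (P : Subgroup G → Prop) (V : Subgroup G)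
    (hV : V ∈ 𝒰.sets)
    (h : ∀ U₁ ∈ 𝒰.sets, U₁ ≤ V → ∃ (U' : Subgroup G) (_ : U'.Normal), U' ∈ 𝒰.sets ∧ U' ≤ U₁ ∧
      P U' ∧ ∀ [Fintype (layerSub U₁ U')], N3 C n U₁ U') :
    ∀ U₀ ∈ 𝒰.sets, ∃ (U' : Subgroup G) (_ : U'.Normal), U' ∈ 𝒰.sets ∧ U' ≤ U₀ ∧
      P U' ∧ ∀ [Fintype (layerSub U₀ U')], N3 C n U₀ U' := by
  intro U₀ hU₀
  obtain ⟨W, hW, hWle⟩ := 𝒰.directed U₀ hU₀ V hV
  obtain ⟨U', hN, hU', hle, hP, hN3⟩ := h W hW (hWle.trans inf_le_right)
  refine ⟨U', hN, hU', hle.trans (hWle.trans inf_le_left), hP, ?_⟩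
  intro inst
  have hsub : layerSub W U' ≤ layerSub U₀ U' := Subgroup.map_mono (hWle.trans inf_le_left)
  have : Finite (layerSub W U') :=
    Finite.of_injective (Subgroup.inclusion hsub) (Subgroup.inclusion_injective hsub)
  have : Fintype (layerSub W U') := Fintype.ofFinite _
  exact n3_mono (hWle.trans inf_le_left) hN3

end Layer

end Fermat.Agent.CFT.D.RealizeUpper
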