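import Mathlib
import Fermat.Agent.CFT.Cup.Classes

/-!
# PROJECT C, Layer D (D3-kchange, generic engine): change of the coefficient ring in group cohomology

`σ : R →+* k` a ring homomorphism, `X : Rep R G`, `Y : Rep k G`.  A `SemiHom σ X Y` is an additive,
`σ`-semilinear, `G`-equivariant map `X → Y` (e.g. the identity of a `ZMod p`-module regarded as a
`ℤ`-module, or the localisation map `X → X ⊗ ℤ_(p)`).  It induces additive maps

  `SemiHom.mapH f n : groupCohomology X n →+ groupCohomology Y n`   (`mapH_cls`: `[z] ↦ [f ∘ z]`)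

in every degree, bijective when `f` is bijective (`mapH_bijective`, `mapHEquiv`).
-/

set_option autoImplicit false

noncomputable section

universe u

namespace Fermat.Agent.CFT.D

open Fermat.Agent.CFT.Cup groupCohomology

variable {R k : Type u} [CommRing R] [CommRing k] (σ : R →+* k) {G : Type u} [Group G]

/-- An additive, `σ`-semilinear, `G`-equivariant map between representations over different
coefficient rings. -/
structure SemiHom (X : Rep.{u} R G) (Y : Rep.{u} k G) where
  toFun : X.V →+ Y.V
  map_smul' : ∀ (r : R) (x : X.V), toFun (r • x) = σ r • toFun x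
  map_ρ' : ∀ (g : G) (x : X.V), toFun (X.ρ g x) = Y.ρ g (toFun x)

namespace SemiHom

variable {σ} {X : Rep.{u} R G} {Y : Rep.{u} k G}

instance : CoeFun (SemiHom σ X Y) (fun _ => X.V → Y.V) := ⟨fun f => f.toFun⟩

theorem map_smul (f : SemiHom σ X Y) (r : R) (x : X.V) : f (r • x) = σ r • f x :=
  f.map_smul' r x

theorem map_ρ (f : SemiHom σ X Y) (g : G) (x : X.V) : f (X.ρ g x) = Y.ρ g (f x) :=
  f.map_ρ' g x

@[simp] theorem map_zero (f : SemiHom σ X Y) : f 0 = 0 := _root_.map_zero f.toFun
@[simp] theorem map_add (f : SemiHom σ X Y) (x y : X.V) : f (x + y) = f x + f y :=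
  _root_.map_add f.toFun x y
@[simp] theorem map_sub (f : SemiHom σ X Y) (x y : X.V) : f (x - y) = f x - f y :=
  _root_.map_sub f.toFun x y
@[simp] theorem map_neg (f : SemiHom σ X Y) (x : X.V) : f (-x) = -f x :=
  _root_.map_neg f.toFun x
theorem map_sum (f : SemiHom σ X Y) {ι : Type*} (s : Finset ι) (x : ι → X.V) :
    f (∑ i ∈ s, x i) = ∑ i ∈ s, f (x i) := _root_.map_sum f.toFun x s

/-- `f` commutes with the differentials of the inhomogeneous cochain complexes. -/
theorem dF_comp (f : SemiHom σ X Y) (n : ℕ) (a : (Fin n → G) → X.V) :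
    dF Y n (fun g => f (a g)) = fun g => f (dF X n a g) := by
  funext g
  rw [dF_apply, dF_apply, f.map_add, f.map_ρ, f.map_sum]
  congr 1
  refine Finset.sum_congr rfl (fun j _ => ?_)
  rw [f.map_smul, _root_.map_pow, _root_.map_neg, _root_.map_one]

/-- The map induced on cocycles. -/
def mapZ (f : SemiHom σ X Y) (n : ℕ) : Z X n →+ Z Y n where
  toFun z := ⟨fun g => f (z.1 g), mem_Z.2 (by
    rw [f.dF_comp, mem_Z.1 z.2]
    funext g
    exact f.map_zero)⟩
  map_zero' := Subtype.ext (funext fun g => f.map_zero)
  map_add' a b := Subtype.ext (funext fun g => f.map_add _ _)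

@[simp]
theorem mapZ_coe (f : SemiHom σ X Y) (n : ℕ) (z : Z X n) (g : Fin n → G) :
    (f.mapZ n z).1 g = f (z.1 g) := rfl

theorem mapZ_smul (f : SemiHom σ X Y) (n : ℕ) (r : R) (z : Z X n) :
    f.mapZ n (r • z) = σ r • f.mapZ n z :=
  Subtype.ext (funext fun g => f.map_smul r _)

/-- Coboundaries go to coboundaries. -/
theorem cls_mapZ_eq_zero (f : SemiHom σ X Y) (n : ℕ) (z : Z X n) (hz : cls X n z = 0) :
    cls Y n (f.mapZ n z) = 0 := by
  cases n with
  | zero =>
    rw [cls_eq_zero_iff_zero] at hz
    rw [hz, _root_.map_zero, _root_.map_zero]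
  | succ n =>
    rw [cls_eq_zero_iff_succ] at hz ⊢
    obtain ⟨y, hy⟩ := hz
    refine ⟨fun g => f (y g), ?_⟩
    rw [f.dF_comp, hy]
    rfl

/-- The map induced by `f` on cohomology. -/
def mapH (f : SemiHom σ X Y) (n : ℕ) : groupCohomology X n →+ groupCohomology Y n :=
  (QuotientAddGroup.lift (cls X n).toAddMonoidHom.ker
    ((cls Y n).toAddMonoidHom.comp (f.mapZ n))
    (fun z hz => f.cls_mapZ_eq_zero n z hz)).comp
  (QuotientAddGroup.quotientKerEquivOfSurjective (cls X n).toAddMonoidHom
    (cls_surjective X n)).symm.toAddMonoidHom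

@[simp]
theorem mapH_cls (f : SemiHom σ X Y) (n : ℕ) (z : Z X n) :
    f.mapH n (cls X n z) = cls Y n (f.mapZ n z) := by
  have h : (QuotientAddGroup.quotientKerEquivOfSurjective (cls X n).toAddMonoidHom
      (cls_surjective X n)).symm (cls X n z) = QuotientAddGroup.mk z := by
    rw [AddEquiv.symm_apply_eq]
    rfl
  unfold mapH
  rw [AddMonoidHom.comp_apply]
  erw [h]
  rfl

theorem mapH_smul (f : SemiHom σ X Y) (n : ℕ) (r : R) (c : groupCohomology X n) :
    f.mapH n (r • c) = σ r • f.mapH n c := by
  induction c using cls_induction_on with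
  | h z => rw [← LinearMap.map_smul, f.mapH_cls, f.mapH_cls, f.mapZ_smul, LinearMap.map_smul]

/-- A bijective `SemiHom` induces a bijection on cohomology. -/
theorem mapH_bijective (f : SemiHom σ X Y) (hf : Function.Bijective f) (n : ℕ) :
    Function.Bijective (f.mapH n) := by
  have hinj := hf.1
  -- preimages of cochains
  have hpre : ∀ {m : ℕ} (y : (Fin m → G) → Y.V), ∃ x : (Fin m → G) → X.V,
      (fun g => f (x g)) = y := by
    intro m y
    choose x hx using fun g => hf.2 (y g)
    exact ⟨x, funext hx⟩
  constructor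
  · rw [injective_iff_map_eq_zero]
    intro c hc
    induction c using cls_induction_on with
    | h z =>
      rw [f.mapH_cls] at hc
      cases n with
      | zero =>
        rw [cls_eq_zero_iff_zero] at hc ⊢
        apply Subtype.ext
        funext g
        apply hinj
        show f (z.1 g) = f 0
        rw [f.map_zero]
        exact congrFun (congrArg Subtype.val hc) g
      | succ n =>
        rw [cls_eq_zero_iff_succ] at hc ⊢
        obtain ⟨y, hy⟩ := hc
        obtain ⟨x, rfl⟩ := hpre y
        refine ⟨x, ?_⟩
        funext g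
        apply hinj
        have := congrFun hy g
        rw [f.dF_comp] at this
        exact this
  · intro c
    induction c using cls_induction_on with
    | h y =>
      obtain ⟨x, hx⟩ := hpre y.1
      have hxZ : x ∈ Z X n := by
        rw [mem_Z]
        funext g
        apply hinj
        have := congrFun (f.dF_comp n x) g
        rw [hx, mem_Z.1 y.2] at this
        show f (dF X n x g) = f 0
        rw [f.map_zero]
        exact this.symm
      refine ⟨cls X n ⟨x, hxZ⟩, ?_⟩
      rw [f.mapH_cls]
      congr 1
      exact Subtype.ext hx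

/-- The additive equivalence on cohomology induced by a bijective `SemiHom`. -/
def mapHEquiv (f : SemiHom σ X Y) (hf : Function.Bijective f) (n : ℕ) :
    groupCohomology X n ≃+ groupCohomology Y n :=
  AddEquiv.ofBijective (f.mapH n) (f.mapH_bijective hf n)

@[simp]
theorem mapHEquiv_apply (f : SemiHom σ X Y) (hf : Function.Bijective f) (n : ℕ)
    (c : groupCohomology X n) : f.mapHEquiv hf n c = f.mapH n c := rfl

end SemiHom

end Fermat.Agent.CFT.D
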