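import Mathlib
import Fermat.Agent.CFT.D.SemiHom
import Fermat.Agent.CFT.LC.Cohomology
import Fermat.Agent.CFT.A3.CupLCNat

/-!
# PROJECT C, Layer D (D3-kchange, generic engine): change of the coefficient ring in level-constant cohomology

A `SemiHom σ X Y` (`X : Rep R G`, `Y : Rep k G`, `σ : R →+* k`) induces additive maps
`SemiHom.mapLC f 𝒰 n : LC.H 𝒰 X n →+ LC.H 𝒰 Y n` (`mapLC_Hπ`: `[z] ↦ [f ∘ z]`), bijective if `f`
is bijective, compatible with the comparison maps to abstract group cohomology.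
-/

set_option autoImplicit false

noncomputable section

universe u

namespace Fermat.Agent.CFT.D

open Fermat.Agent.CFT.Cup Fermat.Agent.CFT.LC Fermat.Agent.CFT.A3 groupCohomology

variable {R k : Type u} [CommRing R] [CommRing k] {σ : R →+* k} {G : Type u} [Group G]
  {X : Rep.{u} R G} {Y : Rep.{u} k G}

namespace SemiHom

theorem isLCAt (f : SemiHom σ X Y) {U : Subgroup G} {n : ℕ} {a : (Fin n → G) → X.V}
    (h : IsLCAt U X a) : IsLCAt U Y (fun g => f (a g)) :=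
  ⟨fun g u hu => by
      show f (a (g * u)) = f (a g)
      rw [h.1 g u hu],
    fun g s hs => by
      show Y.ρ s (f (a g)) = f (a g)
      rw [← f.map_ρ, h.2 g s hs]⟩

theorem isLCAt_iff (f : SemiHom σ X Y) (hf : Function.Injective f) {U : Subgroup G} {n : ℕ}
    {a : (Fin n → G) → X.V} : IsLCAt U Y (fun g => f (a g)) ↔ IsLCAt U X a :=
  ⟨fun h => ⟨fun g u hu => hf (h.1 g u hu), fun g s hs => hf (by rw [f.map_ρ]; exact h.2 g s hs)⟩,
    f.isLCAt⟩

variable (𝒰 : Levels G)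

/-- The map induced on level-constant cochains. -/
def mapCochainsLC (f : SemiHom σ X Y) (n : ℕ) : cochains 𝒰 X n →+ cochains 𝒰 Y n where
  toFun a := ⟨fun g => f (a.1 g), by
    obtain ⟨U, hU, h⟩ := a.2
    exact ⟨U, hU, f.isLCAt h⟩⟩
  map_zero' := Subtype.ext (funext fun g => f.map_zero)
  map_add' a b := Subtype.ext (funext fun g => f.map_add _ _)

@[simp]
theorem mapCochainsLC_coe (f : SemiHom σ X Y) (n : ℕ) (a : cochains 𝒰 X n) (g : Fin n → G) :
    (f.mapCochainsLC 𝒰 n a).1 g = f (a.1 g) := rfl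

theorem dLC_mapCochainsLC (f : SemiHom σ X Y) (n : ℕ) (a : cochains 𝒰 X n) :
    dLC 𝒰 Y n (f.mapCochainsLC 𝒰 n a) = f.mapCochainsLC 𝒰 (n + 1) (dLC 𝒰 X n a) := by
  apply Subtype.ext
  exact f.dF_comp n a.1

/-- The map induced on level-constant cocycles. -/
def mapCocyclesLC (f : SemiHom σ X Y) (n : ℕ) : cocyclesLC 𝒰 X n →+ cocyclesLC 𝒰 Y n where
  toFun z := ⟨f.mapCochainsLC 𝒰 n z.1, by
    show dLC 𝒰 Y n (f.mapCochainsLC 𝒰 n z.1) = 0
    rw [f.dLC_mapCochainsLC, show dLC 𝒰 X n z.1 = 0 from z.2, _root_.map_zero]⟩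
  map_zero' := Subtype.ext (_root_.map_zero _)
  map_add' a b := Subtype.ext (_root_.map_add _ _ _)

@[simp]
theorem mapCocyclesLC_coe (f : SemiHom σ X Y) (n : ℕ) (z : cocyclesLC 𝒰 X n) :
    (f.mapCocyclesLC 𝒰 n z).1 = f.mapCochainsLC 𝒰 n z.1 := rfl

theorem mapCocyclesLC_smul (f : SemiHom σ X Y) (n : ℕ) (r : R) (z : cocyclesLC 𝒰 X n) :
    f.mapCocyclesLC 𝒰 n (r • z) = σ r • f.mapCocyclesLC 𝒰 n z :=
  Subtype.ext (Subtype.ext (funext fun g => f.map_smul r _))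

theorem Hπ_mapCocyclesLC_eq_zero (f : SemiHom σ X Y) (n : ℕ) (z : cocyclesLC 𝒰 X n)
    (hz : Hπ 𝒰 X n z = 0) : Hπ 𝒰 Y n (f.mapCocyclesLC 𝒰 n z) = 0 := by
  cases n with
  | zero =>
    rw [Hπ_eq_zero_iff_zero] at hz
    rw [hz, _root_.map_zero, _root_.map_zero]
  | succ n =>
    rw [Hπ_eq_zero_iff_succ] at hz ⊢
    obtain ⟨y, hy⟩ := hz
    refine ⟨f.mapCochainsLC 𝒰 n y, ?_⟩
    rw [f.dLC_mapCochainsLC, hy]
    rfl

theorem Hπ_mapCocyclesLC_congr (f : SemiHom σ X Y) (n : ℕ) (z z' : cocyclesLC 𝒰 X n)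
    (h : Hπ 𝒰 X n z = Hπ 𝒰 X n z') :
    Hπ 𝒰 Y n (f.mapCocyclesLC 𝒰 n z) = Hπ 𝒰 Y n (f.mapCocyclesLC 𝒰 n z') := by
  have h1 : Hπ 𝒰 X n (z - z') = 0 := by
    have := (Hπ 𝒰 X n).map_sub z z'
    rw [this, h, sub_self]
  have h2 := f.Hπ_mapCocyclesLC_eq_zero 𝒰 n (z - z') h1
  have h3 : f.mapCocyclesLC 𝒰 n (z - z') = f.mapCocyclesLC 𝒰 n z - f.mapCocyclesLC 𝒰 n z' :=
    _root_.map_sub (f.mapCocyclesLC 𝒰 n) z z'
  have h4 := (Hπ 𝒰 Y n).map_sub (f.mapCocyclesLC 𝒰 n z) (f.mapCocyclesLC 𝒰 n z')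
  rw [h3, h4, sub_eq_zero] at h2
  exact h2

/-- The underlying function of `mapLC`. -/
def mapLCFun (f : SemiHom σ X Y) (n : ℕ) (c : LC.H 𝒰 X n) : LC.H 𝒰 Y n :=
  Hπ 𝒰 Y n (f.mapCocyclesLC 𝒰 n (Classical.choose (Hπ_surjective 𝒰 X n c)))

theorem mapLCFun_Hπ (f : SemiHom σ X Y) (n : ℕ) (z : cocyclesLC 𝒰 X n) :
    f.mapLCFun 𝒰 n (Hπ 𝒰 X n z) = Hπ 𝒰 Y n (f.mapCocyclesLC 𝒰 n z) :=
  f.Hπ_mapCocyclesLC_congr 𝒰 n _ _ (Classical.choose_spec (Hπ_surjective 𝒰 X n (Hπ 𝒰 X n z)))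

/-- The map induced by `f` on level-constant cohomology. -/
def mapLC (f : SemiHom σ X Y) (n : ℕ) : LC.H 𝒰 X n →+ LC.H 𝒰 Y n :=
  AddMonoidHom.mk' (f.mapLCFun 𝒰 n) (fun a b => by
    obtain ⟨z, rfl⟩ := Hπ_surjective 𝒰 X n a
    obtain ⟨z', rfl⟩ := Hπ_surjective 𝒰 X n b
    rw [← (Hπ 𝒰 X n).map_add z z', f.mapLCFun_Hπ, f.mapLCFun_Hπ, f.mapLCFun_Hπ,
      _root_.map_add (f.mapCocyclesLC 𝒰 n) z z', (Hπ 𝒰 Y n).map_add])

@[simp]
theorem mapLC_Hπ (f : SemiHom σ X Y) (n : ℕ) (z : cocyclesLC 𝒰 X n) :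
    f.mapLC 𝒰 n (Hπ 𝒰 X n z) = Hπ 𝒰 Y n (f.mapCocyclesLC 𝒰 n z) :=
  f.mapLCFun_Hπ 𝒰 n z

theorem mapLC_smul (f : SemiHom σ X Y) (n : ℕ) (r : R) (c : LC.H 𝒰 X n) :
    f.mapLC 𝒰 n (r • c) = σ r • f.mapLC 𝒰 n c := by
  induction c using H_induction_on with
  | h z =>
    rw [← LinearMap.map_smul, f.mapLC_Hπ, f.mapLC_Hπ, f.mapCocyclesLC_smul, LinearMap.map_smul]

/-- Compatibility with the comparison maps to abstract group cohomology. -/
theorem toAbstract_mapLC (f : SemiHom σ X Y) (n : ℕ) (c : LC.H 𝒰 X n) :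
    toAbstract 𝒰 Y n (f.mapLC 𝒰 n c) = f.mapH n (toAbstract 𝒰 X n c) := by
  induction c using H_induction_on with
  | h z =>
    rw [f.mapLC_Hπ, toAbstract_Hπ, toAbstract_Hπ, f.mapH_cls]
    rfl

/-- A bijective `SemiHom` induces a bijection on level-constant cohomology. -/
theorem mapLC_bijective (f : SemiHom σ X Y) (hf : Function.Bijective f) (n : ℕ) :
    Function.Bijective (f.mapLC 𝒰 n) := by
  have hinj := hf.1
  -- preimages of level-constant cochains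
  have hpre : ∀ {m : ℕ} (y : cochains 𝒰 Y m), ∃ x : cochains 𝒰 X m,
      f.mapCochainsLC 𝒰 m x = y := by
    intro m y
    choose x hx using fun g => hf.2 (y.1 g)
    obtain ⟨U, hU, h⟩ := y.2
    have hx' : (fun g => f (x g)) = y.1 := funext hx
    refine ⟨⟨x, U, hU, (f.isLCAt_iff hinj).1 (by rw [hx']; exact h)⟩, Subtype.ext hx'⟩
  constructor
  · rw [injective_iff_map_eq_zero]
    intro c hc
    induction c using H_induction_on with
    | h z =>
      rw [f.mapLC_Hπ] at hc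
      cases n with
      | zero =>
        rw [Hπ_eq_zero_iff_zero] at hc ⊢
        apply Subtype.ext
        apply Subtype.ext
        funext g
        apply hinj
        show f (z.1.1 g) = f 0
        rw [f.map_zero]
        exact congrFun (congrArg Subtype.val (congrArg Subtype.val hc)) g
      | succ n =>
        rw [Hπ_eq_zero_iff_succ] at hc ⊢
        obtain ⟨y, hy⟩ := hc
        obtain ⟨x, rfl⟩ := hpre y
        refine ⟨x, ?_⟩
        apply Subtype.ext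
        funext g
        apply hinj
        rw [f.dLC_mapCochainsLC] at hy
        exact congrFun (congrArg Subtype.val hy) g
  · intro c
    induction c using H_induction_on with
    | h y =>
      obtain ⟨x, hx⟩ := hpre y.1
      have hxZ : x ∈ cocyclesLC 𝒰 X n := by
        show dLC 𝒰 X n x = 0
        apply Subtype.ext
        funext g
        apply hinj
        have h1 := f.dLC_mapCochainsLC 𝒰 n x
        rw [hx, show dLC 𝒰 Y n y.1 = 0 from y.2] at h1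
        have h2 := congrFun (congrArg Subtype.val h1) g
        show f ((dLC 𝒰 X n x).1 g) = f 0
        rw [f.map_zero]
        exact h2.symm
      refine ⟨Hπ 𝒰 X n ⟨x, hxZ⟩, ?_⟩
      rw [f.mapLC_Hπ]
      congr 1
      exact Subtype.ext hx

/-- The additive equivalence on level-constant cohomology induced by a bijective `SemiHom`. -/
def mapLCEquiv (f : SemiHom σ X Y) (hf : Function.Bijective f) (n : ℕ) :
    LC.H 𝒰 X n ≃+ LC.H 𝒰 Y n :=
  AddEquiv.ofBijective (f.mapLC 𝒰 n) (f.mapLC_bijective 𝒰 hf n)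

@[simp]
theorem mapLCEquiv_apply (f : SemiHom σ X Y) (hf : Function.Bijective f) (n : ℕ)
    (c : LC.H 𝒰 X n) : f.mapLCEquiv 𝒰 hf n c = f.mapLC 𝒰 n c := rfl

end SemiHom

end Fermat.Agent.CFT.D
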