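/-
PROJECT C, Layer D (helper13): hypothesis (i) `LocalGlobal.supp` of `D/Pairing` from ONE class.

`supp` at the place `v` says: a class `y ∈ H²_LC(G, J)` whose localisations at all places `v' ≠ v`
vanish and which dies in `H²_LC(G, C)` is zero ("the global invariant restricted to the
`v`-component is injective", the form of the reciprocity law consumed by Poitou–Tate).

`supp_of_class`: it follows from
* (ii)  `H²_LC(G, J) → ∏ H²_LC(G_v, D_v)` is injective;
* (T)   every class of `H²_LC(G, J)` is killed by a power of `p`;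
* (A)   the `p`-torsion of `H²_LC(G_v, D_v)` has `p` elements (local class formation,
        `A7.ClassFormation.card_torsionP`);
* (B)   ONE class `y₀ ∈ H²_LC(G, J)` with `p • y₀ = 0`, supported at `v`, whose image in
        `H²_LC(G, C)` is nonzero.

`eq_zero_of_mapId_eq_zero_of_class` is the same statement for a single summand `J_v` of `J`, in the
shape of the hypothesis `hg v` of `BiprodData.localGlobal` (`D/Biprod.lean`).
-/
import Fermat.Agent.CFT.D.Pairing
import Fermat.Agent.CFT.D.Count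

set_option autoImplicit false

universe u

namespace Fermat.Agent.CFT.D

open CategoryTheory Fermat.Agent.CFT.LC Fermat.Agent.CFT.LC.El

section Supp

variable {k G : Type u} [CommRing k] [Group G] {𝒰 : Levels G}
variable {ι : Type*} {Gv : ι → Type u} [∀ v, Group (Gv v)] (r : ∀ v, Gv v →* G)
  {𝒰v : ∀ v, Levels (Gv v)} (hr : ∀ v, Levels.Continuous (r v) (𝒰v v) 𝒰)
variable {J C : Rep.{u} k G} (g : J ⟶ C) {D : ∀ v, Rep.{u} k (Gv v)}
  (π : ∀ v, Rep.res (r v) J ⟶ D v)

/-- A class of `H²_LC(G, J)` is supported at `v` if its localisations at all other places vanish. -/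
def SupportedAt (v : ι) (y : H 𝒰 J 2) : Prop :=
  ∀ v', v' ≠ v → map (A := J) (B := D v') (hr v') (π v') 2 y = 0

variable {r hr π}

lemma SupportedAt.smul {v : ι} {y : H 𝒰 J 2} (hy : SupportedAt r hr π v y) (c : k) :
    SupportedAt r hr π v (c • y) := fun v' hv' => by
  rw [map_smul, hy v' hv', smul_zero]

lemma SupportedAt.sub {v : ι} {y y' : H 𝒰 J 2} (hy : SupportedAt r hr π v y)
    (hy' : SupportedAt r hr π v y') : SupportedAt r hr π v (y - y') := fun v' hv' => by
  rw [map_sub, hy v' hv', hy' v' hv', sub_zero]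

variable (r hr π)

/-- **Hypothesis (i) from one class.** -/
theorem supp_of_class (p : ℕ) [Fact p.Prime] (v : ι)
    (hinj : ∀ y : H 𝒰 J 2, (∀ v, map (A := J) (B := D v) (hr v) (π v) 2 y = 0) → y = 0)
    (htors : ∀ y : H 𝒰 J 2, ∃ a : ℕ, ((p : k) ^ a) • y = 0)
    (hcard : Nat.card (torsionP p (H (𝒰v v) (D v) 2)) = p)
    (y₀ : H 𝒰 J 2) (hy₀p : (p : k) • y₀ = 0) (hy₀s : SupportedAt r hr π v y₀)
    (hy₀ : mapId g 2 y₀ ≠ 0) :
    ∀ y : H 𝒰 J 2, SupportedAt r hr π v y → mapId g 2 y = 0 → y = 0 := by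
  classical
  have hp : p.Prime := Fact.out
  -- it suffices to treat classes killed by `p`
  have key : ∀ y : H 𝒰 J 2, SupportedAt r hr π v y → mapId g 2 y = 0 → (p : k) • y = 0 → y = 0 := by
    intro y hys hyg hyp
    by_contra hne
    have hfin : Finite (torsionP p (H (𝒰v v) (D v) 2)) :=
      Nat.finite_of_card_ne_zero (by rw [hcard]; exact hp.ne_zero)
    have hz : map (A := J) (B := D v) (hr v) (π v) 2 y ≠ 0 := by
      intro h0
      apply hne
      apply hinj
      intro v'
      by_cases hv' : v' = v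
      · subst hv'; exact h0
      · exact hys v' hv'
    have hzp : p • map (A := J) (B := D v) (hr v) (π v) 2 y = 0 := by
      rw [← Nat.cast_smul_eq_nsmul k, ← map_smul, hyp, map_zero]
    have hz₀p : p • map (A := J) (B := D v) (hr v) (π v) 2 y₀ = 0 := by
      rw [← Nat.cast_smul_eq_nsmul k, ← map_smul, hy₀p, map_zero]
    let z : torsionP p (H (𝒰v v) (D v) 2) := ⟨_, hzp⟩
    let z₀ : torsionP p (H (𝒰v v) (D v) 2) := ⟨_, hz₀p⟩
    have hzne : z ≠ 0 := fun h => hz (congrArg Subtype.val h)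
    have hmem : z₀ ∈ AddSubgroup.zmultiples z := mem_zmultiples_of_prime_card hcard hzne
    obtain ⟨m, hm⟩ := AddSubgroup.mem_zmultiples_iff.1 hmem
    have hm' : map (A := J) (B := D v) (hr v) (π v) 2 y₀ =
        m • map (A := J) (B := D v) (hr v) (π v) 2 y := (congrArg Subtype.val hm).symm
    have hdiff : y₀ - (m : k) • y = 0 := by
      apply hinj
      intro v'
      by_cases hv' : v' = v
      · subst hv'
        rw [map_sub, map_smul, hm', Int.cast_smul_eq_zsmul, sub_self]
      · exact (hy₀s.sub (hys.smul _)) v' hv'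
    apply hy₀
    rw [sub_eq_zero.1 hdiff, map_smul, hyg, smul_zero]
  intro y hys hyg
  obtain ⟨a, ha⟩ := htors y
  induction a generalizing y with
  | zero => simpa using ha
  | succ a ih =>
    have h1 : (p : k) • y = 0 := by
      apply ih ((p : k) • y) (hys.smul _)
      · rw [map_smul, hyg, smul_zero]
      · rw [smul_smul, ← pow_succ]; exact ha
    exact key y hys hyg h1

end Supp

section Place

variable {k G G' : Type u} [CommRing k] [Group G] [Group G'] {𝒰 : Levels G} {𝒰' : Levels G'}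
  {r : G' →* G} (hr : Levels.Continuous r 𝒰' 𝒰)
  {Jv C : Rep.{u} k G} (gv : Jv ⟶ C) {D : Rep.{u} k G'} (π' : Rep.res r Jv ⟶ D)

/-- **Per-place form** (the hypothesis `hg v` of `BiprodData.localGlobal`, with `gv := b.i v ≫ g`):
if `H²_LC(G, J_v) → H²_LC(G_v, D_v)` is injective, every class of `H²_LC(G, J_v)` is `p`-power
torsion, the `p`-torsion of `H²_LC(G_v, D_v)` has `p` elements, and ONE `p`-torsion class `y₀` of
`H²_LC(G, J_v)` has nonzero image in `H²_LC(G, C)`, then `H²_LC(G, J_v) → H²_LC(G, C)` is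
injective. -/
theorem eq_zero_of_mapId_eq_zero_of_class (p : ℕ) [Fact p.Prime]
    (hinj : ∀ y : H 𝒰 Jv 2, map (A := Jv) (B := D) hr π' 2 y = 0 → y = 0)
    (htors : ∀ y : H 𝒰 Jv 2, ∃ a : ℕ, ((p : k) ^ a) • y = 0)
    (hcard : Nat.card (torsionP p (H 𝒰' D 2)) = p)
    (y₀ : H 𝒰 Jv 2) (hy₀p : (p : k) • y₀ = 0) (hy₀ : mapId gv 2 y₀ ≠ 0) :
    ∀ y : H 𝒰 Jv 2, mapId gv 2 y = 0 → y = 0 := by
  classical
  have hp : p.Prime := Fact.out
  have key : ∀ y : H 𝒰 Jv 2, mapId gv 2 y = 0 → (p : k) • y = 0 → y = 0 := by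
    intro y hyg hyp
    by_contra hne
    have hfin : Finite (torsionP p (H 𝒰' D 2)) :=
      Nat.finite_of_card_ne_zero (by rw [hcard]; exact hp.ne_zero)
    have hz : map (A := Jv) (B := D) hr π' 2 y ≠ 0 := fun h0 => hne (hinj y h0)
    have hzp : p • map (A := Jv) (B := D) hr π' 2 y = 0 := by
      rw [← Nat.cast_smul_eq_nsmul k, ← map_smul, hyp, map_zero]
    have hz₀p : p • map (A := Jv) (B := D) hr π' 2 y₀ = 0 := by
      rw [← Nat.cast_smul_eq_nsmul k, ← map_smul, hy₀p, map_zero]
    let z : torsionP p (H 𝒰' D 2) := ⟨_, hzp⟩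
    let z₀ : torsionP p (H 𝒰' D 2) := ⟨_, hz₀p⟩
    have hzne : z ≠ 0 := fun h => hz (congrArg Subtype.val h)
    have hmem : z₀ ∈ AddSubgroup.zmultiples z := mem_zmultiples_of_prime_card hcard hzne
    obtain ⟨m, hm⟩ := AddSubgroup.mem_zmultiples_iff.1 hmem
    have hm' : map (A := Jv) (B := D) hr π' 2 y₀ = m • map (A := Jv) (B := D) hr π' 2 y :=
      (congrArg Subtype.val hm).symm
    have hdiff : y₀ - (m : k) • y = 0 := by
      apply hinj
      rw [map_sub, map_smul, hm', Int.cast_smul_eq_zsmul, sub_self]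
    apply hy₀
    rw [sub_eq_zero.1 hdiff, map_smul, hyg, smul_zero]
  intro y hyg
  obtain ⟨a, ha⟩ := htors y
  induction a generalizing y with
  | zero => simpa using ha
  | succ a ih =>
    have h1 : (p : k) • y = 0 := by
      apply ih ((p : k) • y)
      · rw [map_smul, hyg, smul_zero]
      · rw [smul_smul, ← pow_succ]; exact ha
    exact key y hyg h1

end Place

end Fermat.Agent.CFT.D
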