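/-
PROJECT C, Layer D (helper13): THE CLASS `y₀` OF `DatumSupp.supp_Zp` — the field `supp` of
`DatumBuild.GlobalInputs` from a class formation on `C_S ⊗ ℤ_(p)` alone.

* `exists_class_of_isLocRep` (generic): `X ⟶ XC` over `R`, `Y ⟶ YC` over `k` localisations
  (`IsLocRep M`), a cyclic level `U` with `G ⧸ U = ⟨σ⟩` of order `n > 1`, `a₀ ∈ (X^U)^σ` with
  `r • a₀` a norm from `X^U` and NO `s • a₀`, `s ∈ M`, becoming a norm in `XC^U`: then there is
  `y₀ ∈ H²_LC(G, Y)` with `r • y₀ = 0` and nonzero image in `H²_LC(G, YC)`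
  (`D/CyclicClass.exists_class` through `A7/ClassFormationBaseChange.isLocRep_invariants`).
* `hy0` : the hypothesis of `D/DatumSupp.supp_Zp`, LITERALLY, from
  `cf : ClassFormation (levelsS S) (seqK S (Zp p)).X₃` (only `infl_two_injective` is used), `p ≠ 2`,
  `p ∈ S` — with the `ℤ`-level layer data of `C7/SuppLayer.exists_layer_data`.
* `supp` : the field `GlobalInputs.supp`.
-/
import Fermat.Agent.CFT.C7.SuppLayer
import Fermat.Agent.CFT.D.DatumSupp
import Fermat.Agent.CFT.A7.ClassFormationBaseChange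

set_option autoImplicit false

noncomputable section

namespace Fermat.Agent.CFT.D.SuppClassK

open CategoryTheory groupCohomology Fermat.Agent.CFT.LC Fermat.Agent.CFT.A7
  Fermat.Agent.CFT.A7.BaseChange Fermat.Agent.CFT.A7.CFBaseChange
  Fermat.Agent.CFT.Local.CyclicH2

section Generic

variable {R k : Type} [CommRing R] [CommRing k] [Algebra R k] {M : Submonoid R}
variable {G : Type} [Group G] {X XC : Rep.{0} R G} {Y YC : Rep.{0} k G}
  {f : X.V →+ Y.V} {fC : XC.V →+ YC.V}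

/-- `invMap` commutes with the norm of a layer. -/
theorem invMap_nrm (hf : IsLocRep M X Y f) (U : Subgroup G) [U.Normal] (σ : G ⧸ U) (n : ℕ)
    (b : X.quotientToInvariants U) :
    invMap hf U (nrm (X.quotientToInvariants U) σ n b) =
      nrm (Y.quotientToInvariants U) σ n (invMap hf U b) := by
  unfold nrm
  rw [map_sum]
  refine Finset.sum_congr rfl fun i _ => ?_
  generalize σ ^ i = c
  induction c using QuotientGroup.induction_on with
  | H g => exact Subtype.ext (hf.map_ρ g b.1)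

/-- The norm of a layer is additive and commutes with scalars. -/
theorem nrm_smul {A : Rep.{0} R G} (σ : G) (n : ℕ) (r : R) (a : A) :
    nrm A σ n (r • a) = r • nrm A σ n a := by
  unfold nrm
  rw [Finset.smul_sum]
  exact Finset.sum_congr rfl fun i _ => map_smul _ _ _

variable (hf : IsLocRep M X Y f) (hfC : IsLocRep M XC YC fC) (gX : X ⟶ XC) (g : Y ⟶ YC)
  (hcomm : ∀ x : X.V, g.hom (f x) = fC (gX.hom x))
  (𝒰 : Levels G) (hfin : ∀ U ∈ 𝒰.sets, U.FiniteIndex) (hsmC : IsSmooth 𝒰 XC)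
  (U : Subgroup G) [U.Normal] (hU : U ∈ 𝒰.sets)
  {σ : G ⧸ U} {n : ℕ} (hord : orderOf σ = n) (h1 : 1 < n) (hgen : ∀ x : G ⧸ U, ∃ i : ℕ, σ ^ i = x)

include hf hfC hcomm hfin hsmC hord h1 hgen in
/-- **One class over `k` from cyclic layer data over `R`.** -/
theorem exists_class_of_isLocRep (hinfl : Function.Injective (infl 𝒰 YC U hU 2).hom) (r : R)
    (a₀ b : X.quotientToInvariants U) (ha₀ : (X.quotientToInvariants U).ρ σ a₀ = a₀)
    (hr : r • a₀ = nrm (X.quotientToInvariants U) σ n b)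
    (hne : ∀ s ∈ M, ∀ c : XC.quotientToInvariants U,
      s • (layerMap gX U).hom a₀ ≠ nrm (XC.quotientToInvariants U) σ n c) :
    ∃ y₀ : H 𝒰 Y 2, algebraMap R k r • y₀ = 0 ∧ (mapId (𝒰 := 𝒰) g 2).hom y₀ ≠ 0 := by
  have hL := isLocRep_invariants hfC 𝒰 hfin hsmC U
  have hρ : ∀ (c : G ⧸ U) (x : X.quotientToInvariants U),
      invMap hf U ((X.quotientToInvariants U).ρ c x) =
        (Y.quotientToInvariants U).ρ c (invMap hf U x) := by
    intro c x
    induction c using QuotientGroup.induction_on with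
    | H g' => exact Subtype.ext (hf.map_ρ g' x.1)
  have hlm : ∀ x : X.quotientToInvariants U,
      (layerMap g U).hom (invMap hf U x) = invMap hfC U ((layerMap gX U).hom x) := by
    intro x
    exact Subtype.ext (hcomm x.1)
  refine CyclicClass.exists_class 𝒰 g U hU hord h1 hgen hinfl (algebraMap R k r)
    (invMap hf U a₀) ?_ ⟨invMap hf U b, ?_⟩ ?_
  · rw [← hρ, ha₀]
  · have h2 : invMap hf U (r • a₀) = algebraMap R k r • invMap hf U a₀ :=
      Subtype.ext (hf.map_smul r a₀.1)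
    rw [← h2, hr, invMap_nrm]
  · intro c hc
    obtain ⟨s, hs, x, hx⟩ := hL.surj c
    -- `fC (s • gX a₀ - nrm x) = 0`
    have h3 : invMap hfC U (s • (layerMap gX U).hom a₀ -
        nrm (XC.quotientToInvariants U) σ n x) = 0 := by
      rw [map_sub, hL.map_smul, ← hlm, hc, invMap_nrm, ← hx, nrm_smul, sub_self]
    obtain ⟨t, ht, h4⟩ := hL.eq_zero _ h3
    rw [smul_sub, sub_eq_zero, smul_smul, ← nrm_smul] at h4
    exact hne (t * s) (M.mul_mem ht hs) (t • x) h4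

end Generic

/-! ### The class `y₀` for `J_q ⊗ ℤ_(p) → C_S ⊗ ℤ_(p)` -/

section Zp

open Fermat.Agent.CFT.D.ZpModel Fermat.Agent.CFT.C7.SES Fermat.Agent.CFT.Idele
  Fermat.Agent.CFT.Bridge Fermat.Agent.CFT.D.H4.QIdele Fermat.Agent.CFT.D.DatumInjFrob
  Fermat.Agent.CFT.D.DatumSupp Fermat.Agent.CFT.C7.SuppLayer Fermat.Agent.CFT.D.Reduce

variable (S : Finset Nat.Primes) (p : ℕ) [Fact p.Prime]

/-- **The hypothesis of `DatumSupp.supp_Zp`**, from a class formation on `C_S ⊗ ℤ_(p)`. -/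
theorem hy0 (hp2 : p ≠ 2) (hpS : (⟨p, Fact.out⟩ : Nat.Primes) ∈ S)
    (cf : ClassFormation (levelsS S) (seqK S (Zp p)).X₃) :
    ∀ q : ↥S, ∃ y₀ : H (levelsS S) (JqK S q.1 (Zp p)) 2,
      (p : Zp p) • y₀ = 0 ∧
        mapId ((biprodK S (Zp p)).i q ≫ (seqK S (Zp p)).g) 2 y₀ ≠ 0 := by
  intro q
  obtain ⟨U, hUn, hU, σ, n, hord, h1, hgen, a₀, b, ha₀, hr, hne⟩ :=
    exists_layer_data (⟨p, Fact.out⟩ : Nat.Primes) S hp2 hpS q.1 q.2
  have hg : (biprodK S (Zp p)).i q ≫ (seqK S (Zp p)).g =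
      tensorMap (Zp p) (QS.single S q.1 q.2 ≫ QS.toC S) := by
    rw [tensorMap_comp]; rfl
  rw [hg]
  obtain ⟨y₀, hy1, hy2⟩ := exists_class_of_isLocRep
    (isLocRep_tensorRep (k := Zp p) (primeTo p) (QS.Jq S q.1))
    (isLocRep_tensorRep (k := Zp p) (primeTo p) (QS.C S))
    (QS.single S q.1 q.2 ≫ QS.toC S) (tensorMap (Zp p) (QS.single S q.1 q.2 ≫ QS.toC S))
    (fun x => (tensorMap_toTensorRep (Zp p) (QS.single S q.1 q.2 ≫ QS.toC S) x).symm)
    (levelsS S) (fun U hU => Levels.IsFin.finiteIndex U hU) (QS.isSmooth_C S) U hU hord h1 hgen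
    (cf.infl_two_injective U hU) ((p : ℕ) : ℤ) a₀ b ha₀ hr
    (fun s hs c => hne s hs c)
  refine ⟨y₀, ?_, hy2⟩
  have h2 : algebraMap ℤ (Zp p) ((p : ℕ) : ℤ) = (p : Zp p) := by
    rw [map_natCast]
  rw [← h2]
  exact hy1

/-- **The field `supp` of `DatumBuild.GlobalInputs`** (verbatim), from a class formation on
`C_S ⊗ ℤ_(p)`, `p ≠ 2`, `p ∈ S`. -/
theorem supp (hp2 : p ≠ 2) (hpS : (⟨p, Fact.out⟩ : Nat.Primes) ∈ S)
    (cf : ClassFormation (levelsS S) (seqK S (Zp p)).X₃) :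
    ∀ q, ∀ y : H (levelsS S) (seqK S (Zp p)).X₂ 2,
      (∀ q', q' ≠ q → map (A := (seqK S (Zp p)).X₂) (B := DlocK S (Zp p) q') (hrv S q')
        (piJK S (Zp p) q') 2 y = 0) → mapId (seqK S (Zp p)).g 2 y = 0 → y = 0 :=
  supp_Zp S p (hy0 S p hp2 hpS cf)

end Zp

end Fermat.Agent.CFT.D.SuppClassK
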