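/-
PROJECT C, Layer D (helper23): ONE CLASS OF `H²_LC(G, A)` FROM A CYCLIC LAYER, THROUGH LAYER
DICTIONARIES.

`D/CyclicClass.exists_class` (helper13) produces, for a level `U` with `G ⧸ U` cyclic, a class
`y₀ ∈ H²_LC(G, A)` with `r • y₀ = 0` and `g_* y₀ ≠ 0` from statements about norms on the layers
`A^U`, `C^U`.  Here the same statement with the layers replaced by MODELS `(Γ, YA)`, `(Γ, YC)`
(`C7/LevelK.LayerDict`, helper27), `Γ` a finite cyclic group (think `Γ = Gal(Q_m/ℚ)`,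
`YA = (Q_m ⊗ ℚ_q)ˣ ⊗ k`, `YC = C_S(Q_m) ⊗ k`), and norms written as sums over `Γ`:
`exists_class_of_layerDict`.
-/
import Fermat.Agent.CFT.D.CyclicClass
import Fermat.Agent.CFT.C7.LevelK

set_option autoImplicit false

noncomputable section

namespace Fermat.Agent.CFT.D.SuppLayer

open CategoryTheory Finset Fermat.Agent.CFT.LC Fermat.Agent.CFT.A7
  Fermat.Agent.CFT.Local.CyclicH2 Fermat.Agent.CFT.C7.LevelK

/-! ### Norms along a generator -/

section Nrm

variable {k Γ : Type} [CommRing k] [Group Γ]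

/-- The norm along a generator of a finite group is the sum over the group. -/
theorem nrm_eq_sum [Fintype Γ] (X : Rep.{0} k Γ) {σ : Γ}
    (hgen : ∀ x : Γ, x ∈ Subgroup.zpowers σ) (b : X.V) :
    nrm X σ (orderOf σ) b = ∑ γ : Γ, X.ρ γ b := by
  classical
  rw [nrm, ← IsCyclic.image_range_orderOf hgen, Finset.sum_image]
  intro i hi j hj hij
  exact pow_injOn_Iio_orderOf (by simpa using hi) (by simpa using hj) hij

/-- Transport of the norm through a layer dictionary. -/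
theorem LayerDict.e'_nrm {G : Type} [Group G] {X : Rep.{0} k G} {U : Subgroup G} [U.Normal]
    {Y : Rep.{0} k Γ} (d : LayerDict X U Y) (σ : G ⧸ U) (n : ℕ)
    (x : (X.quotientToInvariants U).V) :
    d.e' (nrm (X.quotientToInvariants U) σ n x) = nrm Y (d.e σ) n (d.e' x) := by
  rw [nrm, nrm, map_sum]
  refine Finset.sum_congr rfl fun i _ => ?_
  rw [d.he_apply, map_pow]

end Nrm

/-! ### The class -/

section Class

variable {k G Γ : Type} [CommRing k] [Group G] [Group Γ] [Fintype Γ] [IsCyclic Γ]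
  (𝒰 : Levels G) {A C : Rep.{0} k G} (g : A ⟶ C) (U : Subgroup G) [U.Normal] (hU : U ∈ 𝒰.sets)
  {YA YC : Rep.{0} k Γ} (dA : LayerDict A U YA) (dC : LayerDict C U YC)

/-- **One class from a cyclic layer, on models.**  `Γ` finite cyclic of order `> 1`, layer
dictionaries `(G ⧸ U, A^U) ≅ (Γ, YA)`, `(G ⧸ U, C^U) ≅ (Γ, YC)` with the same group isomorphism,
`gY : YA → YC` corresponding to `g`.  If `a₀ ∈ YA` is `Γ`-invariant, `r • a₀` is a norm from `YA`
and `gY a₀` is not a norm from `YC`, then there is `y₀ ∈ H²_LC(G, A)` with `r • y₀ = 0` and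
`g_* y₀ ≠ 0` (inflation `H²(G ⧸ U, C^U) → H²_LC(G, C)` being injective). -/
theorem exists_class_of_layerDict (hee : dA.e = dC.e) (gY : YA.V →ₗ[k] YC.V)
    (hcompat : ∀ x : (A.quotientToInvariants U).V,
      dC.e' ((layerMap g U).hom x) = gY (dA.e' x))
    (h1 : 1 < Nat.card Γ) (hinfl : Function.Injective (infl 𝒰 C U hU 2).hom) (r : k)
    (a₀ : YA.V) (ha₀ : ∀ γ : Γ, YA.ρ γ a₀ = a₀)
    (hr : ∃ b : YA.V, r • a₀ = ∑ γ : Γ, YA.ρ γ b)
    (hne : ∀ c : YC.V, gY a₀ ≠ ∑ γ : Γ, YC.ρ γ c) :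
    ∃ y₀ : H 𝒰 A 2, r • y₀ = 0 ∧ (mapId (𝒰 := 𝒰) g 2).hom y₀ ≠ 0 := by
  obtain ⟨γ₀, hγ₀⟩ := IsCyclic.exists_generator (α := Γ)
  have hordΓ : orderOf γ₀ = Nat.card Γ := orderOf_eq_card_of_forall_mem_zpowers hγ₀
  set σ : G ⧸ U := dA.e.symm γ₀ with hσ
  have hσe : dA.e σ = γ₀ := by rw [hσ, MulEquiv.apply_symm_apply]
  have hσe' : dC.e σ = γ₀ := by rw [← hee, hσe]
  have hord : orderOf σ = Nat.card Γ := by
    rw [← hordΓ, ← MulEquiv.orderOf_eq dA.e σ, hσe]
  have hgen : ∀ x : G ⧸ U, ∃ i : ℕ, σ ^ i = x := by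
    intro x
    have hx : dA.e x ∈ Submonoid.powers γ₀ := mem_powers_iff_mem_zpowers.2 (hγ₀ (dA.e x))
    obtain ⟨i, hi⟩ := (Submonoid.mem_powers_iff _ _).1 hx
    refine ⟨i, dA.e.injective ?_⟩
    rw [map_pow, hσe, hi]
  refine CyclicClass.exists_class 𝒰 g U hU hord h1 hgen hinfl r (dA.e'.symm a₀) ?_ ?_ ?_
  · rw [hσ, ← dA.symm_he_apply, ha₀]
  · obtain ⟨b, hb⟩ := hr
    refine ⟨dA.e'.symm b, dA.e'.injective ?_⟩
    rw [map_smul, LinearEquiv.apply_symm_apply, LayerDict.e'_nrm, LinearEquiv.apply_symm_apply,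
      hσe, ← hordΓ, nrm_eq_sum YA hγ₀, hb]
  · intro c hc
    apply hne (dC.e' c)
    have h2 := congrArg dC.e' hc
    rw [hcompat, LinearEquiv.apply_symm_apply, LayerDict.e'_nrm, hσe', ← hordΓ,
      nrm_eq_sum YC hγ₀] at h2
    exact h2

end Class

end Fermat.Agent.CFT.D.SuppLayer
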